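import Mathlib
import Fermat.Prelude.Def_ModularCurve_PeriodMap

/-!
# S41 (level raising) — basic definitions: degeneracy maps on `Hom(Γ₀(M), A)`

`Γ = Γ₀(N)`, `Γ₀ = Γ₀(N q)`, `δ = diag(q, 1)`.
* `incl N q : Γ₀(N q) →* Γ₀(N)`   the inclusion,
* `conjD N q : Γ₀(N q) →* Γ₀(N)`  `γ ↦ δ γ δ⁻¹ = [[a, q b], [c / q, d]]`,
* `res, resD : Hom(Γ₀(N), A) → Hom(Γ₀(N q), A)`   composition with `incl`, `conjD`,
* `cores, coresD : Hom(Γ₀(N q), A) → Hom(Γ₀(N), A)` the transfer (Mathlib `MonoidHom.transfer`)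
  along `incl`, `conjD`,
* `alpha = res ∘ fst + resD ∘ snd`, `alphaT = (cores, coresD)`.
-/

set_option autoImplicit false

noncomputable section

namespace Fermat.Agent.S41

open CongruenceSubgroup Matrix
open scoped MatrixGroups

/-- `Hom(Γ₀(M), A)`. -/
abbrev HomG (M : ℕ) (A : Type*) [AddCommGroup A] : Type _ := Additive (Gamma0 M) →+ A

section groups

variable (N q : ℕ)

theorem dvd_of_mem_Gamma0 {M : ℕ} {A : SL(2, ℤ)} (hA : A ∈ Gamma0 M) : (M : ℤ) ∣ A 1 0 :=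
  (ZMod.intCast_zmod_eq_zero_iff_dvd _ _).mp (Gamma0_mem.mp hA)

theorem mem_Gamma0_of_dvd {M : ℕ} {A : SL(2, ℤ)} (hA : (M : ℤ) ∣ A 1 0) : A ∈ Gamma0 M :=
  Gamma0_mem.mpr ((ZMod.intCast_zmod_eq_zero_iff_dvd _ _).mpr hA)

theorem Gamma0_mul_le : Gamma0 (N * q) ≤ Gamma0 N := fun A hA =>
  mem_Gamma0_of_dvd (dvd_trans (by push_cast; exact dvd_mul_right _ _) (dvd_of_mem_Gamma0 hA))

/-- The inclusion `Γ₀(N q) → Γ₀(N)`. -/
def incl : Gamma0 (N * q) →* Gamma0 N := Subgroup.inclusion (Gamma0_mul_le N q)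

@[simp] theorem incl_coe (γ : Gamma0 (N * q)) : ((incl N q γ : Gamma0 N) : SL(2, ℤ)) = γ := rfl

theorem incl_injective : Function.Injective (incl N q) :=
  Subgroup.inclusion_injective _

/-- The matrix `δ A δ⁻¹ = [[a, q b], [c / q, d]]`, `δ = diag(q, 1)` (meaningful when `q ∣ c`). -/
def conjDMat (A : Matrix (Fin 2) (Fin 2) ℤ) : Matrix (Fin 2) (Fin 2) ℤ :=
  !![A 0 0, q * A 0 1; A 1 0 / q, A 1 1]

theorem conjDMat_det {A : Matrix (Fin 2) (Fin 2) ℤ} (h : (q : ℤ) ∣ A 1 0) :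
    (conjDMat q A).det = A.det := by
  obtain ⟨c, hc⟩ := h
  rcases Nat.eq_zero_or_pos q with rfl | hq
  · simp only [Nat.cast_zero, zero_mul] at hc
    simp [conjDMat, Matrix.det_fin_two, hc]
  · have hq' : (q : ℤ) ≠ 0 := by exact_mod_cast hq.ne'
    rw [conjDMat, Matrix.det_fin_two_of, Matrix.det_fin_two, hc, Int.mul_ediv_cancel_left _ hq']
    ring

theorem conjDMat_mul {A B : Matrix (Fin 2) (Fin 2) ℤ} (hA : (q : ℤ) ∣ A 1 0)
    (hB : (q : ℤ) ∣ B 1 0) : conjDMat q (A * B) = conjDMat q A * conjDMat q B := by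
  obtain ⟨c, hc⟩ := hA
  obtain ⟨c', hc'⟩ := hB
  rcases Nat.eq_zero_or_pos q with rfl | hq
  · simp only [Nat.cast_zero, zero_mul] at hc hc'
    ext i j
    fin_cases i <;> fin_cases j <;>
      simp [conjDMat, Matrix.mul_apply, Fin.sum_univ_two, hc, hc']
  · have hq' : (q : ℤ) ≠ 0 := by exact_mod_cast hq.ne'
    have h10 : (A * B) 1 0 = q * (c * B 0 0 + A 1 1 * c') := by
      rw [Matrix.mul_apply, Fin.sum_univ_two, hc, hc']; ring
    ext i j
    fin_cases i <;> fin_cases j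
    · simp [conjDMat, Matrix.mul_apply, Fin.sum_univ_two, hc, hc', Int.mul_ediv_cancel_left _ hq']
      ring
    · simp [conjDMat, Matrix.mul_apply, Fin.sum_univ_two, hc, hc', Int.mul_ediv_cancel_left _ hq']
      ring
    · show (conjDMat q (A * B)) 1 0 = (conjDMat q A * conjDMat q B) 1 0
      have e1 : (conjDMat q (A * B)) 1 0 = (A * B) 1 0 / q := by simp [conjDMat]
      rw [e1, h10, Int.mul_ediv_cancel_left _ hq']
      simp [conjDMat, Matrix.mul_apply, Fin.sum_univ_two, hc, hc',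
        Int.mul_ediv_cancel_left _ hq']
    · simp [conjDMat, Matrix.mul_apply, Fin.sum_univ_two, hc, hc', Int.mul_ediv_cancel_left _ hq']
      ring

theorem dvd_q_of_mem {γ : SL(2, ℤ)} (hγ : γ ∈ Gamma0 (N * q)) : (q : ℤ) ∣ γ 1 0 :=
  dvd_trans (by push_cast; exact dvd_mul_left _ _) (dvd_of_mem_Gamma0 hγ)

/-- `δ γ δ⁻¹` as an element of `SL(2, ℤ)`, for `γ ∈ Γ₀(N q)`. -/
def conjDSL (γ : Gamma0 (N * q)) : SL(2, ℤ) :=
  ⟨conjDMat q ((γ : SL(2, ℤ)) : Matrix (Fin 2) (Fin 2) ℤ), by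
    rw [conjDMat_det q (dvd_q_of_mem N q γ.2)]; exact (γ : SL(2, ℤ)).2⟩

theorem conjDSL_mem [NeZero q] (γ : Gamma0 (N * q)) : conjDSL N q γ ∈ Gamma0 N := by
  apply mem_Gamma0_of_dvd
  have hq' : (q : ℤ) ≠ 0 := by exact_mod_cast NeZero.ne q
  obtain ⟨c, hc⟩ := dvd_of_mem_Gamma0 γ.2
  show (N : ℤ) ∣ (conjDMat q ((γ : SL(2, ℤ)) : Matrix (Fin 2) (Fin 2) ℤ)) 1 0
  have e1 : (conjDMat q ((γ : SL(2, ℤ)) : Matrix (Fin 2) (Fin 2) ℤ)) 1 0
      = ((γ : SL(2, ℤ)) : Matrix (Fin 2) (Fin 2) ℤ) 1 0 / q := by simp [conjDMat]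
  rw [e1]
  have : ((γ : SL(2, ℤ)) : Matrix (Fin 2) (Fin 2) ℤ) 1 0 = q * (N * c) := by
    rw [hc]; push_cast; ring
  rw [this, Int.mul_ediv_cancel_left _ hq']
  exact dvd_mul_right _ _

/-- Conjugation by `δ = diag(q, 1)`: `Γ₀(N q) →* Γ₀(N)`, `[[a, b], [c, d]] ↦ [[a, q b], [c / q, d]]`. -/
def conjD [NeZero q] : Gamma0 (N * q) →* Gamma0 N where
  toFun γ := ⟨conjDSL N q γ, conjDSL_mem N q γ⟩
  map_one' := by
    apply Subtype.ext; apply Subtype.ext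
    show conjDMat q ((1 : SL(2, ℤ)) : Matrix (Fin 2) (Fin 2) ℤ) = 1
    ext i j
    fin_cases i <;> fin_cases j <;> simp [conjDMat]
  map_mul' γ γ' := by
    apply Subtype.ext; apply Subtype.ext
    show conjDMat q (((γ * γ' : Gamma0 (N * q)) : SL(2, ℤ)) : Matrix (Fin 2) (Fin 2) ℤ) = _
    rw [Subgroup.coe_mul, Matrix.SpecialLinearGroup.coe_mul,
      conjDMat_mul q (dvd_q_of_mem N q γ.2) (dvd_q_of_mem N q γ'.2)]
    rfl

@[simp] theorem conjD_coe [NeZero q] (γ : Gamma0 (N * q)) :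
    (((conjD N q γ : Gamma0 N) : SL(2, ℤ)) : Matrix (Fin 2) (Fin 2) ℤ)
      = conjDMat q ((γ : SL(2, ℤ)) : Matrix (Fin 2) (Fin 2) ℤ) := rfl

theorem conjD_injective [NeZero q] : Function.Injective (conjD N q) := by
  intro γ γ' h
  have hq' : (q : ℤ) ≠ 0 := by exact_mod_cast NeZero.ne q
  have h' := congrArg (fun x : Gamma0 N => ((x : SL(2, ℤ)) : Matrix (Fin 2) (Fin 2) ℤ)) h
  simp only [conjD_coe] at h'
  obtain ⟨c, hc⟩ := dvd_q_of_mem N q γ.2
  obtain ⟨c', hc'⟩ := dvd_q_of_mem N q γ'.2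
  apply Subtype.ext; apply Subtype.ext
  have h00 := congrFun (congrFun h' 0) 0
  have h01 := congrFun (congrFun h' 0) 1
  have h10 := congrFun (congrFun h' 1) 0
  have h11 := congrFun (congrFun h' 1) 1
  simp only [conjDMat, Matrix.of_apply, Matrix.cons_val_zero, Matrix.cons_val_one,
    Matrix.cons_val', Matrix.cons_val_fin_one] at h00 h01 h10 h11
  rw [hc, hc', Int.mul_ediv_cancel_left _ hq', Int.mul_ediv_cancel_left _ hq'] at h10
  ext i j
  fin_cases i <;> fin_cases j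
  · exact h00
  · exact mul_left_cancel₀ hq' h01
  · show ((γ : SL(2, ℤ)) : Matrix (Fin 2) (Fin 2) ℤ) 1 0 = ((γ' : SL(2, ℤ)) : Matrix (Fin 2) (Fin 2) ℤ) 1 0
    rw [hc, hc', h10]
  · exact h11

end groups

section homs

variable (N q : ℕ) (A : Type*) [AddCommGroup A]

/-- restriction along the inclusion `Γ₀(N q) ≤ Γ₀(N)`. -/
def res : HomG N A →+ HomG (N * q) A where
  toFun φ := φ.comp (MonoidHom.toAdditive (incl N q))
  map_zero' := rfl
  map_add' _ _ := rfl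

/-- restriction along `γ ↦ δ γ δ⁻¹`. -/
def resD [NeZero q] : HomG N A →+ HomG (N * q) A where
  toFun φ := φ.comp (MonoidHom.toAdditive (conjD N q))
  map_zero' := rfl
  map_add' _ _ := rfl

variable {N q A}

@[simp] theorem res_apply (φ : HomG N A) (γ : Gamma0 (N * q)) :
    res N q A φ (Additive.ofMul γ) = φ (Additive.ofMul (incl N q γ)) := rfl

@[simp] theorem resD_apply [NeZero q] (φ : HomG N A) (γ : Gamma0 (N * q)) :
    resD N q A φ (Additive.ofMul γ) = φ (Additive.ofMul (conjD N q γ)) := rfl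

end homs

end Fermat.Agent.S41
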