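import Mathlib
import Fermat.Agent.S41.Defs

/-!
# S41 — corestriction (transfer) along `incl` and `conjD`, and the maps `alpha`, `alphaT`
-/

set_option autoImplicit false

noncomputable section

namespace Fermat.Agent.S41

open CongruenceSubgroup Matrix
open scoped MatrixGroups

section finiteIndex

variable (N q : ℕ) [NeZero N] [NeZero q]

instance incl_range_finiteIndex : (incl N q).range.FiniteIndex := by
  haveI : NeZero (N * q) := inferInstance
  rw [incl, Subgroup.inclusion_range]
  infer_instance

/-- `Γ(N q) ∩ Γ₀(N)` is contained in the image of `conjD`. -/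
theorem Gamma_subgroupOf_le_conjD_range :
    (Gamma (N * q)).subgroupOf (Gamma0 N) ≤ (conjD N q).range := by
  intro γ hγ
  rw [Subgroup.mem_subgroupOf] at hγ
  have hq' : (q : ℤ) ≠ 0 := by exact_mod_cast NeZero.ne q
  have hγ' := Gamma_mem.mp hγ
  obtain ⟨h00, h01, h10, h11⟩ := hγ'
  have hb : ((N * q : ℕ) : ℤ) ∣ ((γ : SL(2, ℤ)) : Matrix (Fin 2) (Fin 2) ℤ) 0 1 :=
    (ZMod.intCast_zmod_eq_zero_iff_dvd _ _).mp h01
  have hc : ((N * q : ℕ) : ℤ) ∣ ((γ : SL(2, ℤ)) : Matrix (Fin 2) (Fin 2) ℤ) 1 0 :=
    (ZMod.intCast_zmod_eq_zero_iff_dvd _ _).mp h10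
  obtain ⟨b, hb⟩ := hb
  obtain ⟨c, hc⟩ := hc
  have hdet : ((γ : SL(2, ℤ)) : Matrix (Fin 2) (Fin 2) ℤ).det = 1 := (γ : SL(2, ℤ)).2
  rw [Matrix.det_fin_two, hb, hc] at hdet
  -- the preimage `δ⁻¹ γ δ = [[a, b / q], [q c, d]]`
  let M : Matrix (Fin 2) (Fin 2) ℤ :=
    !![((γ : SL(2, ℤ)) : Matrix (Fin 2) (Fin 2) ℤ) 0 0, N * b;
       q * (((N * q : ℕ) : ℤ) * c), ((γ : SL(2, ℤ)) : Matrix (Fin 2) (Fin 2) ℤ) 1 1]
  have hM : M.det = 1 := by
    rw [Matrix.det_fin_two_of]
    push_cast at hdet ⊢
    linear_combination hdet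
  let g : SL(2, ℤ) := ⟨M, hM⟩
  have hg : g ∈ Gamma0 (N * q) := by
    apply mem_Gamma0_of_dvd
    show ((N * q : ℕ) : ℤ) ∣ M 1 0
    simp only [M, Matrix.of_apply, Matrix.cons_val_one, Matrix.cons_val_zero]
    exact ⟨q * c, by push_cast; ring⟩
  refine ⟨⟨g, hg⟩, ?_⟩
  apply Subtype.ext; apply Subtype.ext
  rw [conjD_coe]
  ext i j
  fin_cases i <;> fin_cases j
  · simp [conjDMat, g, M]
  · simp only [conjDMat, g, M, Matrix.of_apply, Matrix.cons_val_zero, Matrix.cons_val_one,
      Fin.zero_eta, Fin.mk_one]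
    rw [hb]; push_cast; ring
  · simp only [conjDMat, g, M, Matrix.of_apply, Matrix.cons_val_zero, Matrix.cons_val_one,
      Fin.zero_eta, Fin.mk_one]
    rw [Int.mul_ediv_cancel_left _ hq', hc]
  · simp [conjDMat, g, M]

instance conjD_range_finiteIndex : (conjD N q).range.FiniteIndex := by
  haveI : NeZero (N * q) := inferInstance
  haveI : ((Gamma (N * q)).subgroupOf (Gamma0 N)).FiniteIndex := inferInstance
  exact Subgroup.finiteIndex_of_le (Gamma_subgroupOf_le_conjD_range N q)

end finiteIndex

section cores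

variable (N q : ℕ) [NeZero N] [NeZero q] (A : Type*) [AddCommGroup A]

/-- Transfer of a homomorphism along an injective group homomorphism with finite-index range. -/
def transferAlong {G H : Type*} [Group G] [Group H] (f : H →* G) (hf : Function.Injective f)
    [f.range.FiniteIndex] (ψ : Additive H →+ A) : Additive G →+ A :=
  MonoidHom.toAdditiveLeft
    (MonoidHom.transfer
      ((AddMonoidHom.toMultiplicativeRight ψ).comp (MonoidHom.ofInjective hf).symm.toMonoidHom))

/-- the multiplicative homomorphism on the range used in `transferAlong`. -/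
def rangeHom {G H : Type*} [Group G] [Group H] (f : H →* G) (hf : Function.Injective f)
    (ψ : Additive H →+ A) : f.range →* Multiplicative A :=
  (AddMonoidHom.toMultiplicativeRight ψ).comp (MonoidHom.ofInjective hf).symm.toMonoidHom

theorem transferAlong_apply {G H : Type*} [Group G] [Group H] (f : H →* G)
    (hf : Function.Injective f) [f.range.FiniteIndex] (ψ : Additive H →+ A)
    (T : f.range.LeftTransversal) (g : G) :
    transferAlong A f hf ψ (Additive.ofMul g) =
      Multiplicative.toAdd (Subgroup.leftTransversals.diff (rangeHom A f hf ψ) T (g • T)) := by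
  show Multiplicative.toAdd (MonoidHom.transfer (rangeHom A f hf ψ) g) = _
  rw [MonoidHom.transfer_def _ T]

theorem rangeHom_add {G H : Type*} [Group G] [Group H] (f : H →* G) (hf : Function.Injective f)
    (ψ ψ' : Additive H →+ A) (x : f.range) :
    rangeHom A f hf (ψ + ψ') x = rangeHom A f hf ψ x * rangeHom A f hf ψ' x := rfl

theorem transferAlong_add {G H : Type*} [Group G] [Group H] (f : H →* G)
    (hf : Function.Injective f) [f.range.FiniteIndex] (ψ ψ' : Additive H →+ A) :
    transferAlong A f hf (ψ + ψ') = transferAlong A f hf ψ + transferAlong A f hf ψ' := by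
  classical
  refine AddMonoidHom.ext fun g => ?_
  obtain ⟨g, rfl⟩ : ∃ g' : G, Additive.ofMul g' = g := ⟨Additive.toMul g, rfl⟩
  let T : f.range.LeftTransversal := default
  rw [AddMonoidHom.add_apply, transferAlong_apply A f hf _ T, transferAlong_apply A f hf _ T,
    transferAlong_apply A f hf _ T, ← toAdd_mul]
  congr 1
  simp only [Subgroup.leftTransversals.diff, rangeHom_add]
  rw [← Finset.prod_mul_distrib]

theorem transferAlong_zero {G H : Type*} [Group G] [Group H] (f : H →* G)
    (hf : Function.Injective f) [f.range.FiniteIndex] :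
    transferAlong A f hf (0 : Additive H →+ A) = 0 := by
  have h := transferAlong_add A f hf 0 0
  rw [add_zero] at h
  exact left_eq_add.mp h

/-- corestriction (transfer) along the inclusion `Γ₀(N q) ≤ Γ₀(N)`. -/
def cores : HomG (N * q) A →+ HomG N A where
  toFun := transferAlong A (incl N q) (incl_injective N q)
  map_zero' := transferAlong_zero A _ _
  map_add' := transferAlong_add A _ _

/-- corestriction (transfer) along `γ ↦ δ γ δ⁻¹`. -/
def coresD : HomG (N * q) A →+ HomG N A where
  toFun := transferAlong A (conjD N q) (conjD_injective N q)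
  map_zero' := transferAlong_zero A _ _
  map_add' := transferAlong_add A _ _

/-- `α(φ₁, φ₂) = res φ₁ + res^δ φ₂`. -/
def alpha : HomG N A × HomG N A →+ HomG (N * q) A :=
  (res N q A).coprod (resD N q A)

/-- `α†(ψ) = (cores ψ, cores^δ ψ)`. -/
def alphaT : HomG (N * q) A →+ HomG N A × HomG N A :=
  (cores N q A).prod (coresD N q A)

variable {N q A}

@[simp] theorem alpha_apply (φ : HomG N A × HomG N A) :
    alpha N q A φ = res N q A φ.1 + resD N q A φ.2 := rfl

@[simp] theorem alphaT_apply (ψ : HomG (N * q) A) :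
    alphaT N q A ψ = (cores N q A ψ, coresD N q A ψ) := rfl

end cores

end Fermat.Agent.S41
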