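import Mathlib
import Fermat.Prelude.Def_FLTPrelim_ModularRep
import Fermat.Prelude.Def_ModularCurve_PeriodMap
import Fermat.Agent.ES.HeckeP
import Fermat.Agent.S41.Defs
import Fermat.Agent.S41.Cores

/-!
# S41 (level raising) — interface: one `Prop` per piece (captain helper7, NOTES/S41-plan.md)

Notation: `Γ = Γ₀(N)`, `Γ₀ = Γ₀(N q)`, `q` prime, `q ∤ N`, `p` odd prime, `p ≠ q`.
`HomG M A = Hom(Γ₀(M), A)`, `Lpar M = Hom_par(Γ₀(M), ℤ)`,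
`alpha = res + res^δ`, `alphaT = (cores, cores^δ)` (`Defs.lean`, `Cores.lean`),
`Tc ℓ` = the Hecke operator `T_ℓ` on `HomG M A` for a prime `ℓ ∤ M` (`ES/HeckeP.lean`).
-/

set_option autoImplicit false

noncomputable section

namespace Fermat.Agent.S41

open CongruenceSubgroup Matrix ModularCurve.Period
open scoped MatrixGroups

/-- The Hecke operator `T_ℓ` on `Hom(Γ₀(M), A)` (`ℓ` prime, `ℓ ∤ M`); `= ES.HeckeP.heckeHom`. -/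
def Tc {M : ℕ} (ℓ : ℕ) [Fact ℓ.Prime] (hℓ : ¬ ℓ ∣ M) {A : Type*} [AddCommGroup A]
    (φ : HomG M A) : HomG M A :=
  Fermat.Agent.ES.HeckeP.heckeHom hℓ φ

/-- `Hom_par(Γ₀(M), ℤ)` as an additive subgroup of `Hom(Γ₀(M), ℤ)`. -/
def Lpar (M : ℕ) : AddSubgroup (HomG M ℤ) := (parabolicHoms ℤ (Gamma0 M) ℤ).toAddSubgroup

/-- `Hom_par(Γ₀(M), A)` as an additive subgroup. -/
def Hpar (M : ℕ) (A : Type*) [AddCommGroup A] : AddSubgroup (HomG M A) :=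
  (parabolicHoms ℤ (Gamma0 M) A).toAddSubgroup

/-- the `q`-new lattice `K = ker(α†) ∩ Hom_par(Γ₀(N q), ℤ)`. -/
def Knew (N q : ℕ) [NeZero N] [NeZero q] : AddSubgroup (HomG (N * q) ℤ) :=
  (alphaT N q ℤ).ker ⊓ Lpar (N * q)

/-! ## The Props -/

/-- **(C0)** naturality of `cores`, `coresD` in the coefficient group. -/
def StmtC0 (N q : ℕ) [NeZero N] [NeZero q] : Prop :=
  ∀ (A B : Type) [AddCommGroup A] [AddCommGroup B] (f : A →+ B) (ψ : HomG (N * q) A),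
    cores N q B (f.comp ψ) = f.comp (cores N q A ψ) ∧
    coresD N q B (f.comp ψ) = f.comp (coresD N q A ψ)

/-- **(C8)** the four degeneracy maps preserve parabolic homomorphisms. -/
def StmtC8 (N q : ℕ) [NeZero N] [NeZero q] : Prop :=
  ∀ (A : Type) [AddCommGroup A],
    (∀ φ ∈ Hpar N A, res N q A φ ∈ Hpar (N * q) A ∧ resD N q A φ ∈ Hpar (N * q) A) ∧
    (∀ ψ ∈ Hpar (N * q) A, cores N q A ψ ∈ Hpar N A ∧ coresD N q A ψ ∈ Hpar N A)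

/-- **(C1)** the degeneracy maps commute with `T_ℓ`, `ℓ ∤ N q`. -/
def StmtC1 (N q : ℕ) [NeZero N] [NeZero q] : Prop :=
  ∀ (A : Type) [AddCommGroup A] (ℓ : ℕ) [Fact ℓ.Prime] (hN : ¬ ℓ ∣ N) (hNq : ¬ ℓ ∣ N * q),
    (∀ φ : HomG N A, res N q A (Tc ℓ hN φ) = Tc ℓ hNq (res N q A φ) ∧
      resD N q A (Tc ℓ hN φ) = Tc ℓ hNq (resD N q A φ)) ∧
    (∀ ψ : HomG (N * q) A, cores N q A (Tc ℓ hNq ψ) = Tc ℓ hN (cores N q A ψ) ∧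
      coresD N q A (Tc ℓ hNq ψ) = Tc ℓ hN (coresD N q A ψ))

/-- **(C2)** `α†α = [[q+1, T_q], [T_q, q+1]]`. -/
def StmtC2 (N q : ℕ) [NeZero N] [NeZero q] : Prop :=
  ∀ (A : Type) [AddCommGroup A] [Fact q.Prime] (hqN : ¬ q ∣ N) (φ : HomG N A),
    cores N q A (res N q A φ) = (q + 1) • φ ∧
    coresD N q A (resD N q A φ) = (q + 1) • φ ∧
    cores N q A (resD N q A φ) = Tc q hqN φ ∧
    coresD N q A (res N q A φ) = Tc q hqN φ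

/-- **(IHARA)** (R1 + Theorem M + R3): the parabolic kernel of `α mod p` is Eisenstein. -/
def StmtIhara (N q p : ℕ) [NeZero N] [NeZero q] : Prop :=
  ∀ (φ₁ φ₂ : HomG N (ZMod p)), φ₁ ∈ Hpar N (ZMod p) → φ₂ ∈ Hpar N (ZMod p) →
    res N q (ZMod p) φ₁ + resD N q (ZMod p) φ₂ = 0 →
    ∀ (ℓ : ℕ) [Fact ℓ.Prime] (hN : ¬ ℓ ∣ N), ¬ ℓ ∣ q →
      Tc ℓ hN φ₁ = (ℓ + 1) • φ₁ ∧ Tc ℓ hN φ₂ = (ℓ + 1) • φ₂

/-- **(DUAL IHARA)** (R6, Poincaré duality): if `T_ℓ − (ℓ+1)` kills the parabolic kernel of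
`α mod p`, then it kills the cokernel of `α† mod p` on the parabolic lattices. -/
def StmtDualIhara (N q p : ℕ) [NeZero N] [NeZero q] : Prop :=
  ∀ (ℓ : ℕ) [Fact ℓ.Prime] (hN : ¬ ℓ ∣ N), ¬ ℓ ∣ q →
    (∀ (φ₁ φ₂ : HomG N (ZMod p)), φ₁ ∈ Hpar N (ZMod p) → φ₂ ∈ Hpar N (ZMod p) →
      res N q (ZMod p) φ₁ + resD N q (ZMod p) φ₂ = 0 →
      Tc ℓ hN φ₁ = (ℓ + 1) • φ₁ ∧ Tc ℓ hN φ₂ = (ℓ + 1) • φ₂) →
    ∀ x₁ ∈ Lpar N, ∀ x₂ ∈ Lpar N, ∃ ψ ∈ Lpar (N * q), ∃ y₁ ∈ Lpar N, ∃ y₂ ∈ Lpar N,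
      Tc ℓ hN x₁ - (ℓ + 1) • x₁ = cores N q ℤ ψ + p • y₁ ∧
      Tc ℓ hN x₂ - (ℓ + 1) • x₂ = coresD N q ℤ ψ + p • y₂

/-- **(NONEIS)** (R4): an irreducible `E[p]` is not Eisenstein. -/
def StmtNonEis : Prop :=
  ∀ (E : WeierstrassCurve ℚ) [E.IsElliptic] (W : WeierstrassCurve ℤ),
    W.IsIntegralModelOf E → ∀ (p : ℕ), p.Prime → p ≠ 2 →
    WeierstrassCurve.Affine.Point.GaloisRepIsIrreducible (K := AlgebraicClosure ℚ) ℚ E p →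
    ∀ S : Finset ℕ, ∃ ℓ : ℕ, ℓ.Prime ∧ ℓ ∉ S ∧ ℓ ≠ p ∧ W.IsGoodPrimeFor ℓ ∧
      ¬ ((p : ℤ) ∣ W.apOfModel ℓ - (ℓ + 1))

/-- the set of operators `x ↦ T_ℓ x − a_ℓ x` (`ℓ` good) together with `x ↦ p x`, applied to a
subgroup `X` of `Hom(Γ₀(M), ℤ)`: the subgroup `𝔫 X`. -/
def nSub (M p : ℕ) (a : ℕ → ℤ) (good : ℕ → Prop) (X : AddSubgroup (HomG M ℤ)) :
    AddSubgroup (HomG M ℤ) :=
  AddSubgroup.closure
    ({y | ∃ x ∈ X, y = p • x} ∪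
      {y | ∃ (ℓ : ℕ) (_ : Fact ℓ.Prime) (hℓ : ¬ ℓ ∣ M), good ℓ ∧ ∃ x ∈ X, y = Tc ℓ hℓ x - a ℓ • x})

/-- **(H3)** level-`N` input: `L_N ≠ 𝔫 L_N + (T_q² − (q+1)²) L_N`. -/
def StmtH3 (N q p : ℕ) (a : ℕ → ℤ) (good : ℕ → Prop) : Prop :=
  ∀ [Fact q.Prime] (hqN : ¬ q ∣ N), ∃ x ∈ Lpar N,
    x ∉ nSub N p a good (Lpar N) ⊔
      AddSubgroup.closure {y | ∃ z ∈ Lpar N, y = Tc q hqN (Tc q hqN z) - ((q : ℤ) + 1) ^ 2 • z}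

/-- **(COH)** the cohomological level-raising statement: `K ≠ 𝔫 K`. -/
def StmtCOH (N q p : ℕ) [NeZero N] [NeZero q] (a : ℕ → ℤ) (good : ℕ → Prop) : Prop :=
  ∃ x ∈ Knew N q, x ∉ nSub (N * q) p a good (Knew N q)

/-- **(ALG)** the lattice lemma (pure commutative algebra). -/
def StmtAlg : Prop :=
  ∀ (R : Type) [CommRing R] (𝔫 : Ideal R) (p : ℕ), p.Prime → (p : R) ∈ 𝔫 →
  ∀ (L L' : Type) [AddCommGroup L] [AddCommGroup L'] [Module R L] [Module R L']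
    [Module.Finite ℤ L] [Module.Finite ℤ L']
    (α : L × L →ₗ[R] L') (β : L' →ₗ[R] L × L) (t : L →ₗ[R] L) (c : ℤ),
    (∀ x y : L, β (α (x, y)) = (c • x + t y, t x + c • y)) →
    (∃ ε : R, ε - 1 ∈ 𝔫 ∧ ∀ z : L × L, (∃ w : L', α z = p • w) → ∃ z' : L × L, ε • z = p • z') →
    (∃ ε : R, ε - 1 ∈ 𝔫 ∧ ∀ z : L × L, ∃ (w : L') (z' : L × L), ε • z = β w + p • z') →
    (∃ x : L, x ∉ (𝔫 • (⊤ : Submodule R L)) ⊔
        LinearMap.range (t ∘ₗ t - (c ^ 2) • (LinearMap.id : L →ₗ[R] L))) →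
    ∃ y : L', β y = 0 ∧ y ∉ 𝔫 • (LinearMap.ker β)

end Fermat.Agent.S41
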