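import Mathlib
import Fermat.Agent.S41.Plan

/-!
# S41 — explicit formula for the transfer `transferAlong`

For an injective `f : H →* G` with finite-index range, `tRep f q` is a representative of the left
coset `q : G ⧸ f.range` and `tCoc f hf q g : H` is the element with

  `f (tCoc f hf q g) = (tRep f q)⁻¹ * g * tRep f (g⁻¹ • q)`.

* `transferAlong_eq_sum` : `transferAlong A f hf ψ g = ∑ q, ψ (tCoc f hf q g)`;
* `transferAlong_comp` : `transferAlong A f hf (φ ∘ f) = [G : f.range] • φ`;
* `transferAlong_natural` : naturality in the coefficient group; `stmtC0`.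
-/

set_option autoImplicit false
set_option linter.style.haveILetI false

noncomputable section

namespace Fermat.Agent.S41

open CongruenceSubgroup Matrix
open scoped MatrixGroups Pointwise

section abstract

variable {G H : Type*} [Group G] [Group H] (f : H →* G)

/-- the representative of a left coset of `f.range` in the default transversal -/
def tRep (q : G ⧸ f.range) : G :=
  (((default : f.range.LeftTransversal).2.leftQuotientEquiv q : _) : G)

theorem tRep_mk (q : G ⧸ f.range) : (QuotientGroup.mk (tRep f q) : G ⧸ f.range) = q :=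
  (default : f.range.LeftTransversal).2.quotientGroupMk_leftQuotientEquiv q

theorem tRep_inv_mul_mem (q : G ⧸ f.range) (g : G) :
    (tRep f q)⁻¹ * g * tRep f (g⁻¹ • q) ∈ f.range := by
  rw [mul_assoc, ← QuotientGroup.eq]
  rw [show (QuotientGroup.mk (g * tRep f (g⁻¹ • q)) : G ⧸ f.range)
      = g • (QuotientGroup.mk (tRep f (g⁻¹ • q)) : G ⧸ f.range) from rfl, tRep_mk, tRep_mk,
    smul_inv_smul]

variable (hf : Function.Injective f)

/-- the transfer cocycle -/
def tCoc (q : G ⧸ f.range) (g : G) : H :=
  (MonoidHom.ofInjective hf).symm ⟨(tRep f q)⁻¹ * g * tRep f (g⁻¹ • q), tRep_inv_mul_mem f q g⟩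

theorem f_tCoc (q : G ⧸ f.range) (g : G) :
    f (tCoc f hf q g) = (tRep f q)⁻¹ * g * tRep f (g⁻¹ • q) := by
  have h := (MonoidHom.ofInjective hf).apply_symm_apply
    ⟨(tRep f q)⁻¹ * g * tRep f (g⁻¹ • q), tRep_inv_mul_mem f q g⟩
  exact congrArg Subtype.val h

variable (A : Type*) [AddCommGroup A] [f.range.FiniteIndex]

/-- **Explicit formula for the transfer.** -/
theorem transferAlong_eq_sum (ψ : Additive H →+ A) (g : G) :
    transferAlong A f hf ψ (Additive.ofMul g)
      = (@Finset.univ (G ⧸ f.range) f.range.fintypeQuotientOfFiniteIndex).sum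
          fun q => ψ (Additive.ofMul (tCoc f hf q g)) := by
  classical
  rw [transferAlong_apply A f hf ψ (default : f.range.LeftTransversal) g]
  unfold Subgroup.leftTransversals.diff
  simp only
  rw [toAdd_prod]
  refine Finset.sum_congr rfl fun q _ => ?_
  show ψ (Additive.ofMul ((MonoidHom.ofInjective hf).symm _)) = _
  congr 2
  apply (MonoidHom.ofInjective hf).injective
  rw [MulEquiv.apply_symm_apply]
  apply Subtype.ext
  rw [tCoc, MulEquiv.apply_symm_apply]
  show _ * _ = _
  rw [Subgroup.smul_apply_eq_smul_apply_inv_smul]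
  simp only [tRep, smul_eq_mul, mul_assoc]

/-- Transfer of a restricted homomorphism: multiplication by the index. -/
theorem transferAlong_comp (φ : Additive G →+ A) :
    transferAlong A f hf (φ.comp (MonoidHom.toAdditive f)) = f.range.index • φ := by
  classical
  letI := f.range.fintypeQuotientOfFiniteIndex
  refine AddMonoidHom.ext fun g => ?_
  obtain ⟨g, rfl⟩ : ∃ g' : G, Additive.ofMul g' = g := ⟨Additive.toMul g, rfl⟩
  rw [transferAlong_eq_sum]
  have h1 : ∀ q : G ⧸ f.range,
      (φ.comp (MonoidHom.toAdditive f)) (Additive.ofMul (tCoc f hf q g))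
        = φ (Additive.ofMul g) + (φ (Additive.ofMul (tRep f (g⁻¹ • q)))
          - φ (Additive.ofMul (tRep f q))) := by
    intro q
    show φ (Additive.ofMul (f (tCoc f hf q g))) = _
    rw [f_tCoc, ofMul_mul, ofMul_mul, ofMul_inv, map_add, map_add, map_neg]
    abel
  simp only [h1]
  rw [Finset.sum_add_distrib, Finset.sum_sub_distrib]
  have h2 : ∑ q : G ⧸ f.range, φ (Additive.ofMul (tRep f (g⁻¹ • q)))
      = ∑ q : G ⧸ f.range, φ (Additive.ofMul (tRep f q)) :=
    Equiv.sum_comp (MulAction.toPerm g⁻¹ : Equiv.Perm (G ⧸ f.range))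
      (fun q => φ (Additive.ofMul (tRep f q)))
  rw [h2, sub_self, add_zero, Finset.sum_const, Finset.card_univ]
  rw [AddMonoidHom.smul_apply, Subgroup.index_eq_card, Nat.card_eq_fintype_card]

/-- Naturality of the transfer in the coefficient group. -/
theorem transferAlong_natural {B : Type*} [AddCommGroup B] (u : A →+ B) (ψ : Additive H →+ A) :
    transferAlong B f hf (u.comp ψ) = u.comp (transferAlong A f hf ψ) := by
  classical
  refine AddMonoidHom.ext fun g => ?_
  obtain ⟨g, rfl⟩ : ∃ g' : G, Additive.ofMul g' = g := ⟨Additive.toMul g, rfl⟩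
  rw [AddMonoidHom.comp_apply, transferAlong_eq_sum, transferAlong_eq_sum, map_sum]
  rfl

end abstract

/-- **(C0)** naturality of `cores`, `coresD` in the coefficient group. -/
theorem stmtC0 (N q : ℕ) [NeZero N] [NeZero q] : StmtC0 N q := by
  intro A B _ _ f ψ
  exact ⟨transferAlong_natural _ _ A f ψ, transferAlong_natural _ _ A f ψ⟩

end Fermat.Agent.S41
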