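import Mathlib
import Fermat.Agent.S41.TransferFormula
import Fermat.Agent.ES.HeckeHomEq

/-!
# S41 (C2) — `α†α = [[q+1, T_q], [T_q, q+1]]`

`cores ∘ res = coresD ∘ resD = q + 1` (the index of `Γ₀(N q)` in `Γ₀(N)`), and
`cores ∘ resD = coresD ∘ res = T_q`.

The abstract statement `ata_transfer_eq`: let `f, fhat : H →* Γ₀(N)` with `f` injective of finite
index and `B` a Hecke representative of determinant `q` with `B f(c) = fhat(c) B`; if `f(H)` is
the full "stabiliser" of `B` and `Γ₀(N)` permutes the representatives transitively from `B`, then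
the transfer along `f` of `φ ∘ fhat` is `T_q φ`, and `[Γ₀(N) : f(H)] = #HeckeRep q`.
-/

set_option autoImplicit false
set_option linter.style.haveILetI false

noncomputable section

namespace Fermat.Agent.S41

open CongruenceSubgroup Matrix Fermat.Agent.ES
open scoped MatrixGroups Pointwise

/-- the integer matrix of an element of `Γ₀(M)` -/
def ataMat {M : ℕ} (x : Gamma0 M) : Matrix (Fin 2) (Fin 2) ℤ :=
  ((x : SL(2, ℤ)) : Matrix (Fin 2) (Fin 2) ℤ)

theorem ataMat_mul {M : ℕ} (x y : Gamma0 M) : ataMat (x * y) = ataMat x * ataMat y := by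
  simp [ataMat]

theorem ataMat_one {M : ℕ} : ataMat (1 : Gamma0 M) = 1 := by
  simp [ataMat]

theorem ataMat_inv_mul {M : ℕ} (x : Gamma0 M) : ataMat x⁻¹ * ataMat x = 1 := by
  rw [← ataMat_mul, inv_mul_cancel, ataMat_one]

theorem ataMat_mul_inv {M : ℕ} (x : Gamma0 M) : ataMat x * ataMat x⁻¹ = 1 := by
  rw [← ataMat_mul, mul_inv_cancel, ataMat_one]

section abstract

variable {N q : ℕ} [NeZero q] (hc : Nat.Coprime q N)
  {H : Type*} [Group H] (f fhat : H →* Gamma0 N) (hf : Function.Injective f)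
  (B : HeckeRep q)

/-- `Θ s = next B (R_s⁻¹)` -/
def ataTheta (s : Gamma0 N ⧸ f.range) : HeckeRep q := HeckeRep.next hc B (tRep f s)⁻¹

/-- `u s = coc B (R_s⁻¹)` -/
def ataU (s : Gamma0 N ⧸ f.range) : Gamma0 N := HeckeRep.coc hc B (tRep f s)⁻¹

theorem ata_BR (s : Gamma0 N ⧸ f.range) :
    B.mat * ataMat (tRep f s)⁻¹ = ataMat (ataU hc f B s) * (ataTheta hc f B s).mat :=
  HeckeRep.mat_mul hc B _

variable {f fhat B}

theorem ata_key (hint : ∀ c : H, B.mat * ataMat (f c) = ataMat (fhat c) * B.mat)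
    (s : Gamma0 N ⧸ f.range) (g : Gamma0 N) :
    HeckeRep.next hc (ataTheta hc f B s) g = ataTheta hc f B (g⁻¹ • s) ∧
      ataU hc f B s * HeckeRep.coc hc (ataTheta hc f B s) g
        = fhat (tCoc f hf s g) * ataU hc f B (g⁻¹ • s) := by
  have h1 := ata_BR hc f B s
  have h2 := ata_BR hc f B (g⁻¹ • s)
  have h3 : (tRep f s)⁻¹ * g = f (tCoc f hf s g) * (tRep f (g⁻¹ • s))⁻¹ := by
    rw [f_tCoc, mul_inv_cancel_right]
  have key : (ataTheta hc f B s).mat * ataMat g
      = ataMat ((ataU hc f B s)⁻¹ * fhat (tCoc f hf s g) * ataU hc f B (g⁻¹ • s))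
        * (ataTheta hc f B (g⁻¹ • s)).mat := by
    calc (ataTheta hc f B s).mat * ataMat g
        = ataMat (ataU hc f B s)⁻¹ * (ataMat (ataU hc f B s) * (ataTheta hc f B s).mat)
            * ataMat g := by
          rw [← Matrix.mul_assoc, ataMat_inv_mul, Matrix.one_mul]
      _ = ataMat (ataU hc f B s)⁻¹ * (B.mat * ataMat ((tRep f s)⁻¹ * g)) := by
          rw [← h1, ataMat_mul]; simp only [Matrix.mul_assoc]
      _ = ataMat (ataU hc f B s)⁻¹ *
            (ataMat (fhat (tCoc f hf s g)) * (B.mat * ataMat (tRep f (g⁻¹ • s))⁻¹)) := by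
          rw [h3, ataMat_mul, ← Matrix.mul_assoc B.mat, hint, Matrix.mul_assoc]
      _ = _ := by
          rw [h2, ataMat_mul, ataMat_mul]; simp only [Matrix.mul_assoc]
  obtain ⟨k1, k2⟩ := HeckeRep.next_coc_unique hc key
  refine ⟨k1, ?_⟩
  rw [k2]
  group

theorem ataTheta_injective
    (hrange : ∀ x ε : Gamma0 N, B.mat * ataMat x = ataMat ε * B.mat → x ∈ f.range) :
    Function.Injective (ataTheta hc f B) := by
  intro s t h
  have h1 := ata_BR hc f B s
  have h2 := ata_BR hc f B t
  rw [← h] at h2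
  have key : B.mat * ataMat ((tRep f s)⁻¹ * tRep f t)
      = ataMat (ataU hc f B s * (ataU hc f B t)⁻¹) * B.mat := by
    calc B.mat * ataMat ((tRep f s)⁻¹ * tRep f t)
        = ataMat (ataU hc f B s) * (ataTheta hc f B s).mat * ataMat (tRep f t) := by
          rw [ataMat_mul, ← Matrix.mul_assoc, h1]
      _ = ataMat (ataU hc f B s) * (ataMat (ataU hc f B t)⁻¹ *
            (ataMat (ataU hc f B t) * (ataTheta hc f B s).mat)) * ataMat (tRep f t) := by
          rw [← Matrix.mul_assoc (ataMat (ataU hc f B t)⁻¹), ataMat_inv_mul, Matrix.one_mul]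
      _ = ataMat (ataU hc f B s) * (ataMat (ataU hc f B t)⁻¹ *
            B.mat) * (ataMat (tRep f t)⁻¹ * ataMat (tRep f t)) := by
          rw [← h2]; simp only [Matrix.mul_assoc]
      _ = _ := by
          rw [ataMat_inv_mul, Matrix.mul_one, ataMat_mul, Matrix.mul_assoc]
  have hmem := hrange _ _ key
  have := (QuotientGroup.eq (s := f.range)).mpr hmem
  rw [tRep_mk, tRep_mk] at this
  exact this

theorem ataTheta_surjective (hint : ∀ c : H, B.mat * ataMat (f c) = ataMat (fhat c) * B.mat)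
    (htrans : ∀ A : HeckeRep q, ∃ R : Gamma0 N, HeckeRep.next hc B R = A) :
    Function.Surjective (ataTheta hc f B) := by
  intro A
  obtain ⟨R, hR⟩ := htrans A
  refine ⟨(QuotientGroup.mk R⁻¹ : Gamma0 N ⧸ f.range), ?_⟩
  set s : Gamma0 N ⧸ f.range := (QuotientGroup.mk R⁻¹ : Gamma0 N ⧸ f.range) with hs
  have hmem : (tRep f s)⁻¹ * R⁻¹ ∈ f.range := by
    rw [← QuotientGroup.eq, tRep_mk]
  obtain ⟨c, hcc⟩ := hmem
  have h3 : (tRep f s)⁻¹ = f c * R := by
    rw [hcc, inv_mul_cancel_right]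
  have key : B.mat * ataMat (tRep f s)⁻¹
      = ataMat (fhat c * HeckeRep.coc hc B R) * A.mat := by
    rw [h3, ataMat_mul, ← Matrix.mul_assoc, hint, Matrix.mul_assoc]
    have := HeckeRep.mat_mul hc B R
    rw [hR] at this
    rw [show B.mat * ataMat R = _ from this, ataMat_mul, Matrix.mul_assoc]
    rfl
  exact (HeckeRep.next_coc_unique hc key).1

theorem ataTheta_bijective (hint : ∀ c : H, B.mat * ataMat (f c) = ataMat (fhat c) * B.mat)
    (hrange : ∀ x ε : Gamma0 N, B.mat * ataMat x = ataMat ε * B.mat → x ∈ f.range)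
    (htrans : ∀ A : HeckeRep q, ∃ R : Gamma0 N, HeckeRep.next hc B R = A) :
    Function.Bijective (ataTheta hc f B) :=
  ⟨ataTheta_injective hc hrange, ataTheta_surjective hc hint htrans⟩

variable (A : Type*) [AddCommGroup A] [f.range.FiniteIndex]

/-- **Transfer of a twisted restriction is the Hecke operator.** -/
theorem ata_transfer_eq (hint : ∀ c : H, B.mat * ataMat (f c) = ataMat (fhat c) * B.mat)
    (hrange : ∀ x ε : Gamma0 N, B.mat * ataMat x = ataMat ε * B.mat → x ∈ f.range)
    (htrans : ∀ A : HeckeRep q, ∃ R : Gamma0 N, HeckeRep.next hc B R = A)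
    (φ : Additive (Gamma0 N) →+ A) :
    transferAlong A f hf (φ.comp (MonoidHom.toAdditive fhat)) = heckeHom hc φ := by
  classical
  letI := f.range.fintypeQuotientOfFiniteIndex
  have hbij := ataTheta_bijective hc hint hrange htrans
  refine AddMonoidHom.ext fun g => ?_
  obtain ⟨g, rfl⟩ : ∃ g' : Gamma0 N, Additive.ofMul g' = g := ⟨Additive.toMul g, rfl⟩
  rw [transferAlong_eq_sum, heckeHom_apply]
  have h1 : ∀ s : Gamma0 N ⧸ f.range,
      (φ.comp (MonoidHom.toAdditive fhat)) (Additive.ofMul (tCoc f hf s g))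
        = φ (Additive.ofMul (HeckeRep.coc hc (ataTheta hc f B s) g))
          + (φ (Additive.ofMul (ataU hc f B s))
            - φ (Additive.ofMul (ataU hc f B (g⁻¹ • s)))) := by
    intro s
    show φ (Additive.ofMul (fhat (tCoc f hf s g))) = _
    have h := (ata_key hc hf hint s g).2
    have h' := congrArg (fun x => φ (Additive.ofMul x)) h
    simp only [ofMul_mul, map_add] at h'
    rw [eq_comm, add_sub_assoc', sub_eq_iff_eq_add, add_comm]
    exact h'
  simp only [h1]
  rw [Finset.sum_add_distrib, Finset.sum_sub_distrib]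
  have h2 : ∑ s : Gamma0 N ⧸ f.range, φ (Additive.ofMul (ataU hc f B (g⁻¹ • s)))
      = ∑ s : Gamma0 N ⧸ f.range, φ (Additive.ofMul (ataU hc f B s)) :=
    Equiv.sum_comp (MulAction.toPerm g⁻¹ : Equiv.Perm (Gamma0 N ⧸ f.range))
      (fun s => φ (Additive.ofMul (ataU hc f B s)))
  rw [h2, sub_self, add_zero]
  exact Function.Bijective.sum_comp hbij (fun A' => φ (Additive.ofMul (HeckeRep.coc hc A' g)))

omit [f.range.FiniteIndex] in
theorem ata_index_eq (hint : ∀ c : H, B.mat * ataMat (f c) = ataMat (fhat c) * B.mat)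
    (hrange : ∀ x ε : Gamma0 N, B.mat * ataMat x = ataMat ε * B.mat → x ∈ f.range)
    (htrans : ∀ A : HeckeRep q, ∃ R : Gamma0 N, HeckeRep.next hc B R = A) :
    f.range.index = Nat.card (HeckeRep q) := by
  rw [Subgroup.index_eq_card]
  exact Nat.card_congr (Equiv.ofBijective _ (ataTheta_bijective hc hint hrange htrans))

end abstract

section concrete

set_option linter.unusedSectionVars false
set_option linter.unusedSimpArgs false
set_option linter.unnecessarySeqFocus false

variable (N q : ℕ) [NeZero N] [NeZero q]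

/-- `δ = [[q, 0], [0, 1]]` -/
def ataDelta : HeckeRep q := ⟨q, 0, 1, mul_one q, Nat.one_pos⟩

/-- `δ' = [[1, 0], [0, q]]` -/
def ataDelta' : HeckeRep q := ⟨1, 0, q, one_mul q, Nat.pos_of_ne_zero (NeZero.ne q)⟩

/-- an element of `Γ₀(N)` from its entries -/
def ataMk (a b c d : ℤ) (hdet : a * d - b * (N * c) = 1) : Gamma0 N :=
  ⟨⟨!![a, b; N * c, d], by rw [Matrix.det_fin_two_of]; exact hdet⟩,
    mem_Gamma0_of_dvd (show (N : ℤ) ∣ (!![a, b; N * c, d] : Matrix (Fin 2) (Fin 2) ℤ) 1 0 from
      ⟨c, rfl⟩)⟩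

theorem ataMat_mk (a b c d : ℤ) (hdet : a * d - b * (N * c) = 1) :
    ataMat (ataMk N a b c d hdet) = !![a, b; N * c, d] := rfl

theorem ata_hint_incl (c : Gamma0 (N * q)) :
    (ataDelta q).mat * ataMat (incl N q c) = ataMat (conjD N q c) * (ataDelta q).mat := by
  have hq := dvd_q_of_mem N q c.2
  have e1 : ataMat (incl N q c) = ataMat c := rfl
  have e2 : ataMat (conjD N q c) = conjDMat q (ataMat c) := rfl
  rw [e1, e2]
  have hdiv : ataMat c 1 0 / (q : ℤ) * q = ataMat c 1 0 := Int.ediv_mul_cancel hq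
  ext i j
  fin_cases i <;> fin_cases j <;>
    simp [ataDelta, HeckeRep.mat, conjDMat, Matrix.mul_apply, Fin.sum_univ_two, hdiv, mul_comm]

theorem ata_hint_conjD (c : Gamma0 (N * q)) :
    (ataDelta' q).mat * ataMat (conjD N q c) = ataMat (incl N q c) * (ataDelta' q).mat := by
  have hq := dvd_q_of_mem N q c.2
  have e1 : ataMat (incl N q c) = ataMat c := rfl
  have e2 : ataMat (conjD N q c) = conjDMat q (ataMat c) := rfl
  rw [e1, e2]
  have hdiv : (q : ℤ) * (ataMat c 1 0 / (q : ℤ)) = ataMat c 1 0 := Int.mul_ediv_cancel' hq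
  ext i j
  fin_cases i <;> fin_cases j <;>
    simp [ataDelta', HeckeRep.mat, conjDMat, Matrix.mul_apply, Fin.sum_univ_two, hdiv, mul_comm]

theorem ata_hrange_incl (x ε : Gamma0 N)
    (h : (ataDelta q).mat * ataMat x = ataMat ε * (ataDelta q).mat) : x ∈ (incl N q).range := by
  have h10 := congrFun (congrFun h 1) 0
  simp only [ataDelta, HeckeRep.mat, Matrix.mul_apply, Fin.sum_univ_two, Matrix.of_apply,
    Matrix.cons_val_zero, Matrix.cons_val_one, Matrix.cons_val', Matrix.cons_val_fin_one,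
    zero_mul, zero_add, mul_zero, add_zero, Nat.cast_one, one_mul] at h10
  obtain ⟨k, hk⟩ := dvd_of_mem_Gamma0 ε.2
  have hmem : (x : SL(2, ℤ)) ∈ Gamma0 (N * q) := by
    apply mem_Gamma0_of_dvd
    refine ⟨k, ?_⟩
    have : ((x : SL(2, ℤ)) : Matrix (Fin 2) (Fin 2) ℤ) 1 0 = ataMat x 1 0 := rfl
    rw [this, h10]
    have : ataMat ε 1 0 = N * k := hk
    rw [this]; push_cast; ring
  exact ⟨⟨(x : SL(2, ℤ)), hmem⟩, Subtype.ext rfl⟩

theorem ata_hrange_conjD (x ε : Gamma0 N)
    (h : (ataDelta' q).mat * ataMat x = ataMat ε * (ataDelta' q).mat) :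
    x ∈ (conjD N q).range := by
  have hq' : (q : ℤ) ≠ 0 := by exact_mod_cast NeZero.ne q
  have h01 := congrFun (congrFun h 0) 1
  simp only [ataDelta', HeckeRep.mat, Matrix.mul_apply, Fin.sum_univ_two, Matrix.of_apply,
    Matrix.cons_val_zero, Matrix.cons_val_one, Matrix.cons_val', Matrix.cons_val_fin_one,
    mul_zero, zero_mul, add_zero, zero_add, Nat.cast_one, Nat.cast_zero, one_mul] at h01
  obtain ⟨k, hk⟩ := dvd_of_mem_Gamma0 x.2
  have hk' : ataMat x 1 0 = N * k := hk
  have hdet : (ataMat x).det = 1 := (x : SL(2, ℤ)).2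
  rw [Matrix.det_fin_two, h01, hk'] at hdet
  let M : Matrix (Fin 2) (Fin 2) ℤ := !![ataMat x 0 0, ataMat ε 0 1; q * (N * k), ataMat x 1 1]
  have hM : M.det = 1 := by
    rw [Matrix.det_fin_two_of]
    linear_combination hdet
  let g : SL(2, ℤ) := ⟨M, hM⟩
  have hg : g ∈ Gamma0 (N * q) := by
    apply mem_Gamma0_of_dvd
    show ((N * q : ℕ) : ℤ) ∣ M 1 0
    exact ⟨k, by simp only [M, Matrix.of_apply, Matrix.cons_val_one, Matrix.cons_val_zero]
                 push_cast; ring⟩
  refine ⟨⟨g, hg⟩, ?_⟩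
  apply Subtype.ext; apply Subtype.ext
  rw [conjD_coe]
  show conjDMat q M = ataMat x
  ext i j
  fin_cases i <;> fin_cases j
  · simp [conjDMat, M]
  · simp only [conjDMat, M, Matrix.of_apply, Matrix.cons_val_zero, Matrix.cons_val_one,
      Fin.zero_eta, Fin.mk_one]
    rw [h01]; ring
  · simp only [conjDMat, M, Matrix.of_apply, Matrix.cons_val_zero, Matrix.cons_val_one,
      Fin.zero_eta, Fin.mk_one]
    rw [Int.mul_ediv_cancel_left _ hq', hk']
  · simp [conjDMat, M]

/-- Bezout: `q w - N t = 1`. -/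
theorem ata_bezout {N q : ℕ} (hc : Nat.Coprime q N) : ∃ w t : ℤ, (q : ℤ) * w - N * t = 1 := by
  have h := Nat.isCoprime_iff_coprime.mpr hc
  obtain ⟨a, b, hab⟩ := h
  exact ⟨a, -b, by linear_combination hab⟩

variable {N q}

theorem ata_htrans_delta (hc : Nat.Coprime q N) [hq : Fact q.Prime] (A : HeckeRep q) :
    ∃ R : Gamma0 N, HeckeRep.next hc (ataDelta q) R = A := by
  obtain ⟨x, rfl⟩ := repOfPoint_surjective A
  obtain ⟨w, t, hwt⟩ := ata_bezout hc
  rcases x with _ | j
  · exact ⟨1, HeckeRep.next_one hc _⟩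
  · refine ⟨ataMk N 1 (j.val + 1) t (N * t * j.val + w * q) (by linear_combination hwt), ?_⟩
    have key : (ataDelta q).mat *
        ataMat (ataMk N 1 (j.val + 1) t (N * t * j.val + w * q) (by linear_combination hwt))
        = ataMat (ataMk N q 1 t w (by linear_combination hwt)) * (repOfPoint (some j)).mat := by
      rw [ataMat_mk, ataMat_mk]
      ext i k
      fin_cases i <;> fin_cases k <;>
        simp [ataDelta, repOfPoint, HeckeRep.mat, Matrix.mul_apply, Fin.sum_univ_two] <;> ring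
    exact (HeckeRep.next_coc_unique hc key).1

theorem ata_htrans_delta' (hc : Nat.Coprime q N) [hq : Fact q.Prime] (A : HeckeRep q) :
    ∃ R : Gamma0 N, HeckeRep.next hc (ataDelta' q) R = A := by
  obtain ⟨x, rfl⟩ := repOfPoint_surjective A
  obtain ⟨w, t, hwt⟩ := ata_bezout hc
  rcases x with _ | j
  · refine ⟨ataMk N (q * w) 1 t 1 (by linear_combination hwt), ?_⟩
    have key : (ataDelta' q).mat * ataMat (ataMk N (q * w) 1 t 1 (by linear_combination hwt))
        = ataMat (ataMk N w 1 t q (by linear_combination hwt)) * (repOfPoint (p := q) none).mat := by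
      rw [ataMat_mk, ataMat_mk]
      ext i k
      fin_cases i <;> fin_cases k <;>
        simp [ataDelta', repOfPoint, HeckeRep.mat, Matrix.mul_apply, Fin.sum_univ_two] <;> ring
    exact (HeckeRep.next_coc_unique hc key).1
  · refine ⟨ataMk N 1 j.val 0 1 (by ring), ?_⟩
    have key : (ataDelta' q).mat * ataMat (ataMk N 1 j.val 0 1 (by ring))
        = ataMat (1 : Gamma0 N) * (repOfPoint (some j)).mat := by
      rw [ataMat_mk, ataMat_one, Matrix.one_mul]
      ext i k
      fin_cases i <;> fin_cases k <;>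
        simp [ataDelta', repOfPoint, HeckeRep.mat, Matrix.mul_apply, Fin.sum_univ_two]
    exact (HeckeRep.next_coc_unique hc key).1

theorem ata_card_heckeRep [hq : Fact q.Prime] : Nat.card (HeckeRep q) = q + 1 := by
  rw [← Nat.card_congr (repEquiv (p := q))]
  show Nat.card (Option (ZMod q)) = q + 1
  rw [Finite.card_option, Nat.card_zmod]

end concrete

/-- **(C2)** `α†α = [[q+1, T_q], [T_q, q+1]]`. -/
theorem stmtC2 (N q : ℕ) [NeZero N] [NeZero q] : StmtC2 N q := by
  intro A _ hq hqN φ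
  have hc : Nat.Coprime q N := (Nat.Prime.coprime_iff_not_dvd hq.out).mpr hqN
  have hT : heckeHom hc φ = Tc q hqN φ := heckeHom_eq_heckeP hqN φ
  refine ⟨?_, ?_, ?_, ?_⟩
  · show transferAlong A (incl N q) (incl_injective N q)
      (φ.comp (MonoidHom.toAdditive (incl N q))) = _
    rw [transferAlong_comp, ata_index_eq hc (ata_hint_incl N q) (ata_hrange_incl N q)
      (ata_htrans_delta hc), ata_card_heckeRep]
  · show transferAlong A (conjD N q) (conjD_injective N q)
      (φ.comp (MonoidHom.toAdditive (conjD N q))) = _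
    rw [transferAlong_comp, ata_index_eq hc (ata_hint_conjD N q) (ata_hrange_conjD N q)
      (ata_htrans_delta' hc), ata_card_heckeRep]
  · show transferAlong A (incl N q) (incl_injective N q)
      (φ.comp (MonoidHom.toAdditive (conjD N q))) = _
    rw [ata_transfer_eq hc (incl_injective N q) A (ata_hint_incl N q) (ata_hrange_incl N q)
      (ata_htrans_delta hc), hT]
  · show transferAlong A (conjD N q) (conjD_injective N q)
      (φ.comp (MonoidHom.toAdditive (incl N q))) = _
    rw [ata_transfer_eq hc (conjD_injective N q) A (ata_hint_conjD N q) (ata_hrange_conjD N q)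
      (ata_htrans_delta' hc), hT]

end Fermat.Agent.S41
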