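import Mathlib
import Fermat.Prelude.Sol.S_ModularForm_heckeU_slash_eq_self_of_mem_Gamma0
import Fermat.Agent.ES.HeckePPar
import Fermat.Agent.S41.Plan

/-!
# S41, piece C3: the operator `U_ℓ` on `Hom(Γ₀(M), A)` for `ℓ ∣ M`

For `ℓ ∣ M` the prelude's coset law
`heckeMatrix ℓ x * g = g' * heckeMatrix ℓ (x·g)` (`x ∈ 𝔽_ℓ`, `g, g' ∈ Γ₀(M)`, `x·g = d (b + d x)`)
defines `κ_U(g, x) := g'` with the cocycle identity `κ_U(g h, x) = κ_U(g, x) κ_U(h, x·g)`.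
The operator is `(U_ℓ φ)(g) = ∑_{x ∈ 𝔽_ℓ} φ(κ_U(g, x))`.

* `idxU`, `idxU_mul`, `idxU_one`, `idxPermU` — the right action on the index set `ZMod ℓ`;
  `idxU_eq_affinePerm`, `idxU_eq_affinePermT` — it is the prelude's `affinePerm` (both copies);
* `kapU`, `kapU_spec`, `kapU_unique`, `kapU_mul`, `kapU_one`, `kapU_of_idxU_eq`;
* `heckeU`, `heckeU_apply`, `heckeU_add`, `heckeU_zero`, `heckeU_comp`, `heckeUL`;
* `heckeU_isParabolicHom`, `heckeU_mem_Hpar`, `heckeU_mem_Lpar`.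
-/

set_option autoImplicit false

noncomputable section

namespace Fermat.Agent.S41

open Matrix Matrix.SpecialLinearGroup CongruenceSubgroup ModularForm
open scoped MatrixGroups

variable {ℓ : ℕ} {M : ℕ}

/-- the lower left entry of an element of `Γ₀(M)` vanishes modulo a divisor `ℓ` of `M` -/
theorem cast_lowerLeft_eq_zero (hℓM : ℓ ∣ M) (g : Gamma0 M) :
    ((((g : SL(2, ℤ)) 1 0 : ℤ)) : ZMod ℓ) = 0 :=
  (ZMod.intCast_zmod_eq_zero_iff_dvd _ _).mpr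
    ((Int.natCast_dvd_natCast.mpr hℓM).trans (dvd_of_mem_Gamma0 g.2))

theorem dvd_lowerLeft (hℓM : ℓ ∣ M) (g : Gamma0 M) : (ℓ : ℤ) ∣ (g : SL(2, ℤ)) 1 0 :=
  (Int.natCast_dvd_natCast.mpr hℓM).trans (dvd_of_mem_Gamma0 g.2)

/-- The right action of `Γ₀(M)` on the index set `𝔽_ℓ`: `x·g = d (b + d x)`. -/
def idxU (g : SL(2, ℤ)) (x : ZMod ℓ) : ZMod ℓ :=
  ((g 1 1 : ℤ) : ZMod ℓ) * (((g 0 1 : ℤ) : ZMod ℓ) + ((g 1 1 : ℤ) : ZMod ℓ) * x)

theorem idxU_eq_affinePerm (g : SL(2, ℤ)) (hc : ((g 1 0 : ℤ) : ZMod ℓ) = 0) (x : ZMod ℓ) :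
    P2MW.S_ModularForm_heckeU_slash_eq_self_of_mem_Gamma0.ModularForm.HeckeSlashInvariance.affinePerm
      g hc x = idxU g x := rfl

theorem idxU_eq_affinePermT (g : SL(2, ℤ)) (hc : ((g 1 0 : ℤ) : ZMod ℓ) = 0) (x : ZMod ℓ) :
    P2MW.S_ModularForm_heckeT_slash_eq_self_of_mem_Gamma0.ModularForm.HeckeSlashInvariance.affinePerm
      g hc x = idxU g x := rfl

/-- `x ↦ x·g` as a permutation. -/
def idxPermU (hℓM : ℓ ∣ M) (g : Gamma0 M) : Equiv.Perm (ZMod ℓ) :=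
  P2MW.S_ModularForm_heckeU_slash_eq_self_of_mem_Gamma0.ModularForm.HeckeSlashInvariance.affinePerm
    (g : SL(2, ℤ)) (cast_lowerLeft_eq_zero hℓM g)

theorem idxPermU_apply (hℓM : ℓ ∣ M) (g : Gamma0 M) (x : ZMod ℓ) :
    idxPermU hℓM g x = idxU (g : SL(2, ℤ)) x := rfl

theorem idxU_one (x : ZMod ℓ) : idxU (1 : SL(2, ℤ)) x = x := by
  simp [idxU]

theorem idxU_mul (g h : SL(2, ℤ)) (hg : ((g 1 0 : ℤ) : ZMod ℓ) = 0) (x : ZMod ℓ) :
    idxU (g * h) x = idxU h (idxU g x) := by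
  have hu :=
    P2MW.S_ModularForm_heckeU_slash_eq_self_of_mem_Gamma0.ModularForm.HeckeSlashInvariance.unit_of_apply_one_zero_eq_zero
      g hg
  simp only [idxU, Matrix.SpecialLinearGroup.coe_mul, Matrix.mul_apply, Fin.sum_univ_two]
  push_cast
  rw [hg]
  linear_combination (((h 1 1 : ℤ) : ZMod ℓ) * ((h 0 1 : ℤ) : ZMod ℓ)) * hu

variable [NeZero ℓ]

theorem exists_kapU (hℓM : ℓ ∣ M) (g : Gamma0 M) (x : ZMod ℓ) :
    ∃ g' : Gamma0 M, heckeMatrix ℓ x.val * mapGL ℝ (g : SL(2, ℤ)) =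
      mapGL ℝ (g' : SL(2, ℤ)) * heckeMatrix ℓ (idxU (g : SL(2, ℤ)) x).val := by
  obtain ⟨g', hg', hmul⟩ :=
    P2MW.S_ModularForm_heckeU_slash_eq_self_of_mem_Gamma0.ModularForm.HeckeSlashInvariance.heckeMatrix_mul_of_dvd
      (g : SL(2, ℤ)) (dvd_lowerLeft hℓM g) x
  refine ⟨⟨g', mem_Gamma0_of_dvd ?_⟩, hmul⟩
  rw [hg']
  exact Dvd.dvd.mul_left (dvd_of_mem_Gamma0 g.2) _

/-- The element `κ_U(g, x) ∈ Γ₀(M)` with `β_x g = κ_U(g, x) β_{x·g}`, `β_x = [[1, x], [0, ℓ]]`. -/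
def kapU (hℓM : ℓ ∣ M) (g : Gamma0 M) (x : ZMod ℓ) : Gamma0 M :=
  Classical.choose (exists_kapU hℓM g x)

theorem kapU_spec (hℓM : ℓ ∣ M) (g : Gamma0 M) (x : ZMod ℓ) :
    heckeMatrix ℓ x.val * mapGL ℝ (g : SL(2, ℤ)) =
      mapGL ℝ (kapU hℓM g x : SL(2, ℤ)) * heckeMatrix ℓ (idxU (g : SL(2, ℤ)) x).val :=
  Classical.choose_spec (exists_kapU hℓM g x)

theorem kapU_unique (hℓM : ℓ ∣ M) (g : Gamma0 M) (x : ZMod ℓ) (g' : Gamma0 M)
    (h : heckeMatrix ℓ x.val * mapGL ℝ (g : SL(2, ℤ)) =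
      mapGL ℝ (g' : SL(2, ℤ)) * heckeMatrix ℓ (idxU (g : SL(2, ℤ)) x).val) :
    kapU hℓM g x = g' := by
  have h1 := kapU_spec hℓM g x
  rw [h] at h1
  have h2 := mul_right_cancel h1
  exact (Subtype.ext (mapGL_injective h2)).symm

theorem kapU_mul (hℓM : ℓ ∣ M) (g h : Gamma0 M) (x : ZMod ℓ) :
    kapU hℓM (g * h) x = kapU hℓM g x * kapU hℓM h (idxU (g : SL(2, ℤ)) x) := by
  apply kapU_unique
  rw [Subgroup.coe_mul, Subgroup.coe_mul, map_mul, map_mul, ← mul_assoc, kapU_spec hℓM g x,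
    mul_assoc, kapU_spec hℓM h, ← mul_assoc,
    idxU_mul _ _ (cast_lowerLeft_eq_zero hℓM g)]

theorem kapU_one (hℓM : ℓ ∣ M) (x : ZMod ℓ) : kapU hℓM (1 : Gamma0 M) x = 1 := by
  apply kapU_unique
  rw [Subgroup.coe_one, map_one, mul_one, one_mul, idxU_one]

/-- If `x·g = x` then `κ_U(g, x) = β_x g β_x⁻¹`. -/
theorem kapU_of_idxU_eq (hℓM : ℓ ∣ M) (g : Gamma0 M) (x : ZMod ℓ)
    (hx : idxU (g : SL(2, ℤ)) x = x) :
    mapGL ℝ (kapU hℓM g x : SL(2, ℤ)) =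
      heckeMatrix ℓ x.val * mapGL ℝ (g : SL(2, ℤ)) * (heckeMatrix ℓ x.val)⁻¹ := by
  have h := kapU_spec hℓM g x
  rw [hx] at h
  rw [h, mul_inv_cancel_right]

omit [NeZero ℓ] in
theorem idxU_pow (hℓM : ℓ ∣ M) (g : Gamma0 M) (j : ℕ) (x : ZMod ℓ) :
    idxU ((g ^ j : Gamma0 M) : SL(2, ℤ)) x = ((idxPermU hℓM g) ^ j) x := by
  induction j with
  | zero => rw [pow_zero, pow_zero, Subgroup.coe_one, idxU_one]; rfl
  | succ j ih =>
    rw [pow_succ, Subgroup.coe_mul,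
      idxU_mul _ _ (cast_lowerLeft_eq_zero hℓM (g ^ j)), ih,
      pow_succ', Equiv.Perm.mul_apply]
    rfl

section hom

variable {A : Type*} [AddCommGroup A]

/-- The operator `U_ℓ` on `Hom(Γ₀(M), A)`, `ℓ ∣ M`. -/
def heckeU (hℓM : ℓ ∣ M) (φ : HomG M A) : HomG M A where
  toFun g := ∑ x : ZMod ℓ, φ (Additive.ofMul (kapU hℓM (Additive.toMul g) x))
  map_zero' := by
    simp only [toMul_zero, kapU_one, ofMul_one, map_zero, Finset.sum_const_zero]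
  map_add' g h := by
    simp only [toMul_add, kapU_mul, ofMul_mul, map_add, Finset.sum_add_distrib]
    congr 1
    exact Equiv.sum_comp (idxPermU hℓM (Additive.toMul g : Gamma0 M))
      (fun x => φ (Additive.ofMul (kapU hℓM (Additive.toMul h) x)))

theorem heckeU_apply (hℓM : ℓ ∣ M) (φ : HomG M A) (g : Gamma0 M) :
    heckeU hℓM φ (Additive.ofMul g) = ∑ x : ZMod ℓ, φ (Additive.ofMul (kapU hℓM g x)) :=
  rfl

theorem heckeU_add (hℓM : ℓ ∣ M) (φ ψ : HomG M A) :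
    heckeU hℓM (φ + ψ) = heckeU hℓM φ + heckeU hℓM ψ := by
  refine AddMonoidHom.ext fun g => ?_
  obtain ⟨g, rfl⟩ : ∃ g' : Gamma0 M, Additive.ofMul g' = g := ⟨Additive.toMul g, rfl⟩
  rw [AddMonoidHom.add_apply, heckeU_apply, heckeU_apply, heckeU_apply,
    ← Finset.sum_add_distrib]
  rfl

theorem heckeU_zero (hℓM : ℓ ∣ M) : heckeU hℓM (0 : HomG M A) = 0 := by
  refine AddMonoidHom.ext fun g => ?_
  obtain ⟨g, rfl⟩ : ∃ g' : Gamma0 M, Additive.ofMul g' = g := ⟨Additive.toMul g, rfl⟩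
  rw [heckeU_apply]
  simp

theorem heckeU_neg (hℓM : ℓ ∣ M) (φ : HomG M A) : heckeU hℓM (-φ) = -heckeU hℓM φ := by
  refine AddMonoidHom.ext fun g => ?_
  obtain ⟨g, rfl⟩ : ∃ g' : Gamma0 M, Additive.ofMul g' = g := ⟨Additive.toMul g, rfl⟩
  rw [AddMonoidHom.neg_apply, heckeU_apply, heckeU_apply, ← Finset.sum_neg_distrib]
  rfl

theorem heckeU_sub (hℓM : ℓ ∣ M) (φ ψ : HomG M A) :
    heckeU hℓM (φ - ψ) = heckeU hℓM φ - heckeU hℓM ψ := by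
  rw [sub_eq_add_neg, heckeU_add, heckeU_neg, ← sub_eq_add_neg]

/-- Naturality in the coefficient group. -/
theorem heckeU_comp (hℓM : ℓ ∣ M) {B : Type*} [AddCommGroup B] (f : A →+ B) (φ : HomG M A) :
    heckeU hℓM (f.comp φ) = f.comp (heckeU hℓM φ) := by
  refine AddMonoidHom.ext fun g => ?_
  obtain ⟨g, rfl⟩ : ∃ g' : Gamma0 M, Additive.ofMul g' = g := ⟨Additive.toMul g, rfl⟩
  rw [AddMonoidHom.comp_apply, heckeU_apply, heckeU_apply, map_sum]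
  rfl

/-- `U_ℓ` as an additive endomorphism. -/
def heckeUHom (hℓM : ℓ ∣ M) (A : Type*) [AddCommGroup A] : HomG M A →+ HomG M A where
  toFun := heckeU hℓM
  map_zero' := heckeU_zero hℓM
  map_add' := heckeU_add hℓM

theorem heckeUHom_apply (hℓM : ℓ ∣ M) (φ : HomG M A) : heckeUHom hℓM A φ = heckeU hℓM φ := rfl

/-- `U_ℓ` as a linear map. -/
def heckeUL (hℓM : ℓ ∣ M) (R : Type*) [Semiring R] [Module R A] :
    HomG M A →ₗ[R] HomG M A where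
  toFun := heckeU hℓM
  map_add' := heckeU_add hℓM
  map_smul' c φ := by
    refine AddMonoidHom.ext fun g => ?_
    obtain ⟨g, rfl⟩ : ∃ g' : Gamma0 M, Additive.ofMul g' = g := ⟨Additive.toMul g, rfl⟩
    rw [RingHom.id_apply, AddMonoidHom.smul_apply, heckeU_apply, heckeU_apply,
      Finset.smul_sum]
    rfl

theorem heckeUL_apply (hℓM : ℓ ∣ M) (R : Type*) [Semiring R] [Module R A] (φ : HomG M A) :
    heckeUL hℓM R φ = heckeU hℓM φ := rfl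

theorem heckeU_nsmul (hℓM : ℓ ∣ M) (n : ℕ) (φ : HomG M A) :
    heckeU hℓM (n • φ) = n • heckeU hℓM φ :=
  map_nsmul (heckeUHom hℓM A) n φ

theorem heckeU_zsmul (hℓM : ℓ ∣ M) (n : ℤ) (φ : HomG M A) :
    heckeU hℓM (n • φ) = n • heckeU hℓM φ :=
  map_zsmul (heckeUHom hℓM A) n φ

theorem sum_range_kapU (hℓM : ℓ ∣ M) (φ : HomG M A) (g : Gamma0 M) (x : ZMod ℓ) (n : ℕ) :
    ∑ j ∈ Finset.range n, φ (Additive.ofMul (kapU hℓM g (((idxPermU hℓM g) ^ j) x))) =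
      φ (Additive.ofMul (kapU hℓM (g ^ n) x)) := by
  induction n with
  | zero => simp [kapU_one]
  | succ n ih =>
    rw [Finset.sum_range_succ, ih, pow_succ, kapU_mul, ofMul_mul, map_add, idxU_pow]

/-- `U_ℓ` preserves parabolic homomorphisms. -/
theorem heckeU_isParabolicHom (hℓM : ℓ ∣ M) {φ : HomG M A}
    (hφ : ModularCurve.Period.IsParabolicHom (Gamma0 M) φ) :
    ModularCurve.Period.IsParabolicHom (Gamma0 M) (heckeU hℓM φ) := by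
  classical
  intro g hg
  rw [heckeU_apply]
  refine Fermat.Agent.ES.HeckeP.sum_univ_eq_zero_of_cycle_sums (idxPermU hℓM g)
    (fun x => φ (Additive.ofMul (kapU hℓM g x))) ?_
  intro x r _ hrx
  rw [sum_range_kapU]
  refine hφ _ ?_
  have hidx : idxU (((g ^ r : Gamma0 M) : SL(2, ℤ))) x = x := by
    rw [idxU_pow hℓM]
    exact hrx
  have h1 := kapU_of_idxU_eq hℓM (g ^ r) x hidx
  have h2 : (((kapU hℓM (g ^ r) x : Gamma0 M) : SL(2, ℤ)) : Matrix (Fin 2) (Fin 2) ℤ).trace =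
      (((g ^ r : Gamma0 M) : SL(2, ℤ)) : Matrix (Fin 2) (Fin 2) ℤ).trace := by
    have h3 := congrArg (fun X : GL (Fin 2) ℝ => (X : Matrix (Fin 2) (Fin 2) ℝ).trace) h1
    simp only [Matrix.GeneralLinearGroup.coe_mul] at h3
    have h4 : ((heckeMatrix ℓ x.val : GL (Fin 2) ℝ) : Matrix (Fin 2) (Fin 2) ℝ) *
        ((mapGL ℝ ((g ^ r : Gamma0 M) : SL(2, ℤ)) : GL (Fin 2) ℝ) : Matrix (Fin 2) (Fin 2) ℝ) *
        (((heckeMatrix ℓ x.val)⁻¹ : GL (Fin 2) ℝ) : Matrix (Fin 2) (Fin 2) ℝ) =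
        (((heckeMatrix ℓ x.val : GL (Fin 2) ℝ) : (Matrix (Fin 2) (Fin 2) ℝ)ˣ) :
          Matrix (Fin 2) (Fin 2) ℝ) *
        ((mapGL ℝ ((g ^ r : Gamma0 M) : SL(2, ℤ)) : GL (Fin 2) ℝ) : Matrix (Fin 2) (Fin 2) ℝ) *
        ((((heckeMatrix ℓ x.val : GL (Fin 2) ℝ) : (Matrix (Fin 2) (Fin 2) ℝ)ˣ)⁻¹ :
          (Matrix (Fin 2) (Fin 2) ℝ)ˣ) : Matrix (Fin 2) (Fin 2) ℝ) := rfl
    rw [h4, Matrix.trace_units_conj, Fermat.Agent.ES.HeckeP.trace_mapGL,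
      Fermat.Agent.ES.HeckeP.trace_mapGL] at h3
    exact_mod_cast h3
  rw [h2, Subgroup.coe_pow]
  exact Fermat.Agent.ES.HeckeP.trace_pow_sq_eq_four _ hg r

theorem heckeU_mem_Hpar (hℓM : ℓ ∣ M) {φ : HomG M A} (hφ : φ ∈ Hpar M A) :
    heckeU hℓM φ ∈ Hpar M A :=
  heckeU_isParabolicHom hℓM hφ

theorem heckeU_mem_parabolicHoms (hℓM : ℓ ∣ M) (R : Type*) [Semiring R] [Module R A]
    {φ : HomG M A} (hφ : φ ∈ ModularCurve.Period.parabolicHoms R (Gamma0 M) A) :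
    heckeU hℓM φ ∈ ModularCurve.Period.parabolicHoms R (Gamma0 M) A :=
  heckeU_isParabolicHom hℓM hφ

end hom

theorem heckeU_mem_Lpar (hℓM : ℓ ∣ M) {φ : HomG M ℤ} (hφ : φ ∈ Lpar M) :
    heckeU hℓM φ ∈ Lpar M :=
  heckeU_isParabolicHom hℓM hφ

end Fermat.Agent.S41
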