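import Mathlib
import Fermat.Agent.S41.TransferFormula
import Fermat.Agent.S41.HeckeU
import Fermat.Agent.S41.AlphaTAlpha

/-!
# S41, piece C4: `U_q² = 1` on the `q`-new part `ker(α†)` (helper39)

`Γ = Γ₀(N)`, `Γ' = Γ₀(N q)`, `q` prime, `q ∤ N`, `q u − N v = 1`,
`g₀ = [[u, v], [N, q]]`, `g₁ = [[q u, v], [N, 1]] ∈ Γ`, `W = g₀ δ` (Atkin–Lehner),
`(w ψ)(γ) = ψ(W γ W⁻¹)` (`nuConjW`, `nuW`).

* `transferAlong_eq_sum_of_reps` : the transfer computed with an ARBITRARY system of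
  representatives `r : ι → G` of `G ⧸ f.range` (`g * r (τ i) = r i * f (κ i)` ⇒ transfer `= ∑ ψ (κ i)`);
* `nu_reps_incl_bijective`, `nu_reps_conjD_bijective` : `{1} ∪ {(g₀ Tˣ)⁻¹}` resp.
  `{g₁⁻¹} ∪ {T⁻ˣ}` (`x ∈ 𝔽_q`) are systems of representatives of `Γ / Γ'` resp. `Γ / δΓ'δ⁻¹`;
* `res_cores_eq`   : `res (cores ψ) = ψ + U_q (w ψ)`;
* `res_coresD_eq`  : `res (coresD ψ) = w ψ + U_q ψ`;
* `heckeU_sq_of_alphaT_eq_zero` : `cores ψ = 0`, `coresD ψ = 0` ⇒ `U_q (U_q ψ) = ψ`.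
-/

set_option autoImplicit false
set_option linter.style.haveILetI false
set_option linter.unusedSectionVars false
set_option linter.unusedSimpArgs false
set_option linter.unnecessarySeqFocus false

noncomputable section

namespace Fermat.Agent.S41

open CongruenceSubgroup Matrix Matrix.SpecialLinearGroup Fermat.Agent.ES
open scoped MatrixGroups Pointwise

/-! ## The transfer via an arbitrary system of representatives -/

section abstract

variable {G H : Type*} [Group G] [Group H] (f : H →* G) (hf : Function.Injective f)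
  (A : Type*) [AddCommGroup A] [f.range.FiniteIndex]

/-- **Transfer via an arbitrary system of representatives.**  If `r : ι → G` is a system of
representatives of `G ⧸ f.range` and `g * r (τ i) = r i * f (κ i)`, then the transfer of `ψ` at `g`
is `∑ i, ψ (κ i)`. -/
theorem transferAlong_eq_sum_of_reps {ι : Type*} [Fintype ι] (r : ι → G)
    (hr : Function.Bijective fun i => (QuotientGroup.mk (r i) : G ⧸ f.range))
    (g : G) (τ : ι → ι) (κ : ι → H) (hκ : ∀ i, g * r (τ i) = r i * f (κ i))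
    (ψ : Additive H →+ A) :
    transferAlong A f hf ψ (Additive.ofMul g) = ∑ i, ψ (Additive.ofMul (κ i)) := by
  classical
  letI := f.range.fintypeQuotientOfFiniteIndex
  let e : ι ≃ G ⧸ f.range := Equiv.ofBijective _ hr
  have he : ∀ i, e i = (QuotientGroup.mk (r i) : G ⧸ f.range) := fun i => rfl
  -- `r i = tRep (e i) * f (h i)`
  have hex : ∀ i, ∃ h : H, r i = tRep f (e i) * f h := by
    intro i
    have h1 : (QuotientGroup.mk (tRep f (e i)) : G ⧸ f.range) = QuotientGroup.mk (r i) := by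
      rw [tRep_mk, he]
    have h2 : (tRep f (e i))⁻¹ * r i ∈ f.range := QuotientGroup.eq.mp h1
    obtain ⟨h, hh⟩ := h2
    exact ⟨h, by rw [hh, mul_inv_cancel_left]⟩
  choose h hh using hex
  -- `g⁻¹ • e i = e (τ i)`
  have hτe : ∀ i, g⁻¹ • e i = e (τ i) := by
    intro i
    rw [inv_smul_eq_iff, he, he]
    show _ = (QuotientGroup.mk (g * r (τ i)) : G ⧸ f.range)
    rw [hκ i]
    have hmem : f (κ i) ∈ f.range := ⟨κ i, rfl⟩
    exact (QuotientGroup.mk_mul_of_mem (r i) hmem).symm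
  have hτinj : Function.Injective τ := by
    intro i j hij
    have h1 : g⁻¹ • e i = g⁻¹ • e j := by rw [hτe, hτe, hij]
    exact e.injective (smul_left_cancel _ h1)
  have hτbij : Function.Bijective τ := Finite.injective_iff_bijective.mp hτinj
  rw [transferAlong_eq_sum]
  rw [← Equiv.sum_comp e]
  have hterm : ∀ i, tCoc f hf (e i) g = h i * κ i * (h (τ i))⁻¹ := by
    intro i
    apply hf
    rw [f_tCoc, hτe, map_mul, map_mul, map_inv]
    have h1 : tRep f (e i) = r i * (f (h i))⁻¹ := by rw [hh i, mul_inv_cancel_right]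
    have h2 : tRep f (e (τ i)) = r (τ i) * (f (h (τ i)))⁻¹ := by
      rw [hh (τ i), mul_inv_cancel_right]
    rw [h1, h2, _root_.mul_inv_rev, inv_inv]
    have h3 : (r i)⁻¹ * g * r (τ i) = f (κ i) := by
      rw [mul_assoc, hκ i, inv_mul_cancel_left]
    calc f (h i) * (r i)⁻¹ * g * (r (τ i) * (f (h (τ i)))⁻¹)
        = f (h i) * ((r i)⁻¹ * g * r (τ i)) * (f (h (τ i)))⁻¹ := by group
      _ = f (h i) * f (κ i) * (f (h (τ i)))⁻¹ := by rw [h3]
  simp only [hterm, ofMul_mul, ofMul_inv, map_add, map_neg]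
  rw [Finset.sum_add_distrib, Finset.sum_add_distrib]
  have h4 : ∑ i, -ψ (Additive.ofMul (h (τ i))) = -∑ i, ψ (Additive.ofMul (h i)) := by
    rw [Finset.sum_neg_distrib]
    congr 1
    exact Equiv.sum_comp (Equiv.ofBijective τ hτbij) (fun i => ψ (Additive.ofMul (h i)))
  rw [h4]
  abel

theorem nu_rel_of_mul_eq {R R' γ c : G} (h : R * γ = c * R') : γ * R'⁻¹ = R⁻¹ * c := by
  rw [eq_inv_mul_iff_mul_eq, ← mul_assoc, h, mul_inv_cancel_right]

end abstract

/-! ## Integer matrices -/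

section mats

theorem ataMat_injective {M : ℕ} : Function.Injective (ataMat : Gamma0 M → _) :=
  fun _ _ h => Subtype.ext (Subtype.ext h)

theorem ataMat_inv {M : ℕ} (x : Gamma0 M) :
    ataMat x⁻¹ = !![ataMat x 1 1, -ataMat x 0 1; -ataMat x 1 0, ataMat x 0 0] := by
  show ((((x⁻¹ : Gamma0 M) : SL(2, ℤ)) : Matrix (Fin 2) (Fin 2) ℤ)) = _
  rw [Subgroup.coe_inv, Matrix.SpecialLinearGroup.coe_inv, Matrix.adjugate_fin_two]
  rfl

theorem ataMat_det {M : ℕ} (x : Gamma0 M) :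
    ataMat x 0 0 * ataMat x 1 1 - ataMat x 0 1 * ataMat x 1 0 = 1 := by
  have h : (ataMat x).det = 1 := (x : SL(2, ℤ)).2
  rwa [Matrix.det_fin_two] at h

theorem nu_smul_mat_cancel {a : ℤ} (ha : a ≠ 0) {X Y : Matrix (Fin 2) (Fin 2) ℤ}
    (h : a • X = a • Y) : X = Y := by
  ext i j
  have h1 := congrFun (congrFun h i) j
  simp only [Matrix.smul_apply, smul_eq_mul] at h1
  exact mul_left_cancel₀ ha h1

/-- integer matrix of `β_x = [[1, x], [0, q]]` -/
def nuB (q x : ℕ) : Matrix (Fin 2) (Fin 2) ℤ := !![1, (x : ℤ); 0, (q : ℤ)]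

/-- `T^m = [[1, m], [0, 1]]` as an element of `Γ₀(N)` -/
def nuT (N : ℕ) [NeZero N] (m : ℤ) : Gamma0 N := ataMk N 1 m 0 1 (by ring)

theorem ataMat_nuT (N : ℕ) [NeZero N] (m : ℤ) : ataMat (nuT N m) = !![1, m; 0, 1] := by
  rw [nuT, ataMat_mk, mul_zero]

theorem nu_delta_mul_B (N q x : ℕ) [NeZero N] :
    (ataDelta q).mat * nuB q x = (q : ℤ) • ataMat (nuT N (x : ℤ)) := by
  rw [ataMat_nuT]
  ext i j
  fin_cases i <;> fin_cases j <;>
    simp [ataDelta, HeckeRep.mat, nuB, Matrix.mul_apply, Fin.sum_univ_two]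

variable {ℓ M : ℕ} [NeZero ℓ]

/-- the coset law of `kapU` for integer matrices -/
theorem kapU_spec_int (hℓM : ℓ ∣ M) (g : Gamma0 M) (x : ZMod ℓ) :
    nuB ℓ x.val * ataMat g = ataMat (kapU hℓM g x) * nuB ℓ (idxU (g : SL(2, ℤ)) x).val := by
  have h := congrArg (fun X : GL (Fin 2) ℝ => (X : Matrix (Fin 2) (Fin 2) ℝ)) (kapU_spec hℓM g x)
  simp only [Matrix.GeneralLinearGroup.coe_mul, ModularForm.val_heckeMatrix (NeZero.ne ℓ),
    mapGL_coe_matrix] at h
  have hinj : Function.Injective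
      (fun A : Matrix (Fin 2) (Fin 2) ℤ => A.map (Int.castRingHom ℝ)) :=
    Matrix.map_injective (RingHom.injective_int (Int.castRingHom ℝ))
  apply hinj
  simp only [Matrix.map_mul]
  have hb : ∀ y : ℕ, (nuB ℓ y).map (Int.castRingHom ℝ) = !![(1 : ℝ), (y : ℝ); 0, (ℓ : ℝ)] := by
    intro y
    ext i j
    fin_cases i <;> fin_cases j <;> simp [nuB]
  rw [hb, hb]
  exact h

end mats

/-! ## The Atkin–Lehner conjugation -/

section conj

variable {N q : ℕ} [NeZero N] [NeZero q] (u v : ℤ) (huv : (q : ℤ) * u - N * v = 1)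

/-- `g₀ = [[u, v], [N, q]] ∈ Γ₀(N)`, `q u − N v = 1` -/
def nuG0 : Gamma0 N := ataMk N u v 1 (q : ℤ) (by linear_combination huv)

/-- `g₁ = [[q u, v], [N, 1]] ∈ Γ₀(N)` -/
def nuG1 : Gamma0 N := ataMk N ((q : ℤ) * u) v 1 1 (by linear_combination huv)

theorem ataMat_nuG0 : ataMat (nuG0 u v huv) = !![u, v; (N : ℤ), (q : ℤ)] := by
  rw [nuG0, ataMat_mk, mul_one]

theorem ataMat_nuG1 : ataMat (nuG1 u v huv) = !![(q : ℤ) * u, v; (N : ℤ), 1] := by
  rw [nuG1, ataMat_mk, mul_one]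

theorem nu_delta_G0_delta :
    (ataDelta q).mat * ataMat (nuG0 u v huv) * (ataDelta q).mat
      = (q : ℤ) • ataMat (nuG1 u v huv) := by
  rw [ataMat_nuG0, ataMat_nuG1]
  ext i j
  fin_cases i <;> fin_cases j <;>
    simp [ataDelta, HeckeRep.mat, Matrix.mul_apply, Fin.sum_univ_two] <;> ring

/-- `γ ↦ g₀ (δ γ δ⁻¹) g₀⁻¹ = W γ W⁻¹`, with values in `Γ₀(N)` -/
def nuConjWG : Gamma0 (N * q) →* Gamma0 N :=
  (MulAut.conj (nuG0 u v huv)).toMonoidHom.comp (conjD N q)

theorem nuConjWG_mul_G0 (γ : Gamma0 (N * q)) :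
    nuConjWG u v huv γ * nuG0 u v huv = nuG0 u v huv * conjD N q γ := by
  show nuG0 u v huv * conjD N q γ * (nuG0 u v huv)⁻¹ * nuG0 u v huv = _
  rw [inv_mul_cancel_right]

theorem nuConjWG_mem (γ : Gamma0 (N * q)) :
    ((nuConjWG u v huv γ : Gamma0 N) : SL(2, ℤ)) ∈ Gamma0 (N * q) := by
  apply mem_Gamma0_of_dvd
  obtain ⟨k, hk⟩ := dvd_of_mem_Gamma0 γ.2
  have hq' : (q : ℤ) ≠ 0 := by exact_mod_cast NeZero.ne q
  have hk' : ataMat γ 1 0 = (N : ℤ) * q * k := by
    have : ataMat γ 1 0 = ((N * q : ℕ) : ℤ) * k := hk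
    rw [this]; push_cast; ring
  have hC : ataMat (conjD N q γ)
      = !![ataMat γ 0 0, q * ataMat γ 0 1; (N : ℤ) * k, ataMat γ 1 1] := by
    show conjDMat q (ataMat γ) = _
    rw [conjDMat, hk', show (N : ℤ) * q * k = q * (N * k) by ring,
      Int.mul_ediv_cancel_left _ hq']
  have h := congrArg ataMat (nuConjWG_mul_G0 u v huv γ)
  rw [ataMat_mul, ataMat_mul, ataMat_nuG0, hC] at h
  have e1 := congrFun (congrFun h 1) 0
  have e2 := congrFun (congrFun h 1) 1
  simp only [Matrix.mul_apply, Fin.sum_univ_two, Matrix.of_apply, Matrix.cons_val_zero,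
    Matrix.cons_val_one, Matrix.cons_val', Matrix.cons_val_fin_one] at e1 e2
  show ((N * q : ℕ) : ℤ) ∣ ataMat (nuConjWG u v huv γ) 1 0
  refine ⟨ataMat γ 0 0 + q * k - N * ataMat γ 0 1 - ataMat γ 1 1, ?_⟩
  push_cast
  linear_combination (-(ataMat (nuConjWG u v huv γ) 1 0)) * huv + (q : ℤ) * e1 - (N : ℤ) * e2

/-- the Atkin–Lehner conjugation `γ ↦ W γ W⁻¹` on `Γ₀(N q)`, `W = g₀ δ` -/
def nuConjW : Gamma0 (N * q) →* Gamma0 (N * q) :=
  ((Gamma0 N).subtype.comp (nuConjWG u v huv)).codRestrict (Gamma0 (N * q))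
    (nuConjWG_mem u v huv)

theorem incl_nuConjW (γ : Gamma0 (N * q)) :
    incl N q (nuConjW u v huv γ) = nuConjWG u v huv γ :=
  Subtype.ext rfl

theorem incl_nuConjW_mul_G0 (γ : Gamma0 (N * q)) :
    incl N q (nuConjW u v huv γ) * nuG0 u v huv = nuG0 u v huv * conjD N q γ := by
  rw [incl_nuConjW, nuConjWG_mul_G0]

/-- `w ψ = ψ ∘ (γ ↦ W γ W⁻¹)` -/
def nuW {A : Type*} [AddCommGroup A] (ψ : HomG (N * q) A) : HomG (N * q) A :=
  ψ.comp (MonoidHom.toAdditive (nuConjW u v huv))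

theorem nuW_apply {A : Type*} [AddCommGroup A] (ψ : HomG (N * q) A) (γ : Gamma0 (N * q)) :
    nuW u v huv ψ (Additive.ofMul γ) = ψ (Additive.ofMul (nuConjW u v huv γ)) := rfl

/-- **(A)** `Tˣ γ = (δ κ_U(γ, x) δ⁻¹) T^{x·γ}` -/
theorem nu_T_mul (γ : Gamma0 (N * q)) (x : ZMod q) :
    nuT N (x.val : ℤ) * incl N q γ
      = conjD N q (kapU (dvd_mul_left q N) γ x)
          * nuT N ((idxU (γ : SL(2, ℤ)) x).val : ℤ) := by
  have hq' : (q : ℤ) ≠ 0 := by exact_mod_cast NeZero.ne q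
  apply ataMat_injective
  apply nu_smul_mat_cancel hq'
  rw [ataMat_mul, ataMat_mul, ← Matrix.smul_mul, ← nu_delta_mul_B N q, ← Matrix.mul_smul,
    ← nu_delta_mul_B N q]
  have e1 : ataMat (incl N q γ) = ataMat γ := rfl
  rw [e1, Matrix.mul_assoc, kapU_spec_int (dvd_mul_left q N) γ x, ← Matrix.mul_assoc,
    ← Matrix.mul_assoc]
  congr 1
  exact ata_hint_incl N q (kapU (dvd_mul_left q N) γ x)

/-- **(B)** `g₁ γ = (δ (W γ W⁻¹) δ⁻¹) g₁` -/
theorem nu_G1_mul (γ : Gamma0 (N * q)) :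
    nuG1 u v huv * incl N q γ = conjD N q (nuConjW u v huv γ) * nuG1 u v huv := by
  have hq' : (q : ℤ) ≠ 0 := by exact_mod_cast NeZero.ne q
  apply ataMat_injective
  apply nu_smul_mat_cancel hq'
  rw [ataMat_mul, ataMat_mul, ← Matrix.smul_mul, ← nu_delta_G0_delta u v huv, ← Matrix.mul_smul,
    ← nu_delta_G0_delta u v huv]
  have h1 := ata_hint_incl N q γ
  have h2 := ata_hint_incl N q (nuConjW u v huv γ)
  have h3 := congrArg ataMat (incl_nuConjW_mul_G0 u v huv γ)
  rw [ataMat_mul, ataMat_mul] at h3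
  calc (ataDelta q).mat * ataMat (nuG0 u v huv) * (ataDelta q).mat * ataMat (incl N q γ)
      = (ataDelta q).mat * ataMat (nuG0 u v huv) * ((ataDelta q).mat * ataMat (incl N q γ)) := by
        simp only [Matrix.mul_assoc]
    _ = (ataDelta q).mat * (ataMat (nuG0 u v huv) * ataMat (conjD N q γ)) * (ataDelta q).mat := by
        rw [h1]; simp only [Matrix.mul_assoc]
    _ = (ataDelta q).mat * ataMat (incl N q (nuConjW u v huv γ)) * ataMat (nuG0 u v huv)
          * (ataDelta q).mat := by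
        rw [← h3]; simp only [Matrix.mul_assoc]
    _ = ataMat (conjD N q (nuConjW u v huv γ))
          * ((ataDelta q).mat * ataMat (nuG0 u v huv) * (ataDelta q).mat) := by
        rw [h2]; simp only [Matrix.mul_assoc]

/-- **(C)** `(g₀ Tˣ) γ = (W κ_U(γ, x) W⁻¹) (g₀ T^{x·γ})` -/
theorem nu_G0T_mul (γ : Gamma0 (N * q)) (x : ZMod q) :
    (nuG0 u v huv * nuT N (x.val : ℤ)) * incl N q γ
      = incl N q (nuConjW u v huv (kapU (dvd_mul_left q N) γ x))
          * (nuG0 u v huv * nuT N ((idxU (γ : SL(2, ℤ)) x).val : ℤ)) := by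
  rw [mul_assoc, nu_T_mul, ← mul_assoc, ← mul_assoc, incl_nuConjW_mul_G0]

end conj

/-! ## The two subgroups and their cosets -/

section cosets

variable {N q : ℕ} [NeZero N] [NeZero q]

theorem nu_mem_incl_range_iff (hc : Nat.Coprime q N) (x : Gamma0 N) :
    x ∈ (incl N q).range ↔ (q : ℤ) ∣ ataMat x 1 0 := by
  constructor
  · rintro ⟨c, rfl⟩
    exact dvd_q_of_mem N q c.2
  · intro h
    have hN : (N : ℤ) ∣ ataMat x 1 0 := dvd_of_mem_Gamma0 x.2
    have hcop : IsCoprime (N : ℤ) (q : ℤ) := (Nat.isCoprime_iff_coprime.mpr hc).symm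
    have hNq : (N : ℤ) * q ∣ ataMat x 1 0 := hcop.mul_dvd hN h
    have hmem : (x : SL(2, ℤ)) ∈ Gamma0 (N * q) := by
      apply mem_Gamma0_of_dvd
      push_cast
      exact hNq
    exact ⟨⟨(x : SL(2, ℤ)), hmem⟩, Subtype.ext rfl⟩

theorem nu_mem_conjD_range_iff (x : Gamma0 N) :
    x ∈ (conjD N q).range ↔ (q : ℤ) ∣ ataMat x 0 1 := by
  constructor
  · rintro ⟨c, rfl⟩
    show (q : ℤ) ∣ conjDMat q (ataMat c) 0 1
    simp [conjDMat]
  · rintro ⟨b', hb'⟩
    obtain ⟨k, hk⟩ := dvd_of_mem_Gamma0 x.2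
    have hk' : ataMat x 1 0 = N * k := hk
    have hdet := ataMat_det x
    have hdet' : ataMat x 0 0 * ataMat x 1 1 - b' * ((N : ℤ) * (q * k)) = 1 := by
      rw [hb', hk'] at hdet
      linear_combination hdet
    refine ata_hrange_conjD N q x (ataMk N (ataMat x 0 0) b' (q * k) (ataMat x 1 1) hdet') ?_
    rw [ataMat_mk]
    ext i j
    fin_cases i <;> fin_cases j <;>
      simp [ataDelta', HeckeRep.mat, Matrix.mul_apply, Fin.sum_univ_two, hb', hk'] <;> ring

theorem nu_mk_eq_incl_iff (hc : Nat.Coprime q N) (g h : Gamma0 N) :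
    (QuotientGroup.mk g : Gamma0 N ⧸ (incl N q).range) = QuotientGroup.mk h ↔
      (q : ℤ) ∣ ataMat g 0 0 * ataMat h 1 0 - ataMat g 1 0 * ataMat h 0 0 := by
  rw [QuotientGroup.eq, nu_mem_incl_range_iff hc, ataMat_mul, ataMat_inv]
  have e : (!![ataMat g 1 1, -ataMat g 0 1; -ataMat g 1 0, ataMat g 0 0] * ataMat h) 1 0
      = ataMat g 0 0 * ataMat h 1 0 - ataMat g 1 0 * ataMat h 0 0 := by
    simp [Matrix.mul_apply, Fin.sum_univ_two]
    ring
  rw [e]

theorem nu_mk_eq_conjD_iff (g h : Gamma0 N) :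
    (QuotientGroup.mk g : Gamma0 N ⧸ (conjD N q).range) = QuotientGroup.mk h ↔
      (q : ℤ) ∣ ataMat g 1 1 * ataMat h 0 1 - ataMat g 0 1 * ataMat h 1 1 := by
  rw [QuotientGroup.eq, nu_mem_conjD_range_iff, ataMat_mul, ataMat_inv]
  have e : (!![ataMat g 1 1, -ataMat g 0 1; -ataMat g 1 0, ataMat g 0 0] * ataMat h) 0 1
      = ataMat g 1 1 * ataMat h 0 1 - ataMat g 0 1 * ataMat h 1 1 := by
    simp [Matrix.mul_apply, Fin.sum_univ_two]
    ring
  rw [e]

end cosets

/-! ## The two systems of representatives -/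

section reps

variable {N q : ℕ} [NeZero N] [NeZero q] (u v : ℤ) (huv : (q : ℤ) * u - N * v = 1)

/-- representatives of `Γ₀(N) / Γ₀(N q)`: `1` and `(g₀ Tˣ)⁻¹`, `x ∈ 𝔽_q` -/
def nuRepI : Option (ZMod q) → Gamma0 N
  | none => 1
  | some x => (nuG0 u v huv * nuT N (x.val : ℤ))⁻¹

/-- representatives of `Γ₀(N) / δ Γ₀(N q) δ⁻¹`: `g₁⁻¹` and `T⁻ˣ`, `x ∈ 𝔽_q` -/
def nuRepD : Option (ZMod q) → Gamma0 N
  | none => (nuG1 u v huv)⁻¹
  | some x => (nuT N (x.val : ℤ))⁻¹

theorem ataMat_nuRepI_none : ataMat (nuRepI u v huv (none : Option (ZMod q))) = 1 := ataMat_one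

theorem ataMat_nuRepI_some (x : ZMod q) :
    ataMat (nuRepI u v huv (some x))
      = !![(N : ℤ) * x.val + q, -(u * x.val + v); -(N : ℤ), u] := by
  show ataMat (nuG0 u v huv * nuT N (x.val : ℤ))⁻¹ = _
  rw [ataMat_inv, ataMat_mul, ataMat_nuG0, ataMat_nuT]
  ext i j
  fin_cases i <;> fin_cases j <;> simp [Matrix.mul_apply, Fin.sum_univ_two]

theorem ataMat_nuRepD_none :
    ataMat (nuRepD u v huv (none : Option (ZMod q))) = !![1, -v; -(N : ℤ), (q : ℤ) * u] := by
  show ataMat (nuG1 u v huv)⁻¹ = _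
  rw [ataMat_inv, ataMat_nuG1]
  ext i j
  fin_cases i <;> fin_cases j <;> simp

theorem ataMat_nuRepD_some (x : ZMod q) :
    ataMat (nuRepD u v huv (some x)) = !![1, -(x.val : ℤ); 0, 1] := by
  show ataMat (nuT N (x.val : ℤ))⁻¹ = _
  rw [ataMat_inv, ataMat_nuT]
  ext i j
  fin_cases i <;> fin_cases j <;> simp

variable [hq : Fact q.Prime]

theorem nu_cast_N_ne_zero (hqN : ¬ q ∣ N) : ((N : ℤ) : ZMod q) ≠ 0 := by
  intro h
  rw [ZMod.intCast_zmod_eq_zero_iff_dvd] at h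
  exact hqN (Int.natCast_dvd_natCast.mp h)

include huv in
theorem nu_cast_v_ne_zero : ((v : ℤ) : ZMod q) ≠ 0 := by
  intro h
  have h1 := congrArg (fun z : ℤ => (z : ZMod q)) huv
  simp only [Int.cast_sub, Int.cast_mul, Int.cast_natCast, ZMod.natCast_self, zero_mul, h,
    mul_zero, sub_zero, Int.cast_one] at h1
  exact zero_ne_one h1

theorem nu_dvd_iff_cast (a : ℤ) : (q : ℤ) ∣ a ↔ ((a : ℤ) : ZMod q) = 0 :=
  (ZMod.intCast_zmod_eq_zero_iff_dvd a q).symm

theorem nu_reps_incl_bijective (hqN : ¬ q ∣ N) :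
    Function.Bijective fun i : Option (ZMod q) =>
      (QuotientGroup.mk (nuRepI u v huv i) : Gamma0 N ⧸ (incl N q).range) := by
  have hc : Nat.Coprime q N := (Nat.Prime.coprime_iff_not_dvd hq.out).mpr hqN
  have hN := nu_cast_N_ne_zero (q := q) hqN
  constructor
  · intro i j hij
    simp only [] at hij
    rw [nu_mk_eq_incl_iff hc, nu_dvd_iff_cast] at hij
    rcases i with _ | x <;> rcases j with _ | y
    · rfl
    · exfalso
      rw [ataMat_nuRepI_none, ataMat_nuRepI_some] at hij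
      simp at hij
      exact hN (by simpa using hij)
    · exfalso
      rw [ataMat_nuRepI_none, ataMat_nuRepI_some] at hij
      simp at hij
      exact hN (by simpa using hij)
    · rw [ataMat_nuRepI_some, ataMat_nuRepI_some] at hij
      simp at hij
      have h1 : ((N : ℤ) : ZMod q) * ((N : ℤ) : ZMod q) * (y - x) = 0 := by
        simp only [Int.cast_natCast]
        linear_combination hij
      have h2 : y - x = 0 := by
        rcases mul_eq_zero.mp h1 with h3 | h3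
        · rcases mul_eq_zero.mp h3 with h4 | h4 <;> exact absurd h4 hN
        · exact h3
      rw [sub_eq_zero.mp h2]
  · intro c
    obtain ⟨h, rfl⟩ := QuotientGroup.mk_surjective c
    by_cases hc0 : ((ataMat h 1 0 : ℤ) : ZMod q) = 0
    · refine ⟨none, ?_⟩
      simp only []
      rw [nu_mk_eq_incl_iff hc, nu_dvd_iff_cast, ataMat_nuRepI_none]
      simp [hc0]
    · refine ⟨some (-((ataMat h 0 0 : ℤ) : ZMod q) * ((ataMat h 1 0 : ℤ) : ZMod q)⁻¹), ?_⟩
      simp only []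
      rw [nu_mk_eq_incl_iff hc, nu_dvd_iff_cast, ataMat_nuRepI_some]
      simp
      field_simp
      ring
  
theorem nu_reps_conjD_bijective :
    Function.Bijective fun i : Option (ZMod q) =>
      (QuotientGroup.mk (nuRepD u v huv i) : Gamma0 N ⧸ (conjD N q).range) := by
  have hv := nu_cast_v_ne_zero (q := q) u v huv
  constructor
  · intro i j hij
    simp only [] at hij
    rw [nu_mk_eq_conjD_iff, nu_dvd_iff_cast] at hij
    rcases i with _ | x <;> rcases j with _ | y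
    · rfl
    · exfalso
      rw [ataMat_nuRepD_none, ataMat_nuRepD_some] at hij
      simp at hij
      exact hv hij
    · exfalso
      rw [ataMat_nuRepD_none, ataMat_nuRepD_some] at hij
      simp at hij
      exact hv hij
    · rw [ataMat_nuRepD_some, ataMat_nuRepD_some] at hij
      simp at hij
      have h2 : x - y = 0 := by linear_combination hij
      rw [sub_eq_zero.mp h2]
  · intro c
    obtain ⟨h, rfl⟩ := QuotientGroup.mk_surjective c
    by_cases hd0 : ((ataMat h 1 1 : ℤ) : ZMod q) = 0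
    · refine ⟨none, ?_⟩
      simp only []
      rw [nu_mk_eq_conjD_iff, nu_dvd_iff_cast, ataMat_nuRepD_none]
      simp [hd0]
    · refine ⟨some (-((ataMat h 0 1 : ℤ) : ZMod q) * ((ataMat h 1 1 : ℤ) : ZMod q)⁻¹), ?_⟩
      simp only []
      rw [nu_mk_eq_conjD_iff, nu_dvd_iff_cast, ataMat_nuRepD_some]
      simp
      field_simp
      ring

end reps

/-! ## `res ∘ cores = 1 + U_q ∘ w`, `res ∘ coresD = w + U_q`, and `U_q² = 1` on `ker(α†)` -/

section main

variable {N q : ℕ} [NeZero N] [NeZero q] [hq : Fact q.Prime] (u v : ℤ)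
  (huv : (q : ℤ) * u - N * v = 1) {A : Type*} [AddCommGroup A]

/-- `res (cores ψ) = ψ + U_q (w ψ)` -/
theorem res_cores_eq (hqN : ¬ q ∣ N) (ψ : HomG (N * q) A) (γ : Gamma0 (N * q)) :
    cores N q A ψ (Additive.ofMul (incl N q γ))
      = ψ (Additive.ofMul γ)
        + heckeU (dvd_mul_left q N) (nuW u v huv ψ) (Additive.ofMul γ) := by
  classical
  have h := transferAlong_eq_sum_of_reps (incl N q) (incl_injective N q) A (nuRepI u v huv)
    (nu_reps_incl_bijective u v huv hqN) (incl N q γ)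
    (fun i => i.map (fun x => idxU (γ : SL(2, ℤ)) x))
    (fun i => match i with
      | none => γ
      | some x => nuConjW u v huv (kapU (dvd_mul_left q N) γ x))
    (by
      intro i
      rcases i with _ | x
      · show incl N q γ * 1 = 1 * incl N q γ
        rw [mul_one, one_mul]
      · exact nu_rel_of_mul_eq (nu_G0T_mul u v huv γ x)) ψ
  show transferAlong A (incl N q) (incl_injective N q) ψ _ = _
  rw [h, Fintype.sum_option, heckeU_apply]
  rfl

/-- `res (coresD ψ) = w ψ + U_q ψ` -/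
theorem res_coresD_eq (ψ : HomG (N * q) A) (γ : Gamma0 (N * q)) :
    coresD N q A ψ (Additive.ofMul (incl N q γ))
      = nuW u v huv ψ (Additive.ofMul γ)
        + heckeU (dvd_mul_left q N) ψ (Additive.ofMul γ) := by
  classical
  have h := transferAlong_eq_sum_of_reps (conjD N q) (conjD_injective N q) A (nuRepD u v huv)
    (nu_reps_conjD_bijective u v huv) (incl N q γ)
    (fun i => i.map (fun x => idxU (γ : SL(2, ℤ)) x))
    (fun i => match i with
      | none => nuConjW u v huv γ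
      | some x => kapU (dvd_mul_left q N) γ x)
    (by
      intro i
      rcases i with _ | x
      · exact nu_rel_of_mul_eq (nu_G1_mul u v huv γ)
      · exact nu_rel_of_mul_eq (nu_T_mul γ x)) ψ
  show transferAlong A (conjD N q) (conjD_injective N q) ψ _ = _
  rw [h, Fintype.sum_option, heckeU_apply]
  rfl

end main

/-- **(C4)** `U_q² = 1` on the `q`-new part: if `cores ψ = 0` and `cores^δ ψ = 0` then
`U_q (U_q ψ) = ψ`. -/
theorem heckeU_sq_of_alphaT_eq_zero (N q : ℕ) [NeZero N] [NeZero q] [hq : Fact q.Prime]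
    (hqN : ¬ q ∣ N) {A : Type*} [AddCommGroup A] (ψ : HomG (N * q) A)
    (h1 : cores N q A ψ = 0) (h2 : coresD N q A ψ = 0) :
    heckeU (dvd_mul_left q N) (heckeU (dvd_mul_left q N) ψ) = ψ := by
  have hc : Nat.Coprime q N := (Nat.Prime.coprime_iff_not_dvd hq.out).mpr hqN
  obtain ⟨u, v, huv⟩ := ata_bezout hc
  have e1 : ψ = -heckeU (dvd_mul_left q N) (nuW u v huv ψ) := by
    refine AddMonoidHom.ext fun g => ?_
    obtain ⟨γ, rfl⟩ : ∃ γ : Gamma0 (N * q), Additive.ofMul γ = g := ⟨Additive.toMul g, rfl⟩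
    have h := res_cores_eq u v huv hqN ψ γ
    rw [h1, AddMonoidHom.zero_apply] at h
    rw [AddMonoidHom.neg_apply]
    exact eq_neg_of_add_eq_zero_left h.symm
  have e2 : nuW u v huv ψ = -heckeU (dvd_mul_left q N) ψ := by
    refine AddMonoidHom.ext fun g => ?_
    obtain ⟨γ, rfl⟩ : ∃ γ : Gamma0 (N * q), Additive.ofMul γ = g := ⟨Additive.toMul g, rfl⟩
    have h := res_coresD_eq u v huv ψ γ
    rw [h2, AddMonoidHom.zero_apply] at h
    rw [AddMonoidHom.neg_apply]
    exact eq_neg_of_add_eq_zero_left h.symm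
  rw [e2, heckeU_neg, neg_neg] at e1
  exact e1.symm

/-- (C4), in terms of `alphaT` -/
theorem heckeU_sq_of_mem_ker_alphaT (N q : ℕ) [NeZero N] [NeZero q] [Fact q.Prime]
    (hqN : ¬ q ∣ N) {A : Type*} [AddCommGroup A] (ψ : HomG (N * q) A)
    (h : alphaT N q A ψ = 0) :
    heckeU (dvd_mul_left q N) (heckeU (dvd_mul_left q N) ψ) = ψ := by
  rw [alphaT_apply, Prod.mk_eq_zero] at h
  exact heckeU_sq_of_alphaT_eq_zero N q hqN ψ h.1 h.2

end Fermat.Agent.S41
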