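import Mathlib
import Fermat.Agent.S41.NewU

/-!
# S41, piece C4 (second half): `U_q` preserves `ker(α†)` (helper39)

* `transferAlong_conj` : invariance of the transfer under conjugation: if
  `f' (θ h) = g₀ f(h) g₀⁻¹` then `transferAlong f' ψ = transferAlong f (ψ ∘ θ)`;
* `cores_eq_coresD_nuW` : `cores ψ = cores^δ (w ψ)`;
* `nuW_nuW` : `w (w ψ) = ψ`;
* `heckeU_eq_neg_nuW` : `cores^δ ψ = 0 ⇒ U_q ψ = − w ψ`;
* `alphaT_heckeU_eq_zero` : `α† ψ = 0 ⇒ α† (U_q ψ) = 0`; `heckeU_mem_Knew`.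
-/

set_option autoImplicit false
set_option linter.style.haveILetI false
set_option linter.unusedSectionVars false
set_option linter.unusedSimpArgs false
set_option linter.unnecessarySeqFocus false

noncomputable section

namespace Fermat.Agent.S41

open CongruenceSubgroup Matrix Matrix.SpecialLinearGroup Fermat.Agent.ES
open scoped MatrixGroups Pointwise

section abstract

variable {G H : Type*} [Group G] [Group H] (f f' : H →* G) (hf : Function.Injective f)
  (hf' : Function.Injective f') (A : Type*) [AddCommGroup A] [f.range.FiniteIndex]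
  [f'.range.FiniteIndex]

/-- **Conjugation invariance of the transfer.** -/
theorem transferAlong_conj (θ : H →* H) (g₀ : G) (hθ : ∀ h, f' (θ h) = g₀ * f h * g₀⁻¹)
    (hrange : ∀ x, g₀ * x * g₀⁻¹ ∈ f'.range → x ∈ f.range) (ψ : Additive H →+ A) :
    transferAlong A f' hf' ψ = transferAlong A f hf (ψ.comp (MonoidHom.toAdditive θ)) := by
  classical
  letI := f.range.fintypeQuotientOfFiniteIndex
  refine AddMonoidHom.ext fun g => ?_
  obtain ⟨g, rfl⟩ : ∃ g' : G, Additive.ofMul g' = g := ⟨Additive.toMul g, rfl⟩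
  have hr : Function.Bijective fun c : G ⧸ f.range =>
      (QuotientGroup.mk (g₀ * tRep f c * g₀⁻¹) : G ⧸ f'.range) := by
    constructor
    · intro c c' hcc
      simp only [] at hcc
      rw [QuotientGroup.eq] at hcc
      have h1 : g₀ * ((tRep f c)⁻¹ * tRep f c') * g₀⁻¹ ∈ f'.range := by
        have e : (g₀ * tRep f c * g₀⁻¹)⁻¹ * (g₀ * tRep f c' * g₀⁻¹)
            = g₀ * ((tRep f c)⁻¹ * tRep f c') * g₀⁻¹ := by group
        rwa [e] at hcc
      have h2 := hrange _ h1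
      have h3 : (QuotientGroup.mk (tRep f c) : G ⧸ f.range) = QuotientGroup.mk (tRep f c') :=
        QuotientGroup.eq.mpr h2
      rwa [tRep_mk, tRep_mk] at h3
    · intro y
      obtain ⟨y, rfl⟩ := QuotientGroup.mk_surjective y
      refine ⟨QuotientGroup.mk (g₀⁻¹ * y * g₀), ?_⟩
      simp only []
      rw [QuotientGroup.eq]
      have h1 : (QuotientGroup.mk (tRep f (QuotientGroup.mk (g₀⁻¹ * y * g₀))) : G ⧸ f.range)
          = QuotientGroup.mk (g₀⁻¹ * y * g₀) := tRep_mk f _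
      obtain ⟨h, hh⟩ := QuotientGroup.eq.mp h1
      refine ⟨θ h, ?_⟩
      rw [hθ, hh]
      group
  have hrel : ∀ c : G ⧸ f.range,
      (g₀ * g * g₀⁻¹) * (g₀ * tRep f (g⁻¹ • c) * g₀⁻¹)
        = (g₀ * tRep f c * g₀⁻¹) * f' (θ (tCoc f hf c g)) := by
    intro c
    rw [hθ, f_tCoc]
    group
  have h1 := transferAlong_eq_sum_of_reps f' hf' A (fun c : G ⧸ f.range => g₀ * tRep f c * g₀⁻¹)
    hr (g₀ * g * g₀⁻¹) (fun c => g⁻¹ • c) (fun c => θ (tCoc f hf c g)) hrel ψ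
  have h2 : transferAlong A f' hf' ψ (Additive.ofMul (g₀ * g * g₀⁻¹))
      = transferAlong A f' hf' ψ (Additive.ofMul g) := by
    rw [ofMul_mul, ofMul_mul, ofMul_inv, map_add, map_add, map_neg]
    abel
  rw [← h2, h1, transferAlong_eq_sum]
  rfl

end abstract

section concrete

variable {N q : ℕ} [NeZero N] [NeZero q] [hq : Fact q.Prime] (u v : ℤ)
  (huv : (q : ℤ) * u - N * v = 1) {A : Type*} [AddCommGroup A]

theorem nu_incl_nuConjW_eq (γ : Gamma0 (N * q)) :
    incl N q (nuConjW u v huv γ) = nuG0 u v huv * conjD N q γ * (nuG0 u v huv)⁻¹ := by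
  rw [incl_nuConjW]
  rfl

theorem nu_range_of_conj (hqN : ¬ q ∣ N) (x : Gamma0 N)
    (h : nuG0 u v huv * x * (nuG0 u v huv)⁻¹ ∈ (incl N q).range) : x ∈ (conjD N q).range := by
  have hc : Nat.Coprime q N := (Nat.Prime.coprime_iff_not_dvd hq.out).mpr hqN
  have hN := nu_cast_N_ne_zero (q := q) hqN
  have hinv : ataMat (nuG0 u v huv)⁻¹ = !![(q : ℤ), -v; -(N : ℤ), u] := by
    rw [ataMat_inv, ataMat_nuG0]
    ext i j
    fin_cases i <;> fin_cases j <;> simp
  have e : (!![u, v; (N : ℤ), (q : ℤ)] * ataMat x * !![(q : ℤ), -v; -(N : ℤ), u]) 1 0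
      = q * (N * ataMat x 0 0 + q * ataMat x 1 0)
        - N * (N * ataMat x 0 1 + q * ataMat x 1 1) := by
    simp only [Matrix.mul_apply, Fin.sum_univ_two, Matrix.of_apply, Matrix.cons_val_zero,
      Matrix.cons_val_one, Matrix.cons_val', Matrix.cons_val_fin_one]
    ring
  rw [nu_mem_incl_range_iff hc, nu_dvd_iff_cast, ataMat_mul, ataMat_mul, hinv,
    ataMat_nuG0, e] at h
  rw [nu_mem_conjD_range_iff, nu_dvd_iff_cast]
  simp only [Int.cast_sub, Int.cast_mul, Int.cast_add, Int.cast_natCast, ZMod.natCast_self,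
    zero_mul, mul_zero, add_zero, zero_sub] at h
  have h1 : ((N : ℤ) : ZMod q) * ((N : ℤ) : ZMod q) * ((ataMat x 0 1 : ℤ) : ZMod q) = 0 := by
    simp only [Int.cast_natCast]
    linear_combination -h
  rcases mul_eq_zero.mp h1 with h3 | h3
  · rcases mul_eq_zero.mp h3 with h4 | h4 <;> exact absurd h4 hN
  · exact h3

/-- `cores ψ = cores^δ (w ψ)` -/
theorem cores_eq_coresD_nuW (hqN : ¬ q ∣ N) (ψ : HomG (N * q) A) :
    cores N q A ψ = coresD N q A (nuW u v huv ψ) :=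
  transferAlong_conj (conjD N q) (incl N q) (conjD_injective N q) (incl_injective N q) A
    (nuConjW u v huv) (nuG0 u v huv) (nu_incl_nuConjW_eq u v huv)
    (nu_range_of_conj u v huv hqN) ψ

/-! ### `w² = 1` on `Hom(Γ₀(N q), A)` -/

/-- the integer matrix `W = g₀ δ = [[q u, v], [N q, q]]` -/
def nuWm : Matrix (Fin 2) (Fin 2) ℤ := ataMat (nuG0 u v huv) * (ataDelta q).mat

theorem nuWm_mul (γ : Gamma0 (N * q)) :
    nuWm u v huv * ataMat γ = ataMat (nuConjW u v huv γ) * nuWm u v huv := by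
  have h1 := ata_hint_incl N q γ
  have h3 := congrArg ataMat (incl_nuConjW_mul_G0 u v huv γ)
  rw [ataMat_mul, ataMat_mul] at h3
  have e1 : ataMat (incl N q γ) = ataMat γ := rfl
  have e2 : ataMat (incl N q (nuConjW u v huv γ)) = ataMat (nuConjW u v huv γ) := rfl
  rw [e1] at h1
  rw [e2] at h3
  unfold nuWm
  rw [Matrix.mul_assoc, h1, ← Matrix.mul_assoc, ← h3, Matrix.mul_assoc]

/-- `γ₀ ∈ Γ₀(N q)` with `W² = q γ₀` -/
def nuGam0 : Gamma0 (N * q) :=
  ataMk (N * q) ((q : ℤ) * u ^ 2 + N * v) (v * (u + 1)) (u + 1) (N * v + q) (by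
    push_cast
    linear_combination ((q : ℤ) * u - N * v + 1) * huv)

theorem nuWm_sq :
    nuWm u v huv * nuWm u v huv = (q : ℤ) • ataMat (nuGam0 u v huv) := by
  unfold nuWm
  rw [nuGam0, ataMat_mk, ataMat_nuG0]
  ext i j
  fin_cases i <;> fin_cases j <;>
    simp [ataDelta, HeckeRep.mat, Matrix.mul_apply, Fin.sum_univ_two] <;> ring

theorem nuConjW_nuConjW_mul (γ : Gamma0 (N * q)) :
    nuConjW u v huv (nuConjW u v huv γ) * nuGam0 u v huv = nuGam0 u v huv * γ := by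
  have hq' : (q : ℤ) ≠ 0 := by exact_mod_cast NeZero.ne q
  apply ataMat_injective
  apply nu_smul_mat_cancel hq'
  rw [ataMat_mul, ataMat_mul, ← Matrix.mul_smul, ← Matrix.smul_mul, ← nuWm_sq u v huv]
  calc ataMat (nuConjW u v huv (nuConjW u v huv γ)) * (nuWm u v huv * nuWm u v huv)
      = (ataMat (nuConjW u v huv (nuConjW u v huv γ)) * nuWm u v huv) * nuWm u v huv := by
        rw [Matrix.mul_assoc]
    _ = nuWm u v huv * (ataMat (nuConjW u v huv γ) * nuWm u v huv) := by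
        rw [← nuWm_mul, Matrix.mul_assoc]
    _ = nuWm u v huv * nuWm u v huv * ataMat γ := by
        rw [← nuWm_mul, Matrix.mul_assoc]

/-- `w (w ψ) = ψ` -/
theorem nuW_nuW (ψ : HomG (N * q) A) : nuW u v huv (nuW u v huv ψ) = ψ := by
  refine AddMonoidHom.ext fun g => ?_
  obtain ⟨γ, rfl⟩ : ∃ γ : Gamma0 (N * q), Additive.ofMul γ = g := ⟨Additive.toMul g, rfl⟩
  rw [nuW_apply, nuW_apply]
  have h := congrArg (fun x : Gamma0 (N * q) => ψ (Additive.ofMul x))
    (nuConjW_nuConjW_mul u v huv γ)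
  simp only [ofMul_mul, map_add] at h
  have h' : ψ (Additive.ofMul (nuConjW u v huv (nuConjW u v huv γ)))
      + ψ (Additive.ofMul (nuGam0 u v huv))
      = ψ (Additive.ofMul γ) + ψ (Additive.ofMul (nuGam0 u v huv)) := by
    rw [h, add_comm]
  exact add_right_cancel h'

/-! ### `U_q` preserves `ker(α†)` -/

/-- `cores^δ ψ = 0 ⇒ U_q ψ = − w ψ` -/
theorem heckeU_eq_neg_nuW (ψ : HomG (N * q) A) (h2 : coresD N q A ψ = 0) :
    heckeU (dvd_mul_left q N) ψ = -nuW u v huv ψ := by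
  refine AddMonoidHom.ext fun g => ?_
  obtain ⟨γ, rfl⟩ : ∃ γ : Gamma0 (N * q), Additive.ofMul γ = g := ⟨Additive.toMul g, rfl⟩
  have h := res_coresD_eq u v huv ψ γ
  rw [h2, AddMonoidHom.zero_apply] at h
  rw [AddMonoidHom.neg_apply]
  exact eq_neg_of_add_eq_zero_right h.symm

end concrete

/-- **(C4, second half)** `U_q` preserves the `q`-new part `ker(α†)`. -/
theorem cores_heckeU_eq_zero (N q : ℕ) [NeZero N] [NeZero q] [hq : Fact q.Prime]
    (hqN : ¬ q ∣ N) {A : Type*} [AddCommGroup A] (ψ : HomG (N * q) A)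
    (h1 : cores N q A ψ = 0) (h2 : coresD N q A ψ = 0) :
    cores N q A (heckeU (dvd_mul_left q N) ψ) = 0 ∧
      coresD N q A (heckeU (dvd_mul_left q N) ψ) = 0 := by
  have hc : Nat.Coprime q N := (Nat.Prime.coprime_iff_not_dvd hq.out).mpr hqN
  obtain ⟨u, v, huv⟩ := ata_bezout hc
  rw [heckeU_eq_neg_nuW u v huv ψ h2, map_neg, map_neg, neg_eq_zero, neg_eq_zero]
  constructor
  · rw [cores_eq_coresD_nuW u v huv hqN, nuW_nuW, h2]
  · rw [← cores_eq_coresD_nuW u v huv hqN, h1]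

theorem alphaT_heckeU_eq_zero (N q : ℕ) [NeZero N] [NeZero q] [Fact q.Prime]
    (hqN : ¬ q ∣ N) {A : Type*} [AddCommGroup A] (ψ : HomG (N * q) A)
    (h : alphaT N q A ψ = 0) : alphaT N q A (heckeU (dvd_mul_left q N) ψ) = 0 := by
  rw [alphaT_apply, Prod.mk_eq_zero] at h ⊢
  exact cores_heckeU_eq_zero N q hqN ψ h.1 h.2

/-- `U_q` preserves the `q`-new lattice `K = ker(α†) ∩ Hom_par(Γ₀(N q), ℤ)`. -/
theorem heckeU_mem_Knew (N q : ℕ) [NeZero N] [NeZero q] [Fact q.Prime] (hqN : ¬ q ∣ N)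
    {ψ : HomG (N * q) ℤ} (hψ : ψ ∈ Knew N q) : heckeU (dvd_mul_left q N) ψ ∈ Knew N q := by
  rw [Knew, AddSubgroup.mem_inf, AddMonoidHom.mem_ker] at hψ ⊢
  exact ⟨alphaT_heckeU_eq_zero N q hqN ψ hψ.1, heckeU_mem_Lpar (dvd_mul_left q N) hψ.2⟩

/-- `U_q² = 1` on the `q`-new lattice. -/
theorem heckeU_sq_of_mem_Knew (N q : ℕ) [NeZero N] [NeZero q] [Fact q.Prime] (hqN : ¬ q ∣ N)
    {ψ : HomG (N * q) ℤ} (hψ : ψ ∈ Knew N q) :
    heckeU (dvd_mul_left q N) (heckeU (dvd_mul_left q N) ψ) = ψ := by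
  rw [Knew, AddSubgroup.mem_inf, AddMonoidHom.mem_ker] at hψ
  exact heckeU_sq_of_mem_ker_alphaT N q hqN ψ hψ.1

end Fermat.Agent.S41
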