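import Fermat.Prelude.Def_ModularCurve_PeriodHomPair
import Fermat.Agent.S41.HeckeU

/-!
# S41, piece C5 (b) for `U_ℓ`: `U_ℓ` commutes with the involution `ι` (conjugation by `diag(1,−1)`)

`heckeU_charInvolution : heckeU hℓM (charInvolution M R A ψ) = charInvolution M R A (heckeU hℓM ψ)`
for every `ψ : Hom(Γ₀(M), A)`.

Proof. `J β_x J = T^{-ε(x)} β_{-x}` with `ε(x) = [x ≠ 0]` (the representatives are `0 ≤ x < ℓ`), so
conjugating the coset law by `J` gives `κ_U(JγJ, −x) = T^{ε(x)} · Jκ_U(γ, x)J · T^{-ε(x·γ)}` and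
`(−x)·(JγJ) = −(x·γ)`. The contributions of `T` cancel in the sum since `x ↦ x·γ` is a
permutation.
-/

set_option autoImplicit false

noncomputable section

namespace Fermat.Agent.S41

open Matrix Matrix.SpecialLinearGroup CongruenceSubgroup ModularForm ModularCurve.Period
open P2MW.S_ModularForm_heckeU_slash_eq_self_of_mem_Gamma0.ModularForm.HeckeSlashInvariance
open scoped MatrixGroups

/-- `J = diag(1, −1)` in `GL₂(ℝ)`. -/
def jGL : GL (Fin 2) ℝ :=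
  Matrix.GeneralLinearGroup.mkOfDetNeZero !![1, 0; 0, -1] (by
    rw [Matrix.det_fin_two_of]; norm_num)

@[simp] theorem val_jGL : ((jGL : GL (Fin 2) ℝ) : Matrix (Fin 2) (Fin 2) ℝ) = !![1, 0; 0, -1] := rfl

theorem jGL_mul_self : jGL * jGL = 1 := by
  apply Matrix.GeneralLinearGroup.ext
  intro i j
  fin_cases i <;> fin_cases j <;> simp [Matrix.mul_apply, Fin.sum_univ_two]

/-- `J g J = jConjSL g`. -/
theorem jGL_mul_mapGL (g : SL(2, ℤ)) : jGL * mapGL ℝ g * jGL = mapGL ℝ (jConjSL g) := by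
  apply Matrix.GeneralLinearGroup.ext
  intro i j
  have e : ∀ a b, ((jConjSL g : SL(2, ℤ)) a b : ℤ) = jConjMat (g : Matrix (Fin 2) (Fin 2) ℤ) a b :=
    fun a b => rfl
  rw [Matrix.GeneralLinearGroup.coe_mul, Matrix.GeneralLinearGroup.coe_mul, Matrix.mul_apply,
    Fin.sum_univ_two, Matrix.mul_apply, Matrix.mul_apply, Fin.sum_univ_two, Fin.sum_univ_two,
    mapGL_apply, mapGL_apply, mapGL_apply, mapGL_apply, mapGL_apply, e]
  fin_cases i <;> fin_cases j <;> simp [jConjMat]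

/-- the translation `T = [[1, 1], [0, 1]]` as an element of `Γ₀(M)` -/
def tGamma0 (M : ℕ) : Gamma0 M :=
  ⟨ModularGroup.T, by
    rw [Gamma0_mem]
    simp [ModularGroup.T]⟩

theorem coe_tGamma0_zpow (M : ℕ) (k : ℤ) :
    (((tGamma0 M ^ k : Gamma0 M) : SL(2, ℤ)) : Matrix (Fin 2) (Fin 2) ℤ) = !![1, k; 0, 1] := by
  rw [Subgroup.coe_zpow]
  show ((ModularGroup.T ^ k : SL(2, ℤ)) : Matrix (Fin 2) (Fin 2) ℤ) = _
  rw [ModularGroup.coe_T_zpow]

variable {ℓ : ℕ} [NeZero ℓ] {M : ℕ}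

/-- `J β_j J = t β_{j'}` if `j' = k ℓ − j` and `t = [[1, −k], [0, 1]]`. -/
theorem jGL_mul_heckeMatrix_aux (j j' : ℕ) (k : ℤ) (t : SL(2, ℤ))
    (ht : (t : Matrix (Fin 2) (Fin 2) ℤ) = !![1, -k; 0, 1]) (h : (j' : ℤ) = k * ℓ - j) :
    jGL * heckeMatrix ℓ j * jGL = mapGL ℝ t * heckeMatrix ℓ j' := by
  have hℓ : ℓ ≠ 0 := NeZero.ne ℓ
  have h' : (j' : ℝ) = k * ℓ - j := by exact_mod_cast h
  have h00 : (t 0 0 : ℤ) = 1 := by
    show (t : Matrix (Fin 2) (Fin 2) ℤ) 0 0 = 1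
    rw [ht]; rfl
  have h01 : (t 0 1 : ℤ) = -k := by
    show (t : Matrix (Fin 2) (Fin 2) ℤ) 0 1 = -k
    rw [ht]; rfl
  have h10 : (t 1 0 : ℤ) = 0 := by
    show (t : Matrix (Fin 2) (Fin 2) ℤ) 1 0 = 0
    rw [ht]; rfl
  have h11 : (t 1 1 : ℤ) = 1 := by
    show (t : Matrix (Fin 2) (Fin 2) ℤ) 1 1 = 1
    rw [ht]; rfl
  apply Matrix.GeneralLinearGroup.ext
  intro a b
  rw [Matrix.GeneralLinearGroup.coe_mul, Matrix.GeneralLinearGroup.coe_mul,
    Matrix.GeneralLinearGroup.coe_mul, Matrix.mul_apply, Matrix.mul_apply, Fin.sum_univ_two,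
    Fin.sum_univ_two, mapGL_apply, mapGL_apply]
  fin_cases a <;> fin_cases b <;>
    simp [Matrix.mul_apply, Fin.sum_univ_two, hℓ, h00, h01, h10, h11, h'] <;> ring

/-- `J β_j J = T^{-k} β_{j'}` if `j' = k ℓ − j`. -/
theorem jGL_mul_heckeMatrix (j j' : ℕ) (k : ℤ) (h : (j' : ℤ) = k * ℓ - j) :
    jGL * heckeMatrix ℓ j * jGL =
      mapGL ℝ (((tGamma0 M ^ (-k) : Gamma0 M) : SL(2, ℤ))) * heckeMatrix ℓ j' :=
  jGL_mul_heckeMatrix_aux j j' k _ (coe_tGamma0_zpow M (-k)) h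

/-- `ε(x) = [x ≠ 0]`. -/
def epsU (x : ZMod ℓ) : ℤ := if x = 0 then 0 else 1

theorem neg_val_eq (x : ZMod ℓ) : (((-x).val : ℕ) : ℤ) = epsU x * ℓ - x.val := by
  rw [ZMod.neg_val, epsU]
  split_ifs with h
  · simp [h]
  · rw [Nat.cast_sub (ZMod.val_le x)]
    ring

omit [NeZero ℓ] in
theorem idxU_jConj (g : SL(2, ℤ)) (x : ZMod ℓ) : idxU (jConjSL g) (-x) = -idxU g x := by
  simp only [idxU, jConjSL_coe, jConjMat_apply_one_one, jConjMat_apply_zero_one]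
  push_cast
  ring

/-- the coset law conjugated by `J` -/
theorem kapU_jConj (hℓM : ℓ ∣ M) (γ : Gamma0 M) (x : ZMod ℓ) :
    kapU hℓM (jConjGamma0 M γ) (-x) =
      tGamma0 M ^ (epsU x) * jConjGamma0 M (kapU hℓM γ x) *
        tGamma0 M ^ (-epsU (idxU (γ : SL(2, ℤ)) x)) := by
  apply kapU_unique
  rw [jConjGamma0_coe, idxU_jConj]
  have h1 := jGL_mul_heckeMatrix (M := M) x.val (-x).val (epsU x) (neg_val_eq x)
  have h2 := jGL_mul_heckeMatrix (M := M) (idxU (γ : SL(2, ℤ)) x).val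
    (-idxU (γ : SL(2, ℤ)) x).val (epsU (idxU (γ : SL(2, ℤ)) x)) (neg_val_eq _)
  have h3 := kapU_spec hℓM γ x
  -- `β_{-x} = T^{ε(x)} J β_x J`
  have e1 : heckeMatrix ℓ (-x).val =
      mapGL ℝ (((tGamma0 M ^ (epsU x) : Gamma0 M) : SL(2, ℤ))) * (jGL * heckeMatrix ℓ x.val * jGL) := by
    rw [h1, ← mul_assoc, ← map_mul, ← Subgroup.coe_mul, ← _root_.zpow_add, add_neg_cancel, zpow_zero,
      Subgroup.coe_one, map_one, one_mul]
  rw [e1, ← jGL_mul_mapGL]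
  have e2 : mapGL ℝ (((tGamma0 M ^ (epsU x) : Gamma0 M) : SL(2, ℤ))) *
      (jGL * heckeMatrix ℓ x.val * jGL) * (jGL * mapGL ℝ (γ : SL(2, ℤ)) * jGL) =
      mapGL ℝ (((tGamma0 M ^ (epsU x) : Gamma0 M) : SL(2, ℤ))) *
        (jGL * (heckeMatrix ℓ x.val * mapGL ℝ (γ : SL(2, ℤ))) * jGL) := by
    have : jGL * heckeMatrix ℓ x.val * jGL * (jGL * mapGL ℝ (γ : SL(2, ℤ)) * jGL) =
        jGL * heckeMatrix ℓ x.val * (jGL * jGL) * mapGL ℝ (γ : SL(2, ℤ)) * jGL := by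
      simp only [mul_assoc]
    rw [mul_assoc, this, jGL_mul_self, mul_one]
    simp only [mul_assoc]
  rw [e2, h3]
  have e3 : jGL * (mapGL ℝ ((kapU hℓM γ x : Gamma0 M) : SL(2, ℤ)) *
      heckeMatrix ℓ (idxU (γ : SL(2, ℤ)) x).val) * jGL =
      (jGL * mapGL ℝ ((kapU hℓM γ x : Gamma0 M) : SL(2, ℤ)) * jGL) *
        (jGL * heckeMatrix ℓ (idxU (γ : SL(2, ℤ)) x).val * jGL) := by
    have : jGL * mapGL ℝ ((kapU hℓM γ x : Gamma0 M) : SL(2, ℤ)) * jGL *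
        (jGL * heckeMatrix ℓ (idxU (γ : SL(2, ℤ)) x).val * jGL) =
        jGL * mapGL ℝ ((kapU hℓM γ x : Gamma0 M) : SL(2, ℤ)) * (jGL * jGL) *
          heckeMatrix ℓ (idxU (γ : SL(2, ℤ)) x).val * jGL := by
      simp only [mul_assoc]
    rw [this, jGL_mul_self, mul_one]
    simp only [mul_assoc]
  rw [e3, jGL_mul_mapGL, h2]
  simp only [Subgroup.coe_mul, map_mul, jConjGamma0_coe, mul_assoc]

section hom

variable {A : Type*} [AddCommGroup A]

theorem map_tGamma0_zpow (ψ : HomG M A) (k : ℤ) :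
    ψ (Additive.ofMul (tGamma0 M ^ k)) = k • ψ (Additive.ofMul (tGamma0 M)) := by
  rw [ofMul_zpow, map_zsmul]

/-- **`U_ℓ` commutes with `ι`**, pointwise form. -/
theorem heckeU_comp_jConj (hℓM : ℓ ∣ M) (ψ : HomG M A) :
    heckeU hℓM (ψ.comp (MonoidHom.toAdditive (jConjGamma0 M))) =
      (heckeU hℓM ψ).comp (MonoidHom.toAdditive (jConjGamma0 M)) := by
  refine AddMonoidHom.ext fun γ => ?_
  obtain ⟨γ, rfl⟩ : ∃ γ' : Gamma0 M, Additive.ofMul γ' = γ := ⟨Additive.toMul γ, rfl⟩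
  rw [heckeU_apply, AddMonoidHom.comp_apply]
  have hr : (MonoidHom.toAdditive (jConjGamma0 M)) (Additive.ofMul γ) =
      Additive.ofMul (jConjGamma0 M γ) := rfl
  rw [hr, heckeU_apply]
  -- reindex the right-hand side by `x ↦ -x`
  rw [← Equiv.sum_comp (Equiv.neg (ZMod ℓ))
    (fun y => ψ (Additive.ofMul (kapU hℓM (jConjGamma0 M γ) y)))]
  simp only [Equiv.neg_apply]
  have hterm : ∀ x : ZMod ℓ, ψ (Additive.ofMul (kapU hℓM (jConjGamma0 M γ) (-x))) =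
      ψ (Additive.ofMul (jConjGamma0 M (kapU hℓM γ x))) +
        (epsU x • ψ (Additive.ofMul (tGamma0 M)) -
          epsU (idxU (γ : SL(2, ℤ)) x) • ψ (Additive.ofMul (tGamma0 M))) := by
    intro x
    rw [kapU_jConj, ofMul_mul, ofMul_mul, map_add, map_add, map_tGamma0_zpow,
      map_tGamma0_zpow, neg_smul]
    abel
  simp only [hterm, Finset.sum_add_distrib, Finset.sum_sub_distrib]
  have hperm : ∑ x : ZMod ℓ, epsU (idxU (γ : SL(2, ℤ)) x) • ψ (Additive.ofMul (tGamma0 M)) =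
      ∑ x : ZMod ℓ, epsU x • ψ (Additive.ofMul (tGamma0 M)) :=
    Equiv.sum_comp (idxPermU hℓM γ) (fun x => epsU x • ψ (Additive.ofMul (tGamma0 M)))
  rw [hperm, sub_self, add_zero]
  rfl

/-- **`U_ℓ` commutes with the prelude's `charInvolution`.** -/
theorem heckeU_charInvolution (hℓM : ℓ ∣ M) (R : Type*) [Semiring R] [Module R A]
    (ψ : HomG M A) :
    heckeU hℓM (charInvolution M R A ψ) = charInvolution M R A (heckeU hℓM ψ) :=
  heckeU_comp_jConj hℓM ψ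

end hom

end Fermat.Agent.S41
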