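import Fermat.Agent.S41.TransferFormula
import Fermat.Agent.S41.HeckeUInv
import Fermat.Prelude.Def_ModularCurve_PeriodHomPair

/-!
# S41, piece C5 (b): the degeneracy maps and `T_ℓ` commute with the involution `ι`

`ι = ModularCurve.Period.charInvolution` is composition with `γ ↦ J γ J`, `J = diag(1, -1)`.

* `transferAlong_equivariant` : the transfer is compatible with a pair of compatible automorphisms;
* `charInv_res`, `charInv_resD`, `charInv_cores`, `charInv_coresD`;
* `charInv_Tc` : `T_ℓ (ι φ) = ι (T_ℓ φ)` for `ℓ ∤ M`.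
-/

set_option autoImplicit false
set_option linter.style.haveILetI false

noncomputable section

namespace Fermat.Agent.S41

open CongruenceSubgroup Matrix Matrix.SpecialLinearGroup ModularForm ModularCurve.Period
open P2MW.S_ModularForm_heckeT_slash_eq_self_of_mem_Gamma0.ModularForm.HeckeSlashInvariance
open Fermat.Agent.ES.HeckeP
open scoped MatrixGroups Pointwise OnePoint

section abstract

variable {G H : Type*} [Group G] [Group H] (f : H →* G)

/-- the permutation of `G ⧸ f.range` induced by an automorphism of `G` preserving `f.range` -/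
def cosetPerm (aG : G ≃* G) (hr : ∀ x : G, aG x ∈ f.range ↔ x ∈ f.range) :
    (G ⧸ f.range) ≃ (G ⧸ f.range) :=
  Quotient.congr aG.toEquiv (fun a b => by
    rw [QuotientGroup.leftRel_apply, QuotientGroup.leftRel_apply]
    show a⁻¹ * b ∈ f.range ↔ (aG a)⁻¹ * aG b ∈ f.range
    rw [← map_inv, ← map_mul, hr])

theorem cosetPerm_mk (aG : G ≃* G) (hr : ∀ x : G, aG x ∈ f.range ↔ x ∈ f.range) (x : G) :
    cosetPerm f aG hr (QuotientGroup.mk x : G ⧸ f.range) = (QuotientGroup.mk (aG x) : G ⧸ f.range) :=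
  rfl

theorem cosetPerm_smul (aG : G ≃* G) (hr : ∀ x : G, aG x ∈ f.range ↔ x ∈ f.range) (g : G)
    (q : G ⧸ f.range) : cosetPerm f aG hr (g • q) = aG g • cosetPerm f aG hr q := by
  induction q using QuotientGroup.induction_on with
  | H x =>
    show cosetPerm f aG hr (QuotientGroup.mk (g * x) : G ⧸ f.range) = _
    rw [cosetPerm_mk, cosetPerm_mk, map_mul]
    rfl

theorem range_iff_of_comp (aH : H →* H) (aG : G ≃* G) (hcomp : ∀ h, aG (f h) = f (aH h))
    (hsurj : Function.Surjective aH) (x : G) : aG x ∈ f.range ↔ x ∈ f.range := by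
  constructor
  · rintro ⟨h, hh⟩
    obtain ⟨h', rfl⟩ := hsurj h
    rw [← hcomp] at hh
    exact ⟨h', aG.injective hh⟩
  · rintro ⟨h, rfl⟩
    exact ⟨aH h, (hcomp h).symm⟩

variable (hf : Function.Injective f) (A : Type*) [AddCommGroup A] [f.range.FiniteIndex]


/-- **Equivariance of the transfer** under a pair of compatible automorphisms. -/
theorem transferAlong_equivariant (aH : H →* H) (aG : G ≃* G)
    (hcomp : ∀ h, aG (f h) = f (aH h)) (hsurj : Function.Surjective aH) (ψ : Additive H →+ A) :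
    transferAlong A f hf (ψ.comp (MonoidHom.toAdditive aH))
      = (transferAlong A f hf ψ).comp (MonoidHom.toAdditive aG.toMonoidHom) := by
  classical
  letI := f.range.fintypeQuotientOfFiniteIndex
  have hr := range_iff_of_comp f aH aG hcomp hsurj
  obtain ⟨σ, hσmk, hσsmul⟩ : ∃ σ : (G ⧸ f.range) ≃ (G ⧸ f.range),
      (∀ x : G, σ (QuotientGroup.mk x : G ⧸ f.range) = (QuotientGroup.mk (aG x) : G ⧸ f.range)) ∧
      (∀ (g : G) (q : G ⧸ f.range), σ (g • q) = aG g • σ q) :=
    ⟨cosetPerm f aG hr, cosetPerm_mk f aG hr, cosetPerm_smul f aG hr⟩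
  refine AddMonoidHom.ext fun g => ?_
  obtain ⟨g, rfl⟩ : ∃ g' : G, Additive.ofMul g' = g := ⟨Additive.toMul g, rfl⟩
  show transferAlong A f hf (ψ.comp (MonoidHom.toAdditive aH)) (Additive.ofMul g)
    = transferAlong A f hf ψ (Additive.ofMul (aG g))
  rw [transferAlong_eq_sum, transferAlong_eq_sum]
  -- the correction terms
  have hc : ∀ q : G ⧸ f.range, ∃ c : H, aG (tRep f q) = tRep f (σ q) * f c := by
    intro q
    have h1 : (QuotientGroup.mk (aG (tRep f q)) : G ⧸ f.range)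
        = QuotientGroup.mk (tRep f (σ q)) := by
      rw [← hσmk, tRep_mk, tRep_mk]
    have h2 : (tRep f (σ q))⁻¹ * aG (tRep f q) ∈ f.range := QuotientGroup.eq.mp h1.symm
    obtain ⟨c, hc⟩ := h2
    exact ⟨c, by rw [hc, mul_inv_cancel_left]⟩
  choose c hc using hc
  have key : ∀ q : G ⧸ f.range,
      aH (tCoc f hf q g) = (c q)⁻¹ * tCoc f hf (σ q) (aG g) * c (g⁻¹ • q) := by
    intro q
    apply hf
    rw [← hcomp, f_tCoc, map_mul, map_mul, map_inv, map_mul, map_mul, map_inv, f_tCoc, hc q,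
      hc (g⁻¹ • q), hσsmul, map_inv]
    group
  have h1 : ∀ q : G ⧸ f.range,
      (ψ.comp (MonoidHom.toAdditive aH)) (Additive.ofMul (tCoc f hf q g))
        = ψ (Additive.ofMul (tCoc f hf (σ q) (aG g)))
          + (ψ (Additive.ofMul (c (g⁻¹ • q))) - ψ (Additive.ofMul (c q))) := by
    intro q
    show ψ (Additive.ofMul (aH (tCoc f hf q g))) = _
    rw [key, ofMul_mul, ofMul_mul, ofMul_inv, map_add, map_add, map_neg]
    abel
  simp only [h1]
  rw [Finset.sum_add_distrib, Finset.sum_sub_distrib]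
  have h2 : ∑ q : G ⧸ f.range, ψ (Additive.ofMul (c (g⁻¹ • q)))
      = ∑ q : G ⧸ f.range, ψ (Additive.ofMul (c q)) :=
    Equiv.sum_comp (MulAction.toPerm g⁻¹ : Equiv.Perm (G ⧸ f.range))
      (fun q => ψ (Additive.ofMul (c q)))
  have h3 : ∑ q : G ⧸ f.range, ψ (Additive.ofMul (tCoc f hf (σ q) (aG g)))
      = ∑ q : G ⧸ f.range, ψ (Additive.ofMul (tCoc f hf q (aG g))) :=
    Equiv.sum_comp σ (fun q => ψ (Additive.ofMul (tCoc f hf q (aG g))))
  rw [h2, sub_self, add_zero, h3]

end abstract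

section degeneracy

variable (N q : ℕ)

/-- `γ ↦ J γ J` as an automorphism of `Γ₀(M)`. -/
def jEquiv (M : ℕ) : Gamma0 M ≃* Gamma0 M :=
  { jConjGamma0 M with
    invFun := jConjGamma0 M
    left_inv := jConjGamma0_jConjGamma0 M
    right_inv := jConjGamma0_jConjGamma0 M }

@[simp] theorem jEquiv_apply (M : ℕ) (γ : Gamma0 M) : jEquiv M γ = jConjGamma0 M γ := rfl

theorem jEquiv_toMonoidHom (M : ℕ) : (jEquiv M).toMonoidHom = jConjGamma0 M := rfl

theorem jConjGamma0_surjective (M : ℕ) : Function.Surjective (jConjGamma0 M) :=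
  (jEquiv M).surjective

theorem incl_jConj (γ : Gamma0 (N * q)) :
    jConjGamma0 N (incl N q γ) = incl N q (jConjGamma0 (N * q) γ) := rfl

theorem conjDMat_jConjMat {A : Matrix (Fin 2) (Fin 2) ℤ} (h : (q : ℤ) ∣ A 1 0) :
    conjDMat q (jConjMat A) = jConjMat (conjDMat q A) := by
  ext i j
  fin_cases i <;> fin_cases j
  · simp [conjDMat, jConjMat]
  · simp [conjDMat, jConjMat]
  · show (conjDMat q (jConjMat A)) 1 0 = (jConjMat (conjDMat q A)) 1 0
    simp only [conjDMat, jConjMat, Matrix.of_apply, Matrix.cons_val_zero, Matrix.cons_val_one,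
      Matrix.cons_val', Matrix.cons_val_fin_one]
    exact Int.neg_ediv_of_dvd h
  · simp [conjDMat, jConjMat]

theorem conjD_jConj [NeZero q] (γ : Gamma0 (N * q)) :
    jConjGamma0 N (conjD N q γ) = conjD N q (jConjGamma0 (N * q) γ) := by
  apply Subtype.ext; apply Subtype.ext
  show jConjMat (conjDMat q ((γ : SL(2, ℤ)) : Matrix (Fin 2) (Fin 2) ℤ))
    = conjDMat q (jConjMat ((γ : SL(2, ℤ)) : Matrix (Fin 2) (Fin 2) ℤ))
  rw [conjDMat_jConjMat q (dvd_q_of_mem N q γ.2)]

variable (R : Type*) [Semiring R] (A : Type*) [AddCommGroup A] [Module R A]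

/-- `res` commutes with `ι`. -/
theorem charInv_res (φ : HomG N A) :
    res N q A (charInvolution N R A φ) = charInvolution (N * q) R A (res N q A φ) := rfl

/-- `res^δ` commutes with `ι`. -/
theorem charInv_resD [NeZero q] (φ : HomG N A) :
    resD N q A (charInvolution N R A φ) = charInvolution (N * q) R A (resD N q A φ) := by
  refine AddMonoidHom.ext fun γ => ?_
  obtain ⟨γ, rfl⟩ : ∃ γ' : Gamma0 (N * q), Additive.ofMul γ' = γ := ⟨Additive.toMul γ, rfl⟩
  show φ (Additive.ofMul (jConjGamma0 N (conjD N q γ)))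
    = φ (Additive.ofMul (conjD N q (jConjGamma0 (N * q) γ)))
  rw [conjD_jConj]

/-- `cores` commutes with `ι`. -/
theorem charInv_cores [NeZero N] [NeZero q] (ψ : HomG (N * q) A) :
    cores N q A (charInvolution (N * q) R A ψ) = charInvolution N R A (cores N q A ψ) :=
  transferAlong_equivariant (incl N q) (incl_injective N q) A (jConjGamma0 (N * q)) (jEquiv N)
    (fun γ => incl_jConj N q γ) (jConjGamma0_surjective _) ψ

/-- `cores^δ` commutes with `ι`. -/
theorem charInv_coresD [NeZero N] [NeZero q] (ψ : HomG (N * q) A) :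
    coresD N q A (charInvolution (N * q) R A ψ) = charInvolution N R A (coresD N q A ψ) :=
  transferAlong_equivariant (conjD N q) (conjD_injective N q) A (jConjGamma0 (N * q)) (jEquiv N)
    (fun γ => conjD_jConj N q γ) (jConjGamma0_surjective _) ψ

end degeneracy

section Tc

variable {p : ℕ} [Fact p.Prime] {M : ℕ}

/-- `J̄ = diag(1, -1)` in `GL₂(𝔽_p)`. -/
def jBarGL (p : ℕ) [Fact p.Prime] : GL (Fin 2) (ZMod p) :=
  Matrix.GeneralLinearGroup.mkOfDetNeZero !![1, 0; 0, -1] (by
    rw [Matrix.det_fin_two_of]; simp)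

theorem jBarGL_mul_self : jBarGL p * jBarGL p = 1 := by
  apply Matrix.GeneralLinearGroup.ext
  intro i j
  fin_cases i <;> fin_cases j <;> simp [jBarGL, Matrix.mul_apply, Fin.sum_univ_two]

theorem redMatrix_jConjSL (g : SL(2, ℤ)) :
    redMatrix p (jConjSL g) = jBarGL p * redMatrix p g * jBarGL p := by
  apply Matrix.GeneralLinearGroup.ext
  intro i j
  fin_cases i <;> fin_cases j <;>
    simp [jBarGL, redMatrix, Matrix.mul_apply, Fin.sum_univ_two, jConjMat]

theorem jBarGL_smul_infty : jBarGL p • (∞ : OnePoint (ZMod p)) = ∞ := by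
  rw [OnePoint.smul_infty_eq_ite]
  simp [jBarGL]

theorem jBarGL_smul_coe (x : ZMod p) : jBarGL p • (x : OnePoint (ZMod p)) = ((-x : ZMod p) : OnePoint (ZMod p)) := by
  rw [OnePoint.smul_some_eq_ite]
  simp [jBarGL, div_neg]

theorem jBarGL_smul_smul (x : OnePoint (ZMod p)) : jBarGL p • jBarGL p • x = x := by
  rw [smul_smul, jBarGL_mul_self, one_smul]

theorem idx_jConjSL (g : SL(2, ℤ)) (x : OnePoint (ZMod p)) :
    idx (jConjSL g) (jBarGL p • x) = jBarGL p • idx g x := by
  rw [idx, idx, redMatrix_jConjSL, mul_smul, mul_smul, jBarGL_smul_smul]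

/-- `ε(x) = [x ≠ 0, ∞]`. -/
def epsT (x : OnePoint (ZMod p)) : ℤ := x.elim 0 (fun j => epsU j)

omit [Fact p.Prime] in
@[simp] theorem epsT_infty : epsT (∞ : OnePoint (ZMod p)) = 0 := rfl

omit [Fact p.Prime] in
@[simp] theorem epsT_coe (j : ZMod p) : epsT (j : OnePoint (ZMod p)) = epsU j := rfl

theorem jGL_mul_heckeDiagMatrix : jGL * heckeDiagMatrix p * jGL = heckeDiagMatrix p := by
  have hp : p ≠ 0 := (Fact.out : p.Prime).ne_zero
  apply Matrix.GeneralLinearGroup.ext
  intro a b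
  rw [Matrix.GeneralLinearGroup.coe_mul, Matrix.GeneralLinearGroup.coe_mul]
  fin_cases a <;> fin_cases b <;> simp [Matrix.mul_apply, Fin.sum_univ_two, hp]

/-- `J α_x J = T^{-ε(x)} α_{J̄ x}`. -/
theorem jGL_mul_heckeRep (x : OnePoint (ZMod p)) :
    jGL * heckeRep p x * jGL =
      mapGL ℝ (((tGamma0 M ^ (-epsT x) : Gamma0 M) : SL(2, ℤ))) * heckeRep p (jBarGL p • x) := by
  have : NeZero p := ⟨(Fact.out : p.Prime).ne_zero⟩
  induction x using OnePoint.rec with
  | infty =>
    rw [jBarGL_smul_infty, epsT_infty, neg_zero, zpow_zero, Subgroup.coe_one, map_one, one_mul,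
      heckeRep_infty, jGL_mul_heckeDiagMatrix]
  | coe j =>
    rw [jBarGL_smul_coe, epsT_coe, heckeRep_coe, heckeRep_coe]
    exact jGL_mul_heckeMatrix (M := M) j.val (-j).val (epsU j) (neg_val_eq j)

theorem conj_rel_aux {Gp : Type*} [Group Gp] (J a g k b a' b' t t' : Gp) (hJ : J * J = 1)
    (h : a * g = k * b) (ha : J * a * J = t⁻¹ * a') (hb : J * b * J = t'⁻¹ * b') :
    a' * (J * g * J) = (t * (J * k * J) * t'⁻¹) * b' := by
  have ha' : a' = t * (J * a * J) := by rw [ha, mul_inv_cancel_left]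
  have hb' : b' = t' * (J * b * J) := by rw [hb, mul_inv_cancel_left]
  have hJ' : ∀ X : Gp, J * (J * X) = X := fun X => by rw [← mul_assoc, hJ, one_mul]
  have h' : ∀ X : Gp, a * (g * X) = k * (b * X) := fun X => by
    rw [← mul_assoc, h, mul_assoc]
  rw [ha', hb']
  simp only [mul_assoc, hJ', h', inv_mul_cancel_left]

theorem mapGL_tGamma0_neg (k : ℤ) :
    mapGL ℝ (((tGamma0 M ^ (-k) : Gamma0 M) : SL(2, ℤ)))
      = (mapGL ℝ (((tGamma0 M ^ k : Gamma0 M) : SL(2, ℤ))))⁻¹ := by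
  rw [_root_.zpow_neg, Subgroup.coe_inv, map_inv]

/-- the coset law conjugated by `J` -/
theorem kap_jConj (hpM : ¬ p ∣ M) (γ : Gamma0 M) (x : OnePoint (ZMod p)) :
    kap hpM (jConjGamma0 M γ) (jBarGL p • x) =
      tGamma0 M ^ (epsT x) * jConjGamma0 M (kap hpM γ x) *
        tGamma0 M ^ (-epsT (idx (γ : SL(2, ℤ)) x)) := by
  apply kap_unique
  rw [jConjGamma0_coe, idx_jConjSL]
  have h1 := jGL_mul_heckeRep (M := M) x
  have h2 := jGL_mul_heckeRep (M := M) (idx (γ : SL(2, ℤ)) x)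
  have h3 := kap_spec hpM γ x
  rw [mapGL_tGamma0_neg] at h1 h2
  have := conj_rel_aux jGL _ _ _ _ _ _ _ _ jGL_mul_self h3 h1 h2
  rw [jGL_mul_mapGL, jGL_mul_mapGL] at this
  rw [this]
  simp only [Subgroup.coe_mul, map_mul, jConjGamma0_coe, mapGL_tGamma0_neg]

section hom

variable {A : Type*} [AddCommGroup A]

/-- **`T_p` commutes with `ι`**, pointwise form. -/
theorem heckeHom_comp_jConj (hpM : ¬ p ∣ M) (φ : HomG M A) :
    heckeHom hpM (φ.comp (MonoidHom.toAdditive (jConjGamma0 M))) =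
      (heckeHom hpM φ).comp (MonoidHom.toAdditive (jConjGamma0 M)) := by
  refine AddMonoidHom.ext fun γ => ?_
  obtain ⟨γ, rfl⟩ : ∃ γ' : Gamma0 M, Additive.ofMul γ' = γ := ⟨Additive.toMul γ, rfl⟩
  rw [heckeHom_apply, AddMonoidHom.comp_apply]
  have hr : (MonoidHom.toAdditive (jConjGamma0 M)) (Additive.ofMul γ) =
      Additive.ofMul (jConjGamma0 M γ) := rfl
  rw [hr, heckeHom_apply]
  -- reindex the right-hand side by `x ↦ J̄ x`
  rw [← Equiv.sum_comp (MulAction.toPerm (jBarGL p) : Equiv.Perm (OnePoint (ZMod p)))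
    (fun y => φ (Additive.ofMul (kap hpM (jConjGamma0 M γ) y)))]
  simp only [MulAction.toPerm_apply]
  have hterm : ∀ x : OnePoint (ZMod p),
      φ (Additive.ofMul (kap hpM (jConjGamma0 M γ) (jBarGL p • x))) =
      φ (Additive.ofMul (jConjGamma0 M (kap hpM γ x))) +
        (epsT x • φ (Additive.ofMul (tGamma0 M)) -
          epsT (idx (γ : SL(2, ℤ)) x) • φ (Additive.ofMul (tGamma0 M))) := by
    intro x
    rw [kap_jConj, ofMul_mul, ofMul_mul, map_add, map_add, map_tGamma0_zpow,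
      map_tGamma0_zpow, neg_smul]
    abel
  simp only [hterm, Finset.sum_add_distrib, Finset.sum_sub_distrib]
  have hperm : ∑ x : OnePoint (ZMod p), epsT (idx (γ : SL(2, ℤ)) x) • φ (Additive.ofMul (tGamma0 M))
      = ∑ x : OnePoint (ZMod p), epsT x • φ (Additive.ofMul (tGamma0 M)) :=
    Equiv.sum_comp (idxPerm (γ : SL(2, ℤ))) (fun x => epsT x • φ (Additive.ofMul (tGamma0 M)))
  rw [hperm, sub_self, add_zero]
  rfl

/-- **`T_ℓ` commutes with the prelude's `charInvolution`.** -/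
theorem charInv_Tc (ℓ : ℕ) [Fact ℓ.Prime] (hℓ : ¬ ℓ ∣ M) (R : Type*) [Semiring R] [Module R A]
    (φ : HomG M A) :
    Tc ℓ hℓ (charInvolution M R A φ) = charInvolution M R A (Tc ℓ hℓ φ) :=
  heckeHom_comp_jConj hℓ φ

end hom

end Tc

end Fermat.Agent.S41
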