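import Mathlib
import Fermat.Prelude.Def_FLTPrelim_ModularRep
import Fermat.Prelude.Def_FLTPrelim_Ramification
import Fermat.Prelude.Def_EllipticCurve_FrobeniusTrace
import Fermat.Agent.EC.VarChange
import Fermat.Agent.EC.Tors

/-!
# S41 / R4 (NonEis), core glue (helper6)

`E` an elliptic curve over `ℚ`, `W` an integral model of `E` (`C • E = W_ℚ`).

* `nonEis_bad` : the finite set of primes excluded for `W`, `p` and a given `S`;
* `nonEis_rel_transport` : a Frobenius relation on the torsion points of `W_ℚ(ℚ̄)` gives the same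
  relation on the torsion points of `E(ℚ̄)` (transport along the change of variables,
  `EC.vc_transport`);
* `stmtNonEis_of` : the statement `(NONEIS)` of `S41/Plan.lean` (unfolded) from
  - `LinkStmt`  (= `RED.frobenius_relation_of_torsion`, helper13) and
  - `AbsNonEisStmt` (= the abstract non-Eisenstein theorem of `EC/DetChar.lean`, helper40).
-/

set_option autoImplicit false
set_option linter.unusedSectionVars false

namespace Fermat.Agent.S41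

open WeierstrassCurve WeierstrassCurve.Affine WeierstrassCurve.Affine.Point

local notation "Qbar" => AlgebraicClosure ℚ
local notation "GQ" => (AlgebraicClosure ℚ ≃ₐ[ℚ] AlgebraicClosure ℚ)

/-- The Frobenius relation on torsion points of the integral model (helper13's RED LINK). -/
def LinkStmt : Prop :=
  ∀ (W : WeierstrassCurve ℤ) {ℓ : ℕ}, ℓ.Prime → ℓ ≠ 2 → W.IsGoodPrimeFor ℓ →
    ∀ (A : ValuationSubring Qbar), A.LiesOverPrime ℓ →
    ∀ (τ : GQ), A.IsFrobeniusAt τ ℓ → ∀ {n : ℕ}, ¬ ℓ ∣ n →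
    ∀ (P : ((W.map (Int.castRingHom ℚ)).toAffine⁄Qbar).Point), n • P = 0 →
      τ • τ • P - W.apOfModel ℓ • τ • P + (ℓ : ℤ) • P = 0

/-- transport of a relation along the change of variables -/
theorem nonEis_rel_transport (E W₁ : WeierstrassCurve ℚ) (C : VariableChange ℚ)
    (h : C • E = W₁) (τ : GQ) (a b : ℤ) (n : ℕ)
    (hrel : ∀ P : (W₁⁄Qbar).toAffine.Point, n • P = 0 → τ • τ • P - a • τ • P + b • P = 0)
    (Q : (E⁄Qbar).toAffine.Point) (hQ : n • Q = 0) :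
    τ • τ • Q - a • τ • Q + b • Q = 0 := by
  obtain ⟨e, he⟩ := Fermat.Agent.EC.vc_transport (K := Qbar) W₁ E C h
  have hP : n • e.symm Q = 0 := by
    rw [← map_nsmul, hQ, _root_.map_zero]
  have := congrArg e (hrel (e.symm Q) hP)
  simpa only [_root_.map_zero, map_add, map_sub, map_zsmul, he, e.apply_symm_apply] using this

/-- The abstract non-Eisenstein statement (helper40's `EC/DetChar.lean`): from `#E[p] = p²`, the
Frobenius relations outside a finite set `S₀` and irreducibility. -/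
def AbsNonEisStmt : Prop :=
  ∀ (E : WeierstrassCurve ℚ) (p : ℕ), p.Prime → p ≠ 2 →
    Nat.card (Submodule.torsionBy ℤ (E⁄Qbar).toAffine.Point ((p : ℕ) : ℤ)) = p ^ 2 →
    ∀ (a : ℕ → ℤ) (S₀ : Finset ℕ),
      (∀ ℓ : ℕ, ℓ.Prime → ℓ ∉ S₀ → ∀ A : ValuationSubring Qbar, A.LiesOverPrime ℓ →
        ∀ τ : GQ, A.IsFrobeniusAt τ ℓ →
        ∀ x : Submodule.torsionBy ℤ (E⁄Qbar).toAffine.Point ((p : ℕ) : ℤ),
          τ • τ • x - a ℓ • τ • x + (ℓ : ℤ) • x = 0) →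
      GaloisRepIsIrreducible (K := Qbar) ℚ E p →
      ∃ ℓ : ℕ, ℓ.Prime ∧ ℓ ∉ S₀ ∧ ¬ ((p : ℤ) ∣ a ℓ - (ℓ + 1))

/-- the discriminant of an integral model of an elliptic curve is nonzero -/
theorem nonEis_Δ_ne_zero (E : WeierstrassCurve ℚ) [E.IsElliptic] (W : WeierstrassCurve ℤ)
    (hW : W.IsIntegralModelOf E) : W.Δ ≠ 0 := by
  obtain ⟨C, hC⟩ := hW
  intro h0
  have h1 : (C • E).Δ = 0 := by
    rw [hC, WeierstrassCurve.map_Δ, h0, _root_.map_zero]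
  rw [WeierstrassCurve.variableChange_Δ] at h1
  have hu : ((C.u⁻¹ : ℚˣ) : ℚ) ^ 12 ≠ 0 := pow_ne_zero _ (Units.ne_zero _)
  exact E.isUnit_Δ.ne_zero ((mul_eq_zero.1 h1).resolve_left hu)

/-- the finite set of primes excluded in `(NONEIS)` -/
noncomputable def nonEis_bad (W : WeierstrassCurve ℤ) (p : ℕ) (S : Finset ℕ) : Finset ℕ :=
  S ∪ {2, p} ∪ W.Δ.natAbs.primeFactors

lemma nonEis_not_mem_bad {W : WeierstrassCurve ℤ} (hΔ : W.Δ ≠ 0) {p : ℕ} {S : Finset ℕ}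
    {ℓ : ℕ} (hℓ : ℓ.Prime) (h : ℓ ∉ nonEis_bad W p S) :
    ℓ ∉ S ∧ ℓ ≠ 2 ∧ ℓ ≠ p ∧ W.IsGoodPrimeFor ℓ := by
  simp only [nonEis_bad, Finset.mem_union, Finset.mem_insert, Finset.mem_singleton,
    not_or] at h
  obtain ⟨⟨h1, h2, h3⟩, h4⟩ := h
  refine ⟨h1, h2, h3, ?_⟩
  intro hdvd
  apply h4
  rw [Nat.mem_primeFactors]
  exact ⟨hℓ, Int.natCast_dvd.1 hdvd, Int.natAbs_ne_zero.2 hΔ⟩

/-- `#E[p] = p²` for an elliptic curve over `ℚ`. -/
theorem nonEis_card (E : WeierstrassCurve ℚ) [E.IsElliptic] {p : ℕ} (hp : p.Prime) :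
    Nat.card (Submodule.torsionBy ℤ (E⁄Qbar).toAffine.Point ((p : ℕ) : ℤ)) = p ^ 2 := by
  have hΔ : (E⁄Qbar).Δ ≠ 0 := by
    change (E.map (algebraMap ℚ Qbar)).Δ ≠ 0
    rw [WeierstrassCurve.map_Δ]
    exact (_root_.map_ne_zero _).2 E.isUnit_Δ.ne_zero
  exact Fermat.Agent.EC.ec_card_torsionBy hΔ two_ne_zero
    (Nat.cast_ne_zero.2 hp.ne_zero)

/-- **(NONEIS)**, from the RED link and the abstract non-Eisenstein theorem. -/
theorem stmtNonEis_of (hLink : LinkStmt) (hAbs : AbsNonEisStmt)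
    (E : WeierstrassCurve ℚ) [E.IsElliptic] (W : WeierstrassCurve ℤ)
    (hW : W.IsIntegralModelOf E) (p : ℕ) (hp : p.Prime) (hp2 : p ≠ 2)
    (hirr : GaloisRepIsIrreducible (K := Qbar) ℚ E p) (S : Finset ℕ) :
    ∃ ℓ : ℕ, ℓ.Prime ∧ ℓ ∉ S ∧ ℓ ≠ p ∧ W.IsGoodPrimeFor ℓ ∧
      ¬ ((p : ℤ) ∣ W.apOfModel ℓ - (ℓ + 1)) := by
  have hΔ := nonEis_Δ_ne_zero E W hW
  obtain ⟨C, hC⟩ := hW
  have hrel : ∀ ℓ : ℕ, ℓ.Prime → ℓ ∉ nonEis_bad W p S →
      ∀ A : ValuationSubring Qbar, A.LiesOverPrime ℓ →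
      ∀ τ : GQ, A.IsFrobeniusAt τ ℓ →
      ∀ x : Submodule.torsionBy ℤ (E⁄Qbar).toAffine.Point ((p : ℕ) : ℤ),
        τ • τ • x - W.apOfModel ℓ • τ • x + (ℓ : ℤ) • x = 0 := by
    intro ℓ hℓ hbad A hA τ hτ x
    obtain ⟨-, hℓ2, hℓp, hgood⟩ := nonEis_not_mem_bad hΔ hℓ hbad
    have hnd : ¬ ℓ ∣ p := fun h => hℓp ((Nat.prime_dvd_prime_iff_eq hℓ hp).1 h)
    have hx : p • (x : (E⁄Qbar).toAffine.Point) = 0 := by
      have := x.2
      rw [Submodule.mem_torsionBy_iff, natCast_zsmul] at this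
      exact this
    have key := nonEis_rel_transport E (W.map (Int.castRingHom ℚ)) C hC τ (W.apOfModel ℓ) ℓ p
      (fun P hP => hLink W hℓ hℓ2 hgood A hA τ hτ hnd P hP) x hx
    apply Subtype.ext
    exact key
  obtain ⟨ℓ, hℓ, hbad, hne⟩ :=
    hAbs E p hp hp2 (nonEis_card E hp) (fun ℓ => W.apOfModel ℓ) (nonEis_bad W p S) hrel hirr
  obtain ⟨hS, -, hℓp, hgood⟩ := nonEis_not_mem_bad hΔ hℓ hbad
  exact ⟨ℓ, hℓ, hS, hℓp, hgood, hne⟩

end Fermat.Agent.S41
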