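import Mathlib

/-!
# S41 piece ALG — the lattice lemma (pure commutative algebra), core (helper76)

`alg_core` is the body of `Fermat.Agent.S41.StmtAlg` (Plan.lean), proved over Mathlib only.

Proof.  Suppose `ker β = 𝔫 · ker β`.
* Nakayama (twice): `ρ ≡ 1 (𝔫)` kills `ker β`; `ρ₁ ≡ 1 (𝔫)` kills `coker β`.  With `ε₀` of (H1) put
  `τ = ρ ρ₁ ε₀ ≡ 1`.  Then (K) `β y = 0 → τ y = 0`, (C) `τ z ∈ β(L')`, (I) `α z ∈ pL' → τ z ∈ p(L×L)`.
* (P) `β α z ∈ p(L×L) → τ³ z ∈ p(L×L)`.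
* with `D = t² − c²`:  `D x ∈ pL → τ⁶ x ∈ pL`  (apply (P) to `J β α (x,0)` and to `(x,0)`,
  `β α J β α (x,0) = (−D x, 0)`).
* `L/pL` is finite, so the chain `pL + Dⁿ L` stabilises: `Dⁿ(x − D u) ∈ pL`, hence
  `τ⁶ⁿ (x − D u) ∈ pL` and `x ∈ 𝔫 L + D L` for every `x`: contradiction with (H3).
-/

set_option autoImplicit false

namespace Fermat.Agent.S41

/-- if `τ ≡ 1` modulo `I` then `τ ^ k ≡ 1` modulo `I`. -/
theorem algCore_pow_sub_one_mem {R : Type*} [CommRing R] (I : Ideal R) {τ : R} (h : τ - 1 ∈ I)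
    (k : ℕ) : τ ^ k - 1 ∈ I := by
  rw [← Ideal.Quotient.eq, map_pow, map_one] at *
  rw [h, one_pow]

/-- if `a ≡ 1` and `b ≡ 1` modulo `I` then `a * b ≡ 1` modulo `I`. -/
theorem algCore_mul_sub_one_mem {R : Type*} [CommRing R] (I : Ideal R) {a b : R} (ha : a - 1 ∈ I)
    (hb : b - 1 ∈ I) : a * b - 1 ∈ I := by
  rw [← Ideal.Quotient.eq, map_one] at *
  rw [map_mul, ha, hb, one_mul]

/-- The finiteness step: on a module `L` with `L ⧸ πL` Artinian, an endomorphism `D` such that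
`D x ∈ πL → s x ∈ πL` satisfies: every `x` has some power `s ^ n • x` in `D L + π L`. -/
theorem algCore_artin {R : Type*} [CommRing R] {L : Type*} [AddCommGroup L] [Module R L]
    (π s : R) (D : L →ₗ[R] L)
    [IsArtinian R (L ⧸ LinearMap.range (LinearMap.lsmul R L π))]
    (hD : ∀ x v : L, D x = π • v → ∃ v' : L, s • x = π • v') :
    ∃ n : ℕ, ∀ x : L, ∃ u v : L, s ^ n • x = D u + π • v := by
  set P : Submodule R L := LinearMap.range (LinearMap.lsmul R L π) with hP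
  have hPmem : ∀ y : L, y ∈ P ↔ ∃ v, y = π • v := by
    intro y
    rw [hP, LinearMap.mem_range]
    constructor
    · rintro ⟨v, hv⟩
      exact ⟨v, by rw [← hv]; rfl⟩
    · rintro ⟨v, hv⟩
      exact ⟨v, by rw [hv]; rfl⟩
  -- the chain of images of `range (D ^ k)` in the quotient
  let f : ℕ →o (Submodule R (L ⧸ P))ᵒᵈ :=
    ⟨fun k => OrderDual.toDual ((LinearMap.range (D ^ k)).map P.mkQ), by
      intro k m hkm
      change (LinearMap.range (D ^ m)).map P.mkQ ≤ (LinearMap.range (D ^ k)).map P.mkQ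
      exact Submodule.map_mono (D.iterateRange.monotone hkm)⟩
  obtain ⟨n, hn⟩ := IsArtinian.monotone_stabilizes f
  have hn1 : (LinearMap.range (D ^ n)).map P.mkQ = (LinearMap.range (D ^ (n + 1))).map P.mkQ :=
    congrArg OrderDual.ofDual (hn (n + 1) (Nat.le_succ n))
  -- iterate the hypothesis
  have hiter : ∀ k : ℕ, ∀ y v : L, (D ^ k) y = π • v → ∃ v' : L, s ^ k • y = π • v' := by
    intro k
    induction k with
    | zero =>
      intro y v h
      exact ⟨v, by simpa using h⟩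
    | succ k ih =>
      intro y v h
      have h1 : D ((D ^ k) y) = π • v := by
        rw [← h, pow_succ']
        rfl
      obtain ⟨v', hv'⟩ := hD _ _ h1
      have h2 : (D ^ k) (s • y) = π • v' := by rw [map_smul, hv']
      obtain ⟨v'', hv''⟩ := ih _ _ h2
      exact ⟨v'', by rw [pow_succ, mul_smul, hv'']⟩
  refine ⟨n, fun x => ?_⟩
  have hx : P.mkQ ((D ^ n) x) ∈ (LinearMap.range (D ^ (n + 1))).map P.mkQ := by
    rw [← hn1]
    exact Submodule.mem_map_of_mem (LinearMap.mem_range_self _ x)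
  obtain ⟨y, hy, hyx⟩ := hx
  obtain ⟨u, rfl⟩ := hy
  have hmem : (D ^ n) (x - D u) ∈ P := by
    have h3 : P.mkQ ((D ^ n) x - (D ^ (n + 1)) u) = 0 := by
      rw [map_sub, hyx, sub_self]
    have h4 : (D ^ n) (x - D u) = (D ^ n) x - (D ^ (n + 1)) u := by
      rw [map_sub, pow_succ]
      rfl
    rw [h4]
    exact (Submodule.Quotient.mk_eq_zero P).1 h3
  obtain ⟨v, hv⟩ := (hPmem _).1 hmem
  obtain ⟨v', hv'⟩ := hiter n _ _ hv
  refine ⟨s ^ n • u, v', ?_⟩
  rw [map_smul, ← hv', smul_sub]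
  abel

/-- the quotient `L ⧸ pL` of a finitely generated abelian group is finite (`p ≠ 0`). -/
theorem algCore_finite_quot {R : Type*} [CommRing R] {L : Type*} [AddCommGroup L] [Module R L]
    [Module.Finite ℤ L] (p : ℕ) (hp : p ≠ 0) :
    Finite (L ⧸ LinearMap.range (LinearMap.lsmul R L (p : R))) := by
  set P : Submodule R L := LinearMap.range (LinearMap.lsmul R L (p : R)) with hP
  have hfin : Module.Finite ℤ (L ⧸ P) :=
    Module.Finite.of_surjective (P.mkQ.toAddMonoidHom.toIntLinearMap) (by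
      intro x
      obtain ⟨y, rfl⟩ := P.mkQ_surjective x
      exact ⟨y, rfl⟩)
  refine Module.finite_of_fg_torsion (L ⧸ P) ?_
  intro x
  obtain ⟨y, rfl⟩ := P.mkQ_surjective x
  refine ⟨⟨(p : ℤ), mem_nonZeroDivisors_of_ne_zero (by exact_mod_cast hp)⟩, ?_⟩
  change (p : ℤ) • P.mkQ y = 0
  rw [← map_zsmul, Submodule.mkQ_apply, Submodule.Quotient.mk_eq_zero, hP, LinearMap.mem_range]
  refine ⟨y, ?_⟩
  change (p : R) • y = (p : ℤ) • y
  rw [Nat.cast_smul_eq_nsmul, natCast_zsmul]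

/-- **ALG core**: the lattice lemma of level raising.  This is the body of `StmtAlg`. -/
theorem alg_core (R : Type) [CommRing R] (𝔫 : Ideal R) (p : ℕ) (hp : p.Prime) (hp𝔫 : (p : R) ∈ 𝔫)
    (L L' : Type) [AddCommGroup L] [AddCommGroup L'] [Module R L] [Module R L']
    [Module.Finite ℤ L] [Module.Finite ℤ L']
    (α : L × L →ₗ[R] L') (β : L' →ₗ[R] L × L) (t : L →ₗ[R] L) (c : ℤ)
    (hβα : ∀ x y : L, β (α (x, y)) = (c • x + t y, t x + c • y))
    (H1 : ∃ ε : R, ε - 1 ∈ 𝔫 ∧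
      ∀ z : L × L, (∃ w : L', α z = p • w) → ∃ z' : L × L, ε • z = p • z')
    (H2 : ∃ ε : R, ε - 1 ∈ 𝔫 ∧ ∀ z : L × L, ∃ (w : L') (z' : L × L), ε • z = β w + p • z')
    (H3 : ∃ x : L, x ∉ (𝔫 • (⊤ : Submodule R L)) ⊔
        LinearMap.range (t ∘ₗ t - (c ^ 2) • (LinearMap.id : L →ₗ[R] L))) :
    ∃ y : L', β y = 0 ∧ y ∉ 𝔫 • (LinearMap.ker β) := by
  classical
  by_contra hcon
  simp only [not_exists, not_and, not_not] at hcon
  -- scalar conversions
  have hpL : ∀ x : L, (p : R) • x = p • x := fun x => Nat.cast_smul_eq_nsmul R p x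
  have hpL' : ∀ x : L', (p : R) • x = p • x := fun x => Nat.cast_smul_eq_nsmul R p x
  have hpLL : ∀ x : L × L, (p : R) • x = p • x := fun x => Nat.cast_smul_eq_nsmul R p x
  have hcL : ∀ x : L, (c : R) • x = c • x := fun x => Int.cast_smul_eq_zsmul R c x
  -- Noetherian instances over `R`
  have : IsNoetherian R L' := isNoetherian_of_tower ℤ inferInstance
  have : IsNoetherian R (L × L) := isNoetherian_of_tower ℤ inferInstance
  -- Nakayama 1: `ρ` kills `ker β`
  obtain ⟨ρ, hρ1, hρ⟩ := Submodule.exists_sub_one_mem_and_smul_eq_zero_of_fg_of_le_smul 𝔫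
    (LinearMap.ker β) (IsNoetherian.noetherian _)
    (fun y hy => hcon y (LinearMap.mem_ker.mp hy))
  -- Nakayama 2: `ρ₁` kills `coker β`
  obtain ⟨ε₂, hε₂1, hε₂⟩ := H2
  have hN2 : ∃ ρ₁ : R, ρ₁ - 1 ∈ 𝔫 ∧ ∀ z : L × L, ∃ w, ρ₁ • z = β w := by
    have hle : (⊤ : Submodule R ((L × L) ⧸ LinearMap.range β)) ≤ 𝔫 • ⊤ := by
      intro x _
      obtain ⟨z, rfl⟩ := (LinearMap.range β).mkQ_surjective x
      obtain ⟨w, z', hz⟩ := hε₂ z
      have hz2 : z = (1 - ε₂) • z + β w + (p : R) • z' := by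
        rw [hpLL, add_assoc, ← hz, sub_smul, one_smul]
        abel
      have h0 : (LinearMap.range β).mkQ (β w) = 0 := by
        rw [Submodule.mkQ_apply, Submodule.Quotient.mk_eq_zero]
        exact LinearMap.mem_range_self β w
      have hz3 : (LinearMap.range β).mkQ z = (1 - ε₂) • (LinearMap.range β).mkQ z
          + (p : R) • (LinearMap.range β).mkQ z' := by
        conv_lhs => rw [hz2]
        rw [map_add, map_add, map_smul, map_smul, h0, add_zero]
      rw [hz3]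
      refine Submodule.add_mem _ (Submodule.smul_mem_smul ?_ trivial)
        (Submodule.smul_mem_smul hp𝔫 trivial)
      have : 1 - ε₂ = -(ε₂ - 1) := by ring
      rw [this]
      exact 𝔫.neg_mem hε₂1
    obtain ⟨r, hr1, hr⟩ := Submodule.exists_sub_one_mem_and_smul_eq_zero_of_fg_of_le_smul 𝔫
      (⊤ : Submodule R ((L × L) ⧸ LinearMap.range β)) (IsNoetherian.noetherian _) hle
    refine ⟨r, hr1, fun z => ?_⟩
    have h := hr ((LinearMap.range β).mkQ z) trivial
    rw [← map_smul, Submodule.mkQ_apply, Submodule.Quotient.mk_eq_zero] at h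
    obtain ⟨w, hw⟩ := h
    exact ⟨w, hw.symm⟩
  obtain ⟨ρ₁, hρ₁1, hρ₁⟩ := hN2
  obtain ⟨ε₁, hε₁1, hε₁⟩ := H1
  -- the element `τ`
  set τ : R := ρ * ρ₁ * ε₁ with hτ
  have hτ1 : τ - 1 ∈ 𝔫 :=
    algCore_mul_sub_one_mem 𝔫 (algCore_mul_sub_one_mem 𝔫 hρ1 hρ₁1) hε₁1
  have hK : ∀ y : L', β y = 0 → τ • y = 0 := by
    intro y hy
    have h := hρ y (LinearMap.mem_ker.mpr hy)
    rw [hτ, mul_assoc, mul_comm, mul_smul, h, smul_zero]
  have hC : ∀ z : L × L, ∃ w : L', τ • z = β w := by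
    intro z
    obtain ⟨w, hw⟩ := hρ₁ z
    refine ⟨(ρ * ε₁) • w, ?_⟩
    rw [map_smul, ← hw, ← mul_smul, hτ]
    congr 1
    ring
  have hI : ∀ (z : L × L) (w : L'), α z = (p : R) • w → ∃ z' : L × L, τ • z = (p : R) • z' := by
    intro z w hw
    obtain ⟨z', hz'⟩ := hε₁ z ⟨w, by rw [hw, hpL']⟩
    refine ⟨(ρ * ρ₁) • z', ?_⟩
    rw [hτ, mul_smul, hz', ← hpLL, smul_comm]
  -- (P)
  have hP : ∀ z z₂ : L × L, β (α z) = (p : R) • z₂ → ∃ z₃ : L × L, τ ^ 3 • z = (p : R) • z₃ := by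
    intro z z₂ hz
    obtain ⟨w, hw⟩ := hC z₂
    have h1 : β (τ • α z - (p : R) • w) = 0 := by
      rw [map_sub, map_smul, map_smul, hz, ← hw, smul_comm, sub_self]
    have h2 := hK _ h1
    rw [smul_sub, sub_eq_zero] at h2
    have h3 : α ((τ * τ) • z) = (p : R) • (τ • w) := by
      rw [map_smul, mul_smul, h2, smul_comm]
    obtain ⟨z₃, hz₃⟩ := hI _ _ h3
    refine ⟨z₃, ?_⟩
    rw [← hz₃, ← mul_smul]
    congr 1
    ring
  -- the operator `D = t² − c²`
  set D : L →ₗ[R] L := t ∘ₗ t - (c ^ 2) • (LinearMap.id : L →ₗ[R] L) with hD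
  have hDx : ∀ x : L, D x = t (t x) - c • c • x := by
    intro x
    rw [hD, LinearMap.sub_apply, LinearMap.comp_apply, LinearMap.smul_apply, LinearMap.id_apply,
      pow_two, mul_smul]
  have hkey : ∀ x v : L, D x = (p : R) • v → ∃ v' : L, (τ ^ 6) • x = (p : R) • v' := by
    intro x v hxv
    have hz1 : β (α (x, 0)) = (c • x, t x) := by
      rw [hβα]
      simp
    have hz2 : β (α (c • x, -t x)) = (p : R) • ((-v, 0) : L × L) := by
      rw [hβα]
      refine Prod.ext ?_ ?_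
      · change c • c • x + t (-t x) = (p : R) • (-v)
        rw [smul_neg, ← hxv, hDx, map_neg]
        abel
      · change t (c • x) + c • (-t x) = (p : R) • (0 : L)
        rw [← hcL, map_smul, hcL, smul_neg, smul_zero]
        abel
    obtain ⟨z₃, hz₃⟩ := hP _ _ hz2
    have hz3a : τ ^ 3 • (c • x) = (p : R) • z₃.1 := by
      have := congrArg Prod.fst hz₃
      simpa using this
    have hz3b : τ ^ 3 • (t x) = (p : R) • (-z₃.2) := by
      have := congrArg Prod.snd hz₃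
      simp only [Prod.smul_snd, smul_neg] at this
      rw [smul_neg, ← this, neg_neg]
    have hz4 : β (α (τ ^ 3 • ((x, 0) : L × L))) = (p : R) • ((z₃.1, -z₃.2) : L × L) := by
      rw [map_smul, map_smul, hz1, Prod.smul_mk, Prod.smul_mk, hz3a, hz3b]
    obtain ⟨z₄, hz₄⟩ := hP _ _ hz4
    refine ⟨z₄.1, ?_⟩
    have := congrArg Prod.fst hz₄
    simp only [Prod.smul_fst] at this
    rw [← this, ← mul_smul]
    congr 1
    ring
  -- finiteness
  have : Finite (L ⧸ LinearMap.range (LinearMap.lsmul R L (p : R))) :=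
    algCore_finite_quot (R := R) p hp.ne_zero
  obtain ⟨n, hn⟩ := algCore_artin (p : R) (τ ^ 6) D hkey
  -- conclusion
  obtain ⟨x, hx⟩ := H3
  apply hx
  obtain ⟨u, v, huv⟩ := hn x
  have hs1 : (τ ^ 6) ^ n - 1 ∈ 𝔫 := algCore_pow_sub_one_mem 𝔫 (algCore_pow_sub_one_mem 𝔫 hτ1 6) n
  have hx2 : x = (-(((τ ^ 6) ^ n - 1) • x) + (p : R) • v) + D u := by
    rw [sub_smul, one_smul, huv]
    abel
  rw [hx2]
  refine Submodule.add_mem_sup (Submodule.add_mem _ ?_ (Submodule.smul_mem_smul hp𝔫 trivial))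
    (LinearMap.mem_range_self D u)
  exact Submodule.neg_mem _ (Submodule.smul_mem_smul hs1 trivial)

end Fermat.Agent.S41
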