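import Fermat.Agent.S41.Plan
import Fermat.Agent.S41.AlgCore

/-!
# S41 piece ALG — `stmtAlg : StmtAlg` (helper76)

The lattice lemma of level raising (pure commutative algebra); the proof is `alg_core`
(`AlgCore.lean`, Mathlib only).
-/

set_option autoImplicit false

namespace Fermat.Agent.S41

/-- **(ALG)** the lattice lemma. -/
theorem stmtAlg : StmtAlg := by
  intro R _ 𝔫 p hp hp𝔫 L L' _ _ _ _ _ _ α β t c hβα H1 H2 H3
  exact alg_core R 𝔫 p hp hp𝔫 L L' α β t c hβα H1 H2 H3

end Fermat.Agent.S41
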