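import Fermat.Agent.S41.Plan
import Fermat.Agent.ES.HeckeCommP

/-!
# S41 piece C9: the Hecke operators `Tc ℓ` commute (helper39)

`tc_comm` : for primes `ℓ, ℓ' ∤ M` and EVERY `φ : Hom(Γ₀(M), A)` (any coefficient group `A`, no
parabolicity needed), `Tc ℓ (Tc ℓ' φ) = Tc ℓ' (Tc ℓ φ)`.  This is `ES.heckeP_comm`
(`ES/HeckeComm.lean`: `T_m ∘ T_n = T_{mn}` for coprime `m, n`, on the level of cosets).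
-/

set_option autoImplicit false

namespace Fermat.Agent.S41

open CongruenceSubgroup

/-- **(C9)** the Hecke operators at primes `ℓ, ℓ' ∤ M` commute on `Hom(Γ₀(M), A)`. -/
theorem tc_comm {M : ℕ} {A : Type*} [AddCommGroup A] {ℓ ℓ' : ℕ} [Fact ℓ.Prime] [Fact ℓ'.Prime]
    (hℓ : ¬ ℓ ∣ M) (hℓ' : ¬ ℓ' ∣ M) (φ : HomG M A) :
    Tc ℓ hℓ (Tc ℓ' hℓ' φ) = Tc ℓ' hℓ' (Tc ℓ hℓ φ) :=
  Fermat.Agent.ES.heckeP_comm hℓ hℓ' φ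

/-- (C9) on the parabolic lattice -/
theorem tc_comm_Lpar {M : ℕ} {ℓ ℓ' : ℕ} [Fact ℓ.Prime] [Fact ℓ'.Prime]
    (hℓ : ¬ ℓ ∣ M) (hℓ' : ¬ ℓ' ∣ M) (φ : HomG M ℤ) (_hφ : φ ∈ Lpar M) :
    Tc ℓ hℓ (Tc ℓ' hℓ' φ) = Tc ℓ' hℓ' (Tc ℓ hℓ φ) :=
  tc_comm hℓ hℓ' φ

end Fermat.Agent.S41
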