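import Fermat.Agent.S41.Plan
import Fermat.Agent.S41.TcComm
import Fermat.Agent.ES.Words
import Fermat.Agent.ES.EigenLattice
import Fermat.Agent.ES.HeckePPar
import Fermat.Agent.S22.Cosets

/-!
# S41, piece COH: the cohomological level-raising statement `K ≠ 𝔫 K`

`stmtCOH_of` : `StmtAlg` (the lattice lemma) + (C1), (C2), (C8) + (IHARA) + (DUAL IHARA) + (H3) +
a non-Eisenstein prime `ℓ₀` give `StmtCOH N q p a good`.

The lattice lemma is applied to `L = Hom_par(Γ₀(N), ℤ)`, `L' = Hom_par(Γ₀(N q), ℤ)`,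
`R = ℤ[X_ℓ : ℓ prime]` with `X_ℓ` acting as `T_ℓ` for `ℓ ∤ N q` and as `0` otherwise,
`𝔫 = (p, X_ℓ - a_ℓ : ℓ good)`, `α = res + res^δ`, `β = (cores, cores^δ)`, `t = T_q`, `c = q + 1`.
-/

set_option autoImplicit false
set_option linter.style.haveILetI false

noncomputable section

namespace Fermat.Agent.S41

open CongruenceSubgroup Matrix ModularCurve ModularCurve.Period Fermat.Agent.ES
open scoped MatrixGroups

/-- primes are prime -/
local instance primesFact (ℓ : Nat.Primes) : Fact (ℓ : ℕ).Prime := ⟨ℓ.2⟩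

/-! ## Commuting families and intertwiners -/

section family

variable {V V' : Type} [AddCommGroup V] [AddCommGroup V']

/-- an additive map intertwining two commuting families intertwines the polynomial actions -/
theorem familyEval_intertwine (f : Nat.Primes → Module.End ℤ V)
    (hf : ∀ ℓ ℓ', f ℓ * f ℓ' = f ℓ' * f ℓ) (f' : Nat.Primes → Module.End ℤ V')
    (hf' : ∀ ℓ ℓ', f' ℓ * f' ℓ' = f' ℓ' * f' ℓ) (g : V →+ V')
    (hg : ∀ ℓ v, g (f ℓ v) = f' ℓ (g v)) (r : HeckeAlg) (v : V) :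
    g (familyEval f hf r v) = familyEval f' hf' r (g v) := by
  induction r using MvPolynomial.induction_on generalizing v with
  | C n =>
    have h1 : familyEval f hf (MvPolynomial.C n) = algebraMap ℤ (Module.End ℤ V) n := by
      rw [← MvPolynomial.algebraMap_eq]; exact (familyEval f hf).commutes n
    have h2 : familyEval f' hf' (MvPolynomial.C n) = algebraMap ℤ (Module.End ℤ V') n := by
      rw [← MvPolynomial.algebraMap_eq]; exact (familyEval f' hf').commutes n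
    rw [h1, h2, Module.algebraMap_end_apply, Module.algebraMap_end_apply, map_zsmul]
  | add r s hr hs =>
    rw [map_add, map_add, LinearMap.add_apply, LinearMap.add_apply, map_add, hr, hs]
  | mul_X r ℓ hr =>
    rw [map_mul, map_mul, familyEval_X, familyEval_X, Module.End.mul_apply, Module.End.mul_apply,
      hr, hg]

theorem familyEval_C (f : Nat.Primes → Module.End ℤ V)
    (hf : ∀ ℓ ℓ', f ℓ * f ℓ' = f ℓ' * f ℓ) (n : ℤ) (v : V) :
    familyEval f hf (MvPolynomial.C n) v = n • v := by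
  have h1 : familyEval f hf (MvPolynomial.C n) = algebraMap ℤ (Module.End ℤ V) n := by
    rw [← MvPolynomial.algebraMap_eq]; exact (familyEval f hf).commutes n
  rw [h1, Module.algebraMap_end_apply]

end family

/-! ## The parabolic lattices as modules over `ℤ[X_ℓ]` -/

section lattices

/-- restriction of `Tc ℓ` to the parabolic lattice -/
def tcPar (M : ℕ) (ℓ : ℕ) [Fact ℓ.Prime] (hℓ : ¬ ℓ ∣ M) : Module.End ℤ ↥(Lpar M) :=
  AddMonoidHom.toIntLinearMap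
    { toFun := fun x => ⟨Tc ℓ hℓ (x : HomG M ℤ), HeckeP.heckeHom_mem_parabolicHoms hℓ ℤ x.2⟩
      map_zero' := Subtype.ext (HeckeP.heckeHom_zero hℓ)
      map_add' := fun _ _ => Subtype.ext (HeckeP.heckeHom_add hℓ _ _) }

theorem tcPar_coe (M : ℕ) (ℓ : ℕ) [Fact ℓ.Prime] (hℓ : ¬ ℓ ∣ M) (x : ↥(Lpar M)) :
    ((tcPar M ℓ hℓ x : ↥(Lpar M)) : HomG M ℤ) = Tc ℓ hℓ (x : HomG M ℤ) := rfl

theorem tcPar_comm (M : ℕ) (ℓ ℓ' : ℕ) [Fact ℓ.Prime] [Fact ℓ'.Prime] (hℓ : ¬ ℓ ∣ M)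
    (hℓ' : ¬ ℓ' ∣ M) : tcPar M ℓ hℓ * tcPar M ℓ' hℓ' = tcPar M ℓ' hℓ' * tcPar M ℓ hℓ := by
  ext x : 1
  apply Subtype.ext
  exact tc_comm hℓ hℓ' (x : HomG M ℤ)

/-- the Hecke family on `Lpar M` relative to the level `M'` (the operators at `ℓ ∣ M'` are `0`) -/
def tcFam (M M' : ℕ) (hMM' : M ∣ M') (ℓ : Nat.Primes) : Module.End ℤ ↥(Lpar M) :=
  if h : ¬ (ℓ : ℕ) ∣ M' then tcPar M ℓ (fun h' => h (dvd_trans h' hMM')) else 0

theorem tcFam_of_not_dvd (M M' : ℕ) (hMM' : M ∣ M') (ℓ : Nat.Primes)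
    (h : ¬ (ℓ : ℕ) ∣ M') (hM : ¬ (ℓ : ℕ) ∣ M) :
    tcFam M M' hMM' ℓ = tcPar M ℓ hM := by
  unfold tcFam
  rw [dif_pos h]

theorem tcFam_of_dvd (M M' : ℕ) (hMM' : M ∣ M') (ℓ : Nat.Primes) (h : (ℓ : ℕ) ∣ M') :
    tcFam M M' hMM' ℓ = 0 := by
  unfold tcFam
  rw [dif_neg (not_not.mpr h)]

theorem tcFam_comm (M M' : ℕ) (hMM' : M ∣ M') (ℓ ℓ' : Nat.Primes) :
    tcFam M M' hMM' ℓ * tcFam M M' hMM' ℓ' = tcFam M M' hMM' ℓ' * tcFam M M' hMM' ℓ := by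
  by_cases h : (ℓ : ℕ) ∣ M'
  · rw [tcFam_of_dvd M M' hMM' ℓ h, zero_mul, mul_zero]
  by_cases h' : (ℓ' : ℕ) ∣ M'
  · rw [tcFam_of_dvd M M' hMM' ℓ' h', zero_mul, mul_zero]
  unfold tcFam
  rw [dif_pos h, dif_pos h']
  exact tcPar_comm M ℓ ℓ' _ _

/-- a commuting operator commutes with the family -/
theorem tcPar_tcFam_comm (M M' : ℕ) (hMM' : M ∣ M') (ℓ : ℕ) [Fact ℓ.Prime] (hℓ : ¬ ℓ ∣ M)
    (ℓ' : Nat.Primes) (x : ↥(Lpar M)) :
    tcPar M ℓ hℓ (tcFam M M' hMM' ℓ' x) = tcFam M M' hMM' ℓ' (tcPar M ℓ hℓ x) := by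
  by_cases h' : (ℓ' : ℕ) ∣ M'
  · rw [tcFam_of_dvd M M' hMM' ℓ' h', LinearMap.zero_apply, LinearMap.zero_apply, map_zero]
  unfold tcFam
  rw [dif_pos h']
  exact congrFun (congrArg DFunLike.coe (tcPar_comm M ℓ ℓ' hℓ _)) x

/-- `Hom_par(Γ₀(N), ℤ)`, with the Hecke operators `T_ℓ`, `ℓ ∤ N q` -/
def LOld (N _q : ℕ) : Type := ↥(Lpar N)

/-- `Hom_par(Γ₀(N q), ℤ)`, with the Hecke operators `T_ℓ`, `ℓ ∤ N q` -/
def LNew (N q : ℕ) : Type := ↥(Lpar (N * q))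

variable (N q : ℕ)

instance : AddCommGroup (LOld N q) := inferInstanceAs (AddCommGroup ↥(Lpar N))

instance : AddCommGroup (LNew N q) := inferInstanceAs (AddCommGroup ↥(Lpar (N * q)))

instance : Module HeckeAlg (LOld N q) :=
  familyModule (tcFam N (N * q) (dvd_mul_right N q)) (tcFam_comm N (N * q) (dvd_mul_right N q))

instance : Module HeckeAlg (LNew N q) :=
  familyModule (tcFam (N * q) (N * q) dvd_rfl) (tcFam_comm (N * q) (N * q) dvd_rfl)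

/-- the identity `LOld N q → Hom_par(Γ₀(N), ℤ)` -/
def oldSub : LOld N q →+ ↥(Lpar N) := AddMonoidHom.id ↥(Lpar N)

/-- the identity `LNew N q → Hom_par(Γ₀(N q), ℤ)` -/
def newSub : LNew N q →+ ↥(Lpar (N * q)) := AddMonoidHom.id ↥(Lpar (N * q))

theorem oldSub_injective : Function.Injective (oldSub N q) := fun _ _ h => h

theorem newSub_injective : Function.Injective (newSub N q) := fun _ _ h => h

theorem lOld_smul_def (r : HeckeAlg) (x : LOld N q) :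
    oldSub N q (r • x) = familyEval (tcFam N (N * q) (dvd_mul_right N q))
      (tcFam_comm N (N * q) (dvd_mul_right N q)) r (oldSub N q x) := rfl

theorem lNew_smul_def (r : HeckeAlg) (x : LNew N q) :
    newSub N q (r • x) = familyEval (tcFam (N * q) (N * q) dvd_rfl)
      (tcFam_comm (N * q) (N * q) dvd_rfl) r (newSub N q x) := rfl

theorem finite_Lpar (M : ℕ) [NeZero M] : Module.Finite ℤ ↥(Lpar M) := by
  haveI : Group.FG ↥(Gamma0 M) := (Group.fg_iff_subgroup_fg _).mpr (Fermat.Agent.S22.gamma0_fg M)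
  haveI := finite_addHom_int ↥(Gamma0 M)
  haveI : Module.Finite ℤ ↥(parabolicHoms ℤ (Gamma0 M) ℤ) := inferInstance
  let e : ↥(parabolicHoms ℤ (Gamma0 M) ℤ) →ₗ[ℤ] ↥(Lpar M) :=
    AddMonoidHom.toIntLinearMap
      { toFun := fun x => ⟨x.1, x.2⟩
        map_zero' := rfl
        map_add' := fun _ _ => rfl }
  exact Module.Finite.of_surjective e (fun y => ⟨⟨y.1, y.2⟩, rfl⟩)

instance [NeZero N] : Module.Finite ℤ (LOld N q) := finite_Lpar N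

instance [NeZero N] [NeZero q] : Module.Finite ℤ (LNew N q) := finite_Lpar (N * q)

end lattices

/-! ## The maps `α`, `β`, `t` -/

section maps

variable (N q : ℕ)

/-- the underlying homomorphism of an element of `LOld` -/
def oldHom : LOld N q →+ HomG N ℤ := (Lpar N).subtype.comp (oldSub N q)

/-- the underlying homomorphism of an element of `LNew` -/
def newHom : LNew N q →+ HomG (N * q) ℤ := (Lpar (N * q)).subtype.comp (newSub N q)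

theorem oldHom_eq (x : LOld N q) : oldHom N q x = ((oldSub N q x : ↥(Lpar N)) : HomG N ℤ) := rfl

theorem newHom_eq (x : LNew N q) :
    newHom N q x = ((newSub N q x : ↥(Lpar (N * q))) : HomG (N * q) ℤ) := rfl

variable {N q}

theorem oldHom_injective : Function.Injective (oldHom N q) :=
  fun _ _ h => oldSub_injective N q (Subtype.ext h)

theorem newHom_injective : Function.Injective (newHom N q) :=
  fun _ _ h => newSub_injective N q (Subtype.ext h)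

theorem oldHom_mem (x : LOld N q) : oldHom N q x ∈ Lpar N := (oldSub N q x).2

theorem newHom_mem (x : LNew N q) : newHom N q x ∈ Lpar (N * q) := (newSub N q x).2

/-- an element of `LOld` from a parabolic homomorphism -/
def oldMk (φ : HomG N ℤ) (h : φ ∈ Lpar N) : LOld N q := (⟨φ, h⟩ : ↥(Lpar N))

/-- an element of `LNew` from a parabolic homomorphism -/
def newMk (φ : HomG (N * q) ℤ) (h : φ ∈ Lpar (N * q)) : LNew N q := (⟨φ, h⟩ : ↥(Lpar (N * q)))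

theorem oldHom_oldMk (φ : HomG N ℤ) (h : φ ∈ Lpar N) :
    oldHom N q (oldMk (q := q) φ h) = φ := rfl

theorem newHom_newMk (φ : HomG (N * q) ℤ) (h : φ ∈ Lpar (N * q)) :
    newHom N q (newMk φ h) = φ := rfl

theorem oldHom_X_smul (ℓ : Nat.Primes) (h : ¬ (ℓ : ℕ) ∣ N * q) (hN : ¬ (ℓ : ℕ) ∣ N)
    (x : LOld N q) :
    oldHom N q ((MvPolynomial.X ℓ : HeckeAlg) • x) = Tc ℓ hN (oldHom N q x) := by
  rw [oldHom_eq, lOld_smul_def, familyEval_X,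
    tcFam_of_not_dvd N (N * q) (dvd_mul_right N q) ℓ h hN]
  rfl

theorem newHom_X_smul (ℓ : Nat.Primes) (h : ¬ (ℓ : ℕ) ∣ N * q) (x : LNew N q) :
    newHom N q ((MvPolynomial.X ℓ : HeckeAlg) • x) = Tc ℓ h (newHom N q x) := by
  rw [newHom_eq, lNew_smul_def, familyEval_X, tcFam_of_not_dvd (N * q) (N * q) dvd_rfl ℓ h h]
  rfl

theorem oldHom_C_smul (n : ℤ) (x : LOld N q) :
    oldHom N q ((MvPolynomial.C n : HeckeAlg) • x) = n • oldHom N q x := by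
  rw [oldHom_eq, lOld_smul_def, familyEval_C]
  rfl

theorem newHom_C_smul (n : ℤ) (x : LNew N q) :
    newHom N q ((MvPolynomial.C n : HeckeAlg) • x) = n • newHom N q x := by
  rw [newHom_eq, lNew_smul_def, familyEval_C]
  rfl

variable [NeZero N] [NeZero q]

theorem c8_res (hC8 : StmtC8 N q) {φ : HomG N ℤ} (h : φ ∈ Lpar N) :
    res N q ℤ φ ∈ Lpar (N * q) := ((hC8 ℤ).1 φ h).1

theorem c8_resD (hC8 : StmtC8 N q) {φ : HomG N ℤ} (h : φ ∈ Lpar N) :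
    resD N q ℤ φ ∈ Lpar (N * q) := ((hC8 ℤ).1 φ h).2

theorem c8_cores (hC8 : StmtC8 N q) {ψ : HomG (N * q) ℤ} (h : ψ ∈ Lpar (N * q)) :
    cores N q ℤ ψ ∈ Lpar N := ((hC8 ℤ).2 ψ h).1

theorem c8_coresD (hC8 : StmtC8 N q) {ψ : HomG (N * q) ℤ} (h : ψ ∈ Lpar (N * q)) :
    coresD N q ℤ ψ ∈ Lpar N := ((hC8 ℤ).2 ψ h).2

theorem c1_res (hC1 : StmtC1 N q) (ℓ : ℕ) [Fact ℓ.Prime] (hN : ¬ ℓ ∣ N) (hNq : ¬ ℓ ∣ N * q)
    (φ : HomG N ℤ) : res N q ℤ (Tc ℓ hN φ) = Tc ℓ hNq (res N q ℤ φ) :=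
  ((hC1 ℤ ℓ hN hNq).1 φ).1

theorem c1_resD (hC1 : StmtC1 N q) (ℓ : ℕ) [Fact ℓ.Prime] (hN : ¬ ℓ ∣ N) (hNq : ¬ ℓ ∣ N * q)
    (φ : HomG N ℤ) : resD N q ℤ (Tc ℓ hN φ) = Tc ℓ hNq (resD N q ℤ φ) :=
  ((hC1 ℤ ℓ hN hNq).1 φ).2

theorem c1_cores (hC1 : StmtC1 N q) (ℓ : ℕ) [Fact ℓ.Prime] (hN : ¬ ℓ ∣ N) (hNq : ¬ ℓ ∣ N * q)
    (ψ : HomG (N * q) ℤ) : cores N q ℤ (Tc ℓ hNq ψ) = Tc ℓ hN (cores N q ℤ ψ) :=
  ((hC1 ℤ ℓ hN hNq).2 ψ).1

theorem c1_coresD (hC1 : StmtC1 N q) (ℓ : ℕ) [Fact ℓ.Prime] (hN : ¬ ℓ ∣ N) (hNq : ¬ ℓ ∣ N * q)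
    (ψ : HomG (N * q) ℤ) : coresD N q ℤ (Tc ℓ hNq ψ) = Tc ℓ hN (coresD N q ℤ ψ) :=
  ((hC1 ℤ ℓ hN hNq).2 ψ).2

/-- `res` on the parabolic lattices -/
def resSub (hC8 : StmtC8 N q) : ↥(Lpar N) →+ ↥(Lpar (N * q)) where
  toFun x := ⟨res N q ℤ x.1, c8_res hC8 x.2⟩
  map_zero' := Subtype.ext (map_zero _)
  map_add' x y := Subtype.ext (map_add _ x.1 y.1)

/-- `res^δ` on the parabolic lattices -/
def resDSub (hC8 : StmtC8 N q) : ↥(Lpar N) →+ ↥(Lpar (N * q)) where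
  toFun x := ⟨resD N q ℤ x.1, c8_resD hC8 x.2⟩
  map_zero' := Subtype.ext (map_zero _)
  map_add' x y := Subtype.ext (map_add _ x.1 y.1)

/-- `cores` on the parabolic lattices -/
def coresSub (hC8 : StmtC8 N q) : ↥(Lpar (N * q)) →+ ↥(Lpar N) where
  toFun x := ⟨cores N q ℤ x.1, c8_cores hC8 x.2⟩
  map_zero' := Subtype.ext (map_zero _)
  map_add' x y := Subtype.ext (map_add _ x.1 y.1)

/-- `cores^δ` on the parabolic lattices -/
def coresDSub (hC8 : StmtC8 N q) : ↥(Lpar (N * q)) →+ ↥(Lpar N) where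
  toFun x := ⟨coresD N q ℤ x.1, c8_coresD hC8 x.2⟩
  map_zero' := Subtype.ext (map_zero _)
  map_add' x y := Subtype.ext (map_add _ x.1 y.1)

theorem resSub_tcFam (hC8 : StmtC8 N q) (hC1 : StmtC1 N q) (ℓ : Nat.Primes) (v : ↥(Lpar N)) :
    resSub hC8 (tcFam N (N * q) (dvd_mul_right N q) ℓ v)
      = tcFam (N * q) (N * q) dvd_rfl ℓ (resSub hC8 v) := by
  by_cases h : (ℓ : ℕ) ∣ N * q
  · rw [tcFam_of_dvd _ _ _ ℓ h, tcFam_of_dvd _ _ _ ℓ h, LinearMap.zero_apply,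
      LinearMap.zero_apply, map_zero]
  · have hN : ¬ (ℓ : ℕ) ∣ N := fun h' => h (dvd_trans h' (dvd_mul_right N q))
    rw [tcFam_of_not_dvd _ _ _ ℓ h hN, tcFam_of_not_dvd _ _ _ ℓ h h]
    exact Subtype.ext (c1_res hC1 ℓ hN h v.1)

theorem resDSub_tcFam (hC8 : StmtC8 N q) (hC1 : StmtC1 N q) (ℓ : Nat.Primes) (v : ↥(Lpar N)) :
    resDSub hC8 (tcFam N (N * q) (dvd_mul_right N q) ℓ v)
      = tcFam (N * q) (N * q) dvd_rfl ℓ (resDSub hC8 v) := by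
  by_cases h : (ℓ : ℕ) ∣ N * q
  · rw [tcFam_of_dvd _ _ _ ℓ h, tcFam_of_dvd _ _ _ ℓ h, LinearMap.zero_apply,
      LinearMap.zero_apply, map_zero]
  · have hN : ¬ (ℓ : ℕ) ∣ N := fun h' => h (dvd_trans h' (dvd_mul_right N q))
    rw [tcFam_of_not_dvd _ _ _ ℓ h hN, tcFam_of_not_dvd _ _ _ ℓ h h]
    exact Subtype.ext (c1_resD hC1 ℓ hN h v.1)

theorem coresSub_tcFam (hC8 : StmtC8 N q) (hC1 : StmtC1 N q) (ℓ : Nat.Primes)
    (v : ↥(Lpar (N * q))) :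
    coresSub hC8 (tcFam (N * q) (N * q) dvd_rfl ℓ v)
      = tcFam N (N * q) (dvd_mul_right N q) ℓ (coresSub hC8 v) := by
  by_cases h : (ℓ : ℕ) ∣ N * q
  · rw [tcFam_of_dvd _ _ _ ℓ h, tcFam_of_dvd _ _ _ ℓ h, LinearMap.zero_apply,
      LinearMap.zero_apply, map_zero]
  · have hN : ¬ (ℓ : ℕ) ∣ N := fun h' => h (dvd_trans h' (dvd_mul_right N q))
    rw [tcFam_of_not_dvd _ _ _ ℓ h hN, tcFam_of_not_dvd _ _ _ ℓ h h]
    exact Subtype.ext (c1_cores hC1 ℓ hN h v.1)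

theorem coresDSub_tcFam (hC8 : StmtC8 N q) (hC1 : StmtC1 N q) (ℓ : Nat.Primes)
    (v : ↥(Lpar (N * q))) :
    coresDSub hC8 (tcFam (N * q) (N * q) dvd_rfl ℓ v)
      = tcFam N (N * q) (dvd_mul_right N q) ℓ (coresDSub hC8 v) := by
  by_cases h : (ℓ : ℕ) ∣ N * q
  · rw [tcFam_of_dvd _ _ _ ℓ h, tcFam_of_dvd _ _ _ ℓ h, LinearMap.zero_apply,
      LinearMap.zero_apply, map_zero]
  · have hN : ¬ (ℓ : ℕ) ∣ N := fun h' => h (dvd_trans h' (dvd_mul_right N q))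
    rw [tcFam_of_not_dvd _ _ _ ℓ h hN, tcFam_of_not_dvd _ _ _ ℓ h h]
    exact Subtype.ext (c1_coresD hC1 ℓ hN h v.1)

/-- `res` as a map of Hecke modules -/
def resL (hC8 : StmtC8 N q) (hC1 : StmtC1 N q) : LOld N q →ₗ[HeckeAlg] LNew N q where
  toFun x := resSub hC8 x
  map_add' x y := map_add (resSub hC8) x y
  map_smul' r x := familyEval_intertwine _ _ _ _ (resSub hC8) (resSub_tcFam hC8 hC1) r x

/-- `res^δ` as a map of Hecke modules -/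
def resDL (hC8 : StmtC8 N q) (hC1 : StmtC1 N q) : LOld N q →ₗ[HeckeAlg] LNew N q where
  toFun x := resDSub hC8 x
  map_add' x y := map_add (resDSub hC8) x y
  map_smul' r x := familyEval_intertwine _ _ _ _ (resDSub hC8) (resDSub_tcFam hC8 hC1) r x

/-- `cores` as a map of Hecke modules -/
def coresL (hC8 : StmtC8 N q) (hC1 : StmtC1 N q) : LNew N q →ₗ[HeckeAlg] LOld N q where
  toFun x := coresSub hC8 x
  map_add' x y := map_add (coresSub hC8) x y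
  map_smul' r x := familyEval_intertwine _ _ _ _ (coresSub hC8) (coresSub_tcFam hC8 hC1) r x

/-- `cores^δ` as a map of Hecke modules -/
def coresDL (hC8 : StmtC8 N q) (hC1 : StmtC1 N q) : LNew N q →ₗ[HeckeAlg] LOld N q where
  toFun x := coresDSub hC8 x
  map_add' x y := map_add (coresDSub hC8) x y
  map_smul' r x := familyEval_intertwine _ _ _ _ (coresDSub hC8) (coresDSub_tcFam hC8 hC1) r x

/-- `T_q` as an endomorphism of the Hecke module `LOld` -/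
def tqL [Fact q.Prime] (hqN : ¬ q ∣ N) : LOld N q →ₗ[HeckeAlg] LOld N q where
  toFun x := tcPar N q hqN x
  map_add' x y := map_add (tcPar N q hqN) x y
  map_smul' r x := familyEval_intertwine _ _ _ _ (tcPar N q hqN : ↥(Lpar N) →ₗ[ℤ] ↥(Lpar N)).toAddMonoidHom
    (fun ℓ v => tcPar_tcFam_comm N (N * q) (dvd_mul_right N q) q hqN ℓ v) r x

theorem newHom_resL (hC8 : StmtC8 N q) (hC1 : StmtC1 N q) (x : LOld N q) :
    newHom N q (resL hC8 hC1 x) = res N q ℤ (oldHom N q x) := rfl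

theorem newHom_resDL (hC8 : StmtC8 N q) (hC1 : StmtC1 N q) (x : LOld N q) :
    newHom N q (resDL hC8 hC1 x) = resD N q ℤ (oldHom N q x) := rfl

theorem oldHom_coresL (hC8 : StmtC8 N q) (hC1 : StmtC1 N q) (x : LNew N q) :
    oldHom N q (coresL hC8 hC1 x) = cores N q ℤ (newHom N q x) := rfl

theorem oldHom_coresDL (hC8 : StmtC8 N q) (hC1 : StmtC1 N q) (x : LNew N q) :
    oldHom N q (coresDL hC8 hC1 x) = coresD N q ℤ (newHom N q x) := rfl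

omit [NeZero N] [NeZero q] in
theorem oldHom_tqL [Fact q.Prime] (hqN : ¬ q ∣ N) (x : LOld N q) :
    oldHom N q (tqL hqN x) = Tc q hqN (oldHom N q x) := rfl

end maps

/-! ## The ideal `𝔫` and the element `ε` -/

section ideal

variable (N q : ℕ) (p : ℕ) (a : ℕ → ℤ) (good : ℕ → Prop)

/-- the generators of `𝔫 = (p, X_ℓ - a_ℓ : ℓ good)` -/
def cohGens : Set HeckeAlg :=
  {r | r = (p : HeckeAlg)} ∪
    {r | ∃ ℓ : Nat.Primes, good ℓ ∧ r = MvPolynomial.X ℓ - MvPolynomial.C (a ℓ)}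

/-- the ideal `𝔫 = (p, X_ℓ - a_ℓ : ℓ good)` of `ℤ[X_ℓ]` -/
def cohIdeal : Ideal HeckeAlg := Ideal.span (cohGens p a good)

theorem natCast_mem_cohIdeal : (p : HeckeAlg) ∈ cohIdeal p a good :=
  Ideal.subset_span (Or.inl rfl)

theorem X_sub_C_mem_cohIdeal (ℓ : Nat.Primes) (h : good ℓ) :
    (MvPolynomial.X ℓ - MvPolynomial.C (a ℓ) : HeckeAlg) ∈ cohIdeal p a good :=
  Ideal.subset_span (Or.inr ⟨ℓ, h, rfl⟩)

/-- `ε = 1 + u (X_ℓ - a_ℓ)` -/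
def cohEps (u : ℤ) (ℓ : Nat.Primes) : HeckeAlg :=
  1 + MvPolynomial.C u * (MvPolynomial.X ℓ - MvPolynomial.C (a ℓ))

theorem cohEps_sub_one_mem (u : ℤ) (ℓ : Nat.Primes) (h : good ℓ) :
    cohEps a u ℓ - 1 ∈ cohIdeal p a good := by
  rw [cohEps, add_sub_cancel_left]
  exact Ideal.mul_mem_left _ _ (X_sub_C_mem_cohIdeal p a good ℓ h)

variable {N q}

theorem oldHom_X_sub_C_smul (ℓ : Nat.Primes) (h : ¬ (ℓ : ℕ) ∣ N * q) (hN : ¬ (ℓ : ℕ) ∣ N)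
    (x : LOld N q) :
    oldHom N q ((MvPolynomial.X ℓ - MvPolynomial.C (a ℓ) : HeckeAlg) • x)
      = Tc ℓ hN (oldHom N q x) - a ℓ • oldHom N q x := by
  rw [sub_smul, map_sub, oldHom_X_smul ℓ h hN, oldHom_C_smul]

theorem newHom_X_sub_C_smul (ℓ : Nat.Primes) (h : ¬ (ℓ : ℕ) ∣ N * q) (x : LNew N q) :
    newHom N q ((MvPolynomial.X ℓ - MvPolynomial.C (a ℓ) : HeckeAlg) • x)
      = Tc ℓ h (newHom N q x) - a ℓ • newHom N q x := by
  rw [sub_smul, map_sub, newHom_X_smul ℓ h, newHom_C_smul]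

theorem oldHom_cohEps_smul (u : ℤ) (ℓ : Nat.Primes) (h : ¬ (ℓ : ℕ) ∣ N * q)
    (hN : ¬ (ℓ : ℕ) ∣ N) (x : LOld N q) :
    oldHom N q (cohEps a u ℓ • x)
      = oldHom N q x + u • (Tc ℓ hN (oldHom N q x) - a ℓ • oldHom N q x) := by
  rw [cohEps, add_smul, one_smul, mul_smul, map_add, oldHom_C_smul,
    oldHom_X_sub_C_smul a ℓ h hN]

theorem oldHom_natCast_smul (x : LOld N q) :
    oldHom N q ((p : HeckeAlg) • x) = p • oldHom N q x := by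
  rw [Nat.cast_smul_eq_nsmul, map_nsmul]

theorem newHom_natCast_smul (x : LNew N q) :
    newHom N q ((p : HeckeAlg) • x) = p • newHom N q x := by
  rw [Nat.cast_smul_eq_nsmul, map_nsmul]

end ideal

/-! ## Reduction modulo `p` -/

section modp

variable {N q : ℕ} {p : ℕ}

/-- the set of parabolic elements of `Γ₀(M)` -/
def parSet (M : ℕ) : Set ↥(Gamma0 M) :=
  {γ | ((γ : SL(2, ℤ)) : Matrix (Fin 2) (Fin 2) ℤ).trace ^ 2 = 4}

theorem mem_Lpar_iff_intHoms {M : ℕ} (φ : HomG M ℤ) :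
    φ ∈ Lpar M ↔ φ ∈ intHoms ↥(Gamma0 M) (parSet M) := Iff.rfl

/-- reduction modulo `p` of an integral homomorphism -/
def redP (p : ℕ) {M : ℕ} (φ : HomG M ℤ) : HomG M (ZMod p) := (Int.castAddHom (ZMod p)).comp φ

theorem redP_apply {M : ℕ} (φ : HomG M ℤ) (g : Additive (Gamma0 M)) :
    redP p φ g = ((φ g : ℤ) : ZMod p) := rfl

theorem redP_mem_Hpar {M : ℕ} {φ : HomG M ℤ} (h : φ ∈ Lpar M) : redP p φ ∈ Hpar M (ZMod p) := by
  intro γ hγ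
  rw [redP_apply, h γ hγ, Int.cast_zero]

theorem redP_Tc {M : ℕ} (ℓ : ℕ) [Fact ℓ.Prime] (hℓ : ¬ ℓ ∣ M) (φ : HomG M ℤ) :
    redP p (Tc ℓ hℓ φ) = Tc ℓ hℓ (redP p φ) :=
  (HeckeP.heckeHom_comp hℓ (Int.castAddHom (ZMod p)) φ).symm

theorem redP_add {M : ℕ} (φ ψ : HomG M ℤ) : redP p (φ + ψ) = redP p φ + redP p ψ :=
  AddMonoidHom.comp_add _ _ _

theorem redP_nsmul {M : ℕ} (φ : HomG M ℤ) : redP p (p • φ) = 0 := by
  refine AddMonoidHom.ext fun g => ?_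
  rw [redP_apply, AddMonoidHom.nsmul_apply, nsmul_eq_mul, Int.cast_mul, Int.cast_natCast,
    ZMod.natCast_self, zero_mul]
  rfl

theorem redP_res [NeZero q] (φ : HomG N ℤ) : redP p (res N q ℤ φ) = res N q (ZMod p) (redP p φ) :=
  rfl

theorem redP_resD [NeZero q] (φ : HomG N ℤ) :
    redP p (resD N q ℤ φ) = resD N q (ZMod p) (redP p φ) := rfl

/-- if `T_ℓ φ̄ = (ℓ + 1) φ̄` then `ε φ` is divisible by `p` -/
theorem exists_eq_nsmul_of_eigen (hp : p.Prime) (a : ℕ → ℤ) (u m : ℤ) (ℓ : Nat.Primes)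
    (hum : m * p + u * (a ℓ - ((ℓ : ℕ) + 1)) = 1) (h : ¬ (ℓ : ℕ) ∣ N * q) (hN : ¬ (ℓ : ℕ) ∣ N)
    (x : LOld N q)
    (hx : Tc ℓ hN (redP p (oldHom N q x)) = ((ℓ : ℕ) + 1) • redP p (oldHom N q x)) :
    ∃ x' : LOld N q, cohEps a u ℓ • x = p • x' := by
  have hzero : redP p (oldHom N q (cohEps a u ℓ • x)) = 0 := by
    refine AddMonoidHom.ext fun g => ?_
    have h1 := DFunLike.congr_fun hx g
    rw [← redP_Tc, redP_apply, AddMonoidHom.nsmul_apply, redP_apply, nsmul_eq_mul] at h1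
    rw [oldHom_cohEps_smul a u ℓ h hN, redP_apply]
    simp only [AddMonoidHom.add_apply, AddMonoidHom.zsmul_apply, AddMonoidHom.sub_apply,
      smul_eq_mul, AddMonoidHom.zero_apply]
    push_cast
    rw [h1]
    have h2 := congrArg (Int.cast : ℤ → ZMod p) hum
    push_cast at h2
    rw [ZMod.natCast_self, mul_zero, zero_add] at h2
    push_cast
    linear_combination (-(((oldHom N q x) g : ℤ) : ZMod p)) * h2
  obtain ⟨y, hy, hxy⟩ := exists_eq_nsmul_of_castHom_eq_zero (P := parSet N) p hp.ne_zero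
    (oldHom N q (cohEps a u ℓ • x)) (oldHom_mem _) hzero
  have hy' : y ∈ Lpar N := (mem_Lpar_iff_intHoms y).mpr hy
  refine ⟨oldMk y hy', oldHom_injective ?_⟩
  rw [hxy, map_nsmul, oldHom_oldMk]

end modp

/-! ## The hypotheses of the lattice lemma -/

section hyps

variable {N q : ℕ} [NeZero N] [NeZero q] {p : ℕ}

theorem ihara_apply (hI : StmtIhara N q p) (φ₁ φ₂ : HomG N (ZMod p))
    (h₁ : φ₁ ∈ Hpar N (ZMod p)) (h₂ : φ₂ ∈ Hpar N (ZMod p))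
    (h : res N q (ZMod p) φ₁ + resD N q (ZMod p) φ₂ = 0) (ℓ : ℕ) [Fact ℓ.Prime]
    (hN : ¬ ℓ ∣ N) (hq : ¬ ℓ ∣ q) :
    Tc ℓ hN φ₁ = (ℓ + 1) • φ₁ ∧ Tc ℓ hN φ₂ = (ℓ + 1) • φ₂ :=
  hI φ₁ φ₂ h₁ h₂ h ℓ hN hq

theorem dualIhara_apply (hI : StmtIhara N q p) (hDI : StmtDualIhara N q p) (ℓ : ℕ)
    [Fact ℓ.Prime] (hN : ¬ ℓ ∣ N) (hq : ¬ ℓ ∣ q) (x₁ x₂ : HomG N ℤ) (hx₁ : x₁ ∈ Lpar N)
    (hx₂ : x₂ ∈ Lpar N) :
    ∃ ψ ∈ Lpar (N * q), ∃ y₁ ∈ Lpar N, ∃ y₂ ∈ Lpar N,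
      Tc ℓ hN x₁ - (ℓ + 1) • x₁ = cores N q ℤ ψ + p • y₁ ∧
      Tc ℓ hN x₂ - (ℓ + 1) • x₂ = coresD N q ℤ ψ + p • y₂ :=
  hDI ℓ hN hq (fun φ₁ φ₂ h₁ h₂ h => hI φ₁ φ₂ h₁ h₂ h ℓ hN hq) x₁ hx₁ x₂ hx₂

theorem c2_apply (hC2 : StmtC2 N q) [Fact q.Prime] (hqN : ¬ q ∣ N) (φ : HomG N ℤ) :
    cores N q ℤ (res N q ℤ φ) = (q + 1) • φ ∧
    coresD N q ℤ (resD N q ℤ φ) = (q + 1) • φ ∧
    cores N q ℤ (resD N q ℤ φ) = Tc q hqN φ ∧
    coresD N q ℤ (res N q ℤ φ) = Tc q hqN φ :=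
  hC2 ℤ hqN φ

/-- `β α = [[q + 1, T_q], [T_q, q + 1]]` -/
theorem coh_beta_alpha (hC1 : StmtC1 N q) (hC2 : StmtC2 N q) (hC8 : StmtC8 N q) [Fact q.Prime]
    (hqN : ¬ q ∣ N) (x y : LOld N q) :
    ((coresL hC8 hC1).prod (coresDL hC8 hC1)) (((resL hC8 hC1).coprod (resDL hC8 hC1)) (x, y))
      = (((q : ℤ) + 1) • x + tqL hqN y, tqL hqN x + ((q : ℤ) + 1) • y) := by
  obtain ⟨h1, h2, h3, h4⟩ := c2_apply hC2 hqN (oldHom N q x)
  obtain ⟨k1, k2, k3, k4⟩ := c2_apply hC2 hqN (oldHom N q y)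
  have hcast : ∀ φ : HomG N ℤ, (q + 1) • φ = ((q : ℤ) + 1) • φ := fun φ => by
    rw [← Nat.cast_smul_eq_nsmul ℤ]; push_cast; rfl
  rw [LinearMap.coprod_apply, LinearMap.prod_apply]
  refine Prod.ext (oldHom_injective ?_) (oldHom_injective ?_)
  · show oldHom N q (coresL hC8 hC1 (resL hC8 hC1 x + resDL hC8 hC1 y)) = _
    rw [map_add, map_add, oldHom_coresL, oldHom_coresL, newHom_resL, newHom_resDL, h1, k3,
      map_add, map_zsmul, oldHom_tqL, hcast]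
  · show oldHom N q (coresDL hC8 hC1 (resL hC8 hC1 x + resDL hC8 hC1 y)) = _
    rw [map_add, map_add, oldHom_coresDL, oldHom_coresDL, newHom_resL, newHom_resDL, h4, k2,
      map_add, map_zsmul, oldHom_tqL, hcast]

/-- hypothesis (H1) of the lattice lemma -/
theorem coh_H1 (hp : p.Prime) (hC1 : StmtC1 N q) (hC8 : StmtC8 N q) (hI : StmtIhara N q p)
    (a : ℕ → ℤ) (u m : ℤ) (ℓ : Nat.Primes)
    (hum : m * p + u * (a ℓ - ((ℓ : ℕ) + 1)) = 1) (h : ¬ (ℓ : ℕ) ∣ N * q)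
    (z : LOld N q × LOld N q)
    (hz : ∃ w : LNew N q, ((resL hC8 hC1).coprod (resDL hC8 hC1)) z = p • w) :
    ∃ z' : LOld N q × LOld N q, cohEps a u ℓ • z = p • z' := by
  obtain ⟨w, hw⟩ := hz
  have hN : ¬ (ℓ : ℕ) ∣ N := fun h' => h (dvd_trans h' (dvd_mul_right N q))
  have hq : ¬ (ℓ : ℕ) ∣ q := fun h' => h (dvd_trans h' (dvd_mul_left q N))
  have hsum : res N q (ZMod p) (redP p (oldHom N q z.1))
      + resD N q (ZMod p) (redP p (oldHom N q z.2)) = 0 := by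
    have h1 := congrArg (fun y => redP p (newHom N q y)) hw
    simp only [LinearMap.coprod_apply, map_add, newHom_resL, newHom_resDL, map_nsmul] at h1
    rw [redP_add, redP_nsmul, redP_res, redP_resD] at h1
    exact h1
  obtain ⟨e1, e2⟩ := ihara_apply hI _ _ (redP_mem_Hpar (oldHom_mem z.1))
    (redP_mem_Hpar (oldHom_mem z.2)) hsum ℓ hN hq
  obtain ⟨x', hx'⟩ := exists_eq_nsmul_of_eigen hp a u m ℓ hum h hN z.1 e1
  obtain ⟨y', hy'⟩ := exists_eq_nsmul_of_eigen hp a u m ℓ hum h hN z.2 e2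
  refine ⟨(x', y'), ?_⟩
  rw [Prod.smul_def, hx', hy']
  rfl

/-- hypothesis (H2) of the lattice lemma -/
theorem coh_H2 (hC1 : StmtC1 N q) (hC8 : StmtC8 N q) (hI : StmtIhara N q p)
    (hDI : StmtDualIhara N q p) (a : ℕ → ℤ) (u m : ℤ) (ℓ : Nat.Primes)
    (hum : m * p + u * (a ℓ - ((ℓ : ℕ) + 1)) = 1) (h : ¬ (ℓ : ℕ) ∣ N * q)
    (z : LOld N q × LOld N q) :
    ∃ (w : LNew N q) (z' : LOld N q × LOld N q),
      cohEps a u ℓ • z = ((coresL hC8 hC1).prod (coresDL hC8 hC1)) w + p • z' := by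
  have hN : ¬ (ℓ : ℕ) ∣ N := fun h' => h (dvd_trans h' (dvd_mul_right N q))
  have hq : ¬ (ℓ : ℕ) ∣ q := fun h' => h (dvd_trans h' (dvd_mul_left q N))
  obtain ⟨ψ, hψ, y₁, hy₁, y₂, hy₂, e1, e2⟩ := dualIhara_apply hI hDI ℓ hN hq
    (oldHom N q z.1) (oldHom N q z.2) (oldHom_mem z.1) (oldHom_mem z.2)
  have key : ∀ (x y cψ : HomG N ℤ),
      Tc ℓ hN x - ((ℓ : ℕ) + 1) • x = cψ + p • y →
      x + u • (Tc ℓ hN x - a ℓ • x) = u • cψ + p • (m • x + u • y) := by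
    intro x y cψ e
    have e' : Tc ℓ hN x = cψ + p • y + ((ℓ : ℕ) + 1) • x := by rw [← e]; abel
    rw [e']
    refine AddMonoidHom.ext fun g => ?_
    simp only [AddMonoidHom.add_apply, AddMonoidHom.zsmul_apply, AddMonoidHom.sub_apply,
      AddMonoidHom.nsmul_apply, smul_eq_mul, nsmul_eq_mul]
    push_cast
    linear_combination (-(x g)) * hum
  refine ⟨u • newMk ψ hψ, (m • z.1 + u • oldMk y₁ hy₁, m • z.2 + u • oldMk y₂ hy₂), ?_⟩
  rw [Prod.smul_def, LinearMap.prod_apply]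
  refine Prod.ext (oldHom_injective ?_) (oldHom_injective ?_)
  · show oldHom N q (cohEps a u ℓ • z.1)
      = oldHom N q (coresL hC8 hC1 (u • newMk ψ hψ) + p • (m • z.1 + u • oldMk y₁ hy₁))
    rw [oldHom_cohEps_smul a u ℓ h hN, map_add, oldHom_coresL, map_zsmul, newHom_newMk,
      map_zsmul, map_nsmul, map_add, map_zsmul, map_zsmul, oldHom_oldMk]
    exact key _ _ _ e1
  · show oldHom N q (cohEps a u ℓ • z.2)
      = oldHom N q (coresDL hC8 hC1 (u • newMk ψ hψ) + p • (m • z.2 + u • oldMk y₂ hy₂))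
    rw [oldHom_cohEps_smul a u ℓ h hN, map_add, oldHom_coresDL, map_zsmul, newHom_newMk,
      map_zsmul, map_nsmul, map_add, map_zsmul, map_zsmul, oldHom_oldMk]
    exact key _ _ _ e2

omit [NeZero N] [NeZero q] in
/-- `𝔫 L ⊆ nSub L` -/
theorem oldHom_mem_nSub_of_mem_smul (a : ℕ → ℤ) (good : ℕ → Prop)
    (hgood : ∀ ℓ, good ℓ → ℓ.Prime ∧ ¬ ℓ ∣ N * q) (x : LOld N q)
    (hx : x ∈ cohIdeal p a good • (⊤ : Submodule HeckeAlg (LOld N q))) :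
    oldHom N q x ∈ nSub N p a good (Lpar N) := by
  have hgen : ∀ r ∈ cohIdeal p a good, ∀ n : LOld N q,
      oldHom N q (r • n) ∈ nSub N p a good (Lpar N) := by
    intro r hr
    induction hr using Submodule.span_induction with
    | mem r hr =>
      intro n
      rcases hr with hr | ⟨ℓ, hℓ, hr⟩
      · have hr' : r = (p : HeckeAlg) := hr
        rw [hr', oldHom_natCast_smul]
        exact AddSubgroup.subset_closure (Or.inl ⟨_, oldHom_mem n, rfl⟩)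
      · have h := (hgood ℓ hℓ).2
        have hN : ¬ (ℓ : ℕ) ∣ N := fun h' => h (dvd_trans h' (dvd_mul_right N q))
        rw [hr, oldHom_X_sub_C_smul a ℓ h hN]
        exact AddSubgroup.subset_closure
          (Or.inr ⟨ℓ, primesFact ℓ, hN, hℓ, _, oldHom_mem n, rfl⟩)
    | zero => intro n; rw [zero_smul, map_zero]; exact AddSubgroup.zero_mem _
    | add r s _ _ hr hs =>
      intro n
      rw [add_smul, map_add]
      exact AddSubgroup.add_mem _ (hr n) (hs n)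
    | smul c r _ hr =>
      intro n
      rw [smul_eq_mul, mul_comm, mul_smul]
      exact hr (c • n)
  exact Submodule.smul_induction_on (p := fun x => oldHom N q x ∈ nSub N p a good (Lpar N)) hx
    (fun r hr n _ => hgen r hr n)
    (fun x y hx hy => by rw [map_add]; exact AddSubgroup.add_mem _ hx hy)

omit [NeZero N] [NeZero q] in
/-- hypothesis (H3) of the lattice lemma -/
theorem coh_H3 (a : ℕ → ℤ) (good : ℕ → Prop)
    (hgood : ∀ ℓ, good ℓ → ℓ.Prime ∧ ¬ ℓ ∣ N * q) [Fact q.Prime] (hqN : ¬ q ∣ N)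
    (hH3 : StmtH3 N q p a good) :
    ∃ x : LOld N q, x ∉ (cohIdeal p a good • (⊤ : Submodule HeckeAlg (LOld N q))) ⊔
      LinearMap.range (tqL hqN ∘ₗ tqL hqN
        - (((q : ℤ) + 1) ^ 2) • (LinearMap.id : LOld N q →ₗ[HeckeAlg] LOld N q)) := by
  obtain ⟨x, hx, hnot⟩ := hH3 hqN
  refine ⟨oldMk x hx, fun hmem => hnot ?_⟩
  obtain ⟨u, hu, v, hv, huv⟩ := Submodule.mem_sup.mp hmem
  obtain ⟨z, hz⟩ := hv
  rw [AddSubgroup.mem_sup]
  refine ⟨oldHom N q u, oldHom_mem_nSub_of_mem_smul a good hgood u hu, oldHom N q v, ?_, ?_⟩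
  · apply AddSubgroup.subset_closure
    refine ⟨oldHom N q z, oldHom_mem z, ?_⟩
    rw [← hz, LinearMap.sub_apply, LinearMap.comp_apply, LinearMap.smul_apply,
      LinearMap.id_apply, map_sub, oldHom_tqL, oldHom_tqL, map_zsmul]
  · rw [← map_add, huv, oldHom_oldMk]

/-- `nSub K ⊆ 𝔫 ker β` -/
theorem exists_mem_smul_ker_of_mem_nSub (hC1 : StmtC1 N q) (hC8 : StmtC8 N q) (a : ℕ → ℤ)
    (good : ℕ → Prop) (h : HomG (N * q) ℤ) (hh : h ∈ nSub (N * q) p a good (Knew N q)) :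
    ∃ y : LNew N q, newHom N q y = h ∧
      y ∈ cohIdeal p a good • LinearMap.ker ((coresL hC8 hC1).prod (coresDL hC8 hC1)) := by
  have hker : ∀ x ∈ Knew N q, ∃ x' : LNew N q, newHom N q x' = x ∧
      x' ∈ LinearMap.ker ((coresL hC8 hC1).prod (coresDL hC8 hC1)) := by
    intro x hx
    obtain ⟨hx1, hx2⟩ := hx
    have hx1' : alphaT N q ℤ x = 0 := hx1
    rw [alphaT_apply, Prod.mk_eq_zero] at hx1'
    refine ⟨newMk x hx2, newHom_newMk x hx2, ?_⟩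
    rw [LinearMap.mem_ker, LinearMap.prod_apply]
    refine Prod.ext (oldHom_injective ?_) (oldHom_injective ?_)
    · show oldHom N q (coresL hC8 hC1 (newMk x hx2)) = oldHom N q 0
      rw [oldHom_coresL, newHom_newMk, hx1'.1, map_zero]
    · show oldHom N q (coresDL hC8 hC1 (newMk x hx2)) = oldHom N q 0
      rw [oldHom_coresDL, newHom_newMk, hx1'.2, map_zero]
  induction hh using AddSubgroup.closure_induction with
  | mem h hh =>
    rcases hh with ⟨x, hx, rfl⟩ | ⟨ℓ, hℓ, hℓM, hg, x, hx, rfl⟩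
    · obtain ⟨x', hx', hk⟩ := hker x hx
      refine ⟨(p : HeckeAlg) • x', ?_, Submodule.smul_mem_smul (natCast_mem_cohIdeal p a good) hk⟩
      rw [newHom_natCast_smul, hx']
    · obtain ⟨x', hx', hk⟩ := hker x hx
      obtain ⟨ℓ', rfl⟩ : ∃ ℓ' : Nat.Primes, (ℓ' : ℕ) = ℓ := ⟨⟨ℓ, hℓ.out⟩, rfl⟩
      refine ⟨(MvPolynomial.X ℓ' - MvPolynomial.C (a ℓ') : HeckeAlg) • x',
        ?_, Submodule.smul_mem_smul (X_sub_C_mem_cohIdeal p a good ℓ' hg) hk⟩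
      rw [newHom_X_sub_C_smul a ℓ' hℓM, hx']
  | zero => exact ⟨0, map_zero _, Submodule.zero_mem _⟩
  | add h₁ h₂ _ _ ih₁ ih₂ =>
    obtain ⟨y₁, e₁, m₁⟩ := ih₁
    obtain ⟨y₂, e₂, m₂⟩ := ih₂
    exact ⟨y₁ + y₂, by rw [map_add, e₁, e₂], Submodule.add_mem _ m₁ m₂⟩
  | neg h₁ _ ih₁ =>
    obtain ⟨y₁, e₁, m₁⟩ := ih₁
    exact ⟨-y₁, by rw [map_neg, e₁], Submodule.neg_mem _ m₁⟩

end hyps

/-! ## The statement (COH) -/

/-- **(COH)** from the lattice lemma, (C1), (C2), (C8), (IHARA), (DUAL IHARA), (H3) and a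
non-Eisenstein prime. -/
theorem stmtCOH_of {N q p : ℕ} [NeZero N] [NeZero q] (hp : p.Prime) (hq : q.Prime)
    (hqN : ¬ q ∣ N) (hAlg : StmtAlg) (hC1 : StmtC1 N q) (hC2 : StmtC2 N q) (hC8 : StmtC8 N q)
    (hI : StmtIhara N q p) (hDI : StmtDualIhara N q p) (a : ℕ → ℤ) (good : ℕ → Prop)
    (hgood : ∀ ℓ, good ℓ → ℓ.Prime ∧ ¬ ℓ ∣ N * q)
    (hNE : ∃ ℓ, good ℓ ∧ ¬ (p : ℤ) ∣ a ℓ - (ℓ + 1))
    (hH3 : StmtH3 N q p a good) : StmtCOH N q p a good := by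
  haveI : Fact q.Prime := ⟨hq⟩
  obtain ⟨ℓ₀, hg₀, hndvd⟩ := hNE
  obtain ⟨hℓ₀, hℓ₀Nq⟩ := hgood ℓ₀ hg₀
  -- Bezout
  have hcop : IsCoprime (p : ℤ) (a ℓ₀ - (ℓ₀ + 1)) :=
    (Nat.prime_iff_prime_int.mp hp).coprime_iff_not_dvd.mpr hndvd
  obtain ⟨m, u, hum⟩ := hcop
  obtain ⟨ℓ, rfl⟩ : ∃ ℓ : Nat.Primes, (ℓ : ℕ) = ℓ₀ := ⟨⟨ℓ₀, hℓ₀⟩, rfl⟩
  have hum' : m * p + u * (a ℓ - ((ℓ : ℕ) + 1)) = 1 := hum
  have hgℓ : good ℓ := hg₀
  have hℓNq : ¬ (ℓ : ℕ) ∣ N * q := hℓ₀Nq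
  obtain ⟨y, hy0, hynot⟩ := hAlg HeckeAlg (cohIdeal p a good) p hp (natCast_mem_cohIdeal p a good)
    (LOld N q) (LNew N q) ((resL hC8 hC1).coprod (resDL hC8 hC1))
    ((coresL hC8 hC1).prod (coresDL hC8 hC1)) (tqL hqN) ((q : ℤ) + 1)
    (coh_beta_alpha hC1 hC2 hC8 hqN)
    ⟨cohEps a u ℓ, cohEps_sub_one_mem p a good u ℓ hgℓ,
      fun z hz => coh_H1 hp hC1 hC8 hI a u m ℓ hum' hℓNq z hz⟩
    ⟨cohEps a u ℓ, cohEps_sub_one_mem p a good u ℓ hgℓ,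
      fun z => coh_H2 hC1 hC8 hI hDI a u m ℓ hum' hℓNq z⟩
    (coh_H3 a good hgood hqN hH3)
  refine ⟨newHom N q y, ⟨?_, newHom_mem y⟩, fun hmem => hynot ?_⟩
  · show alphaT N q ℤ (newHom N q y) = 0
    rw [LinearMap.prod_apply] at hy0
    have h1 : coresL hC8 hC1 y = 0 := congrArg Prod.fst hy0
    have h2 : coresDL hC8 hC1 y = 0 := congrArg Prod.snd hy0
    rw [alphaT_apply, ← oldHom_coresL hC8 hC1, ← oldHom_coresDL hC8 hC1, h1, h2, map_zero]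
    rfl
  · obtain ⟨y', hy', hmem'⟩ := exists_mem_smul_ker_of_mem_nSub hC1 hC8 a good _ hmem
    rwa [newHom_injective hy'] at hmem'

end Fermat.Agent.S41
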