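import Mathlib
import Fermat.Agent.S41.AlphaTAlpha

/-!
# S41 (C1) — the degeneracy maps commute with `T_ℓ`, `ℓ ∤ N q`

`res`, `resD : Hom(Γ₀(N), A) → Hom(Γ₀(N q), A)` and `cores`, `coresD` in the other direction
commute with the Hecke operators `T_ℓ` (`ℓ` prime, `ℓ ∤ N q`).

Abstract form (`dh_res`, `dh_cores`): for an injective `f : Γ₀(M) →* Γ₀(N)` and a family
`m : HeckeRep ℓ → M₂(ℤ)` of matrices of `Γ₀(N) · HeckeRep ℓ` with
`m A · f(c) = f(coc_M(A, c)) · m (next_M(A, c))` (`DhData`), restriction along `f` and the transfer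
along `f` commute with `T_ℓ`.
-/

set_option autoImplicit false
set_option linter.style.haveILetI false
set_option linter.unusedSectionVars false
set_option linter.unusedSimpArgs false
set_option linter.unnecessarySeqFocus false

noncomputable section

namespace Fermat.Agent.S41

open CongruenceSubgroup Matrix Fermat.Agent.ES
open scoped MatrixGroups Pointwise

theorem dh_decomp_unique {n N : ℕ} [NeZero n] {A₁ A₂ : HeckeRep n} {x y : Gamma0 N}
    (h : ataMat x * A₁.mat = ataMat y * A₂.mat) : A₁ = A₂ ∧ x = y := by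
  obtain ⟨h1, h2⟩ := HeckeRep.decomp_unique h
  exact ⟨h1, Subtype.ext h2⟩

theorem dh_cancel_left {N : ℕ} (x : Gamma0 N) {P Q : Matrix (Fin 2) (Fin 2) ℤ}
    (h : ataMat x * P = ataMat x * Q) : P = Q := by
  have := congrArg (fun Z => ataMat x⁻¹ * Z) h
  simpa only [← Matrix.mul_assoc, ataMat_inv_mul, Matrix.one_mul] using this

theorem dh_cancel_right {N : ℕ} (x : Gamma0 N) {P Q : Matrix (Fin 2) (Fin 2) ℤ}
    (h : P * ataMat x = Q * ataMat x) : P = Q := by
  have := congrArg (fun Z => Z * ataMat x⁻¹) h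
  simpa only [Matrix.mul_assoc, ataMat_mul_inv, Matrix.mul_one] using this

section abstract

variable {N M ℓ : ℕ} [NeZero ℓ] (hN : Nat.Coprime ℓ N) (hM : Nat.Coprime ℓ M)
  (f : Gamma0 M →* Gamma0 N) (m : HeckeRep ℓ → Matrix (Fin 2) (Fin 2) ℤ)

/-- intertwining data between the Hecke representatives at levels `M` and `N` along `f` -/
structure DhData : Prop where
  dec : ∀ A : HeckeRep ℓ, ∃ (t : Gamma0 N) (B : HeckeRep ℓ), m A = ataMat t * B.mat
  tw : ∀ (A : HeckeRep ℓ) (c : Gamma0 M),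
    m A * ataMat (f c) = ataMat (f (HeckeRep.coc hM A c)) * m (HeckeRep.next hM A c)
  inj : ∀ (A A₁ : HeckeRep ℓ) (γ : Gamma0 N), m A = ataMat γ * m A₁ → A = A₁
  rng : ∀ (A A₁ : HeckeRep ℓ) (x : Gamma0 N) (e : Gamma0 M),
    m A * ataMat x = ataMat (f e) * m A₁ → x ∈ f.range

variable {hM f m} (D : DhData hM f m)

/-- the `Γ₀(N)`-part of `m A` -/
def dhT (A : HeckeRep ℓ) : Gamma0 N := (D.dec A).choose

/-- the representative of `m A` -/
def dhS (A : HeckeRep ℓ) : HeckeRep ℓ := (D.dec A).choose_spec.choose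

theorem dh_m_eq (A : HeckeRep ℓ) : m A = ataMat (dhT D A) * (dhS D A).mat :=
  (D.dec A).choose_spec.choose_spec

theorem dhS_injective : Function.Injective (dhS D) := by
  intro A A₁ h
  have h1 := dh_m_eq D A
  have h2 := dh_m_eq D A₁
  rw [h] at h1
  apply D.inj A A₁ (dhT D A * (dhT D A₁)⁻¹)
  rw [h1, h2, ataMat_mul, Matrix.mul_assoc, ← Matrix.mul_assoc (ataMat (dhT D A₁)⁻¹),
    ataMat_inv_mul, Matrix.one_mul]

theorem dhS_bijective : Function.Bijective (dhS D) :=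
  Finite.injective_iff_bijective.mp (dhS_injective D)

/-! ### restriction -/

theorem dh_res_key (A : HeckeRep ℓ) (c : Gamma0 M) :
    HeckeRep.next hN (dhS D A) (f c) = dhS D (HeckeRep.next hM A c) ∧
      HeckeRep.coc hN (dhS D A) (f c)
        = (dhT D A)⁻¹ * f (HeckeRep.coc hM A c) * dhT D (HeckeRep.next hM A c) := by
  apply HeckeRep.next_coc_unique hN
  show (dhS D A).mat * ataMat (f c) = ataMat _ * (dhS D (HeckeRep.next hM A c)).mat
  apply dh_cancel_left (dhT D A)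
  rw [← Matrix.mul_assoc, ← dh_m_eq D A, D.tw A c, dh_m_eq D (HeckeRep.next hM A c)]
  simp only [ataMat_mul, ← Matrix.mul_assoc, ataMat_mul_inv, Matrix.one_mul]

variable {B : Type*} [AddCommGroup B]

include D in
/-- **restriction along `f` commutes with `T_ℓ`.** -/
theorem dh_res (φ : Additive (Gamma0 N) →+ B) :
    (heckeHom hN φ).comp (MonoidHom.toAdditive f)
      = heckeHom hM (φ.comp (MonoidHom.toAdditive f)) := by
  refine AddMonoidHom.ext fun c => ?_
  obtain ⟨c, rfl⟩ : ∃ c' : Gamma0 M, Additive.ofMul c' = c := ⟨Additive.toMul c, rfl⟩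
  show heckeHom hN φ (Additive.ofMul (f c)) = _
  rw [heckeHom_apply, heckeHom_apply, ← Function.Bijective.sum_comp (dhS_bijective D)]
  have h1 : ∀ A : HeckeRep ℓ, φ (Additive.ofMul (HeckeRep.coc hN (dhS D A) (f c)))
      = (φ.comp (MonoidHom.toAdditive f)) (Additive.ofMul (HeckeRep.coc hM A c))
        + (φ (Additive.ofMul (dhT D (HeckeRep.next hM A c)))
          - φ (Additive.ofMul (dhT D A))) := by
    intro A
    rw [(dh_res_key hN D A c).2, ofMul_mul, ofMul_mul, ofMul_inv, map_add, map_add, map_neg]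
    show _ = φ (Additive.ofMul (f (HeckeRep.coc hM A c))) + _
    abel
  simp only [h1]
  rw [Finset.sum_add_distrib, Finset.sum_sub_distrib]
  have h2 : ∑ A : HeckeRep ℓ, φ (Additive.ofMul (dhT D (HeckeRep.next hM A c)))
      = ∑ A : HeckeRep ℓ, φ (Additive.ofMul (dhT D A)) :=
    Equiv.sum_comp (HeckeRep.perm hM c) (fun A => φ (Additive.ofMul (dhT D A)))
  rw [h2, sub_self, add_zero]

/-! ### corestriction -/

/-- `m A R_s⁻¹ = v Ã` with `v ∈ Γ₀(N)` -/
def dhV (s : Gamma0 N ⧸ f.range) (A : HeckeRep ℓ) : Gamma0 N :=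
  dhT D A * HeckeRep.coc hN (dhS D A) (tRep f s)⁻¹

/-- the representative `Ã` of `m A R_s⁻¹` -/
def dhA (s : Gamma0 N ⧸ f.range) (A : HeckeRep ℓ) : HeckeRep ℓ :=
  HeckeRep.next hN (dhS D A) (tRep f s)⁻¹

theorem dh_mR (s : Gamma0 N ⧸ f.range) (A : HeckeRep ℓ) :
    m A * ataMat (tRep f s)⁻¹ = ataMat (dhV hN D s A) * (dhA hN D s A).mat := by
  rw [dh_m_eq D A, Matrix.mul_assoc]
  have := HeckeRep.mat_mul hN (dhS D A) (tRep f s)⁻¹
  rw [show (dhS D A).mat * ataMat (tRep f s)⁻¹ = _ from this, ← Matrix.mul_assoc]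
  rw [dhV, ataMat_mul]
  rfl

/-- the coset `s̃` of `v⁻¹` -/
def dhQ (s : Gamma0 N ⧸ f.range) (A : HeckeRep ℓ) : Gamma0 N ⧸ f.range :=
  QuotientGroup.mk (dhV hN D s A)⁻¹

theorem dhV_mul_mem (s : Gamma0 N ⧸ f.range) (A : HeckeRep ℓ) :
    dhV hN D s A * tRep f (dhQ hN D s A) ∈ f.range := by
  have h : (QuotientGroup.mk (tRep f (dhQ hN D s A)) : Gamma0 N ⧸ f.range)
      = QuotientGroup.mk (dhV hN D s A)⁻¹ := tRep_mk f _
  have h2 := (QuotientGroup.eq (s := f.range)).mp h.symm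
  rwa [inv_inv] at h2

variable (hf : Function.Injective f)

/-- the element `u ∈ Γ₀(M)` with `m A R_s⁻¹ = f(u) R_s̃⁻¹ Ã` -/
def dhU (s : Gamma0 N ⧸ f.range) (A : HeckeRep ℓ) : Gamma0 M :=
  (MonoidHom.ofInjective hf).symm ⟨dhV hN D s A * tRep f (dhQ hN D s A), dhV_mul_mem hN D s A⟩

theorem f_dhU (s : Gamma0 N ⧸ f.range) (A : HeckeRep ℓ) :
    f (dhU hN D hf s A) = dhV hN D s A * tRep f (dhQ hN D s A) := by
  have h := (MonoidHom.ofInjective hf).apply_symm_apply
    ⟨dhV hN D s A * tRep f (dhQ hN D s A), dhV_mul_mem hN D s A⟩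
  exact congrArg Subtype.val h

theorem dh_star (s : Gamma0 N ⧸ f.range) (A : HeckeRep ℓ) :
    m A * ataMat (tRep f s)⁻¹
      = ataMat (f (dhU hN D hf s A) * (tRep f (dhQ hN D s A))⁻¹) * (dhA hN D s A).mat := by
  rw [f_dhU, mul_inv_cancel_right, dh_mR hN D s A]

theorem dh_char {s : Gamma0 N ⧸ f.range} {A : HeckeRep ℓ} {u' : Gamma0 M}
    {s' : Gamma0 N ⧸ f.range} {A' : HeckeRep ℓ}
    (h : m A * ataMat (tRep f s)⁻¹ = ataMat (f u' * (tRep f s')⁻¹) * A'.mat) :
    dhQ hN D s A = s' ∧ dhA hN D s A = A' ∧ dhU hN D hf s A = u' := by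
  have h1 := dh_star hN D hf s A
  rw [h] at h1
  obtain ⟨hA, hx⟩ := dh_decomp_unique h1
  -- `f u' R_{s'}⁻¹ = f u R_s̃⁻¹`
  have hmem : (tRep f (dhQ hN D s A))⁻¹ * tRep f s' ∈ f.range := by
    refine ⟨(dhU hN D hf s A)⁻¹ * u', ?_⟩
    rw [map_mul, map_inv]
    have : f u' = f (dhU hN D hf s A) * (tRep f (dhQ hN D s A))⁻¹ * tRep f s' := by
      rw [← hx, inv_mul_cancel_right]
    rw [this]; group
  have hs := (QuotientGroup.eq (s := f.range)).mpr hmem
  rw [tRep_mk, tRep_mk] at hs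
  refine ⟨hs, hA.symm, ?_⟩
  rw [← hs] at hx
  exact (hf (mul_right_cancel hx)).symm

/-- the main identity for the corestriction -/
theorem dh_cores_key (s : Gamma0 N ⧸ f.range) (A : HeckeRep ℓ) (g : Gamma0 N) :
    dhQ hN D (g⁻¹ • s) (HeckeRep.next hM A (tCoc f hf s g))
        = (HeckeRep.coc hN (dhA hN D s A) g)⁻¹ • dhQ hN D s A ∧
      dhA hN D (g⁻¹ • s) (HeckeRep.next hM A (tCoc f hf s g))
        = HeckeRep.next hN (dhA hN D s A) g ∧
      dhU hN D hf (g⁻¹ • s) (HeckeRep.next hM A (tCoc f hf s g))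
        = (HeckeRep.coc hM A (tCoc f hf s g))⁻¹ * dhU hN D hf s A
          * tCoc f hf (dhQ hN D s A) (HeckeRep.coc hN (dhA hN D s A) g) := by
  apply dh_char hN D hf
  set c := tCoc f hf s g with hc
  set γ := HeckeRep.coc hN (dhA hN D s A) g with hγ
  -- the right hand side
  have e1 : f ((HeckeRep.coc hM A c)⁻¹ * dhU hN D hf s A * tCoc f hf (dhQ hN D s A) γ)
      * (tRep f (γ⁻¹ • dhQ hN D s A))⁻¹
      = (f (HeckeRep.coc hM A c))⁻¹ * (f (dhU hN D hf s A) * (tRep f (dhQ hN D s A))⁻¹) * γ := by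
    rw [map_mul, map_mul, map_inv, f_tCoc]
    group
  rw [e1, ataMat_mul, ataMat_mul, Matrix.mul_assoc, Matrix.mul_assoc]
  have e2 : ataMat γ * (HeckeRep.next hN (dhA hN D s A) g).mat = (dhA hN D s A).mat * ataMat g :=
    (HeckeRep.mat_mul hN (dhA hN D s A) g).symm
  rw [e2, ← Matrix.mul_assoc (ataMat _) (dhA hN D s A).mat, ← dh_star hN D hf s A]
  -- the left hand side
  have e3 : (tRep f (g⁻¹ • s))⁻¹ = (f c)⁻¹ * ((tRep f s)⁻¹ * g) := by
    rw [hc, f_tCoc]; group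
  apply dh_cancel_left (f (HeckeRep.coc hM A c))
  rw [← Matrix.mul_assoc, ← D.tw A c, ← Matrix.mul_assoc (ataMat (f (HeckeRep.coc hM A c))),
    ataMat_mul_inv, Matrix.one_mul, e3, ataMat_mul, ataMat_mul, ← Matrix.mul_assoc,
    Matrix.mul_assoc (m A), ataMat_mul_inv, Matrix.mul_one, Matrix.mul_assoc]

include hf in
theorem dh_Phi_injective :
    Function.Injective (fun p : (Gamma0 N ⧸ f.range) × HeckeRep ℓ =>
      ((dhQ hN D p.1 p.2, dhA hN D p.1 p.2) : (Gamma0 N ⧸ f.range) × HeckeRep ℓ)) := by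
  rintro ⟨s, A⟩ ⟨t, A₁⟩ h
  simp only [Prod.mk.injEq] at h
  obtain ⟨hq, hA⟩ := h
  have h1 := dh_star hN D hf s A
  have h2 := dh_star hN D hf t A₁
  rw [← hq, ← hA] at h2
  -- `m A (R_s⁻¹ R_t) = f(u u₁⁻¹) m A₁`
  have key : m A * ataMat ((tRep f s)⁻¹ * tRep f t)
      = ataMat (f (dhU hN D hf s A * (dhU hN D hf t A₁)⁻¹)) * m A₁ := by
    apply dh_cancel_right (tRep f t)⁻¹
    rw [Matrix.mul_assoc, ← ataMat_mul, mul_inv_cancel_right, h1, Matrix.mul_assoc, h2]
    simp only [map_mul, map_inv, ataMat_mul, Matrix.mul_assoc]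
    rw [← Matrix.mul_assoc (ataMat (f (dhU hN D hf t A₁))⁻¹), ataMat_inv_mul, Matrix.one_mul]
  have hmem := D.rng A A₁ _ _ key
  have hs := (QuotientGroup.eq (s := f.range)).mpr hmem
  rw [tRep_mk, tRep_mk] at hs
  subst hs
  rw [inv_mul_cancel, ataMat_one, Matrix.mul_one] at key
  have hAA := D.inj A A₁ _ key
  rw [hAA]

include hf in
theorem dh_Phi_bijective [f.range.FiniteIndex] :
    Function.Bijective (fun p : (Gamma0 N ⧸ f.range) × HeckeRep ℓ =>
      ((dhQ hN D p.1 p.2, dhA hN D p.1 p.2) : (Gamma0 N ⧸ f.range) × HeckeRep ℓ)) :=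
  Finite.injective_iff_bijective.mp (dh_Phi_injective hN D hf)

include D in
/-- **the transfer along `f` commutes with `T_ℓ`.** -/
theorem dh_cores [f.range.FiniteIndex] (ψ : Additive (Gamma0 M) →+ B) :
    transferAlong B f hf (heckeHom hM ψ) = heckeHom hN (transferAlong B f hf ψ) := by
  classical
  letI := f.range.fintypeQuotientOfFiniteIndex
  refine AddMonoidHom.ext fun g => ?_
  obtain ⟨g, rfl⟩ : ∃ g' : Gamma0 N, Additive.ofMul g' = g := ⟨Additive.toMul g, rfl⟩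
  rw [transferAlong_eq_sum, heckeHom_apply]
  simp only [heckeHom_apply, transferAlong_eq_sum]
  -- both sides as sums over the product
  rw [Finset.sum_comm (s := (Finset.univ : Finset (HeckeRep ℓ))), ← Fintype.sum_prod_type',
    ← Fintype.sum_prod_type',
    ← Function.Bijective.sum_comp (dh_Phi_bijective hN D hf)
      (fun p : (Gamma0 N ⧸ f.range) × HeckeRep ℓ =>
        ψ (Additive.ofMul (tCoc f hf p.1 (HeckeRep.coc hN p.2 g))))]
  have h1 : ∀ p : (Gamma0 N ⧸ f.range) × HeckeRep ℓ,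
      ψ (Additive.ofMul (tCoc f hf (dhQ hN D p.1 p.2) (HeckeRep.coc hN (dhA hN D p.1 p.2) g)))
        = ψ (Additive.ofMul (HeckeRep.coc hM p.2 (tCoc f hf p.1 g)))
          + (ψ (Additive.ofMul (dhU hN D hf (g⁻¹ • p.1)
              (HeckeRep.next hM p.2 (tCoc f hf p.1 g))))
            - ψ (Additive.ofMul (dhU hN D hf p.1 p.2))) := by
    rintro ⟨s, A⟩
    have h := (dh_cores_key hN D hf s A g).2.2
    have h' := congrArg (fun x => ψ (Additive.ofMul x)) h
    simp only [ofMul_mul, ofMul_inv, map_add, map_neg] at h'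
    simp only
    rw [h']
    abel
  simp only [h1]
  rw [Finset.sum_add_distrib, Finset.sum_sub_distrib]
  have h2 : ∑ p : (Gamma0 N ⧸ f.range) × HeckeRep ℓ,
      ψ (Additive.ofMul (dhU hN D hf (g⁻¹ • p.1) (HeckeRep.next hM p.2 (tCoc f hf p.1 g))))
      = ∑ p : (Gamma0 N ⧸ f.range) × HeckeRep ℓ, ψ (Additive.ofMul (dhU hN D hf p.1 p.2)) := by
    rw [Fintype.sum_prod_type, Fintype.sum_prod_type]
    have h3 : ∀ s : Gamma0 N ⧸ f.range,
        ∑ A : HeckeRep ℓ, ψ (Additive.ofMul (dhU hN D hf (g⁻¹ • s)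
          (HeckeRep.next hM A (tCoc f hf s g))))
        = ∑ A : HeckeRep ℓ, ψ (Additive.ofMul (dhU hN D hf (g⁻¹ • s) A)) := fun s =>
      Equiv.sum_comp (HeckeRep.perm hM (tCoc f hf s g))
        (fun A => ψ (Additive.ofMul (dhU hN D hf (g⁻¹ • s) A)))
    simp only [h3]
    exact Equiv.sum_comp (MulAction.toPerm g⁻¹ : Equiv.Perm (Gamma0 N ⧸ f.range))
      (fun s => ∑ A : HeckeRep ℓ, ψ (Additive.ofMul (dhU hN D hf s A)))
  rw [h2, sub_self, add_zero]

end abstract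

section concrete

variable (N q : ℕ) [NeZero N] [NeZero q] {ℓ : ℕ} [NeZero ℓ]

/-! ### the inclusion -/

theorem dhData_incl (hM : Nat.Coprime ℓ (N * q)) :
    DhData hM (incl N q) (fun A : HeckeRep ℓ => A.mat) where
  dec A := ⟨1, A, by rw [ataMat_one, Matrix.one_mul]⟩
  tw A c := HeckeRep.mat_mul hM A c
  inj A A₁ γ h := by
    have h' : ataMat (1 : Gamma0 N) * A.mat = ataMat γ * A₁.mat := by
      rw [ataMat_one, Matrix.one_mul]; exact h
    exact (dh_decomp_unique h').1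
  rng A A₁ x e h := by
    have h10 := congrFun (congrFun h 1) 0
    simp only [HeckeRep.mat, Matrix.mul_apply, Fin.sum_univ_two, Matrix.of_apply,
      Matrix.cons_val_zero, Matrix.cons_val_one, Matrix.cons_val', Matrix.cons_val_fin_one,
      zero_mul, zero_add, mul_zero, add_zero] at h10
    obtain ⟨k, hk⟩ := dvd_of_mem_Gamma0 e.2
    have hk' : ataMat (incl N q e) 1 0 = ((N * q : ℕ) : ℤ) * k := hk
    have hcop : IsCoprime (((N * q : ℕ) : ℤ)) (A.d : ℤ) := by
      apply Nat.isCoprime_iff_coprime.mpr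
      exact (Nat.Coprime.coprime_dvd_left ⟨A.a, by rw [mul_comm]; exact A.had.symm⟩ hM).symm
    have hdvd : ((N * q : ℕ) : ℤ) ∣ (A.d : ℤ) * ataMat x 1 0 := by
      rw [h10, hk']
      exact ⟨k * A₁.a, by ring⟩
    have hmem : (x : SL(2, ℤ)) ∈ Gamma0 (N * q) :=
      mem_Gamma0_of_dvd (hcop.dvd_of_dvd_mul_left hdvd)
    exact ⟨⟨(x : SL(2, ℤ)), hmem⟩, Subtype.ext rfl⟩

/-! ### conjugation by `δ` -/

/-- `δ A δ⁻¹ = [[a, q b], [0, d]]` -/
def dhMD (A : HeckeRep ℓ) : Matrix (Fin 2) (Fin 2) ℤ := !![(A.a : ℤ), q * A.b; 0, (A.d : ℤ)]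

/-- the representative `(a, q b mod d, d)` -/
def dhSig (A : HeckeRep ℓ) : HeckeRep ℓ :=
  ⟨A.a, (q * A.b) % A.d, A.d, A.had, Nat.mod_lt _ A.d_pos⟩

theorem dhMD_eq (A : HeckeRep ℓ) :
    dhMD q A = ataMat (ataMk N 1 ((q * A.b / A.d : ℕ) : ℤ) 0 1 (by ring)) * (dhSig q A).mat := by
  rw [ataMat_mk]
  have h := Nat.mod_add_div (q * A.b) A.d
  have h' : (((q * A.b) % A.d : ℕ) : ℤ) + (A.d : ℤ) * ((q * A.b / A.d : ℕ) : ℤ)
      = (q : ℤ) * (A.b : ℤ) := by exact_mod_cast h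
  ext i j
  fin_cases i <;> fin_cases j
  · simp [dhMD, dhSig, HeckeRep.mat, Matrix.mul_apply, Fin.sum_univ_two]
  · simp only [dhMD, dhSig, HeckeRep.mat, Matrix.mul_apply, Fin.sum_univ_two, Matrix.of_apply,
      Matrix.cons_val_zero, Matrix.cons_val_one, Matrix.cons_val', Matrix.cons_val_fin_one,
      Fin.zero_eta, Fin.mk_one, one_mul]
    rw [← h']; ring
  · simp [dhMD, dhSig, HeckeRep.mat, Matrix.mul_apply, Fin.sum_univ_two]
  · simp [dhMD, dhSig, HeckeRep.mat, Matrix.mul_apply, Fin.sum_univ_two]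

theorem dhSig_injective (hq : Nat.Coprime ℓ q) : Function.Injective (dhSig q (ℓ := ℓ)) := by
  intro A A₁ h
  have ha : A.a = A₁.a := by
    have := congrArg HeckeRep.a h
    exact this
  have hd : A.d = A₁.d := by
    have := congrArg HeckeRep.d h
    exact this
  have hb : (q * A.b) % A.d = (q * A₁.b) % A₁.d := by
    have := congrArg HeckeRep.b h
    exact this
  rw [← hd] at hb
  have hcop : Nat.Coprime A.d q :=
    Nat.Coprime.coprime_dvd_left ⟨A.a, by rw [mul_comm]; exact A.had.symm⟩ hq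
  have hmod : A.b ≡ A₁.b [MOD A.d] := Nat.ModEq.cancel_left_of_coprime hcop hb
  have hbb : A.b = A₁.b := Nat.ModEq.eq_of_lt_of_lt hmod A.hb (by rw [hd]; exact A₁.hb)
  exact HeckeRep.ext ha hbb hd

/-- `X δ = Y δ → X = Y` -/
theorem dh_cancel_delta {X Y : Matrix (Fin 2) (Fin 2) ℤ}
    (h : X * (ataDelta q).mat = Y * (ataDelta q).mat) : X = Y := by
  have hq' : (q : ℤ) ≠ 0 := by exact_mod_cast NeZero.ne q
  have e00 := congrFun (congrFun h 0) 0
  have e01 := congrFun (congrFun h 0) 1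
  have e10 := congrFun (congrFun h 1) 0
  have e11 := congrFun (congrFun h 1) 1
  simp only [ataDelta, HeckeRep.mat, Matrix.mul_apply, Fin.sum_univ_two, Matrix.of_apply,
    Matrix.cons_val_zero, Matrix.cons_val_one, Matrix.cons_val', Matrix.cons_val_fin_one,
    zero_mul, zero_add, mul_zero, add_zero, Nat.cast_one, Nat.cast_zero, mul_one] at e00 e01 e10 e11
  ext i j
  fin_cases i <;> fin_cases j
  · exact mul_right_cancel₀ hq' e00
  · exact e01
  · exact mul_right_cancel₀ hq' e10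
  · exact e11

theorem dhMD_mul_delta (A : HeckeRep ℓ) :
    dhMD q A * (ataDelta q).mat = (ataDelta q).mat * A.mat := by
  ext i j
  fin_cases i <;> fin_cases j <;>
    simp [dhMD, ataDelta, HeckeRep.mat, Matrix.mul_apply, Fin.sum_univ_two, mul_comm]

theorem dh_mem_conjD_range (x : Gamma0 N) (h : (q : ℤ) ∣ ataMat x 0 1) :
    x ∈ (conjD N q).range := by
  have hq' : (q : ℤ) ≠ 0 := by exact_mod_cast NeZero.ne q
  obtain ⟨b, hb⟩ := h
  obtain ⟨k, hk⟩ := dvd_of_mem_Gamma0 x.2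
  have hk' : ataMat x 1 0 = N * k := hk
  have hdet : (ataMat x).det = 1 := (x : SL(2, ℤ)).2
  rw [Matrix.det_fin_two, hb, hk'] at hdet
  let M : Matrix (Fin 2) (Fin 2) ℤ := !![ataMat x 0 0, b; q * (N * k), ataMat x 1 1]
  have hM : M.det = 1 := by
    rw [Matrix.det_fin_two_of]
    linear_combination hdet
  let g : SL(2, ℤ) := ⟨M, hM⟩
  have hg : g ∈ Gamma0 (N * q) := by
    apply mem_Gamma0_of_dvd
    show ((N * q : ℕ) : ℤ) ∣ M 1 0
    exact ⟨k, by simp only [M, Matrix.of_apply, Matrix.cons_val_one, Matrix.cons_val_zero]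
                 push_cast; ring⟩
  refine ⟨⟨g, hg⟩, ?_⟩
  apply Subtype.ext; apply Subtype.ext
  rw [conjD_coe]
  show conjDMat q M = ataMat x
  ext i j
  fin_cases i <;> fin_cases j
  · simp [conjDMat, M]
  · simp only [conjDMat, M, Matrix.of_apply, Matrix.cons_val_zero, Matrix.cons_val_one,
      Fin.zero_eta, Fin.mk_one]
    rw [hb]
  · simp only [conjDMat, M, Matrix.of_apply, Matrix.cons_val_zero, Matrix.cons_val_one,
      Fin.zero_eta, Fin.mk_one]
    rw [Int.mul_ediv_cancel_left _ hq', hk']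
  · simp [conjDMat, M]

theorem dhData_conjD (hM : Nat.Coprime ℓ (N * q)) :
    DhData hM (conjD N q) (dhMD q (ℓ := ℓ)) where
  dec A := ⟨_, _, dhMD_eq N q A⟩
  tw A c := by
    apply dh_cancel_delta q
    have e1 : ataMat (conjD N q c) * (ataDelta q).mat = (ataDelta q).mat * ataMat c :=
      (ata_hint_incl N q c).symm
    have e2 : ataMat (conjD N q (HeckeRep.coc hM A c)) * (ataDelta q).mat
        = (ataDelta q).mat * ataMat (HeckeRep.coc hM A c) :=
      (ata_hint_incl N q (HeckeRep.coc hM A c)).symm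
    have e3 : A.mat * ataMat c = ataMat (HeckeRep.coc hM A c) * (HeckeRep.next hM A c).mat :=
      HeckeRep.mat_mul hM A c
    rw [Matrix.mul_assoc, e1, ← Matrix.mul_assoc, dhMD_mul_delta, Matrix.mul_assoc, e3,
      ← Matrix.mul_assoc, ← e2, Matrix.mul_assoc, Matrix.mul_assoc, dhMD_mul_delta]
  inj A A₁ γ h := by
    have hq : Nat.Coprime ℓ q := Nat.Coprime.coprime_mul_left_right hM
    rw [dhMD_eq N q A, dhMD_eq N q A₁, ← Matrix.mul_assoc, ← ataMat_mul] at h
    exact dhSig_injective q hq (dh_decomp_unique h).1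
  rng A A₁ x e h := by
    have hq : Nat.Coprime ℓ q := Nat.Coprime.coprime_mul_left_right hM
    apply dh_mem_conjD_range
    have h01 := congrFun (congrFun h 0) 1
    have e2 : ataMat (conjD N q e) = conjDMat q (ataMat e) := rfl
    rw [e2] at h01
    simp only [dhMD, conjDMat, Matrix.mul_apply, Fin.sum_univ_two, Matrix.of_apply,
      Matrix.cons_val_zero, Matrix.cons_val_one, Matrix.cons_val', Matrix.cons_val_fin_one] at h01
    have hcop : IsCoprime (q : ℤ) (A.a : ℤ) := by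
      apply Nat.isCoprime_iff_coprime.mpr
      exact (Nat.Coprime.coprime_dvd_left ⟨A.d, A.had.symm⟩ hq).symm
    have hdvd : (q : ℤ) ∣ (A.a : ℤ) * ataMat x 0 1 :=
      ⟨ataMat e 0 0 * A₁.b + ataMat e 0 1 * A₁.d - A.b * ataMat x 1 1, by linear_combination h01⟩
    exact hcop.dvd_of_dvd_mul_left hdvd

end concrete

/-- **(C1)** the degeneracy maps commute with `T_ℓ`, `ℓ ∤ N q`. -/
theorem stmtC1 (N q : ℕ) [NeZero N] [NeZero q] : StmtC1 N q := by
  intro A _ ℓ hℓ hN hNq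
  haveI : NeZero ℓ := ⟨hℓ.out.ne_zero⟩
  have hcN : Nat.Coprime ℓ N := (Nat.Prime.coprime_iff_not_dvd hℓ.out).mpr hN
  have hcM : Nat.Coprime ℓ (N * q) := (Nat.Prime.coprime_iff_not_dvd hℓ.out).mpr hNq
  have hTN : ∀ φ : HomG N A, Tc ℓ hN φ = heckeHom hcN φ := fun φ =>
    (heckeHom_eq_heckeP hN φ).symm
  have hTM : ∀ ψ : HomG (N * q) A, Tc ℓ hNq ψ = heckeHom hcM ψ := fun ψ =>
    (heckeHom_eq_heckeP hNq ψ).symm
  refine ⟨fun φ => ⟨?_, ?_⟩, fun ψ => ⟨?_, ?_⟩⟩
  · rw [hTN, hTM]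
    exact dh_res hcN (dhData_incl N q hcM) φ
  · rw [hTN, hTM]
    exact dh_res hcN (dhData_conjD N q hcM) φ
  · rw [hTN, hTM]
    exact dh_cores hcN (dhData_incl N q hcM) (incl_injective N q) ψ
  · rw [hTN, hTM]
    exact dh_cores hcN (dhData_conjD N q hcM) (conjD_injective N q) ψ

end Fermat.Agent.S41
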