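import Fermat.Agent.S41.Plan2
import Fermat.Agent.S22.Final
import Fermat.Agent.S49.Normalize
import Fermat.Agent.S49.EigenAlg
import Fermat.Agent.S49.LyingOver


/-!
# S41 (level raising) — ENGINE (helper46)

`stmtEngine N q p a good : StmtEngine N q p a good`: from `StmtSupp` (the ideal
`𝔫 = (p, T_ℓ − a_ℓ)` of the anemic Hecke algebra is in the support of the `q`-new space
`V = ker(U_q² − 1)`), a normalised eigenform `g` of level `N q`, new at `q`, congruent to `a`
modulo a maximal ideal of `ℤ̄` over `p`.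

Ingredients: S22 (`moduleFinite_heckeAlgebra`), the S49 engine (`exists_eigenvector_of_injective`,
`exists_maximal_over`, the normalisation lemmas), lying over.
-/

set_option autoImplicit false

noncomputable section

namespace Fermat.Agent.S41

open CongruenceSubgroup ModularFormClass

section Normalize

variable {M : ℕ} [NeZero M]

/-- a common eigenvector of the full Hecke algebra, normalised; the eigen-property is kept -/
theorem engine_normalize (v : CuspForm (Gamma0 M) 2) (hv : v ≠ 0)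
    (ψ : CuspForm.heckeAlgebra M 2 ∅ →+* ℂ)
    (hψ : ∀ t : CuspForm.heckeAlgebra M 2 ∅,
      (t : Module.End ℂ (CuspForm (Gamma0 M) 2)) v = ψ t • v) :
    ∃ f : CuspForm (Gamma0 M) 2, f.IsNormalizedEigenform ∧
      (∀ t : CuspForm.heckeAlgebra M 2 ∅,
        (t : Module.End ℂ (CuspForm (Gamma0 M) 2)) f = ψ t • f) ∧
      ∀ ℓ : ℕ, ℓ.Prime → qCoeff ⇑f ℓ = Fermat.Agent.S49.eigenvalueOf ψ ℓ := by
  have hb1 := Fermat.Agent.S49.qCoeff_one_ne_zero_of_eigenvector v hv ψ hψ
  obtain ⟨c, hc⟩ : ∃ c : ℂ, c = (qCoeff ⇑v 1)⁻¹ := ⟨_, rfl⟩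
  obtain ⟨f, hf⟩ : ∃ f : CuspForm (Gamma0 M) 2, f = c • v := ⟨_, rfl⟩
  have hfψ : ∀ t : CuspForm.heckeAlgebra M 2 ∅,
      (t : Module.End ℂ (CuspForm (Gamma0 M) 2)) f = ψ t • f := by
    intro t
    rw [hf, map_smul, hψ t, smul_comm]
  have hf1 : qCoeff ⇑f 1 = 1 := by
    rw [hf, Fermat.Agent.S49.qCoeff_smul, hc, inv_mul_cancel₀ hb1]
  have hrel := fun {ℓ : ℕ} (hℓ : ℓ.Prime) (n : ℕ) =>
    Fermat.Agent.S49.qCoeff_relation_of_eigenvector f ψ hfψ hℓ n
  have hlam : ∀ {ℓ : ℕ}, ℓ.Prime → Fermat.Agent.S49.eigenvalueOf ψ ℓ = qCoeff ⇑f ℓ := by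
    intro ℓ hℓ
    have := hrel hℓ 1
    rw [mul_one, hf1, mul_one, if_neg (by simpa using hℓ.one_lt.ne'), mul_zero, add_zero] at this
    exact this.symm
  have heig : FormalHecke.IsEigensystem (Fermat.Agent.S49.levelChar M)
      (fun n => qCoeff ⇑f n) := by
    refine ⟨hf1, fun ℓ hℓ n => ?_⟩
    have := hrel hℓ n
    rw [hlam hℓ] at this
    exact this
  obtain ⟨-, hmul, hpow⟩ := Fermat.Agent.S49.isRecursive_of_isEigensystem heig
  refine ⟨f, ⟨hf1, hmul, ?_, ?_⟩, hfψ, fun ℓ hℓ => (hlam hℓ).symm⟩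
  · intro p r hp hpN
    have := hpow p r hp
    simp only [Fermat.Agent.S49.levelChar, if_neg hpN] at this
    exact this
  · intro p r hp hpN
    have := hpow p r hp
    simp only [Fermat.Agent.S49.levelChar, if_pos hpN, zero_mul, sub_zero] at this
    exact this

end Normalize


section Engine

variable (N q : ℕ) [NeZero N] [NeZero q]

/-- the `q`-new space is stable under the full Hecke algebra -/
theorem engine_stable (hq : q.Prime) (t : CuspForm.heckeAlgebra (N * q) 2 ∅)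
    (f : CuspForm (Gamma0 (N * q)) 2) (hf : f ∈ newSpace N q) :
    (t : Module.End ℂ (CuspForm (Gamma0 (N * q)) 2)) f ∈ newSpace N q := by
  rw [mem_newSpace] at hf ⊢
  have h1 : (CuspForm.heckeULin 2 (dvd_mul_left q N)) *
      (t : Module.End ℂ (CuspForm (Gamma0 (N * q)) 2)) =
      (t : Module.End ℂ (CuspForm (Gamma0 (N * q)) 2)) *
        (CuspForm.heckeULin 2 (dvd_mul_left q N)) := by
    have := mul_comm (CuspForm.heckeAlgebra.U hq (dvd_mul_left q N) (Set.notMem_empty q)) t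
    exact congrArg Subtype.val this
  have h2 : ∀ g : CuspForm (Gamma0 (N * q)) 2,
      CuspForm.heckeULin 2 (dvd_mul_left q N)
        ((t : Module.End ℂ (CuspForm (Gamma0 (N * q)) 2)) g) =
      (t : Module.End ℂ (CuspForm (Gamma0 (N * q)) 2))
        (CuspForm.heckeULin 2 (dvd_mul_left q N) g) := fun g =>
    LinearMap.congr_fun h1 g
  rw [h2, h2, hf]

/-- the action of the full Hecke algebra on the `q`-new space -/
def engineRho (hq : q.Prime) :
    CuspForm.heckeAlgebra (N * q) 2 ∅ →+* Module.End ℂ (newSpace N q) where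
  toFun t := (t : Module.End ℂ (CuspForm (Gamma0 (N * q)) 2)).restrict
    (fun f hf => engine_stable N q hq t f hf)
  map_one' := by
    apply LinearMap.ext
    intro v
    apply Subtype.ext
    rfl
  map_mul' s t := by
    apply LinearMap.ext
    intro v
    apply Subtype.ext
    rfl
  map_zero' := by
    apply LinearMap.ext
    intro v
    apply Subtype.ext
    rfl
  map_add' s t := by
    apply LinearMap.ext
    intro v
    apply Subtype.ext
    rfl

theorem engineRho_apply (hq : q.Prime) (t : CuspForm.heckeAlgebra (N * q) 2 ∅)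
    (v : newSpace N q) :
    ((engineRho N q hq t v : newSpace N q) : CuspForm (Gamma0 (N * q)) 2) =
      (t : Module.End ℂ (CuspForm (Gamma0 (N * q)) 2)) v := rfl


/-- the abstract engine: a character of a finite commutative `ℤ`-algebra acting on a
finite-dimensional complex vector space, in the support of a given ideal of a subring -/
theorem engine_abstract {𝕋 : Type*} [CommRing 𝕋] [Module.Finite ℤ 𝕋]
    {A : Type*} [CommRing A] (ι : A →+* 𝕋)
    {V : Type*} [AddCommGroup V] [Module ℂ V] [FiniteDimensional ℂ V]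
    (ρ : 𝕋 →+* Module.End ℂ V) (𝔫 : Ideal A)
    (hsupp : ∀ t ∈ 𝔫, ∃ v : V, ρ (ι t) v ≠ v) :
    ∃ (v : V) (ψ : 𝕋 →+* ℂ) (ψ' : 𝕋 →+* integralClosure ℤ ℂ)
      (𝔪' : Ideal (integralClosure ℤ ℂ)),
      v ≠ 0 ∧ (∀ t, ρ t v = ψ t • v) ∧ (∀ t, ((ψ' t : integralClosure ℤ ℂ) : ℂ) = ψ t) ∧
      𝔪'.IsMaximal ∧ ∀ t ∈ 𝔫, ψ' (ι t) ∈ 𝔪' := by
  classical
  have hρ' : Function.Injective (RingHom.kerLift ρ) := RingHom.kerLift_injective ρ
  obtain ⟨j, hj⟩ : ∃ j : A →+* 𝕋 ⧸ RingHom.ker ρ,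
      j = (Ideal.Quotient.mk (RingHom.ker ρ)).comp ι := ⟨_, rfl⟩
  have hint : Algebra.IsIntegral ℤ (𝕋 ⧸ RingHom.ker ρ) := inferInstance
  have hjint : j.IsIntegral := by
    intro x
    obtain ⟨P, hP, hPx⟩ := Algebra.IsIntegral.isIntegral (R := ℤ) x
    refine ⟨P.map (Int.castRingHom A), hP.map _, ?_⟩
    rw [Polynomial.eval₂_map]
    have hc : j.comp (Int.castRingHom A) = algebraMap ℤ (𝕋 ⧸ RingHom.ker ρ) :=
      RingHom.ext_int _ _
    rw [hc]
    exact hPx
  have hne : 𝔫 ⊔ RingHom.ker j ≠ ⊤ := by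
    intro htop
    have h1 : (1 : A) ∈ 𝔫 ⊔ RingHom.ker j := htop ▸ Submodule.mem_top
    obtain ⟨t, ht, i, hi, hti⟩ := Submodule.mem_sup.mp h1
    obtain ⟨v, hv⟩ := hsupp t ht
    apply hv
    have hi0 : ρ (ι i) = 0 := by
      have h2 : j i = 0 := hi
      rw [hj] at h2
      exact Ideal.Quotient.eq_zero_iff_mem.mp h2
    have h3 : ρ (ι t) = 1 := by
      have h : ι t = 1 - ι i := by
        rw [← map_one ι, ← hti, map_add]
        ring
      rw [h, map_sub, map_one, hi0, sub_zero]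
    rw [h3]
    rfl
  obtain ⟨P₀, hP₀max, hP₀⟩ := Ideal.exists_le_maximal _ hne
  let _ : Algebra A (𝕋 ⧸ RingHom.ker ρ) := j.toAlgebra
  have hAint : Algebra.IsIntegral A (𝕋 ⧸ RingHom.ker ρ) := ⟨hjint⟩
  obtain ⟨Q, hQmax, hQ⟩ := Ideal.exists_ideal_over_maximal_of_isIntegral
    (S := 𝕋 ⧸ RingHom.ker ρ) P₀ (le_sup_right.trans hP₀)
  obtain ⟨v, ψb, hv, hψb, hker⟩ :=
    Fermat.Agent.S49.exists_eigenvector_of_injective (RingHom.kerLift ρ) hρ' Q
  obtain ⟨ψ', 𝔪', hψ', h𝔪', hcomap⟩ := Fermat.Agent.S49.exists_maximal_over ψb Q hker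
  refine ⟨v, ψb.comp (Ideal.Quotient.mk (RingHom.ker ρ)),
    ψ'.comp (Ideal.Quotient.mk (RingHom.ker ρ)), 𝔪', hv, ?_, ?_, h𝔪', ?_⟩
  · intro t
    exact hψb (Ideal.Quotient.mk (RingHom.ker ρ) t)
  · intro t
    exact hψ' _
  · intro t ht
    have h1 : t ∈ P₀ := hP₀ (Ideal.mem_sup_left ht)
    rw [← hQ] at h1
    have h2 : j t ∈ Q := h1
    rw [← hcomap, hj] at h2
    exact h2

/-- inclusion of the anemic Hecke algebra into the full one -/
def engineIncl (good : ℕ → Prop) :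
    Tan (N * q) good →+* CuspForm.heckeAlgebra (N * q) 2 ∅ :=
  (Subalgebra.inclusion (CuspForm.heckeAlgebra_mono (Set.empty_subset _))).toRingHom

theorem engineIncl_coe (good : ℕ → Prop) (t : Tan (N * q) good) :
    ((engineIncl N q good t : CuspForm.heckeAlgebra (N * q) 2 ∅) :
      Module.End ℂ (CuspForm (Gamma0 (N * q)) 2)) = t :=
  Subalgebra.coe_inclusion (CuspForm.heckeAlgebra_mono (Set.empty_subset _)) t

/-- **(ENGINE)** an eigenform in `V` congruent to `a` modulo a prime over `p`. -/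
theorem stmtEngine (p : ℕ) (a : ℕ → ℤ) (good : ℕ → Prop) : StmtEngine N q p a good := by
  intro hp hq hgood hsupp
  classical
  have hfin : Module.Finite ℤ (CuspForm.heckeAlgebra (N * q) 2 ∅) :=
    Fermat.Agent.S22.moduleFinite_heckeAlgebra (N * q) 2 ∅
  have hfd : FiniteDimensional ℂ (CuspForm (Gamma0 (N * q)) 2) :=
    Fermat.Agent.S49.finiteDimensional_cuspForm (N * q) 2
  have hfdV : FiniteDimensional ℂ (newSpace N q) := inferInstance
  have hsupp' : ∀ t ∈ nIdeal (N * q) p a good,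
      ∃ v : newSpace N q, engineRho N q hq (engineIncl N q good t) v ≠ v := by
    intro t ht
    obtain ⟨f, hf, hne⟩ := hsupp t ht
    refine ⟨⟨f, hf⟩, fun h => hne ?_⟩
    have h' := congrArg Subtype.val h
    rw [engineRho_apply, engineIncl_coe] at h'
    exact h'
  obtain ⟨v, ψ, ψ', 𝔪', hv, hψ, hψ', h𝔪', hmem⟩ :=
    engine_abstract (engineIncl N q good) (engineRho N q hq) (nIdeal (N * q) p a good) hsupp'
  have hv' : (v : CuspForm (Gamma0 (N * q)) 2) ≠ 0 := fun h => hv (Subtype.ext h)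
  have hψv : ∀ t : CuspForm.heckeAlgebra (N * q) 2 ∅,
      (t : Module.End ℂ (CuspForm (Gamma0 (N * q)) 2)) (v : CuspForm (Gamma0 (N * q)) 2) =
        ψ t • (v : CuspForm (Gamma0 (N * q)) 2) := by
    intro t
    have h' := congrArg Subtype.val (hψ t)
    rw [engineRho_apply] at h'
    exact h'
  obtain ⟨g, hg, hgψ, hgq⟩ := engine_normalize (v : CuspForm (Gamma0 (N * q)) 2) hv' ψ hψv
  refine ⟨g, 𝔪', hg, h𝔪', ?_, ?_, ?_⟩
  · have h1 : ((p : ℕ) : Tan (N * q) good) ∈ nIdeal (N * q) p a good :=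
      Ideal.subset_span (Or.inl rfl)
    have h2 := hmem _ h1
    simpa using h2
  · intro ℓ hℓ
    obtain ⟨hℓp, hℓM⟩ := hgood ℓ hℓ
    refine ⟨ψ' (engineIncl N q good (CuspForm.heckeAlgebra.T hℓp hℓM (not_mem_badSet hℓ))),
      ?_, ?_⟩
    · have hT : engineIncl N q good (CuspForm.heckeAlgebra.T hℓp hℓM (not_mem_badSet hℓ)) =
          CuspForm.heckeAlgebra.T hℓp hℓM (Set.notMem_empty ℓ) := by
        apply Subtype.ext
        rw [engineIncl_coe, CuspForm.heckeAlgebra.coe_T, CuspForm.heckeAlgebra.coe_T]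
      rw [hψ', hgq ℓ hℓp, Fermat.Agent.S49.eigenvalueOf_of_not_dvd ψ hℓp hℓM, hT]
    · have h1 : CuspForm.heckeAlgebra.T hℓp hℓM (not_mem_badSet hℓ) -
          ((a ℓ : ℤ) : Tan (N * q) good) ∈ nIdeal (N * q) p a good :=
        Ideal.subset_span (Or.inr ⟨ℓ, hℓp, hℓM, hℓ, rfl⟩)
      have h2 := hmem _ h1
      simpa using h2
  · show qCoeff ⇑g q ^ 2 = 1
    rw [hgq q hq]
    have hU : Fermat.Agent.S49.eigenvalueOf ψ q =
        ψ (CuspForm.heckeAlgebra.U hq (dvd_mul_left q N) (Set.notMem_empty q)) := by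
      simp [Fermat.Agent.S49.eigenvalueOf, hq]
    rw [hU, ← map_pow]
    have hvV := v.2
    rw [mem_newSpace] at hvV
    have h1 := hψv (CuspForm.heckeAlgebra.U hq (dvd_mul_left q N) (Set.notMem_empty q) ^ 2)
    have h2 : ((CuspForm.heckeAlgebra.U hq (dvd_mul_left q N) (Set.notMem_empty q) ^ 2 :
        CuspForm.heckeAlgebra (N * q) 2 ∅) : Module.End ℂ (CuspForm (Gamma0 (N * q)) 2))
          (v : CuspForm (Gamma0 (N * q)) 2) = (v : CuspForm (Gamma0 (N * q)) 2) := by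
      rw [pow_two]
      exact hvV
    rw [h2] at h1
    by_contra hne
    apply hv'
    have h3 : (ψ (CuspForm.heckeAlgebra.U hq (dvd_mul_left q N) (Set.notMem_empty q) ^ 2) - 1) •
        (v : CuspForm (Gamma0 (N * q)) 2) = 0 := by
      rw [sub_smul, one_smul, ← h1, sub_self]
    rcases smul_eq_zero.mp h3 with h | h
    · exact absurd (sub_eq_zero.mp h) hne
    · exact h

end Engine

end Fermat.Agent.S41
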