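import Mathlib
import Fermat.Agent.S41.Plan
import Fermat.Agent.S41.TcComm
import Fermat.Agent.ES.EigenSupport
import Fermat.Agent.ES.Words

/-!
# S41, piece H3: `L_N ≠ 𝔫 L_N + (T_q² − (q+1)²) L_N` (helper39)

`L = Hom_par(Γ₀(N), ℤ)`.  From a normalised eigenform `f` of level `N` with `a_ℓ(f) ≡ a ℓ mod 𝔪`
(`ℓ` good) and `a_q(f)² ≡ (q+1)² mod 𝔪`:

* `h3_exists_eigen` : there is `x₀ ∈ L ∖ pL` with `(T_ℓ − a ℓ) x₀ ∈ pL` (`ℓ` good) and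
  `(T_q² − (q+1)²) x₀ ∈ pL`  (A5: `ES.exists_eigen_parabolicHom`, `ES.exists_modp_eigen_hom`);
* `h3_nakayama` : (pure algebra) if `x₀ ∉ P` and `g • x₀ ∈ P` for the generators `g` of an ideal
  `I` of a commutative ring acting on a finite module `L`, then `I • L ≠ L`;
* `stmtH3_of_cong`, `stmtH3_of` : `StmtH3 N q p a good`.
-/

set_option autoImplicit false
set_option linter.style.haveILetI false
set_option linter.unusedSectionVars false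
set_option linter.unusedSimpArgs false
set_option linter.unusedVariables false

noncomputable section

namespace Fermat.Agent.S41

open CongruenceSubgroup Matrix ModularCurve.Period Fermat.Agent.ES ModularFormClass
open scoped MatrixGroups

/-! ## Pure algebra -/

/-- **Nakayama, support form.**  If `x₀ ∉ P` and `g • x₀ ∈ P` for all generators `g` of `I`, then
`I • L ≠ L`. -/
theorem h3_nakayama {R : Type*} [CommRing R] {L : Type*} [AddCommGroup L] [Module R L]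
    [Module.Finite R L] (G : Set R) (P : Submodule R L) (x₀ : L) (hx₀ : x₀ ∉ P)
    (hG : ∀ g ∈ G, g • x₀ ∈ P) :
    ∃ x : L, x ∉ (Ideal.span G) • (⊤ : Submodule R L) := by
  by_contra hcon
  push Not at hcon
  have htop : (⊤ : Submodule R L) ≤ (Ideal.span G) • (⊤ : Submodule R L) := fun x _ => hcon x
  obtain ⟨r, hr1, hr0⟩ := Submodule.exists_sub_one_mem_and_smul_eq_zero_of_fg_of_le_smul
    (Ideal.span G) (⊤ : Submodule R L) Module.Finite.fg_top htop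
  let I₀ : Ideal R :=
    { carrier := {b | b • x₀ ∈ P}
      zero_mem' := by
        show (0 : R) • x₀ ∈ P
        rw [zero_smul]; exact P.zero_mem
      add_mem' := by
        intro b c hb hc
        show (b + c) • x₀ ∈ P
        rw [add_smul]; exact P.add_mem hb hc
      smul_mem' := by
        intro c b hb
        show (c • b) • x₀ ∈ P
        rw [smul_eq_mul, mul_smul]; exact P.smul_mem c hb }
  have hle : Ideal.span G ≤ I₀ := Ideal.span_le.mpr hG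
  have h1 : (r - 1) • x₀ ∈ P := hle hr1
  rw [sub_smul, one_smul, hr0 x₀ Submodule.mem_top, zero_sub] at h1
  exact hx₀ (by simpa using P.neg_mem h1)

/-! ## The eigenvector in the lattice -/

section eigen

variable {N : ℕ} [NeZero N]

/-- `φ ↦ T_ℓ φ − c φ` on `Hom(Γ₀(N), A)` -/
def h3Op (ℓ : ℕ) (hℓ : ℓ.Prime) (hℓN : ¬ ℓ ∣ N) (c : ℤ) (A : Type) [AddCommGroup A] :
    HomG N A →+ HomG N A :=
  haveI : Fact ℓ.Prime := ⟨hℓ⟩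
  (HeckeP.heckeHomL hℓN ℤ).toAddMonoidHom - c • AddMonoidHom.id _

/-- `φ ↦ T_q (T_q φ) − c φ` on `Hom(Γ₀(N), A)` -/
def h3OpSq (ℓ : ℕ) (hℓ : ℓ.Prime) (hℓN : ¬ ℓ ∣ N) (c : ℤ) (A : Type) [AddCommGroup A] :
    HomG N A →+ HomG N A :=
  haveI : Fact ℓ.Prime := ⟨hℓ⟩
  (HeckeP.heckeHomL hℓN ℤ).toAddMonoidHom.comp (HeckeP.heckeHomL hℓN ℤ).toAddMonoidHom
    - c • AddMonoidHom.id _

theorem h3Op_apply (ℓ : ℕ) (hℓ : ℓ.Prime) (hℓN : ¬ ℓ ∣ N) (c : ℤ) (A : Type) [AddCommGroup A]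
    (φ : HomG N A) :
    h3Op ℓ hℓ hℓN c A φ = @Tc N ℓ ⟨hℓ⟩ hℓN A _ φ - c • φ := rfl

theorem h3OpSq_apply (ℓ : ℕ) (hℓ : ℓ.Prime) (hℓN : ¬ ℓ ∣ N) (c : ℤ) (A : Type) [AddCommGroup A]
    (φ : HomG N A) :
    h3OpSq ℓ hℓ hℓN c A φ = @Tc N ℓ ⟨hℓ⟩ hℓN A _ (@Tc N ℓ ⟨hℓ⟩ hℓN A _ φ) - c • φ := rfl

theorem h3_comp_zsmul {A A' : Type} [AddCommGroup A] [AddCommGroup A'] (f : A →+ A') (c : ℤ)
    (φ : HomG N A) : f.comp (c • φ) = c • f.comp φ := by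
  refine AddMonoidHom.ext fun g => ?_
  simp

theorem h3Op_natural (ℓ : ℕ) (hℓ : ℓ.Prime) (hℓN : ¬ ℓ ∣ N) (c : ℤ) (A A' : Type)
    [AddCommGroup A] [AddCommGroup A'] (f : A →+ A') (φ : HomG N A) :
    h3Op ℓ hℓ hℓN c A' (f.comp φ) = f.comp (h3Op ℓ hℓ hℓN c A φ) := by
  haveI : Fact ℓ.Prime := ⟨hℓ⟩
  rw [h3Op_apply, h3Op_apply, Tc, Tc, HeckeP.heckeHom_comp hℓN f φ]
  refine AddMonoidHom.ext fun g => ?_
  simp

theorem h3OpSq_natural (ℓ : ℕ) (hℓ : ℓ.Prime) (hℓN : ¬ ℓ ∣ N) (c : ℤ) (A A' : Type)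
    [AddCommGroup A] [AddCommGroup A'] (f : A →+ A') (φ : HomG N A) :
    h3OpSq ℓ hℓ hℓN c A' (f.comp φ) = f.comp (h3OpSq ℓ hℓ hℓN c A φ) := by
  haveI : Fact ℓ.Prime := ⟨hℓ⟩
  rw [h3OpSq_apply, h3OpSq_apply, Tc, Tc, Tc, Tc, HeckeP.heckeHom_comp hℓN f φ,
    HeckeP.heckeHom_comp hℓN f]
  refine AddMonoidHom.ext fun g => ?_
  simp

theorem h3Op_par (ℓ : ℕ) (hℓ : ℓ.Prime) (hℓN : ¬ ℓ ∣ N) (c : ℤ) (φ : HomG N ℤ)
    (hφ : IsParabolicHom (Gamma0 N) φ) : IsParabolicHom (Gamma0 N) (h3Op ℓ hℓ hℓN c ℤ φ) := by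
  haveI : Fact ℓ.Prime := ⟨hℓ⟩
  rw [h3Op_apply, Tc]
  exact (parabolicHoms ℤ (Gamma0 N) ℤ).sub_mem (HeckeP.heckeHom_isParabolicHom hℓN hφ)
    ((parabolicHoms ℤ (Gamma0 N) ℤ).smul_mem c hφ)

theorem h3OpSq_par (ℓ : ℕ) (hℓ : ℓ.Prime) (hℓN : ¬ ℓ ∣ N) (c : ℤ) (φ : HomG N ℤ)
    (hφ : IsParabolicHom (Gamma0 N) φ) : IsParabolicHom (Gamma0 N) (h3OpSq ℓ hℓ hℓN c ℤ φ) := by
  haveI : Fact ℓ.Prime := ⟨hℓ⟩
  rw [h3OpSq_apply, Tc, Tc]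
  exact (parabolicHoms ℤ (Gamma0 N) ℤ).sub_mem
    (HeckeP.heckeHom_isParabolicHom hℓN (HeckeP.heckeHom_isParabolicHom hℓN hφ))
    ((parabolicHoms ℤ (Gamma0 N) ℤ).smul_mem c hφ)

/-- **The eigenvector mod `p` in the parabolic lattice.** -/
theorem h3_exists_eigen {q p : ℕ} [Fact p.Prime] (hq : q.Prime) (hqN : ¬ q ∣ N)
    (f : CuspForm (Gamma0 N) 2) (hf : f.IsNormalizedEigenform)
    (𝔪 : Ideal (integralClosure ℤ ℂ)) (h𝔪 : 𝔪 ≠ ⊤) (hpm : (p : integralClosure ℤ ℂ) ∈ 𝔪)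
    (a : ℕ → ℤ) (good : ℕ → Prop) (hgood : ∀ ℓ, good ℓ → ℓ.Prime ∧ ¬ ℓ ∣ N)
    (hcong : ∀ ℓ, good ℓ → ∃ a' : integralClosure ℤ ℂ, (a' : ℂ) = qCoeff f ℓ ∧
      a' - ((a ℓ : ℤ) : integralClosure ℤ ℂ) ∈ 𝔪)
    (hLR : ∃ a' : integralClosure ℤ ℂ, (a' : ℂ) = qCoeff f q ∧
      a' ^ 2 - ((q : integralClosure ℤ ℂ) + 1) ^ 2 ∈ 𝔪) :
    ∃ x₀ : HomG N ℤ, IsParabolicHom (Gamma0 N) x₀ ∧
      (¬ ∃ y : HomG N ℤ, IsParabolicHom (Gamma0 N) y ∧ x₀ = p • y) ∧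
      (∀ ℓ (hg : good ℓ), ∃ y : HomG N ℤ, IsParabolicHom (Gamma0 N) y ∧
        h3Op ℓ (hgood ℓ hg).1 (hgood ℓ hg).2 (a ℓ) ℤ x₀ = p • y) ∧
      (∃ y : HomG N ℤ, IsParabolicHom (Gamma0 N) y ∧
        h3OpSq q hq hqN (((q : ℤ) + 1) ^ 2) ℤ x₀ = p • y) := by
  classical
  obtain ⟨v, hv0, hvP, hv⟩ := exists_eigen_parabolicHom f hf
  have hfg : Group.FG (Gamma0 N) :=
    (Group.fg_iff_subgroup_fg _).mpr (Fermat.Agent.S22.gamma0_fg N)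
  have hp0 : p ≠ 0 := (Fact.out : p.Prime).ne_zero
  choose aℓ haℓ1 haℓ2 using hcong
  obtain ⟨aq, haq1, haq2⟩ := hLR
  let J := Option {ℓ : ℕ // good ℓ}
  let T : J → ∀ (A : Type) [AddCommGroup A], (HomG N A) →+ (HomG N A) := fun j A _ =>
    match j with
    | none => h3OpSq q hq hqN (((q : ℤ) + 1) ^ 2) A
    | some ℓ => h3Op ℓ.1 (hgood ℓ.1 ℓ.2).1 (hgood ℓ.1 ℓ.2).2 (a ℓ.1) A
  let z : J → integralClosure ℤ ℂ := fun j =>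
    match j with
    | none => aq ^ 2 - ((q : integralClosure ℤ ℂ) + 1) ^ 2
    | some ℓ => aℓ ℓ.1 ℓ.2 - ((a ℓ.1 : ℤ) : integralClosure ℤ ℂ)
  have hnat : ∀ (j : J) (A A' : Type) [AddCommGroup A] [AddCommGroup A'] (g : A →+ A')
      (φ : HomG N A), T j A' (g.comp φ) = g.comp (T j A φ) := by
    intro j A A' _ _ g φ
    rcases j with _ | ℓ
    · exact h3OpSq_natural q hq hqN _ A A' g φ
    · exact h3Op_natural ℓ.1 _ _ _ A A' g φ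
  have hpar : ∀ (j : J) (φ : HomG N ℤ), φ ∈ intHoms (Gamma0 N) (parabolicSet N) →
      T j ℤ φ ∈ intHoms (Gamma0 N) (parabolicSet N) := by
    intro j φ hφ
    rcases j with _ | ℓ
    · exact h3OpSq_par q hq hqN _ φ hφ
    · exact h3Op_par ℓ.1 _ _ _ φ hφ
  have hz : ∀ j, z j ∈ 𝔪 := by
    intro j
    rcases j with _ | ℓ
    · exact haq2
    · exact haℓ2 ℓ.1 ℓ.2
  have hzsmul : ∀ (c : ℤ) (φ : HomG N ℂ), c • φ = (c : ℂ) • φ := by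
    intro c φ
    exact (Int.cast_smul_eq_zsmul ℂ c φ).symm
  have hvj : ∀ j, T j ℂ v = (algebraMap (integralClosure ℤ ℂ) ℂ) (z j) • v := by
    intro j
    rcases j with _ | ℓ
    · haveI : Fact q.Prime := ⟨hq⟩
      show h3OpSq q hq hqN (((q : ℤ) + 1) ^ 2) ℂ v = _
      rw [h3OpSq_apply, Tc, Tc, hv q hqN]
      have h1 : HeckeP.heckeHom hqN (qCoeff (⇑f) q • v) = qCoeff (⇑f) q • HeckeP.heckeHom hqN v :=
        (HeckeP.heckeHomL hqN ℂ).map_smul _ _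
      rw [h1, hv q hqN, hzsmul, smul_smul, ← sub_smul]
      congr 1
      show _ = ((aq ^ 2 - ((q : integralClosure ℤ ℂ) + 1) ^ 2 : integralClosure ℤ ℂ) : ℂ)
      push_cast
      rw [haq1]
      ring
    · haveI : Fact ℓ.1.Prime := ⟨(hgood ℓ.1 ℓ.2).1⟩
      show h3Op ℓ.1 _ _ (a ℓ.1) ℂ v = _
      rw [h3Op_apply, Tc, hv ℓ.1 (hgood ℓ.1 ℓ.2).2, hzsmul, ← sub_smul]
      congr 1
      show _ = ((aℓ ℓ.1 ℓ.2 - ((a ℓ.1 : ℤ) : integralClosure ℤ ℂ) : integralClosure ℤ ℂ) : ℂ)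
      push_cast
      rw [haℓ1]
  obtain ⟨x, hxP, hx0, hx⟩ := exists_modp_eigen_hom (G := Gamma0 N) (P := parabolicSet N) T hnat
    hpar (algebraMap (integralClosure ℤ ℂ) ℂ) Subtype.val_injective z p 𝔪 h𝔪 hpm hz v hv0
    (fun γ hγ => hvP γ hγ) hvj
  have hconv : ∀ j, ∃ y : HomG N ℤ, IsParabolicHom (Gamma0 N) y ∧ T j ℤ x = p • y := by
    intro j
    have h1 := hx j
    rw [hnat j ℤ (ZMod p)] at h1
    exact exists_eq_nsmul_of_castHom_eq_zero p hp0 (T j ℤ x) (hpar j x hxP) h1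
  refine ⟨x, hxP, ?_, fun ℓ hg => hconv (some ⟨ℓ, hg⟩), hconv none⟩
  rintro ⟨y, -, hy⟩
  apply hx0
  rw [hy]
  refine AddMonoidHom.ext fun g => ?_
  simp

end eigen

/-! ## The Hecke module `L = Hom_par(Γ₀(N), ℤ)` -/

section lattice

variable (N : ℕ) [NeZero N]

/-- the parabolic lattice `L = Hom_par(Γ₀(N), ℤ)`, as a type -/
abbrev H3L : Type := ↥(parabolicHoms ℤ (Gamma0 N) ℤ)

theorem h3L_finite : Module.Finite ℤ (H3L N) := by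
  have hfg : Group.FG (Gamma0 N) :=
    (Group.fg_iff_subgroup_fg _).mpr (Fermat.Agent.S22.gamma0_fg N)
  exact finite_intHoms (Gamma0 N) (parabolicSet N)

/-- the operators `T_ℓ` (`ℓ ∤ N`) on `L`; `0` for `ℓ ∣ N` -/
def h3Fam : Nat.Primes → Module.End ℤ (H3L N) := fun ℓ =>
  if h : ¬ (ℓ : ℕ) ∣ N then
    haveI : Fact (ℓ : ℕ).Prime := ⟨ℓ.2⟩
    (HeckeP.heckeHomL h ℤ).restrict
      (fun φ (hφ : φ ∈ parabolicHoms ℤ (Gamma0 N) ℤ) => HeckeP.heckeHom_isParabolicHom h hφ)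
  else 0

variable {N}

theorem h3Fam_apply (ℓ : Nat.Primes) (h : ¬ (ℓ : ℕ) ∣ N) (x : H3L N) :
    ((h3Fam N ℓ x : H3L N) : HomG N ℤ) = @Tc N ℓ ⟨ℓ.2⟩ h ℤ _ (x : HomG N ℤ) := by
  rw [h3Fam, dif_pos h]
  rfl

theorem h3Fam_comm (ℓ ℓ' : Nat.Primes) : h3Fam N ℓ * h3Fam N ℓ' = h3Fam N ℓ' * h3Fam N ℓ := by
  by_cases h : ¬ (ℓ : ℕ) ∣ N
  · by_cases h' : ¬ (ℓ' : ℕ) ∣ N
    · refine LinearMap.ext fun x => Subtype.ext ?_
      haveI : Fact (ℓ : ℕ).Prime := ⟨ℓ.2⟩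
      haveI : Fact (ℓ' : ℕ).Prime := ⟨ℓ'.2⟩
      rw [Module.End.mul_apply, Module.End.mul_apply, h3Fam_apply ℓ h, h3Fam_apply ℓ' h',
        h3Fam_apply ℓ' h', h3Fam_apply ℓ h]
      exact tc_comm h h' _
    · have e : h3Fam N ℓ' = 0 := by rw [h3Fam, dif_neg h']
      rw [e, mul_zero, zero_mul]
  · have e : h3Fam N ℓ = 0 := by rw [h3Fam, dif_neg h]
    rw [e, mul_zero, zero_mul]

end lattice

/-! ## `StmtH3` -/

section main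

open ModularCurve

variable {N : ℕ} [NeZero N]

/-- the module structure of `L` over `HeckeAlg = ℤ[X_ℓ]` (`X_ℓ ↦ T_ℓ`) -/
@[reducible] def h3Module (N : ℕ) [NeZero N] : Module HeckeAlg (H3L N) :=
  familyModule (h3Fam N) h3Fam_comm

attribute [local instance] h3Module

theorem h3_X_smul (ℓ : Nat.Primes) (h : ¬ (ℓ : ℕ) ∣ N) (x : H3L N) :
    (((MvPolynomial.X ℓ : HeckeAlg) • x : H3L N) : HomG N ℤ)
      = @Tc N ℓ ⟨ℓ.2⟩ h ℤ _ (x : HomG N ℤ) := by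
  rw [familyModule_smul_def, familyEval_X, h3Fam_apply ℓ h]

theorem h3_C_smul (c : ℤ) (x : H3L N) : ((MvPolynomial.C c : HeckeAlg) • x : H3L N) = c • x := by
  rw [familyModule_smul_def]
  have h1 : familyEval (h3Fam N) h3Fam_comm (MvPolynomial.C c)
      = algebraMap ℤ (Module.End ℤ (H3L N)) c :=
    (familyEval (h3Fam N) h3Fam_comm).commutes c
  rw [h1, Module.algebraMap_end_apply]

theorem h3_natCast_smul (p : ℕ) (x : H3L N) : ((p : HeckeAlg) • x : H3L N) = p • x :=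
  Nat.cast_smul_eq_nsmul HeckeAlg p x

theorem h3_gen_smul (ℓ : Nat.Primes) (h : ¬ (ℓ : ℕ) ∣ N) (c : ℤ) (x : H3L N) :
    ((((MvPolynomial.X ℓ : HeckeAlg) - MvPolynomial.C c) • x : H3L N) : HomG N ℤ)
      = @Tc N ℓ ⟨ℓ.2⟩ h ℤ _ (x : HomG N ℤ) - c • (x : HomG N ℤ) := by
  rw [sub_smul, h3_C_smul]
  show (((MvPolynomial.X ℓ : HeckeAlg) • x : H3L N) : HomG N ℤ) - _ = _
  rw [h3_X_smul ℓ h]
  rfl

theorem h3_genSq_smul (ℓ : Nat.Primes) (h : ¬ (ℓ : ℕ) ∣ N) (c : ℤ) (x : H3L N) :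
    ((((MvPolynomial.X ℓ : HeckeAlg) ^ 2 - MvPolynomial.C c) • x : H3L N) : HomG N ℤ)
      = @Tc N ℓ ⟨ℓ.2⟩ h ℤ _ (@Tc N ℓ ⟨ℓ.2⟩ h ℤ _ (x : HomG N ℤ)) - c • (x : HomG N ℤ) := by
  rw [sub_smul, h3_C_smul, pow_two, mul_smul]
  show (((MvPolynomial.X ℓ : HeckeAlg) • ((MvPolynomial.X ℓ : HeckeAlg) • x) : H3L N) :
    HomG N ℤ) - _ = _
  rw [h3_X_smul ℓ h, h3_X_smul ℓ h]
  rfl

/-- **(H3)**, abstract form: from an eigenform congruent to `a` at the good primes and with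
`a_q² ≡ (q+1)²`. -/
theorem stmtH3_of_cong {q p : ℕ} (hp : p.Prime)
    (f : CuspForm (Gamma0 N) 2) (hf : f.IsNormalizedEigenform)
    (𝔪 : Ideal (integralClosure ℤ ℂ)) (h𝔪 : 𝔪 ≠ ⊤) (hpm : (p : integralClosure ℤ ℂ) ∈ 𝔪)
    (a : ℕ → ℤ) (good : ℕ → Prop) (hgood : ∀ ℓ, good ℓ → ℓ.Prime ∧ ¬ ℓ ∣ N)
    (hcong : ∀ ℓ, good ℓ → ∃ a' : integralClosure ℤ ℂ, (a' : ℂ) = qCoeff f ℓ ∧
      a' - ((a ℓ : ℤ) : integralClosure ℤ ℂ) ∈ 𝔪)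
    (hLR : ∃ a' : integralClosure ℤ ℂ, (a' : ℂ) = qCoeff f q ∧
      a' ^ 2 - ((q : integralClosure ℤ ℂ) + 1) ^ 2 ∈ 𝔪) :
    StmtH3 N q p a good := by
  classical
  intro hqF hqN
  haveI : Fact p.Prime := ⟨hp⟩
  have hq : q.Prime := hqF.out
  obtain ⟨x₀, hx₀P, hx₀, hℓ, hD⟩ :=
    h3_exists_eigen hq hqN f hf 𝔪 h𝔪 hpm a good hgood hcong hLR
  haveI : Module.Finite ℤ (H3L N) := h3L_finite N
  haveI : Module.Finite HeckeAlg (H3L N) :=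
    Module.Finite.of_restrictScalars_finite ℤ HeckeAlg (H3L N)
  let G : Set HeckeAlg :=
    ({t | t = (p : HeckeAlg)} ∪
      {t | ∃ (ℓ : ℕ) (hg : good ℓ),
        t = MvPolynomial.X (⟨ℓ, (hgood ℓ hg).1⟩ : Nat.Primes) - MvPolynomial.C (a ℓ)}) ∪
      {t | t = MvPolynomial.X (⟨q, hq⟩ : Nat.Primes) ^ 2 - MvPolynomial.C (((q : ℤ) + 1) ^ 2)}
  let P : Submodule HeckeAlg (H3L N) :=
    LinearMap.range (LinearMap.lsmul HeckeAlg (H3L N) (p : HeckeAlg))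
  have hPmem : ∀ (y : HomG N ℤ) (hy : IsParabolicHom (Gamma0 N) y) (w : H3L N),
      (w : HomG N ℤ) = p • y → w ∈ P := by
    intro y hy w hw
    refine ⟨⟨y, hy⟩, Subtype.ext ?_⟩
    show ((((p : HeckeAlg) • (⟨y, hy⟩ : H3L N) : H3L N)) : HomG N ℤ) = _
    rw [h3_natCast_smul, hw]
    rfl
  have hx₀' : (⟨x₀, hx₀P⟩ : H3L N) ∉ P := by
    rintro ⟨y, hy⟩
    apply hx₀
    refine ⟨(y : HomG N ℤ), y.2, ?_⟩
    have h1 := congrArg (fun w : H3L N => (w : HomG N ℤ)) hy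
    simp only [LinearMap.lsmul_apply] at h1
    rw [h3_natCast_smul] at h1
    exact h1.symm
  have hG : ∀ g ∈ G, g • (⟨x₀, hx₀P⟩ : H3L N) ∈ P := by
    rintro g ((hg | ⟨ℓ, hgℓ, hg⟩) | hg)
    · rw [hg]
      exact ⟨_, rfl⟩
    · obtain ⟨y, hyP, hy⟩ := hℓ ℓ hgℓ
      rw [hg]
      refine hPmem y hyP _ ?_
      exact (h3_gen_smul (⟨ℓ, (hgood ℓ hgℓ).1⟩ : Nat.Primes) (hgood ℓ hgℓ).2 (a ℓ)
        ⟨x₀, hx₀P⟩).trans hy
    · obtain ⟨y, hyP, hy⟩ := hD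
      rw [hg]
      refine hPmem y hyP _ ?_
      exact (h3_genSq_smul (⟨q, hq⟩ : Nat.Primes) hqN (((q : ℤ) + 1) ^ 2) ⟨x₀, hx₀P⟩).trans hy
  obtain ⟨x, hx⟩ := h3_nakayama G P _ hx₀' hG
  refine ⟨(x : HomG N ℤ), x.2, fun hmem => hx ?_⟩
  -- the subgroup of `Hom(Γ₀(N), ℤ)` corresponding to `𝔫 L`
  let Q : Submodule HeckeAlg (H3L N) := (Ideal.span G) • (⊤ : Submodule HeckeAlg (H3L N))
  let Q' : AddSubgroup (HomG N ℤ) :=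
    Q.toAddSubgroup.map (parabolicHoms ℤ (Gamma0 N) ℤ).subtype.toAddMonoidHom
  have hQ' : ∀ (g : HeckeAlg) (_ : g ∈ G) (w : H3L N), ((g • w : H3L N) : HomG N ℤ) ∈ Q' :=
    fun g hg w => ⟨g • w, Submodule.smul_mem_smul (Ideal.subset_span hg) Submodule.mem_top, rfl⟩
  have hle : nSub N p a good (Lpar N) ⊔
      AddSubgroup.closure {y | ∃ z ∈ Lpar N,
        y = Tc q hqN (Tc q hqN z) - ((q : ℤ) + 1) ^ 2 • z} ≤ Q' := by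
    refine sup_le ?_ ?_
    · rw [nSub, AddSubgroup.closure_le]
      rintro y (⟨w, hw, rfl⟩ | ⟨ℓ, hℓF, hℓN, hgℓ, w, hw, rfl⟩)
      · have h1 := hQ' (p : HeckeAlg) (Or.inl (Or.inl rfl)) ⟨w, hw⟩
        rw [h3_natCast_smul] at h1
        exact h1
      · have h1 := hQ' _ (Or.inl (Or.inr ⟨ℓ, hgℓ, rfl⟩)) ⟨w, hw⟩
        have e : Tc ℓ hℓN w - a ℓ • w
            = ((((MvPolynomial.X (⟨ℓ, (hgood ℓ hgℓ).1⟩ : Nat.Primes) : HeckeAlg)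
                - MvPolynomial.C (a ℓ)) • (⟨w, hw⟩ : H3L N) : H3L N) : HomG N ℤ) :=
          (h3_gen_smul (⟨ℓ, (hgood ℓ hgℓ).1⟩ : Nat.Primes) hℓN (a ℓ) ⟨w, hw⟩).symm
        rw [e]
        exact h1
    · rw [AddSubgroup.closure_le]
      rintro y ⟨w, hw, rfl⟩
      have h1 := hQ' _ (Or.inr rfl) ⟨w, hw⟩
      have e : Tc q hqN (Tc q hqN w) - ((q : ℤ) + 1) ^ 2 • w
          = ((((MvPolynomial.X (⟨q, hq⟩ : Nat.Primes) : HeckeAlg) ^ 2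
              - MvPolynomial.C (((q : ℤ) + 1) ^ 2)) • (⟨w, hw⟩ : H3L N) : H3L N) : HomG N ℤ) :=
        (h3_genSq_smul (⟨q, hq⟩ : Nat.Primes) hqN (((q : ℤ) + 1) ^ 2) ⟨w, hw⟩).symm
      rw [e]
      exact h1
  obtain ⟨x', hx'Q, hx'⟩ := hle hmem
  have : x' = x := Subtype.ext hx'
  rw [← this]
  exact hx'Q

end main

/-- **(H3)** in the form used for S41: `a ℓ = W.apOfModel ℓ`, `good ℓ ⇒ ℓ` prime, good for `W`,
`ℓ ∤ N`, `ℓ ≠ p`. -/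
theorem stmtH3_of (E : WeierstrassCurve ℚ) [E.IsElliptic] {W : WeierstrassCurve ℤ} {p N q : ℕ}
    (hp : p.Prime) (hN : 0 < N) (hq : q.Prime) (hqN : ¬ q ∣ N)
    (f : CuspForm (CongruenceSubgroup.Gamma0 N) 2) (𝔪 : Ideal (integralClosure ℤ ℂ))
    (hf : f.IsNormalizedEigenform) (hmax : 𝔪.IsMaximal) (hpm : (p : integralClosure ℤ ℂ) ∈ 𝔪)
    (hcong : ∀ ℓ : ℕ, ℓ.Prime → W.IsGoodPrimeFor ℓ → ¬ ℓ ∣ N → ℓ ≠ p →
      ∃ a : integralClosure ℤ ℂ, (a : ℂ) = ModularFormClass.qCoeff f ℓ ∧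
        a - ((W.apOfModel ℓ : ℤ) : integralClosure ℤ ℂ) ∈ 𝔪)
    (hLR : ∃ a : integralClosure ℤ ℂ, (a : ℂ) = ModularFormClass.qCoeff f q ∧
      a ^ 2 - ((q : integralClosure ℤ ℂ) + 1) ^ 2 ∈ 𝔪)
    (a : ℕ → ℤ) (good : ℕ → Prop)
    (hgood : ∀ ℓ, good ℓ → ℓ.Prime ∧ W.IsGoodPrimeFor ℓ ∧ ¬ ℓ ∣ N ∧ ℓ ≠ p)
    (ha : ∀ ℓ, a ℓ = W.apOfModel ℓ) : StmtH3 N q p a good := by
  haveI : NeZero N := ⟨hN.ne'⟩
  have hc : ∀ ℓ, good ℓ → ∃ a' : integralClosure ℤ ℂ, (a' : ℂ) = qCoeff f ℓ ∧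
      a' - ((a ℓ : ℤ) : integralClosure ℤ ℂ) ∈ 𝔪 := by
    intro ℓ hg
    obtain ⟨h1, h2, h3, h4⟩ := hgood ℓ hg
    rw [ha]
    exact hcong ℓ h1 h2 h3 h4
  intro hqF hqN'
  exact stmtH3_of_cong hp f hf 𝔪 hmax.ne_top hpm a good
    (fun ℓ hg => ⟨(hgood ℓ hg).1, (hgood ℓ hg).2.2.1⟩) hc hLR hqN'

end Fermat.Agent.S41
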