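import Fermat.Agent.S41.Plan
import Fermat.Agent.S41.NonEisCore
import Fermat.Agent.EC.DetChar
import Fermat.Agent.RED.Link

/-!
# S41 / R4: `(NONEIS)` — an irreducible `E[p]` is not Eisenstein (helper6)

`stmtNonEis : StmtNonEis` (`S41/Plan.lean`): for an elliptic curve `E/ℚ` with integral model `W`
and an odd prime `p` with `E[p]` irreducible, every finite set `S` of primes misses a prime
`ℓ ≠ p` of good reduction of `W` with `a_ℓ(W) ≢ ℓ + 1 mod p`.

Inputs: the RED link (`RED.frobenius_relation_of_torsion`, helper13, on top of the HW brick),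
`#E[p] = p²` (`EC.ec_card_torsionBy`, helper77), the abstract non-Eisenstein theorem
(`EC.DetChar.exists_prime_modEq_one_not_dvd`, helper40, on top of weak Chebotarev) and the
transport along the change of variables `C • E = W_ℚ` (`EC.vc_transport`, helper6).
-/

set_option autoImplicit false

namespace Fermat.Agent.S41

open WeierstrassCurve WeierstrassCurve.Affine WeierstrassCurve.Affine.Point

/-- the RED link, in the shape used by `stmtNonEis_of` -/
theorem nonEis_linkStmt : LinkStmt :=
  fun W _ hℓ hℓ2 hgood A hA τ hτ _ hn P hP =>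
    Fermat.Agent.RED.frobenius_relation_of_torsion W hℓ hℓ2 hgood A hA τ hτ hn P hP

/-- the abstract non-Eisenstein theorem, in the shape used by `stmtNonEis_of` -/
theorem nonEis_absStmt : AbsNonEisStmt := by
  intro E p hp hp2 hcard a S₀ hrel hirr
  haveI : Fact p.Prime := ⟨hp⟩
  obtain ⟨ℓ, h1, h2, -, h4⟩ :=
    Fermat.Agent.EC.DetChar.exists_prime_modEq_one_not_dvd (E := E) (p := p) hp2 hirr hcard
      (a := a) (S₀ := S₀) hrel (M := 1) one_pos
  exact ⟨ℓ, h1, h2, h4⟩

/-- **(NONEIS)** -/
theorem stmtNonEis : StmtNonEis :=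
  fun E _ W hW p hp hp2 hirr S =>
    stmtNonEis_of nonEis_linkStmt nonEis_absStmt E W hW p hp hp2 hirr S

end Fermat.Agent.S41
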