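import Fermat.Agent.S41.Plan
import Fermat.Agent.ES.HeckeHomPar

/-!
# S41 piece C8 (helper40): the four degeneracy maps preserve parabolic homomorphisms

`res`, `resD`: `incl` and `conjD` preserve the trace.  `cores`, `coresD`: by Mathlib's explicit
formula for the transfer, `transfer ψ g = ∏ ψ(t⁻¹ gⁿ t)`, and `t⁻¹ gⁿ t` has `tr² = 4` when `g` has.
-/

set_option autoImplicit false

noncomputable section

namespace Fermat.Agent.S41

open CongruenceSubgroup Matrix ModularCurve.Period Subgroup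
open scoped MatrixGroups

/-- If `ϕ` vanishes on every element of `H` which is conjugate in `G` to a power of `g`, then the
transfer of `ϕ` vanishes at `g`. -/
theorem parab_transfer_eq_one {G : Type*} [Group G] {H : Subgroup G} {A : Type*} [CommGroup A]
    (ϕ : H →* A) [H.FiniteIndex] (g : G)
    (h : ∀ (t : G) (n : ℕ) (hm : t⁻¹ * g ^ n * t ∈ H), ϕ ⟨t⁻¹ * g ^ n * t, hm⟩ = 1) :
    MonoidHom.transfer ϕ g = 1 := by
  classical
  let _ := H.fintypeQuotientOfFiniteIndex
  rw [MonoidHom.transfer_eq_prod_quotient_orbitRel_zpowers_quot]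
  apply Finset.prod_eq_one
  intro q _
  exact h _ _ _

/-- `transferAlong` version of `parab_transfer_eq_one`. -/
theorem parab_transferAlong_eq_zero {A : Type*} [AddCommGroup A] {G H : Type*} [Group G]
    [Group H] (f : H →* G) (hf : Function.Injective f) [f.range.FiniteIndex]
    (ψ : Additive H →+ A) (g : G)
    (h : ∀ (t : G) (n : ℕ) (x : H), f x = t⁻¹ * g ^ n * t → ψ (Additive.ofMul x) = 0) :
    transferAlong A f hf ψ (Additive.ofMul g) = 0 := by
  show Multiplicative.toAdd (MonoidHom.transfer (rangeHom A f hf ψ) g) = 0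
  rw [parab_transfer_eq_one (rangeHom A f hf ψ) g]
  · rfl
  · intro t n hm
    have hx : f ((MonoidHom.ofInjective hf).symm ⟨t⁻¹ * g ^ n * t, hm⟩) = t⁻¹ * g ^ n * t :=
      MonoidHom.apply_ofInjective_symm hf ⟨t⁻¹ * g ^ n * t, hm⟩
    have := h t n _ hx
    show Multiplicative.ofAdd (ψ (Additive.ofMul
      ((MonoidHom.ofInjective hf).symm ⟨t⁻¹ * g ^ n * t, hm⟩))) = 1
    rw [this]
    rfl

section trace

variable {M : ℕ}

/-- the trace of an element of `Γ₀(M)` -/
def parabTr (γ : Gamma0 M) : ℤ := ((γ : SL(2, ℤ)) : Matrix (Fin 2) (Fin 2) ℤ).trace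

theorem parabTr_conj_pow (t g : Gamma0 M) (n : ℕ) (hg : parabTr g ^ 2 = 4) :
    parabTr (t⁻¹ * g ^ n * t) ^ 2 = 4 := by
  have e : parabTr (t⁻¹ * g ^ n * t)
      = ((((g : Gamma0 M) : SL(2, ℤ)) : Matrix (Fin 2) (Fin 2) ℤ) ^ n).trace := by
    unfold parabTr
    have h1 : (((t⁻¹ * g ^ n * t : Gamma0 M) : SL(2, ℤ)) : Matrix (Fin 2) (Fin 2) ℤ)
        = (((t⁻¹ : Gamma0 M) : SL(2, ℤ)) : Matrix (Fin 2) (Fin 2) ℤ)
          * (((g : Gamma0 M) : SL(2, ℤ)) : Matrix (Fin 2) (Fin 2) ℤ) ^ n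
          * (((t : Gamma0 M) : SL(2, ℤ)) : Matrix (Fin 2) (Fin 2) ℤ) := by
      simp
    have h2 : (((t : Gamma0 M) : SL(2, ℤ)) : Matrix (Fin 2) (Fin 2) ℤ)
        * (((t⁻¹ : Gamma0 M) : SL(2, ℤ)) : Matrix (Fin 2) (Fin 2) ℤ) = 1 := by
      rw [← Matrix.SpecialLinearGroup.coe_mul, ← Subgroup.coe_mul, mul_inv_cancel]
      rfl
    rw [h1, Matrix.trace_mul_comm, ← Matrix.mul_assoc, h2, Matrix.one_mul]
  rw [e]
  exact Fermat.Agent.ES.sl2_trace_pow_sq _ (Matrix.SpecialLinearGroup.det_coe _) hg n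

end trace

section main

variable (N q : ℕ)

theorem parabTr_incl (γ : Gamma0 (N * q)) : parabTr (incl N q γ) = parabTr γ := rfl

theorem parabTr_conjD [NeZero q] (γ : Gamma0 (N * q)) :
    parabTr (conjD N q γ) = parabTr γ := by
  unfold parabTr
  rw [conjD_coe, Matrix.trace_fin_two, Matrix.trace_fin_two]
  simp [conjDMat]

theorem parab_isParabolicHom_iff {M : ℕ} {A : Type*} [AddCommGroup A] (φ : HomG M A) :
    IsParabolicHom (Gamma0 M) φ ↔ ∀ γ : Gamma0 M, parabTr γ ^ 2 = 4 → φ (Additive.ofMul γ) = 0 :=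
  Iff.rfl

/-- **(C8)** the four degeneracy maps preserve parabolic homomorphisms. -/
theorem stmtC8 [NeZero N] [NeZero q] : StmtC8 N q := by
  intro A _
  refine ⟨fun φ hφ => ⟨?_, ?_⟩, fun ψ hψ => ⟨?_, ?_⟩⟩
  · intro γ hγ
    exact hφ (incl N q γ) hγ
  · intro γ hγ
    have h : parabTr (conjD N q γ) ^ 2 = 4 := by rw [parabTr_conjD]; exact hγ
    exact hφ (conjD N q γ) h
  · intro g hg
    show transferAlong A (incl N q) (incl_injective N q) ψ (Additive.ofMul g) = 0
    apply parab_transferAlong_eq_zero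
    intro t n x hx
    apply hψ x
    have h1 := parabTr_conj_pow t g n hg
    rw [← hx, parabTr_incl] at h1
    exact h1
  · intro g hg
    show transferAlong A (conjD N q) (conjD_injective N q) ψ (Additive.ofMul g) = 0
    apply parab_transferAlong_eq_zero
    intro t n x hx
    apply hψ x
    have h1 := parabTr_conj_pow t g n hg
    rw [← hx, parabTr_conjD] at h1
    exact h1

end main

end Fermat.Agent.S41
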