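import Fermat.Agent.ES.HeckePPeriod
import Fermat.Agent.S41.HeckeU

/-!
# S41, piece C5 (a): the period map intertwines `U_ℓ` on cusp forms and on `Hom(Γ₀(M), ℂ)`

For `ℓ ∣ M` and `f ∈ S₂(Γ₀(M))`:
`periodMap M (U_ℓ f) = heckeU (periodMap M f)`, where `heckeU` is the group-theoretic operator of
`S41/HeckeU.lean`.  If `F` is a primitive of `f` then `∑_{x ∈ 𝔽_ℓ} F ∘ β_x` is a primitive of
`U_ℓ f`, and its periods are computed by the coset law `β_x γ = κ_U(γ, x) β_{x·γ}`.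
-/

set_option autoImplicit false

noncomputable section

namespace Fermat.Agent.S41

open Matrix Matrix.SpecialLinearGroup CongruenceSubgroup UpperHalfPlane ModularForm
open Fermat.Agent.S21 ModularCurve ModularCurve.Period
open scoped MatrixGroups

variable {ℓ : ℕ} [NeZero ℓ] {M : ℕ}

omit [NeZero ℓ] in
theorem det_heckeMatrix_val_pos (j : ℕ) : 0 < (heckeMatrix ℓ j).val.det := by
  have := det_heckeMatrix_pos ℓ j
  rwa [Matrix.GeneralLinearGroup.val_det_apply] at this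

/-- `∑_x F ∘ β_x` is a primitive of `U_ℓ f`. -/
theorem isPrimitive_heckeUSum {F f : ℍ → ℂ} (hF : IsPrimitive F f) :
    IsPrimitive (fun w => ∑ x : ZMod ℓ, F (heckeMatrix ℓ x.val • w)) (ModularForm.heckeU 2 ℓ f) := by
  have h := Fermat.Agent.ES.HeckeP.isPrimitive_sum (Finset.univ : Finset (ZMod ℓ))
    (fun x w => F (heckeMatrix ℓ x.val • w)) (fun x => f ∣[(2 : ℤ)] heckeMatrix ℓ x.val)
    (fun x _ => Fermat.Agent.ES.HeckeP.isPrimitive_comp_smul_slash hF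
      (det_heckeMatrix_val_pos x.val))
  refine h.congr fun τ => ?_
  rw [P2MW.S_ModularForm_heckeU_slash_eq_self_of_mem_Gamma0.ModularForm.HeckeSlashInvariance.heckeU_eq_sum_zmod,
    Finset.sum_apply]

/-- The periods of `∑_x F ∘ β_x`. -/
theorem heckeUSum_smul_sub (hℓM : ℓ ∣ M) {F : ℍ → ℂ} (φ : HomG M ℂ)
    (hF : ∀ (γ : Gamma0 M) (z : ℍ), F ((γ : SL(2, ℤ)) • z) - F z = φ (Additive.ofMul γ))
    (γ : Gamma0 M) (w : ℍ) :
    (∑ x : ZMod ℓ, F (heckeMatrix ℓ x.val • ((γ : SL(2, ℤ)) • w))) -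
      ∑ x : ZMod ℓ, F (heckeMatrix ℓ x.val • w) = heckeU hℓM φ (Additive.ofMul γ) := by
  have h1 : ∀ x : ZMod ℓ, F (heckeMatrix ℓ x.val • ((γ : SL(2, ℤ)) • w)) =
      F (heckeMatrix ℓ (idxU (γ : SL(2, ℤ)) x).val • w) +
        φ (Additive.ofMul (kapU hℓM γ x)) := by
    intro x
    have e : heckeMatrix ℓ x.val • ((γ : SL(2, ℤ)) • w) =
        ((kapU hℓM γ x : Gamma0 M) : SL(2, ℤ)) •
          (heckeMatrix ℓ (idxU (γ : SL(2, ℤ)) x).val • w) := by
      show heckeMatrix ℓ x.val • (mapGL ℝ (γ : SL(2, ℤ)) • w) =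
        mapGL ℝ ((kapU hℓM γ x : Gamma0 M) : SL(2, ℤ)) •
          (heckeMatrix ℓ (idxU (γ : SL(2, ℤ)) x).val • w)
      rw [← mul_smul, ← mul_smul, kapU_spec hℓM γ x]
    rw [e]
    have := hF (kapU hℓM γ x) (heckeMatrix ℓ (idxU (γ : SL(2, ℤ)) x).val • w)
    linear_combination this
  simp only [h1, Finset.sum_add_distrib]
  rw [heckeU_apply]
  have h2 : ∑ x : ZMod ℓ, F (heckeMatrix ℓ (idxU (γ : SL(2, ℤ)) x).val • w) =
      ∑ x : ZMod ℓ, F (heckeMatrix ℓ x.val • w) :=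
    Equiv.sum_comp (idxPermU hℓM γ) (fun x => F (heckeMatrix ℓ x.val • w))
  rw [h2]
  ring

/-- **`U_ℓ`-equivariance of the period map** (`ℓ ∣ M`). -/
theorem periodMap_heckeULin [NeZero M] (hℓM : ℓ ∣ M) (f : CuspForm (Gamma0 M) 2) :
    periodMap M (CuspForm.heckeULin 2 hℓM f) = heckeU hℓM (periodMap M f) := by
  obtain ⟨F, hF, hF0⟩ := exists_isPrimitive M f
  have hFe := hasEquivariantPrimitive_of_isPrimitive f hF hF0
  obtain ⟨G₀, hG₀, hG₀0⟩ := exists_isPrimitive M (CuspForm.heckeULin 2 hℓM f)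
  have hG₀e := hasEquivariantPrimitive_of_isPrimitive _ hG₀ hG₀0
  have hG : IsPrimitive (fun w => ∑ x : ZMod ℓ, F (heckeMatrix ℓ x.val • w))
      (CuspForm.heckeULin 2 hℓM f) := isPrimitive_heckeUSum hF
  refine AddMonoidHom.ext fun γ => ?_
  obtain ⟨γ, rfl⟩ : ∃ γ' : Gamma0 M, Additive.ofMul γ' = γ := ⟨Additive.toMul γ, rfl⟩
  rw [periodMap_apply _ hG₀e γ]
  have h1 := hG₀.sub_eq_sub hG ((γ : SL(2, ℤ)) • UpperHalfPlane.I) UpperHalfPlane.I
  have h2 := heckeUSum_smul_sub hℓM (periodMap M f)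
    (fun δ z => by
      rw [hFe.2.2.1.sub_eq_period δ z, periodMap_eq f hFe]
      rfl) γ UpperHalfPlane.I
  rw [← h2]
  linear_combination h1

end Fermat.Agent.S41
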