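import Fermat.Agent.S41.Plan2
import Fermat.Agent.S41.PeriodU
import Fermat.Agent.S41.HeckeUInv
import Fermat.Agent.S41.CharInv
import Fermat.Agent.ES.PeriodHeckeP
import Fermat.Agent.ES.HeckePPar
import Fermat.Agent.S21

/-!
# S41 (level raising) — piece TRANSPORT: from cohomology to cusp forms

`StmtCOH → StmtSupp`.  A triple `(t, τ, τ')` with `t ∈ End_ℂ S₂(Γ₀(M))`, `τ ∈ End Hom(Γ₀(M), ℤ)`,
`τ' ∈ End Hom(Γ₀(M), ℂ)` is *compatible* (`TpCompat`) if the period map intertwines `t` and `τ'`,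
the cast `ℤ → ℂ` intertwines `τ` and `τ'`, `τ'` commutes with the involution and `τ` preserves the
lattice `K`.  The generators `(T_ℓ, Tc ℓ, Tc ℓ)` are compatible, compatible triples are closed
under `+`, `∘` and integer scalars, so every element of the anemic Hecke algebra has a compatible
triple, and every element of `𝔫` has one with `τ K ⊆ 𝔫 K`.  If `t ∈ 𝔫` is the identity on the new
space then (Eichler–Shimura, `U_q² = 1` on `K ⊗ ℂ`) `τ = 1` on `K`, so `K = 𝔫 K`.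
-/

set_option autoImplicit false

noncomputable section

namespace Fermat.Agent.S41

open CongruenceSubgroup Matrix ModularCurve ModularCurve.Period
open scoped MatrixGroups

section Basic

/-- the cast `Hom(Γ₀(M), ℤ) → Hom(Γ₀(M), ℂ)` -/
def tpCast (M : ℕ) : HomG M ℤ →+ HomG M ℂ := AddMonoidHom.compHom (Int.castAddHom ℂ)

theorem tpCast_apply (M : ℕ) (y : HomG M ℤ) : tpCast M y = (Int.castAddHom ℂ).comp y := rfl

theorem tpCast_apply_apply (M : ℕ) (y : HomG M ℤ) (γ : Additive (Gamma0 M)) :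
    tpCast M y γ = ((y γ : ℤ) : ℂ) := rfl

theorem tpCast_injective (M : ℕ) : Function.Injective (tpCast M) := by
  intro y y' h
  refine AddMonoidHom.ext fun γ => ?_
  have h1 := DFunLike.congr_fun h γ
  rw [tpCast_apply_apply, tpCast_apply_apply] at h1
  exact_mod_cast h1

/-- `T_ℓ` as an additive endomorphism of `Hom(Γ₀(M), A)` -/
def tpTc (M : ℕ) (ℓ : ℕ) [Fact ℓ.Prime] (hℓ : ¬ ℓ ∣ M) (A : Type*) [AddCommGroup A] :
    HomG M A →+ HomG M A where
  toFun := Tc ℓ hℓ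
  map_zero' := Fermat.Agent.ES.HeckeP.heckeHom_zero hℓ
  map_add' := Fermat.Agent.ES.HeckeP.heckeHom_add hℓ

theorem tpTc_apply (M : ℕ) (ℓ : ℕ) [Fact ℓ.Prime] (hℓ : ¬ ℓ ∣ M) (A : Type*) [AddCommGroup A]
    (φ : HomG M A) : tpTc M ℓ hℓ A φ = Tc ℓ hℓ φ := rfl

/-- compatible triples -/
structure TpCompat (M : ℕ) [NeZero M] (K : AddSubgroup (HomG M ℤ))
    (t : Module.End ℂ (CuspForm (Gamma0 M) 2)) (τ : HomG M ℤ →+ HomG M ℤ)
    (τ' : HomG M ℂ →+ HomG M ℂ) : Prop where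
  period : ∀ f, periodMap M (t f) = τ' (periodMap M f)
  cast : ∀ y, τ' (tpCast M y) = tpCast M (τ y)
  inv : ∀ ψ, τ' (charInvolution M ℂ ℂ ψ) = charInvolution M ℂ ℂ (τ' ψ)
  stable : ∀ y ∈ K, τ y ∈ K

variable {M : ℕ} [NeZero M] {K : AddSubgroup (HomG M ℤ)}

theorem tp_periodMap_zero : periodMap M (0 : CuspForm (Gamma0 M) 2) = 0 :=
  map_zero (Fermat.Agent.S21.periodMapLinear M)

theorem tp_periodMap_zsmul (n : ℤ) (f : CuspForm (Gamma0 M) 2) :
    periodMap M (n • f) = n • periodMap M f :=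
  map_zsmul (Fermat.Agent.S21.periodMapLinear M) n f

theorem TpCompat.zero : TpCompat M K 0 0 0 where
  period f := by
    rw [LinearMap.zero_apply, tp_periodMap_zero]
    rfl
  cast y := by
    rw [AddMonoidHom.zero_apply, AddMonoidHom.zero_apply, map_zero]
  inv ψ := by
    rw [AddMonoidHom.zero_apply, AddMonoidHom.zero_apply, map_zero]
  stable y _ := by
    rw [AddMonoidHom.zero_apply]
    exact K.zero_mem

theorem TpCompat.add {t₁ t₂ : Module.End ℂ (CuspForm (Gamma0 M) 2)}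
    {τ₁ τ₂ : HomG M ℤ →+ HomG M ℤ} {τ₁' τ₂' : HomG M ℂ →+ HomG M ℂ}
    (h₁ : TpCompat M K t₁ τ₁ τ₁') (h₂ : TpCompat M K t₂ τ₂ τ₂') :
    TpCompat M K (t₁ + t₂) (τ₁ + τ₂) (τ₁' + τ₂') where
  period f := by
    rw [LinearMap.add_apply, Fermat.Agent.S21.periodMap_add, h₁.period, h₂.period,
      AddMonoidHom.add_apply]
  cast y := by
    rw [AddMonoidHom.add_apply, AddMonoidHom.add_apply, h₁.cast, h₂.cast, map_add]
  inv ψ := by
    rw [AddMonoidHom.add_apply, AddMonoidHom.add_apply, h₁.inv, h₂.inv, map_add]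
  stable y hy := by
    rw [AddMonoidHom.add_apply]
    exact K.add_mem (h₁.stable y hy) (h₂.stable y hy)

theorem TpCompat.mul {t₁ t₂ : Module.End ℂ (CuspForm (Gamma0 M) 2)}
    {τ₁ τ₂ : HomG M ℤ →+ HomG M ℤ} {τ₁' τ₂' : HomG M ℂ →+ HomG M ℂ}
    (h₁ : TpCompat M K t₁ τ₁ τ₁') (h₂ : TpCompat M K t₂ τ₂ τ₂') :
    TpCompat M K (t₁ * t₂) (τ₁.comp τ₂) (τ₁'.comp τ₂') where
  period f := by
    rw [Module.End.mul_apply, h₁.period, h₂.period, AddMonoidHom.comp_apply]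
  cast y := by
    rw [AddMonoidHom.comp_apply, AddMonoidHom.comp_apply, h₂.cast, h₁.cast]
  inv ψ := by
    rw [AddMonoidHom.comp_apply, AddMonoidHom.comp_apply, h₂.inv, h₁.inv]
  stable y hy := by
    rw [AddMonoidHom.comp_apply]
    exact h₁.stable _ (h₂.stable y hy)

theorem TpCompat.int (n : ℤ) :
    TpCompat M K (algebraMap ℤ (Module.End ℂ (CuspForm (Gamma0 M) 2)) n)
      (zsmulAddGroupHom n) (zsmulAddGroupHom n) where
  period f := by
    have h1 : (algebraMap ℤ (Module.End ℂ (CuspForm (Gamma0 M) 2)) n) f = n • f := by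
      rw [Algebra.algebraMap_eq_smul_one, LinearMap.smul_apply, Module.End.one_apply]
    rw [h1, tp_periodMap_zsmul, zsmulAddGroupHom_apply]
  cast y := by
    rw [zsmulAddGroupHom_apply, zsmulAddGroupHom_apply, map_zsmul]
  inv ψ := by
    rw [zsmulAddGroupHom_apply, zsmulAddGroupHom_apply, map_zsmul]
  stable y hy := by
    rw [zsmulAddGroupHom_apply]
    exact K.zsmul_mem hy n

theorem TpCompat.sub {t₁ t₂ : Module.End ℂ (CuspForm (Gamma0 M) 2)}
    {τ₁ τ₂ : HomG M ℤ →+ HomG M ℤ} {τ₁' τ₂' : HomG M ℂ →+ HomG M ℂ}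
    (h₁ : TpCompat M K t₁ τ₁ τ₁') (h₂ : TpCompat M K t₂ τ₂ τ₂') :
    TpCompat M K (t₁ - t₂) (τ₁ - τ₂) (τ₁' - τ₂') where
  period f := by
    have e : t₁ f = (t₁ - t₂) f + t₂ f := by
      rw [LinearMap.sub_apply, sub_add_cancel]
    have h := h₁.period f
    rw [e, Fermat.Agent.S21.periodMap_add, h₂.period] at h
    rw [AddMonoidHom.sub_apply, ← h, add_sub_cancel_right]
  cast y := by
    rw [AddMonoidHom.sub_apply, AddMonoidHom.sub_apply, h₁.cast, h₂.cast, map_sub]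
  inv ψ := by
    rw [AddMonoidHom.sub_apply, AddMonoidHom.sub_apply, h₁.inv, h₂.inv, map_sub]
  stable y hy := by
    rw [AddMonoidHom.sub_apply]
    exact K.sub_mem (h₁.stable y hy) (h₂.stable y hy)

end Basic

section Main

variable {N q p : ℕ} [NeZero N] [NeZero q] {a : ℕ → ℤ} {good : ℕ → Prop}

theorem mem_Knew_iff (y : HomG (N * q) ℤ) :
    y ∈ Knew N q ↔ (cores N q ℤ y = 0 ∧ coresD N q ℤ y = 0) ∧ y ∈ Lpar (N * q) := by
  rw [Knew, AddSubgroup.mem_inf, AddMonoidHom.mem_ker, alphaT_apply, Prod.mk_eq_zero]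

/-- the generator triple `(T_ℓ, Tc ℓ, Tc ℓ)` is compatible -/
theorem tpCompat_T (hC1 : StmtC1 N q) (ℓ : ℕ) [hℓ : Fact ℓ.Prime] (hℓNq : ¬ ℓ ∣ N * q) :
    TpCompat (N * q) (Knew N q) (CuspForm.heckeTLin 2 hℓ.out hℓNq)
      (tpTc (N * q) ℓ hℓNq ℤ) (tpTc (N * q) ℓ hℓNq ℂ) where
  period f := Fermat.Agent.ES.periodMap_heckeTLin_eq_heckeP hℓNq f
  cast y := Fermat.Agent.ES.HeckeP.heckeHom_comp hℓNq (Int.castAddHom ℂ) y
  inv ψ := charInv_Tc ℓ hℓNq ℂ ψ
  stable y hy := by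
    have hℓN : ¬ ℓ ∣ N := fun h => hℓNq (dvd_mul_of_dvd_left h q)
    rw [mem_Knew_iff] at hy ⊢
    obtain ⟨⟨h1, h2⟩, h3⟩ := hy
    obtain ⟨-, hC⟩ := hC1 ℤ ℓ hℓN hℓNq
    obtain ⟨e1, e2⟩ := hC y
    refine ⟨⟨?_, ?_⟩, ?_⟩
    · rw [tpTc_apply, e1, h1]
      exact Fermat.Agent.ES.HeckeP.heckeHom_zero hℓN
    · rw [tpTc_apply, e2, h2]
      exact Fermat.Agent.ES.HeckeP.heckeHom_zero hℓN
    · exact Fermat.Agent.ES.HeckeP.heckeHom_mem_parabolicHoms hℓNq ℤ h3

/-- every element of the anemic Hecke algebra has a compatible triple -/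
theorem tp_exists_compat_of_mem_Tan (hC1 : StmtC1 N q)
    (hgood : ∀ ℓ, good ℓ → ℓ.Prime ∧ ¬ ℓ ∣ N * q)
    (t : Module.End ℂ (CuspForm (Gamma0 (N * q)) 2)) (ht : t ∈ Tan (N * q) good) :
    ∃ (τ : HomG (N * q) ℤ →+ HomG (N * q) ℤ) (τ' : HomG (N * q) ℂ →+ HomG (N * q) ℂ),
      TpCompat (N * q) (Knew N q) t τ τ' := by
  induction ht using Algebra.adjoin_induction with
  | mem x hx =>
    rcases hx with ⟨ℓ, hℓ, hℓN, -, rfl⟩ | ⟨q', hq'N, -, hq'S, rfl⟩
    · have : Fact ℓ.Prime := ⟨hℓ⟩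
      exact ⟨_, _, tpCompat_T hC1 ℓ hℓN⟩
    · exfalso
      have hg : good q' := by
        by_contra h
        exact hq'S h
      exact (hgood q' hg).2 hq'N
  | algebraMap r => exact ⟨_, _, TpCompat.int r⟩
  | add x y _ _ ihx ihy =>
    obtain ⟨τ₁, τ₁', h₁⟩ := ihx
    obtain ⟨τ₂, τ₂', h₂⟩ := ihy
    exact ⟨_, _, h₁.add h₂⟩
  | mul x y _ _ ihx ihy =>
    obtain ⟨τ₁, τ₁', h₁⟩ := ihx
    obtain ⟨τ₂, τ₂', h₂⟩ := ihy
    exact ⟨_, _, h₁.mul h₂⟩

/-- every element of `𝔫` has a compatible triple with `τ K ⊆ 𝔫 K` -/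
theorem tp_exists_compat_of_mem_nIdeal (hC1 : StmtC1 N q)
    (hgood : ∀ ℓ, good ℓ → ℓ.Prime ∧ ¬ ℓ ∣ N * q)
    (t : Tan (N * q) good) (ht : t ∈ nIdeal (N * q) p a good) :
    ∃ (τ : HomG (N * q) ℤ →+ HomG (N * q) ℤ) (τ' : HomG (N * q) ℂ →+ HomG (N * q) ℂ),
      TpCompat (N * q) (Knew N q) (t : Module.End ℂ (CuspForm (Gamma0 (N * q)) 2)) τ τ' ∧
      ∀ y ∈ Knew N q, τ y ∈ nSub (N * q) p a good (Knew N q) := by
  unfold nIdeal at ht
  induction ht using Submodule.span_induction with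
  | mem x hx =>
    rcases hx with hx | ⟨ℓ, hℓ, hℓM, hg, hx⟩
    · have hx' : x = (p : Tan (N * q) good) := hx
      subst hx'
      refine ⟨zsmulAddGroupHom (p : ℤ), zsmulAddGroupHom (p : ℤ), ?_, ?_⟩
      · have e : (((p : Tan (N * q) good)) : Module.End ℂ (CuspForm (Gamma0 (N * q)) 2))
            = algebraMap ℤ (Module.End ℂ (CuspForm (Gamma0 (N * q)) 2)) (p : ℤ) := by
          simp
        rw [e]
        exact TpCompat.int (p : ℤ)
      · intro y hy
        rw [zsmulAddGroupHom_apply, natCast_zsmul]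
        exact AddSubgroup.subset_closure (Or.inl ⟨y, hy, rfl⟩)
    · subst hx
      have : Fact ℓ.Prime := ⟨hℓ⟩
      refine ⟨tpTc (N * q) ℓ hℓM ℤ - zsmulAddGroupHom (a ℓ),
        tpTc (N * q) ℓ hℓM ℂ - zsmulAddGroupHom (a ℓ), ?_, ?_⟩
      · have e : ((CuspForm.heckeAlgebra.T hℓ hℓM (not_mem_badSet hg) - (a ℓ : Tan (N * q) good)
            : Tan (N * q) good) : Module.End ℂ (CuspForm (Gamma0 (N * q)) 2))
            = CuspForm.heckeTLin 2 hℓ hℓM
              - algebraMap ℤ (Module.End ℂ (CuspForm (Gamma0 (N * q)) 2)) (a ℓ) := by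
          simp
        rw [e]
        exact (tpCompat_T hC1 ℓ hℓM).sub (TpCompat.int (a ℓ))
      · intro y hy
        rw [AddMonoidHom.sub_apply, zsmulAddGroupHom_apply, tpTc_apply]
        exact AddSubgroup.subset_closure (Or.inr ⟨ℓ, ⟨hℓ⟩, hℓM, hg, y, hy, rfl⟩)
  | zero =>
    refine ⟨0, 0, ?_, ?_⟩
    · have e : ((0 : Tan (N * q) good) : Module.End ℂ (CuspForm (Gamma0 (N * q)) 2)) = 0 := rfl
      rw [e]
      exact TpCompat.zero
    · intro y _
      rw [AddMonoidHom.zero_apply]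
      exact (nSub (N * q) p a good (Knew N q)).zero_mem
  | add x y _ _ ihx ihy =>
    obtain ⟨τ₁, τ₁', h₁, k₁⟩ := ihx
    obtain ⟨τ₂, τ₂', h₂, k₂⟩ := ihy
    refine ⟨τ₁ + τ₂, τ₁' + τ₂', ?_, ?_⟩
    · have e : ((x + y : Tan (N * q) good) : Module.End ℂ (CuspForm (Gamma0 (N * q)) 2))
          = (x : Module.End ℂ (CuspForm (Gamma0 (N * q)) 2)) + y := rfl
      rw [e]
      exact h₁.add h₂
    · intro z hz
      rw [AddMonoidHom.add_apply]
      exact (nSub (N * q) p a good (Knew N q)).add_mem (k₁ z hz) (k₂ z hz)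
  | smul r x _ ihx =>
    obtain ⟨τ₁, τ₁', h₁, k₁⟩ := ihx
    obtain ⟨ρ, ρ', hρ⟩ := tp_exists_compat_of_mem_Tan hC1 hgood
      (r : Module.End ℂ (CuspForm (Gamma0 (N * q)) 2)) r.2
    refine ⟨τ₁.comp ρ, τ₁'.comp ρ', ?_, ?_⟩
    · have e0 : (r • x : Tan (N * q) good) = x * r := by
        rw [smul_eq_mul]
        exact mul_comm r x
      have e : ((r • x : Tan (N * q) good) : Module.End ℂ (CuspForm (Gamma0 (N * q)) 2))
          = (x : Module.End ℂ (CuspForm (Gamma0 (N * q)) 2)) * r :=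
        congrArg Subtype.val e0
      rw [e]
      exact h₁.mul hρ
    · intro z hz
      rw [AddMonoidHom.comp_apply]
      exact k₁ _ (hρ.stable z hz)

/-- `U_q` on the image of the period pair map -/
theorem tp_heckeU_periodHomPair (f g : CuspForm (Gamma0 (N * q)) 2) :
    heckeU (dvd_mul_left q N) (periodHomPair (N * q) (f, g))
      = periodHomPair (N * q) (CuspForm.heckeULin 2 (dvd_mul_left q N) f,
          CuspForm.heckeULin 2 (dvd_mul_left q N) g) := by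
  rw [Fermat.Agent.S21.periodHomPair_apply, Fermat.Agent.S21.periodHomPair_apply,
    heckeU_add, heckeU_add, heckeU_sub, heckeU_charInvolution, heckeU_charInvolution,
    periodMap_heckeULin, periodMap_heckeULin]

/-- a compatible `τ'` on the image of the period pair map -/
theorem tp_compat_periodHomPair {K : AddSubgroup (HomG (N * q) ℤ)}
    {t : Module.End ℂ (CuspForm (Gamma0 (N * q)) 2)} {τ : HomG (N * q) ℤ →+ HomG (N * q) ℤ}
    {τ' : HomG (N * q) ℂ →+ HomG (N * q) ℂ} (h : TpCompat (N * q) K t τ τ')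
    (f g : CuspForm (Gamma0 (N * q)) 2) :
    τ' (periodHomPair (N * q) (f, g)) = periodHomPair (N * q) (t f, t g) := by
  rw [Fermat.Agent.S21.periodHomPair_apply, Fermat.Agent.S21.periodHomPair_apply,
    map_add, map_add, map_sub, h.inv, h.inv, h.period, h.period]

/-- **TRANSPORT**. -/
theorem stmtTransport (hC0 : StmtC0 N q) (hC1 : StmtC1 N q) (hC4 : StmtC4 N q)
    (_hC8 : StmtC8 N q) : StmtTransport N q p a good := by
  intro hq hqN hgood hCOH t ht
  by_contra hcon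
  have hid : ∀ f ∈ newSpace N q,
      (t : Module.End ℂ (CuspForm (Gamma0 (N * q)) 2)) f = f := by
    intro f hf
    by_contra hne
    exact hcon ⟨f, hf, hne⟩
  obtain ⟨x, hxK, hxn⟩ := hCOH
  apply hxn
  obtain ⟨τ, τ', hcomp, hτ⟩ := tp_exists_compat_of_mem_nIdeal (p := p) (a := a) hC1 hgood t ht
  have : Fact q.Prime := ⟨hq⟩
  -- `cast x` is in the image of the period pair map
  have hxK' := (mem_Knew_iff x).1 hxK
  obtain ⟨⟨hx1, hx2⟩, hx3⟩ := hxK'
  have hpar : tpCast (N * q) x ∈ parabolicHoms ℂ (Gamma0 (N * q)) ℂ := by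
    rw [mem_parabolicHoms_iff]
    intro γ hγ
    have h0 : x (Additive.ofMul γ) = 0 := hx3 γ hγ
    rw [tpCast_apply_apply, h0, Int.cast_zero]
  rw [← (Fermat.Agent.S21.result (N * q)).2] at hpar
  obtain ⟨⟨f, g⟩, hfg⟩ := hpar
  -- `U_q² = 1` on `cast x`
  have hU : heckeU (dvd_mul_left q N) (heckeU (dvd_mul_left q N) (tpCast (N * q) x))
      = tpCast (N * q) x := by
    apply hC4 hqN ℂ
    · rw [tpCast_apply, (hC0 ℤ ℂ (Int.castAddHom ℂ) x).1, hx1, AddMonoidHom.comp_zero]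
    · rw [tpCast_apply, (hC0 ℤ ℂ (Int.castAddHom ℂ) x).2, hx2, AddMonoidHom.comp_zero]
  rw [← hfg, tp_heckeU_periodHomPair, tp_heckeU_periodHomPair] at hU
  have hinj := (Fermat.Agent.S21.result (N * q)).1 hU
  have hf : f ∈ newSpace N q := (mem_newSpace f).2 (congrArg Prod.fst hinj)
  have hg : g ∈ newSpace N q := (mem_newSpace g).2 (congrArg Prod.snd hinj)
  -- `τ x = x`
  have h1 : τ' (tpCast (N * q) x) = tpCast (N * q) x := by
    rw [← hfg, tp_compat_periodHomPair hcomp, hid f hf, hid g hg]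
  rw [hcomp.cast] at h1
  have h2 : τ x = x := tpCast_injective (N * q) h1
  rw [← h2]
  exact hτ x hxK

end Main

end Fermat.Agent.S41

end
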