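import Fermat.Agent.S41.IharaFinal
import Fermat.Agent.S41.NonEis
import Fermat.Agent.S41.H3
import Fermat.Agent.S41.Alg
import Fermat.Agent.S41.Coh
import Fermat.Agent.S41.Transport
import Fermat.Agent.S41.Engine
import Fermat.Agent.S41.PD.DualIhara
import Fermat.Agent.S41.NewU
import Fermat.Agent.S41.Parab
import Fermat.Agent.S41.AlphaTAlpha
import Fermat.Agent.S41.DegHecke
import Fermat.Agent.S41.TransferFormula

/-!
# S41 (level raising): the final assembly, from Theorem M (captain helper7)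

`s41_of_M` : the conclusion of S41 from `StmtM N q' (ZMod p)` (Theorem M, `IharaFinal.lean`).

Chain: Theorem M ⟹ (IHARA) ⟹ (with (DUAL IHARA), (NONEIS), (H3), the lattice lemma (ALG))
(COH) ⟹ (TRANSPORT) (SUPP) ⟹ (ENGINE) an eigenform of level `N q'`, new at `q'`, congruent to
`E` modulo a prime over `p`.
-/

set_option autoImplicit false

namespace Fermat.Agent.S41

open WeierstrassCurve WeierstrassCurve.Affine WeierstrassCurve.Affine.Point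
open scoped CongruenceSubgroup

/-- (C4) in the packaged form used by (TRANSPORT) -/
theorem stmtC4 (N q : ℕ) [NeZero N] [NeZero q] : StmtC4 N q :=
  fun hqN _ _ ψ h1 h2 => heckeU_sq_of_alphaT_eq_zero N q hqN ψ h1 h2

/-- **S41 from Theorem M.** -/
theorem s41_of_M
    (E : WeierstrassCurve ℚ) [E.IsElliptic] {W : WeierstrassCurve ℤ} (hW : W.IsIntegralModelOf E)
    {p N q' : ℕ} (hp : p.Prime) (hp2 : p ≠ 2) (hN : 0 < N) (hq' : q'.Prime) (hq'N : ¬ q' ∣ N)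
    (hirr : GaloisRepIsIrreducible (K := AlgebraicClosure ℚ) ℚ E p)
    (f : CuspForm (CongruenceSubgroup.Gamma0 N) 2) (𝔪 : Ideal (integralClosure ℤ ℂ))
    (hf : f.IsNormalizedEigenform) (hmax : 𝔪.IsMaximal) (hpm : (p : integralClosure ℤ ℂ) ∈ 𝔪)
    (hcong : ∀ ℓ : ℕ, ℓ.Prime → W.IsGoodPrimeFor ℓ → ¬ ℓ ∣ N → ℓ ≠ p →
      ∃ a : integralClosure ℤ ℂ, (a : ℂ) = ModularFormClass.qCoeff f ℓ ∧
        a - ((W.apOfModel ℓ : ℤ) : integralClosure ℤ ℂ) ∈ 𝔪)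
    (hLR : ∃ a : integralClosure ℤ ℂ, (a : ℂ) = ModularFormClass.qCoeff f q' ∧
      a ^ 2 - ((q' : integralClosure ℤ ℂ) + 1) ^ 2 ∈ 𝔪)
    (hM : haveI : NeZero N := ⟨hN.ne'⟩; StmtM N q' (ZMod p)) :
    ∃ (g : CuspForm (CongruenceSubgroup.Gamma0 (N * q')) 2) (𝔪' : Ideal (integralClosure ℤ ℂ)),
      g.IsNormalizedEigenform ∧ 𝔪'.IsMaximal ∧ (p : integralClosure ℤ ℂ) ∈ 𝔪' ∧
      (∀ ℓ : ℕ, ℓ.Prime → W.IsGoodPrimeFor ℓ → ¬ ℓ ∣ N * q' → ℓ ≠ p →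
        ∃ a : integralClosure ℤ ℂ, (a : ℂ) = ModularFormClass.qCoeff g ℓ ∧
          a - ((W.apOfModel ℓ : ℤ) : integralClosure ℤ ℂ) ∈ 𝔪') ∧
      g.IsNewAt q' := by
  haveI : NeZero N := ⟨hN.ne'⟩
  haveI : NeZero q' := ⟨hq'.ne_zero⟩
  haveI : Fact q'.Prime := ⟨hq'⟩
  -- the data
  set a : ℕ → ℤ := fun ℓ => W.apOfModel ℓ with ha
  set good : ℕ → Prop := fun ℓ => ℓ.Prime ∧ W.IsGoodPrimeFor ℓ ∧ ¬ ℓ ∣ N * q' ∧ ℓ ≠ p with hgooddef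
  have hgood : ∀ ℓ, good ℓ → ℓ.Prime ∧ ¬ ℓ ∣ N * q' := fun ℓ h => ⟨h.1, h.2.2.1⟩
  have hgood' : ∀ ℓ, good ℓ → ℓ.Prime ∧ W.IsGoodPrimeFor ℓ ∧ ¬ ℓ ∣ N ∧ ℓ ≠ p :=
    fun ℓ h => ⟨h.1, h.2.1, fun hd => h.2.2.1 (dvd_trans hd (dvd_mul_right N q')), h.2.2.2⟩
  -- Ihara and dual Ihara
  have hI : StmtIhara N q' p := stmtIhara_of_M N q' p hq'N hM
  have hDI : StmtDualIhara N q' p := PD.dualIhara N q' p hp hq'
  -- a non-Eisenstein prime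
  have hNE : ∃ ℓ, good ℓ ∧ ¬ (p : ℤ) ∣ a ℓ - (ℓ + 1) := by
    obtain ⟨ℓ, hℓ, hℓS, hℓp, hℓW, hnd⟩ :=
      stmtNonEis E W hW p hp hp2 hirr (N * q').primeFactors
    refine ⟨ℓ, ⟨hℓ, hℓW, fun hd => hℓS ?_, hℓp⟩, hnd⟩
    exact Nat.mem_primeFactors.mpr ⟨hℓ, hd, Nat.mul_ne_zero hN.ne' hq'.ne_zero⟩
  -- (H3)
  have hH3 : StmtH3 N q' p a good :=
    stmtH3_of E hp hN hq' hq'N f 𝔪 hf hmax hpm hcong hLR a good hgood' (fun _ => rfl)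
  -- (COH)
  have hCOH : StmtCOH N q' p a good :=
    stmtCOH_of hp hq' hq'N stmtAlg (stmtC1 N q') (stmtC2 N q') (stmtC8 N q') hI hDI a good hgood
      hNE hH3
  -- (SUPP)
  have hSupp : StmtSupp N q' p a good :=
    stmtTransport (stmtC0 N q') (stmtC1 N q') (stmtC4 N q') (stmtC8 N q') hq' hq'N hgood hCOH
  -- (ENGINE)
  obtain ⟨g, 𝔪', hg, hmax', hpm', hcong', hnew⟩ := stmtEngine N q' p a good hp hq' hgood hSupp
  exact ⟨g, 𝔪', hg, hmax', hpm', fun ℓ h1 h2 h3 h4 => hcong' ℓ ⟨h1, h2, h3, h4⟩, hnew⟩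

end Fermat.Agent.S41
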