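import Fermat.Agent.S41.AmalgamAbstract

/-!
# S41, piece R1 (concrete part): `Γ₀(N)[1/q]` is the amalgam of two copies of `Γ₀(N)`

`q` is a prime not dividing `N`.  Inside `SL(2, ℚ)` we consider `Γ = Γ₀(N)` and its conjugate
`Γ' = δ⁻¹ Γ δ`, `δ = diag(q, 1)`, i.e. `Γ' = { [[a, b/q], [q c, d]] : [[a, b], [c, d]] ∈ Γ₀(N) }`.
Then `Γ ∩ Γ' = Γ₀(N q)`, and the subgroup generated by `Γ` and `Γ'` is the amalgam
`Γ *_{Γ ∩ Γ'} Γ'`: two homomorphisms on `Γ₀(N)` that agree on the intersection glue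
(`exists_glue_gamma0`).  The proof is by ping-pong on `ℚ²` with the `q`-adic norm.
-/

set_option autoImplicit false

namespace Fermat.Agent.S41

open Matrix CongruenceSubgroup Function

/-- `SL(2, ℚ)`. -/
abbrev SL2Q : Type := Matrix.SpecialLinearGroup (Fin 2) ℚ

theorem sl2q_det (g : SL2Q) : g.1 0 0 * g.1 1 1 - g.1 0 1 * g.1 1 0 = 1 := by
  have := g.2
  rwa [Matrix.det_fin_two] at this

theorem sl2q_ext {g h : SL2Q} (h00 : g.1 0 0 = h.1 0 0) (h01 : g.1 0 1 = h.1 0 1)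
    (h10 : g.1 1 0 = h.1 1 0) (h11 : g.1 1 1 = h.1 1 1) : g = h := by
  apply Subtype.ext
  ext i j
  fin_cases i <;> fin_cases j <;> assumption

theorem sl2q_mul00 (g h : SL2Q) : (g * h).1 0 0 = g.1 0 0 * h.1 0 0 + g.1 0 1 * h.1 1 0 := by
  simp [Matrix.mul_apply, Fin.sum_univ_two]

theorem sl2q_mul01 (g h : SL2Q) : (g * h).1 0 1 = g.1 0 0 * h.1 0 1 + g.1 0 1 * h.1 1 1 := by
  simp [Matrix.mul_apply, Fin.sum_univ_two]

theorem sl2q_mul10 (g h : SL2Q) : (g * h).1 1 0 = g.1 1 0 * h.1 0 0 + g.1 1 1 * h.1 1 0 := by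
  simp [Matrix.mul_apply, Fin.sum_univ_two]

theorem sl2q_mul11 (g h : SL2Q) : (g * h).1 1 1 = g.1 1 0 * h.1 0 1 + g.1 1 1 * h.1 1 1 := by
  simp [Matrix.mul_apply, Fin.sum_univ_two]

theorem sl2q_smul0 (g : SL2Q) (v : Fin 2 → ℚ) : (g • v) 0 = g.1 0 0 * v 0 + g.1 0 1 * v 1 := by
  rw [Matrix.SpecialLinearGroup.smul_def, Matrix.smul_eq_mulVec]
  simp [Matrix.mulVec, dotProduct, Fin.sum_univ_two]

theorem sl2q_smul1 (g : SL2Q) (v : Fin 2 → ℚ) : (g • v) 1 = g.1 1 0 * v 0 + g.1 1 1 * v 1 := by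
  rw [Matrix.SpecialLinearGroup.smul_def, Matrix.smul_eq_mulVec]
  simp [Matrix.mulVec, dotProduct, Fin.sum_univ_two]

/-- An element of `SL(2, ℚ)` from its entries. -/
def sl2qMk (a b c d : ℚ) (h : a * d - b * c = 1) : SL2Q :=
  ⟨!![a, b; c, d], by rw [Matrix.det_fin_two_of]; exact h⟩

@[simp] theorem sl2qMk_00 (a b c d : ℚ) (h : a * d - b * c = 1) : (sl2qMk a b c d h).1 0 0 = a := rfl
@[simp] theorem sl2qMk_01 (a b c d : ℚ) (h : a * d - b * c = 1) : (sl2qMk a b c d h).1 0 1 = b := rfl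
@[simp] theorem sl2qMk_10 (a b c d : ℚ) (h : a * d - b * c = 1) : (sl2qMk a b c d h).1 1 0 = c := rfl
@[simp] theorem sl2qMk_11 (a b c d : ℚ) (h : a * d - b * c = 1) : (sl2qMk a b c d h).1 1 1 = d := rfl

/-- Conjugation by `δ = diag(q, 1)`: `[[a, b], [c, d]] ↦ [[a, b / q], [q c, d]]`. -/
def conjDelta (q : ℕ) [NeZero q] : SL2Q →* SL2Q where
  toFun g := sl2qMk (g.1 0 0) (g.1 0 1 / q) (q * g.1 1 0) (g.1 1 1) (by
    have hq : (q : ℚ) ≠ 0 := Nat.cast_ne_zero.mpr (NeZero.ne q)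
    have := sl2q_det g
    field_simp
    linarith)
  map_one' := by
    apply sl2q_ext <;> simp
  map_mul' g h := by
    have hq : (q : ℚ) ≠ 0 := Nat.cast_ne_zero.mpr (NeZero.ne q)
    apply sl2q_ext
    · simp only [sl2qMk_00, sl2q_mul00, sl2qMk_01, sl2qMk_10]
      field_simp
    · simp only [sl2qMk_00, sl2q_mul01, sl2qMk_01, sl2qMk_11]
      field_simp
    · simp only [sl2qMk_00, sl2q_mul10, sl2qMk_10, sl2qMk_11]
      ring
    · simp only [sl2qMk_01, sl2q_mul11, sl2qMk_10, sl2qMk_11]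
      field_simp

@[simp] theorem conjDelta_00 (q : ℕ) [NeZero q] (g : SL2Q) : (conjDelta q g).1 0 0 = g.1 0 0 := rfl
@[simp] theorem conjDelta_01 (q : ℕ) [NeZero q] (g : SL2Q) :
    (conjDelta q g).1 0 1 = g.1 0 1 / q := rfl
@[simp] theorem conjDelta_10 (q : ℕ) [NeZero q] (g : SL2Q) :
    (conjDelta q g).1 1 0 = q * g.1 1 0 := rfl
@[simp] theorem conjDelta_11 (q : ℕ) [NeZero q] (g : SL2Q) : (conjDelta q g).1 1 1 = g.1 1 1 := rfl

theorem conjDelta_injective (q : ℕ) [NeZero q] : Injective (conjDelta q) := by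
  have hq : (q : ℚ) ≠ 0 := Nat.cast_ne_zero.mpr (NeZero.ne q)
  intro g h hgh
  have h00 := congrArg (fun x : SL2Q => x.1 0 0) hgh
  have h01 := congrArg (fun x : SL2Q => x.1 0 1) hgh
  have h10 := congrArg (fun x : SL2Q => x.1 1 0) hgh
  have h11 := congrArg (fun x : SL2Q => x.1 1 1) hgh
  simp only [conjDelta_00, conjDelta_01, conjDelta_10, conjDelta_11] at h00 h01 h10 h11
  apply sl2q_ext h00 _ _ h11
  · field_simp at h01
    exact h01
  · exact mul_left_cancel₀ hq h10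

/-- The inclusion `Γ₀(N) → SL(2, ℚ)`. -/
def gamma0Q (N : ℕ) : ↥(Gamma0 N) →* SL2Q :=
  (Matrix.SpecialLinearGroup.map (Int.castRingHom ℚ)).comp (Gamma0 N).subtype

theorem gamma0Q_apply (N : ℕ) (g : ↥(Gamma0 N)) (i j : Fin 2) :
    (gamma0Q N g).1 i j = ((g.1.1 i j : ℤ) : ℚ) := by
  simp [gamma0Q]

theorem gamma0Q_injective (N : ℕ) : Injective (gamma0Q N) := by
  intro g h hgh
  apply Subtype.ext
  apply Subtype.ext
  ext i j
  have := congrArg (fun x : SL2Q => x.1 i j) hgh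
  simp only [gamma0Q_apply] at this
  exact_mod_cast this

theorem gamma0_dvd (N : ℕ) (g : ↥(Gamma0 N)) : (N : ℤ) ∣ g.1.1 1 0 := by
  have := g.2
  rw [Gamma0_mem] at this
  exact (ZMod.intCast_zmod_eq_zero_iff_dvd _ N).mp this

theorem gamma0_det (N : ℕ) (g : ↥(Gamma0 N)) :
    g.1.1 0 0 * g.1.1 1 1 - g.1.1 0 1 * g.1.1 1 0 = 1 := by
  have := g.1.2
  rwa [Matrix.det_fin_two] at this

/-- An element of `Γ₀(N)` from its entries. -/
def gamma0Mk (N : ℕ) (a b c d : ℤ) (h : a * d - b * c = 1) (hc : (N : ℤ) ∣ c) : ↥(Gamma0 N) :=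
  ⟨(⟨!![a, b; c, d], by rw [Matrix.det_fin_two_of]; exact h⟩ :
      Matrix.SpecialLinearGroup (Fin 2) ℤ),
    Gamma0_mem.mpr ((ZMod.intCast_zmod_eq_zero_iff_dvd _ N).mpr hc)⟩

@[simp] theorem gamma0Mk_00 (N : ℕ) (a b c d : ℤ) (h : a * d - b * c = 1) (hc : (N : ℤ) ∣ c) :
    (gamma0Mk N a b c d h hc).1.1 0 0 = a := rfl
@[simp] theorem gamma0Mk_01 (N : ℕ) (a b c d : ℤ) (h : a * d - b * c = 1) (hc : (N : ℤ) ∣ c) :
    (gamma0Mk N a b c d h hc).1.1 0 1 = b := rfl
@[simp] theorem gamma0Mk_10 (N : ℕ) (a b c d : ℤ) (h : a * d - b * c = 1) (hc : (N : ℤ) ∣ c) :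
    (gamma0Mk N a b c d h hc).1.1 1 0 = c := rfl
@[simp] theorem gamma0Mk_11 (N : ℕ) (a b c d : ℤ) (h : a * d - b * c = 1) (hc : (N : ℤ) ∣ c) :
    (gamma0Mk N a b c d h hc).1.1 1 1 = d := rfl

/-- The two embeddings of `Γ₀(N)` into `SL(2, ℚ)`: the standard one (`true`) and its conjugate by
`diag(q, 1)` (`false`). -/
def jAm (N q : ℕ) [NeZero q] : Bool → (↥(Gamma0 N) →* SL2Q)
  | true => gamma0Q N
  | false => (conjDelta q).comp (gamma0Q N)

theorem jAm_injective (N q : ℕ) [NeZero q] (i : Bool) : Injective (jAm N q i) := by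
  cases i
  · exact (conjDelta_injective q).comp (gamma0Q_injective N)
  · exact gamma0Q_injective N

/-- `j true g = j false g'` in terms of entries. -/
theorem jAm_eq_iff (N q : ℕ) [NeZero q] (g g' : ↥(Gamma0 N)) :
    jAm N q true g = jAm N q false g' ↔
      g.1.1 0 0 = g'.1.1 0 0 ∧ (q : ℤ) * g.1.1 0 1 = g'.1.1 0 1 ∧
        g.1.1 1 0 = (q : ℤ) * g'.1.1 1 0 ∧ g.1.1 1 1 = g'.1.1 1 1 := by
  have hq : (q : ℚ) ≠ 0 := Nat.cast_ne_zero.mpr (NeZero.ne q)
  constructor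
  · intro h
    have h00 := congrArg (fun x : SL2Q => x.1 0 0) h
    have h01 := congrArg (fun x : SL2Q => x.1 0 1) h
    have h10 := congrArg (fun x : SL2Q => x.1 1 0) h
    have h11 := congrArg (fun x : SL2Q => x.1 1 1) h
    simp only [jAm, MonoidHom.comp_apply, conjDelta_00, conjDelta_01, conjDelta_10, conjDelta_11,
      gamma0Q_apply] at h00 h01 h10 h11
    refine ⟨by exact_mod_cast h00, ?_, by exact_mod_cast h10, by exact_mod_cast h11⟩
    have : (q : ℚ) * (g.1.1 0 1 : ℚ) = (g'.1.1 0 1 : ℚ) := by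
      rw [h01]
      field_simp
    exact_mod_cast this
  · rintro ⟨h00, h01, h10, h11⟩
    apply sl2q_ext
    · simp only [jAm, MonoidHom.comp_apply, conjDelta_00, gamma0Q_apply]
      exact_mod_cast h00
    · simp only [jAm, MonoidHom.comp_apply, conjDelta_01, gamma0Q_apply]
      rw [← h01]
      push_cast
      field_simp
    · simp only [jAm, MonoidHom.comp_apply, conjDelta_10, gamma0Q_apply]
      exact_mod_cast h10
    · simp only [jAm, MonoidHom.comp_apply, conjDelta_11, gamma0Q_apply]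
      exact_mod_cast h11

/-- `j true g` lies in the conjugate copy iff `q ∣ c`. -/
theorem jAm_true_mem_range_iff (N q : ℕ) [NeZero q] (hqN : Nat.Coprime q N) (g : ↥(Gamma0 N)) :
    jAm N q true g ∈ (jAm N q false).range ↔ (q : ℤ) ∣ g.1.1 1 0 := by
  constructor
  · rintro ⟨g', hg'⟩
    have := (jAm_eq_iff N q g g').mp hg'.symm
    exact ⟨_, this.2.2.1⟩
  · rintro ⟨c', hc'⟩
    have hN : (N : ℤ) ∣ c' := by
      have h1 : (N : ℤ) ∣ (q : ℤ) * c' := hc' ▸ gamma0_dvd N g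
      have hcop : IsCoprime (N : ℤ) (q : ℤ) := by
        rw [Int.isCoprime_iff_gcd_eq_one]
        have : Nat.gcd N q = 1 := Nat.Coprime.symm hqN
        simpa [Int.gcd] using this
      exact hcop.dvd_of_dvd_mul_left h1
    have hdet := gamma0_det N g
    refine ⟨gamma0Mk N (g.1.1 0 0) (q * g.1.1 0 1) c' (g.1.1 1 1) ?_ hN, ?_⟩
    · rw [hc'] at hdet
      linarith
    · symm
      rw [jAm_eq_iff]
      simp [hc']

/-- `j false g` lies in the standard copy iff `q ∣ b`. -/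
theorem jAm_false_mem_range_iff (N q : ℕ) [NeZero q] (g : ↥(Gamma0 N)) :
    jAm N q false g ∈ (jAm N q true).range ↔ (q : ℤ) ∣ g.1.1 0 1 := by
  constructor
  · rintro ⟨g', hg'⟩
    have := (jAm_eq_iff N q g' g).mp hg'
    exact ⟨_, this.2.1.symm⟩
  · rintro ⟨b', hb'⟩
    have hdet := gamma0_det N g
    refine ⟨gamma0Mk N (g.1.1 0 0) b' (q * g.1.1 1 0) (g.1.1 1 1) ?_
      (Dvd.dvd.mul_left (gamma0_dvd N g) _), ?_⟩
    · rw [hb'] at hdet
      linarith
    · rw [jAm_eq_iff]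
      simp [hb']

section PingPongSets

/-- The ping-pong sets: `Y true = {|x| ≤ |y|, y ≠ 0}`, `Y false = {|y| < |x|}` (`q`-adic norm). -/
def ppSet (q : ℕ) : Bool → Set (Fin 2 → ℚ)
  | true => {v | padicNorm q (v 0) ≤ padicNorm q (v 1) ∧ v 1 ≠ 0}
  | false => {v | padicNorm q (v 1) < padicNorm q (v 0)}

theorem ppSet_disjoint (q : ℕ) : Disjoint (ppSet q true) (ppSet q false) := by
  rw [Set.disjoint_left]
  rintro v ⟨h1, _⟩ h2
  exact absurd h1 (not_le.mpr h2)

theorem ppSet_nonempty (q : ℕ) (i : Bool) : (ppSet q i).Nonempty := by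
  cases i
  · refine ⟨![1, 0], ?_⟩
    change padicNorm q (![(1 : ℚ), 0] 1) < padicNorm q (![(1 : ℚ), 0] 0)
    simp
  · refine ⟨![0, 1], ?_⟩
    change padicNorm q (![(0 : ℚ), 1] 0) ≤ padicNorm q (![(0 : ℚ), 1] 1) ∧ ![(0 : ℚ), 1] 1 ≠ 0
    simp

variable (N q : ℕ) [Fact q.Prime]

theorem padicNorm_int_mul_le (z : ℤ) (x : ℚ) : padicNorm q (z * x) ≤ padicNorm q x := by
  rw [padicNorm.mul]
  calc padicNorm q z * padicNorm q x ≤ 1 * padicNorm q x :=
        mul_le_mul_of_nonneg_right (padicNorm.of_int z) (padicNorm.nonneg x)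
    _ = padicNorm q x := one_mul _

theorem padicNorm_unit_mul {z : ℤ} (hz : ¬ (q : ℤ) ∣ z) (x : ℚ) :
    padicNorm q (z * x) = padicNorm q x := by
  rw [padicNorm.mul, (padicNorm.int_eq_one_iff z).mpr hz, one_mul]

theorem padicNorm_q_mul (x : ℚ) : padicNorm q ((q : ℚ) * x) = (q : ℚ)⁻¹ * padicNorm q x := by
  rw [padicNorm.mul, padicNorm.padicNorm_p (Fact.out : q.Prime).one_lt]

variable [NeZero q]

theorem ppSet_move_true (g : ↥(Gamma0 N)) (hg : ¬ (q : ℤ) ∣ g.1.1 1 0) (v : Fin 2 → ℚ)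
    (hv : v ∈ ppSet q false) : jAm N q true g • v ∈ ppSet q true := by
  change padicNorm q (v 1) < padicNorm q (v 0) at hv
  change padicNorm q ((jAm N q true g • v) 0) ≤ padicNorm q ((jAm N q true g • v) 1) ∧
    (jAm N q true g • v) 1 ≠ 0
  rw [sl2q_smul0, sl2q_smul1]
  simp only [jAm, gamma0Q_apply]
  have h1 : padicNorm q ((g.1.1 1 0 : ℚ) * v 0) = padicNorm q (v 0) := padicNorm_unit_mul q hg _
  have h2 : padicNorm q ((g.1.1 1 1 : ℚ) * v 1) ≤ padicNorm q (v 1) := padicNorm_int_mul_le q _ _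
  have h3 : padicNorm q ((g.1.1 1 0 : ℚ) * v 0 + (g.1.1 1 1 : ℚ) * v 1) = padicNorm q (v 0) := by
    rw [padicNorm.add_eq_max_of_ne (by rw [h1]; exact (lt_of_le_of_lt h2 hv).ne'), h1]
    exact max_eq_left (le_trans h2 hv.le)
  have h4 : padicNorm q ((g.1.1 0 0 : ℚ) * v 0 + (g.1.1 0 1 : ℚ) * v 1) ≤ padicNorm q (v 0) := by
    refine le_trans padicNorm.nonarchimedean (max_le (padicNorm_int_mul_le q _ _) ?_)
    exact le_trans (padicNorm_int_mul_le q _ _) hv.le
  refine ⟨by rw [h3]; exact h4, ?_⟩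
  intro h0
  rw [h0, padicNorm.zero] at h3
  have := padicNorm.nonneg (p := q) (v 1)
  linarith

theorem ppSet_move_false (g : ↥(Gamma0 N)) (hg : ¬ (q : ℤ) ∣ g.1.1 0 1) (v : Fin 2 → ℚ)
    (hv : v ∈ ppSet q true) : jAm N q false g • v ∈ ppSet q false := by
  have hq0 : (q : ℚ) ≠ 0 := Nat.cast_ne_zero.mpr (NeZero.ne q)
  have hq1 : (1 : ℚ) < q := by exact_mod_cast (Fact.out : q.Prime).one_lt
  obtain ⟨hv1, hv2⟩ : padicNorm q (v 0) ≤ padicNorm q (v 1) ∧ v 1 ≠ 0 := hv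
  change padicNorm q ((jAm N q false g • v) 1) < padicNorm q ((jAm N q false g • v) 0)
  rw [sl2q_smul0, sl2q_smul1]
  simp only [jAm, MonoidHom.comp_apply, conjDelta_00, conjDelta_01, conjDelta_10, conjDelta_11,
    gamma0Q_apply]
  have hpos : 0 < padicNorm q (v 1) :=
    lt_of_le_of_ne (padicNorm.nonneg _) (fun h => hv2 (padicNorm.zero_of_padicNorm_eq_zero h.symm))
  -- the big term
  have h1 : padicNorm q ((g.1.1 0 1 : ℚ) / q * v 1) = q * padicNorm q (v 1) := by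
    rw [padicNorm.mul, padicNorm.div, (padicNorm.int_eq_one_iff _).mpr hg,
      padicNorm.padicNorm_p (Fact.out : q.Prime).one_lt]
    simp
  have hbig : padicNorm q (v 1) < q * padicNorm q (v 1) := by nlinarith
  have h2 : padicNorm q ((g.1.1 0 0 : ℚ) * v 0) ≤ padicNorm q (v 1) :=
    le_trans (padicNorm_int_mul_le q _ _) hv1
  have h3 : padicNorm q ((g.1.1 0 0 : ℚ) * v 0 + (g.1.1 0 1 : ℚ) / q * v 1) =
      q * padicNorm q (v 1) := by
    rw [padicNorm.add_eq_max_of_ne (by rw [h1]; exact (lt_of_le_of_lt h2 hbig).ne), h1]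
    exact max_eq_right (le_trans h2 hbig.le)
  have h4 : padicNorm q ((q : ℚ) * (g.1.1 1 0 : ℚ) * v 0 + (g.1.1 1 1 : ℚ) * v 1) ≤
      padicNorm q (v 1) := by
    refine le_trans padicNorm.nonarchimedean (max_le ?_ (padicNorm_int_mul_le q _ _))
    rw [mul_assoc, padicNorm_q_mul]
    have h5 : padicNorm q ((g.1.1 1 0 : ℚ) * v 0) ≤ padicNorm q (v 1) :=
      le_trans (padicNorm_int_mul_le q _ _) hv1
    have h6 : (q : ℚ)⁻¹ ≤ 1 := inv_le_one_of_one_le₀ hq1.le
    have h7 := padicNorm.nonneg (p := q) ((g.1.1 1 0 : ℚ) * v 0)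
    calc (q : ℚ)⁻¹ * padicNorm q ((g.1.1 1 0 : ℚ) * v 0)
        ≤ 1 * padicNorm q ((g.1.1 1 0 : ℚ) * v 0) := mul_le_mul_of_nonneg_right h6 h7
      _ ≤ padicNorm q (v 1) := by rw [one_mul]; exact h5
  rw [h3]
  exact lt_of_le_of_lt h4 hbig

/-- The ping-pong hypotheses hold for `Γ₀(N)` and its conjugate. -/
theorem pingPong_gamma0 (hqN : Nat.Coprime q N) : PingPong (jAm N q) (ppSet q) where
  inj := jAm_injective N q
  move := by
    intro i g hg v hv
    cases i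
    · exact ppSet_move_false N q g (fun h => hg ((jAm_false_mem_range_iff N q g).mpr h)) v hv
    · exact ppSet_move_true N q g (fun h => hg ((jAm_true_mem_range_iff N q hqN g).mpr h)) v hv
  disj := ppSet_disjoint q
  ne := ppSet_nonempty q
  idx := by
    have hqp : Prime (q : ℤ) := Nat.prime_iff_prime_int.mp (Fact.out : q.Prime)
    have hqN' : ¬ (q : ℤ) ∣ (N : ℤ) := by
      intro h
      have h1 : q ∣ N := by exact_mod_cast h
      have h2 : q ∣ Nat.gcd q N := Nat.dvd_gcd dvd_rfl h1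
      rw [hqN] at h2
      exact (Fact.out : q.Prime).one_lt.ne' (Nat.dvd_one.mp h2)
    intro i g hg
    cases i
    · -- conjugate copy: `q ∤ b`
      have hb : ¬ (q : ℤ) ∣ g.1.1 0 1 := fun h => hg ((jAm_false_mem_range_iff N q g).mpr h)
      -- candidates `[[1, 1], [N k, 1 + N k]]`, `k = 0, 1`
      have key : ∀ k : ℤ, ∃ g' : ↥(Gamma0 N), g'.1.1 0 1 = 1 ∧ g'.1.1 1 1 = 1 + N * k :=
        fun k => ⟨gamma0Mk N 1 1 (N * k) (1 + N * k) (by ring) (dvd_mul_right _ _), rfl, rfl⟩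
      have hentry : ∀ g' : ↥(Gamma0 N), (g⁻¹ * g').1.1 0 1 =
          g.1.1 1 1 * g'.1.1 0 1 - g.1.1 0 1 * g'.1.1 1 1 := by
        intro g'
        have : (g⁻¹ * g').1.1 = (g.1⁻¹ * g'.1).1 := rfl
        rw [this, Matrix.SpecialLinearGroup.coe_mul, Matrix.SpecialLinearGroup.coe_inv,
          Matrix.adjugate_fin_two, Matrix.mul_apply, Fin.sum_univ_two]
        simp
        ring
      by_cases h0 : (q : ℤ) ∣ g.1.1 1 1 - g.1.1 0 1
      · obtain ⟨g', h1, h2⟩ := key 1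
        refine ⟨g', ?_, ?_⟩
        · change ¬ _ ∈ (jAm N q true).range
          rw [jAm_false_mem_range_iff, h1]
          exact fun h => hqp.not_isUnit (isUnit_of_dvd_one h)
        · change ¬ _ ∈ (jAm N q true).range
          rw [jAm_false_mem_range_iff, hentry, h1, h2]
          intro h
          have h3 : (q : ℤ) ∣ g.1.1 0 1 * N := by
            have := dvd_sub h0 h
            have e : g.1.1 1 1 - g.1.1 0 1 - (g.1.1 1 1 * 1 - g.1.1 0 1 * (1 + N * 1)) =
                g.1.1 0 1 * N := by ring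
            rwa [e] at this
          rcases hqp.dvd_or_dvd h3 with h4 | h4
          · exact hb h4
          · exact hqN' h4
      · obtain ⟨g', h1, h2⟩ := key 0
        refine ⟨g', ?_, ?_⟩
        · change ¬ _ ∈ (jAm N q true).range
          rw [jAm_false_mem_range_iff, h1]
          exact fun h => hqp.not_isUnit (isUnit_of_dvd_one h)
        · change ¬ _ ∈ (jAm N q true).range
          rw [jAm_false_mem_range_iff, hentry, h1, h2]
          intro h
          apply h0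
          have e : g.1.1 1 1 * 1 - g.1.1 0 1 * (1 + N * 0) = g.1.1 1 1 - g.1.1 0 1 := by ring
          rwa [e] at h
    · -- standard copy: `q ∤ c`
      have hc : ¬ (q : ℤ) ∣ g.1.1 1 0 := fun h => hg ((jAm_true_mem_range_iff N q hqN g).mpr h)
      have key : ∀ k : ℤ, ∃ g' : ↥(Gamma0 N), g'.1.1 0 0 = 1 + N * k ∧ g'.1.1 1 0 = N :=
        fun k => ⟨gamma0Mk N (1 + N * k) k N 1 (by ring) dvd_rfl, rfl, rfl⟩
      have hentry : ∀ g' : ↥(Gamma0 N), (g⁻¹ * g').1.1 1 0 =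
          g.1.1 0 0 * g'.1.1 1 0 - g.1.1 1 0 * g'.1.1 0 0 := by
        intro g'
        have : (g⁻¹ * g').1.1 = (g.1⁻¹ * g'.1).1 := rfl
        rw [this, Matrix.SpecialLinearGroup.coe_mul, Matrix.SpecialLinearGroup.coe_inv,
          Matrix.adjugate_fin_two, Matrix.mul_apply, Fin.sum_univ_two]
        simp
        ring
      by_cases h0 : (q : ℤ) ∣ g.1.1 0 0 * N - g.1.1 1 0
      · obtain ⟨g', h1, h2⟩ := key 1
        refine ⟨g', ?_, ?_⟩
        · change ¬ _ ∈ (jAm N q false).range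
          rw [jAm_true_mem_range_iff N q hqN, h2]
          exact hqN'
        · change ¬ _ ∈ (jAm N q false).range
          rw [jAm_true_mem_range_iff N q hqN, hentry, h1, h2]
          intro h
          have h3 : (q : ℤ) ∣ g.1.1 1 0 * N := by
            have := dvd_sub h0 h
            have e : g.1.1 0 0 * N - g.1.1 1 0 - (g.1.1 0 0 * N - g.1.1 1 0 * (1 + N * 1)) =
                g.1.1 1 0 * N := by ring
            rwa [e] at this
          rcases hqp.dvd_or_dvd h3 with h4 | h4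
          · exact hc h4
          · exact hqN' h4
      · obtain ⟨g', h1, h2⟩ := key 0
        refine ⟨g', ?_, ?_⟩
        · change ¬ _ ∈ (jAm N q false).range
          rw [jAm_true_mem_range_iff N q hqN, h2]
          exact hqN'
        · change ¬ _ ∈ (jAm N q false).range
          rw [jAm_true_mem_range_iff N q hqN, hentry, h1, h2]
          intro h
          apply h0
          have e : g.1.1 0 0 * N - g.1.1 1 0 * (1 + N * 0) = g.1.1 0 0 * N - g.1.1 1 0 := by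
            ring
          rwa [e] at h

/-- **Gluing on `Γ₀(N)[1/q]`.** Two homomorphisms `f true, f false : Γ₀(N) →* H` which agree on
`Γ₀(N) ∩ δ⁻¹ Γ₀(N) δ` (i.e. `f true g = f false g'` whenever `g = δ⁻¹ g' δ` in `SL(2, ℚ)`) glue to
a homomorphism on the subgroup of `SL(2, ℚ)` generated by `Γ₀(N)` and `δ⁻¹ Γ₀(N) δ`. -/
theorem exists_glue_gamma0 (hqN : Nat.Coprime q N) {H : Type*} [Group H]
    (f : Bool → (↥(Gamma0 N) →* H))
    (hagree : ∀ g g' : ↥(Gamma0 N), jAm N q true g = jAm N q false g' → f true g = f false g') :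
    ∃ F : ↥((jAm N q true).range ⊔ (jAm N q false).range) →* H,
      ∀ (i : Bool) (g : ↥(Gamma0 N))
        (hg : jAm N q i g ∈ (jAm N q true).range ⊔ (jAm N q false).range),
        F ⟨jAm N q i g, hg⟩ = f i g :=
  exists_glue_of_pingPong (pingPong_gamma0 N q hqN) f hagree

end PingPongSets

end Fermat.Agent.S41
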