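import Mathlib

/-!
# S41, piece R1 (abstract part): gluing homomorphisms along an amalgam, by ping-pong

Let `j true, j false : Γ →* 𝒢` be two injective homomorphisms (two embeddings of the same abstract
group `Γ`), and let `𝒢` act on a set `X` with two disjoint nonempty subsets `Y true`, `Y false`
such that every `j i g` that is **not** in the range of the other embedding maps `Y (!i)` into
`Y i`, and such that the "index" of the intersection in each of the two ranges is at least `3`.
Then the subgroup generated by the two ranges is the amalgam of the two ranges along their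
intersection: two homomorphisms `f true, f false : Γ →* H` that agree on the intersection glue to a
homomorphism defined on `(j true).range ⊔ (j false).range` (`exists_glue_of_pingPong`).
-/

set_option autoImplicit false

namespace Fermat.Agent.S41

open Monoid Function

section Abstract

variable {𝒢 Γ X H : Type} [Group 𝒢] [Group Γ] [MulAction 𝒢 X] [Group H]

/-- The ping-pong hypotheses. -/
structure PingPong (j : Bool → (Γ →* 𝒢)) (Y : Bool → Set X) : Prop where
  inj : ∀ i, Injective (j i)
  move : ∀ i (g : Γ), j i g ∉ (j (!i)).range → ∀ y ∈ Y (!i), j i g • y ∈ Y i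
  disj : Disjoint (Y true) (Y false)
  ne : ∀ i, (Y i).Nonempty
  idx : ∀ i (g : Γ), j i g ∉ (j (!i)).range →
    ∃ g' : Γ, j i g' ∉ (j (!i)).range ∧ j i (g⁻¹ * g') ∉ (j (!i)).range

/-- The product in `𝒢` of a list of letters. -/
def amProd (j : Bool → (Γ →* 𝒢)) (L : List (Σ _ : Bool, Γ)) : 𝒢 :=
  (L.map fun l => j l.1 l.2).prod

@[simp] theorem amProd_nil (j : Bool → (Γ →* 𝒢)) : amProd j [] = 1 := rfl

@[simp] theorem amProd_cons (j : Bool → (Γ →* 𝒢)) (l : Σ _ : Bool, Γ) (L : List (Σ _ : Bool, Γ)) :
    amProd j (l :: L) = j l.1 l.2 * amProd j L := by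
  simp [amProd]

/-- Reduced lists of letters: no letter lies in the other range, adjacent letters alternate. -/
structure AmReduced (j : Bool → (Γ →* 𝒢)) (L : List (Σ _ : Bool, Γ)) : Prop where
  nb : ∀ l ∈ L, j l.1 l.2 ∉ (j (!l.1)).range
  chain : L.IsChain (fun l l' => l.1 ≠ l'.1)

theorem AmReduced.tail {j : Bool → (Γ →* 𝒢)} {l : Σ _ : Bool, Γ} {L : List (Σ _ : Bool, Γ)}
    (h : AmReduced j (l :: L)) : AmReduced j L :=
  ⟨fun l' hl' => h.nb l' (List.mem_cons_of_mem _ hl'), h.chain.tail⟩

theorem pp_disj {j : Bool → (Γ →* 𝒢)} {Y : Bool → Set X} (hP : PingPong j Y) (i : Bool) {y : X}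
    (h1 : y ∈ Y i) (h2 : y ∈ Y (!i)) : False := by
  cases i
  · exact (Set.disjoint_left.mp hP.disj) h2 h1
  · exact (Set.disjoint_left.mp hP.disj) h1 h2

/-- Ping-pong for a reduced list: it maps `Y (! last index)` into `Y (first index)`. -/
theorem pp_list {j : Bool → (Γ →* 𝒢)} {Y : Bool → Set X} (hP : PingPong j Y) :
    ∀ (L : List (Σ _ : Bool, Γ)) (l : Σ _ : Bool, Γ), AmReduced j (l :: L) →
      ∀ y ∈ Y (!((l :: L).getLast (List.cons_ne_nil _ _)).1), amProd j (l :: L) • y ∈ Y l.1 := by
  intro L
  induction L with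
  | nil =>
    intro l hr y hy
    simp only [List.getLast_singleton] at hy
    simp only [amProd_cons, amProd_nil, mul_one]
    exact hP.move l.1 l.2 (hr.nb l (List.mem_cons_self)) y hy
  | cons l' L' ih =>
    intro l hr y hy
    have hlast : (l :: l' :: L').getLast (List.cons_ne_nil _ _) =
        (l' :: L').getLast (List.cons_ne_nil _ _) := List.getLast_cons (List.cons_ne_nil _ _)
    rw [hlast] at hy
    have h1 := ih l' hr.tail y hy
    have hne : l.1 ≠ l'.1 := by
      have := hr.chain
      simp only [List.isChain_cons_cons] at this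
      exact this.1
    have hl' : l'.1 = !l.1 := by
      cases hl : l.1 <;> cases hl'' : l'.1 <;> simp_all
    rw [amProd_cons, mul_smul]
    rw [hl'] at h1
    exact hP.move l.1 l.2 (hr.nb l (List.mem_cons_self)) _ h1

/-- A nonempty reduced list has a nontrivial product. -/
theorem pp_ne_one {j : Bool → (Γ →* 𝒢)} {Y : Bool → Set X} (hP : PingPong j Y)
    (l : Σ _ : Bool, Γ) (L : List (Σ _ : Bool, Γ)) (hr : AmReduced j (l :: L)) :
    amProd j (l :: L) ≠ 1 := by
  intro h1
  set k : Bool := ((l :: L).getLast (List.cons_ne_nil _ _)).1 with hk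
  by_cases hkl : k = l.1
  · obtain ⟨y, hy⟩ := hP.ne (!k)
    have h2 := pp_list hP L l hr y hy
    rw [h1, one_smul, ← hkl] at h2
    exact pp_disj hP k h2 hy
  · -- `k = !l.1`, the tail is nonempty
    have hk' : k = !l.1 := by
      cases hl : l.1 <;> cases hk'' : k <;> simp_all
    cases L with
    | nil =>
      exfalso
      apply hkl
      simp [hk]
    | cons l' L' =>
      have hlast : (l :: l' :: L').getLast (List.cons_ne_nil _ _) =
          (l' :: L').getLast (List.cons_ne_nil _ _) := List.getLast_cons (List.cons_ne_nil _ _)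
      have hne : l.1 ≠ l'.1 := by
        have := hr.chain
        simp only [List.isChain_cons_cons] at this
        exact this.1
      have hl' : l'.1 = !l.1 := by
        cases hl : l.1 <;> cases hl'' : l'.1 <;> simp_all
      obtain ⟨g', hg'1, hg'2⟩ := hP.idx l.1 l.2 (hr.nb l (List.mem_cons_self))
      obtain ⟨y₀, hy₀⟩ := hP.ne (!l.1)
      set z : X := j l.1 g' • y₀ with hz
      have hzmem : z ∈ Y l.1 := hP.move l.1 g' hg'1 y₀ hy₀
      have hzmem' : z ∈ Y (!((l' :: L').getLast (List.cons_ne_nil _ _)).1) := by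
        rw [← hlast, ← hk, hk', Bool.not_not]
        exact hzmem
      have h3 := pp_list hP L' l' hr.tail z hzmem'
      rw [hl'] at h3
      -- `amProd (l' :: L') = (j l.1 l.2)⁻¹`
      have h4 : amProd j (l' :: L') = (j l.1 l.2)⁻¹ := by
        rw [amProd_cons] at h1
        exact eq_inv_of_mul_eq_one_right h1
      rw [h4, hz, ← mul_smul, ← map_inv, ← map_mul] at h3
      exact pp_disj hP l.1 (hP.move l.1 _ hg'2 y₀ hy₀) h3

end Abstract

section Glue

variable {𝒢 Γ X : Type} {H : Type*} [Group 𝒢] [Group Γ] [MulAction 𝒢 X] [Group H]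

/-- The intersection of the two ranges. -/
abbrev amBase (j : Bool → (Γ →* 𝒢)) : Subgroup 𝒢 := (j true).range ⊓ (j false).range

theorem amBase_le (j : Bool → (Γ →* 𝒢)) (i : Bool) : amBase j ≤ (j i).range := by
  cases i
  · exact inf_le_right
  · exact inf_le_left

/-- The two maps from the intersection back to `Γ`. -/
noncomputable def amPhi (j : Bool → (Γ →* 𝒢)) (hinj : ∀ i, Injective (j i)) (i : Bool) :
    ↥(amBase j) →* Γ :=
  ((MonoidHom.ofInjective (hinj i)).symm.toMonoidHom).comp (Subgroup.inclusion (amBase_le j i))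

theorem amPhi_spec (j : Bool → (Γ →* 𝒢)) (hinj : ∀ i, Injective (j i)) (i : Bool)
    (h : ↥(amBase j)) : j i (amPhi j hinj i h) = h.1 := by
  have := (MonoidHom.ofInjective (hinj i)).apply_symm_apply (Subgroup.inclusion (amBase_le j i) h)
  have h2 := congrArg Subtype.val this
  simp only [amPhi, MonoidHom.comp_apply, MulEquiv.coe_toMonoidHom]
  exact h2

theorem amPhi_injective (j : Bool → (Γ →* 𝒢)) (hinj : ∀ i, Injective (j i)) (i : Bool) :
    Injective (amPhi j hinj i) := by
  intro a b hab
  have := congrArg (j i) hab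
  rw [amPhi_spec, amPhi_spec] at this
  exact Subtype.ext this

theorem mem_amPhi_range (j : Bool → (Γ →* 𝒢)) (hinj : ∀ i, Injective (j i)) (i : Bool) (g : Γ)
    (hg : j i g ∈ (j (!i)).range) : g ∈ (amPhi j hinj i).range := by
  have hmem : j i g ∈ amBase j := by
    cases i
    · exact ⟨hg, ⟨g, rfl⟩⟩
    · exact ⟨⟨g, rfl⟩, hg⟩
  refine ⟨⟨j i g, hmem⟩, ?_⟩
  apply hinj i
  rw [amPhi_spec]

/-- The canonical map from the abstract amalgam to `𝒢`. -/
noncomputable def amPsi (j : Bool → (Γ →* 𝒢)) (hinj : ∀ i, Injective (j i)) :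
    PushoutI (ι := Bool) (G := fun _ => Γ) (amPhi j hinj) →* 𝒢 :=
  PushoutI.lift (fun i => j i) (amBase j).subtype (by
    intro i
    ext h
    simp [amPhi_spec])

theorem amPsi_of (j : Bool → (Γ →* 𝒢)) (hinj : ∀ i, Injective (j i)) (i : Bool) (g : Γ) :
    amPsi j hinj (PushoutI.of (φ := amPhi j hinj) i g) = j i g := by
  simp [amPsi]

theorem amPsi_base (j : Bool → (Γ →* 𝒢)) (hinj : ∀ i, Injective (j i)) (h : ↥(amBase j)) :
    amPsi j hinj (PushoutI.base (amPhi j hinj) h) = h.1 := by
  simp [amPsi]

theorem amPsi_ofCoprodI_prod (j : Bool → (Γ →* 𝒢)) (hinj : ∀ i, Injective (j i))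
    (w : CoprodI.Word (fun _ : Bool => Γ)) :
    amPsi j hinj (PushoutI.ofCoprodI (φ := amPhi j hinj) w.prod) = amProd j w.toList := by
  have key : ∀ L : List (Σ _ : Bool, Γ),
      amPsi j hinj (PushoutI.ofCoprodI (φ := amPhi j hinj)
        (L.map fun l => (CoprodI.of (M := fun _ : Bool => Γ) (i := l.1) l.2)).prod) =
          amProd j L := by
    intro L
    induction L with
    | nil => simp
    | cons l L ih =>
      simp only [List.map_cons, List.prod_cons, map_mul, amProd_cons]
      rw [ih]
      congr 1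
  exact key w.toList

theorem amPsi_injective {j : Bool → (Γ →* 𝒢)} {Y : Bool → Set X} (hP : PingPong j Y) :
    Injective (amPsi j hP.inj) := by
  classical
  rw [injective_iff_map_eq_one]
  intro x hx
  obtain ⟨d⟩ := PushoutI.NormalWord.transversal_nonempty (amPhi j hP.inj) (amPhi_injective j hP.inj)
  set w := PushoutI.NormalWord.equiv (d := d) x with hw
  have hxw : x = w.prod := ((PushoutI.NormalWord.equiv (d := d)).symm_apply_apply x).symm
  rw [hxw, PushoutI.NormalWord.prod, map_mul, amPsi_base, amPsi_ofCoprodI_prod] at hx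
  -- letters are not in the other range
  have hnb : ∀ l ∈ w.toList, j l.1 l.2 ∉ (j (!l.1)).range := by
    intro l hl hmem
    have h1 : l.2 ∈ (amPhi j hP.inj l.1).range := mem_amPhi_range j hP.inj l.1 l.2 hmem
    have h2 : l.2 ∈ d.set l.1 := w.normalized l.1 l.2 (by rcases l with ⟨i, g⟩; exact hl)
    have h3 : l.2 ≠ 1 := w.ne_one l hl
    have hc := d.compl l.1
    have h4 := hc.1
    have h5 : (⟨⟨l.2, h1⟩, ⟨1, d.one_mem l.1⟩⟩ : (amPhi j hP.inj l.1).range × d.set l.1) =
        ⟨⟨1, one_mem _⟩, ⟨l.2, h2⟩⟩ := by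
      apply h4
      simp
    have h6 := congrArg (fun p => (p.1 : Γ)) h5
    exact h3 h6
  rcases hL : w.toList with _ | ⟨l, L⟩
  · rw [hL] at hx
    simp only [amProd_nil, mul_one] at hx
    have hh : w.head = 1 := Subtype.ext hx
    rw [hxw, PushoutI.NormalWord.prod, hh, map_one, one_mul]
    have : w.toWord = CoprodI.Word.empty := by
      ext1
      exact hL
    rw [this]
    simp
  · exfalso
    rw [hL] at hx hnb
    have hred : AmReduced j (⟨l.1, amPhi j hP.inj l.1 w.head * l.2⟩ :: L) := by
      constructor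
      · intro l' hl'
        rcases List.mem_cons.mp hl' with rfl | hl'
        · simp only [map_mul, amPhi_spec]
          intro hmem
          have hhead : (w.head : 𝒢) ∈ (j (!l.1)).range := amBase_le j (!l.1) w.head.2
          have := (Subgroup.mul_mem_cancel_left _ hhead).mp hmem
          exact hnb l List.mem_cons_self this
        · exact hnb l' (List.mem_cons_of_mem _ hl')
      · have hch := w.chain_ne
        rw [hL] at hch
        cases L with
        | nil => exact List.isChain_singleton _
        | cons l' L' =>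
          simp only [List.isChain_cons_cons] at hch ⊢
          exact hch
    apply pp_ne_one hP _ L hred
    rw [amProd_cons, map_mul, amPhi_spec, mul_assoc]
    rw [amProd_cons] at hx
    exact hx

/-- **Gluing along an amalgam.** Under the ping-pong hypotheses, two homomorphisms
`f true, f false : Γ →* H` which agree on the intersection of the two embedded copies of `Γ`
glue to a homomorphism on the subgroup generated by the two copies. -/
theorem exists_glue_of_pingPong {j : Bool → (Γ →* 𝒢)} {Y : Bool → Set X} (hP : PingPong j Y)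
    (f : Bool → (Γ →* H)) (hagree : ∀ g g' : Γ, j true g = j false g' → f true g = f false g') :
    ∃ F : ↥((j true).range ⊔ (j false).range) →* H,
      ∀ (i : Bool) (g : Γ) (hg : j i g ∈ (j true).range ⊔ (j false).range),
        F ⟨j i g, hg⟩ = f i g := by
  have hle : (j true).range ⊔ (j false).range ≤ (amPsi j hP.inj).range := by
    refine sup_le ?_ ?_
    · rintro _ ⟨g, rfl⟩
      exact ⟨PushoutI.of (φ := amPhi j hP.inj) true g, amPsi_of j hP.inj true g⟩
    · rintro _ ⟨g, rfl⟩
      exact ⟨PushoutI.of (φ := amPhi j hP.inj) false g, amPsi_of j hP.inj false g⟩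
  have hcompat : ∀ i, (f i).comp (amPhi j hP.inj i) = (f true).comp (amPhi j hP.inj true) := by
    intro i
    cases i
    · ext h
      simp only [MonoidHom.comp_apply]
      symm
      apply hagree
      rw [amPhi_spec, amPhi_spec]
    · rfl
  let L : PushoutI (ι := Bool) (G := fun _ => Γ) (amPhi j hP.inj) →* H :=
    PushoutI.lift (fun i => f i) ((f true).comp (amPhi j hP.inj true)) hcompat
  let e := MonoidHom.ofInjective (amPsi_injective hP)
  refine ⟨L.comp (e.symm.toMonoidHom.comp (Subgroup.inclusion hle)), ?_⟩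
  intro i g hg
  have h1 : e.symm (Subgroup.inclusion hle ⟨j i g, hg⟩) =
      PushoutI.of (φ := amPhi j hP.inj) i g := by
    rw [MulEquiv.symm_apply_eq]
    apply Subtype.ext
    change j i g = amPsi j hP.inj (PushoutI.of (φ := amPhi j hP.inj) i g)
    rw [amPsi_of]
  simp only [MonoidHom.comp_apply, MulEquiv.coe_toMonoidHom]
  rw [h1]
  simp [L]

/-- Uniqueness of the glued homomorphism. -/
theorem glue_unique {j : Bool → (Γ →* 𝒢)}
    (F F' : ↥((j true).range ⊔ (j false).range) →* H)
    (h : ∀ (i : Bool) (g : Γ) (hg : j i g ∈ (j true).range ⊔ (j false).range),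
        F ⟨j i g, hg⟩ = F' ⟨j i g, hg⟩) : F = F' := by
  have hcl : (j true).range ⊔ (j false).range =
      Subgroup.closure (((j true).range : Set 𝒢) ∪ ((j false).range : Set 𝒢)) := by
    rw [Subgroup.closure_union, Subgroup.closure_eq, Subgroup.closure_eq]
  ext ⟨x, hx⟩
  have hx' := hx
  rw [hcl] at hx'
  induction hx' using Subgroup.closure_induction with
  | mem y hy =>
    rcases hy with ⟨g, rfl⟩ | ⟨g, rfl⟩
    · exact h true g hx
    · exact h false g hx
  | one =>
    have : (⟨1, hx⟩ : ↥((j true).range ⊔ (j false).range)) = 1 := rfl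
    rw [this, map_one, map_one]
  | mul a b ha hb iha ihb =>
    have ha' : a ∈ (j true).range ⊔ (j false).range := by rw [hcl]; exact ha
    have hb' : b ∈ (j true).range ⊔ (j false).range := by rw [hcl]; exact hb
    have : (⟨a * b, hx⟩ : ↥((j true).range ⊔ (j false).range)) = ⟨a, ha'⟩ * ⟨b, hb'⟩ := rfl
    rw [this, map_mul, map_mul, iha ha', ihb hb']
  | inv a ha iha =>
    have ha' : a ∈ (j true).range ⊔ (j false).range := by rw [hcl]; exact ha
    have : (⟨a⁻¹, hx⟩ : ↥((j true).range ⊔ (j false).range)) = (⟨a, ha'⟩)⁻¹ := rfl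
    rw [this, map_inv, map_inv, iha ha']

end Glue

end Fermat.Agent.S41
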