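import Fermat.Agent.S41.Coh

/-!
# S41, piece COH with Ihara's lemma at ONE prime (captain helper7)

`stmtCOH_of` (`Coh.lean`, helper70) uses `(IHARA)` only at the non-Eisenstein prime `ℓ₀`.
Here the same statement is proved from `StmtIharaAt N q p ℓ₀`: the parabolic kernel of `α mod p`
is killed by `T_ℓ₀ − (ℓ₀ + 1)` for that single prime.
-/

set_option autoImplicit false
set_option linter.style.haveILetI false

noncomputable section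

namespace Fermat.Agent.S41

open CongruenceSubgroup Matrix ModularCurve ModularCurve.Period Fermat.Agent.ES
open scoped MatrixGroups

attribute [local instance] primesFact

/-- **(IHARA at `ℓ`)**: the parabolic kernel of `α mod p` is killed by `T_ℓ − (ℓ + 1)`. -/
def StmtIharaAt (N q p ℓ : ℕ) [NeZero N] [NeZero q] : Prop :=
  ∀ [Fact ℓ.Prime] (hN : ¬ ℓ ∣ N) (φ₁ φ₂ : HomG N (ZMod p)),
    φ₁ ∈ Hpar N (ZMod p) → φ₂ ∈ Hpar N (ZMod p) →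
    res N q (ZMod p) φ₁ + resD N q (ZMod p) φ₂ = 0 →
      Tc ℓ hN φ₁ = (ℓ + 1) • φ₁ ∧ Tc ℓ hN φ₂ = (ℓ + 1) • φ₂

theorem stmtIharaAt_of_ihara {N q p : ℕ} [NeZero N] [NeZero q] (hI : StmtIhara N q p) (ℓ : ℕ)
    (hq : ¬ ℓ ∣ q) : StmtIharaAt N q p ℓ :=
  fun hN φ₁ φ₂ h₁ h₂ h => hI φ₁ φ₂ h₁ h₂ h ℓ hN hq

section hyps

variable {N q : ℕ} [NeZero N] [NeZero q] {p : ℕ}

/-- hypothesis (H1) of the lattice lemma, from Ihara at `ℓ` -/
theorem cohAt_H1 (hp : p.Prime) (hC1 : StmtC1 N q) (hC8 : StmtC8 N q) (a : ℕ → ℤ) (u m : ℤ)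
    (ℓ : Nat.Primes) (hI : StmtIharaAt N q p ℓ)
    (hum : m * p + u * (a ℓ - ((ℓ : ℕ) + 1)) = 1) (h : ¬ (ℓ : ℕ) ∣ N * q)
    (z : LOld N q × LOld N q)
    (hz : ∃ w : LNew N q, ((resL hC8 hC1).coprod (resDL hC8 hC1)) z = p • w) :
    ∃ z' : LOld N q × LOld N q, cohEps a u ℓ • z = p • z' := by
  obtain ⟨w, hw⟩ := hz
  have hN : ¬ (ℓ : ℕ) ∣ N := fun h' => h (dvd_trans h' (dvd_mul_right N q))
  have hsum : res N q (ZMod p) (redP p (oldHom N q z.1))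
      + resD N q (ZMod p) (redP p (oldHom N q z.2)) = 0 := by
    have h1 := congrArg (fun y => redP p (newHom N q y)) hw
    simp only [LinearMap.coprod_apply, map_add, newHom_resL, newHom_resDL, map_nsmul] at h1
    rw [redP_add, redP_nsmul, redP_res, redP_resD] at h1
    exact h1
  obtain ⟨e1, e2⟩ := hI hN _ _ (redP_mem_Hpar (oldHom_mem z.1))
    (redP_mem_Hpar (oldHom_mem z.2)) hsum
  obtain ⟨x', hx'⟩ := exists_eq_nsmul_of_eigen hp a u m ℓ hum h hN z.1 e1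
  obtain ⟨y', hy'⟩ := exists_eq_nsmul_of_eigen hp a u m ℓ hum h hN z.2 e2
  refine ⟨(x', y'), ?_⟩
  rw [Prod.smul_def, hx', hy']
  rfl

/-- hypothesis (H2) of the lattice lemma, from Ihara at `ℓ` and dual Ihara -/
theorem cohAt_H2 (hC1 : StmtC1 N q) (hC8 : StmtC8 N q) (hDI : StmtDualIhara N q p)
    (a : ℕ → ℤ) (u m : ℤ) (ℓ : Nat.Primes) (hI : StmtIharaAt N q p ℓ)
    (hum : m * p + u * (a ℓ - ((ℓ : ℕ) + 1)) = 1) (h : ¬ (ℓ : ℕ) ∣ N * q)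
    (z : LOld N q × LOld N q) :
    ∃ (w : LNew N q) (z' : LOld N q × LOld N q),
      cohEps a u ℓ • z = ((coresL hC8 hC1).prod (coresDL hC8 hC1)) w + p • z' := by
  have hN : ¬ (ℓ : ℕ) ∣ N := fun h' => h (dvd_trans h' (dvd_mul_right N q))
  have hq : ¬ (ℓ : ℕ) ∣ q := fun h' => h (dvd_trans h' (dvd_mul_left q N))
  obtain ⟨ψ, hψ, y₁, hy₁, y₂, hy₂, e1, e2⟩ := hDI ℓ hN hq
    (fun φ₁ φ₂ h₁ h₂ h => hI hN φ₁ φ₂ h₁ h₂ h)
    (oldHom N q z.1) (oldHom_mem z.1) (oldHom N q z.2) (oldHom_mem z.2)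
  have key : ∀ (x y cψ : HomG N ℤ),
      Tc ℓ hN x - ((ℓ : ℕ) + 1) • x = cψ + p • y →
      x + u • (Tc ℓ hN x - a ℓ • x) = u • cψ + p • (m • x + u • y) := by
    intro x y cψ e
    have e' : Tc ℓ hN x = cψ + p • y + ((ℓ : ℕ) + 1) • x := by rw [← e]; abel
    rw [e']
    refine AddMonoidHom.ext fun g => ?_
    simp only [AddMonoidHom.add_apply, AddMonoidHom.zsmul_apply, AddMonoidHom.sub_apply,
      AddMonoidHom.nsmul_apply, smul_eq_mul, nsmul_eq_mul]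
    push_cast
    linear_combination (-(x g)) * hum
  refine ⟨u • newMk ψ hψ, (m • z.1 + u • oldMk y₁ hy₁, m • z.2 + u • oldMk y₂ hy₂), ?_⟩
  rw [Prod.smul_def, LinearMap.prod_apply]
  refine Prod.ext (oldHom_injective ?_) (oldHom_injective ?_)
  · show oldHom N q (cohEps a u ℓ • z.1)
      = oldHom N q (coresL hC8 hC1 (u • newMk ψ hψ) + p • (m • z.1 + u • oldMk y₁ hy₁))
    rw [oldHom_cohEps_smul a u ℓ h hN, map_add, oldHom_coresL, map_zsmul, newHom_newMk,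
      map_zsmul, map_nsmul, map_add, map_zsmul, map_zsmul, oldHom_oldMk]
    exact key _ _ _ e1
  · show oldHom N q (cohEps a u ℓ • z.2)
      = oldHom N q (coresDL hC8 hC1 (u • newMk ψ hψ) + p • (m • z.2 + u • oldMk y₂ hy₂))
    rw [oldHom_cohEps_smul a u ℓ h hN, map_add, oldHom_coresDL, map_zsmul, newHom_newMk,
      map_zsmul, map_nsmul, map_add, map_zsmul, map_zsmul, oldHom_oldMk]
    exact key _ _ _ e2

end hyps

/-- **(COH)** from the lattice lemma, (C1), (C2), (C8), (DUAL IHARA), (H3) and a non-Eisenstein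
prime `ℓ₀` at which Ihara's lemma holds. -/
theorem stmtCOH_at {N q p : ℕ} [NeZero N] [NeZero q] (hp : p.Prime) (hq : q.Prime)
    (hqN : ¬ q ∣ N) (hAlg : StmtAlg) (hC1 : StmtC1 N q) (hC2 : StmtC2 N q) (hC8 : StmtC8 N q)
    (hDI : StmtDualIhara N q p) (a : ℕ → ℤ) (good : ℕ → Prop)
    (hgood : ∀ ℓ, good ℓ → ℓ.Prime ∧ ¬ ℓ ∣ N * q)
    (hNE : ∃ ℓ, good ℓ ∧ ¬ (p : ℤ) ∣ a ℓ - (ℓ + 1) ∧ StmtIharaAt N q p ℓ)
    (hH3 : StmtH3 N q p a good) : StmtCOH N q p a good := by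
  haveI : Fact q.Prime := ⟨hq⟩
  obtain ⟨ℓ₀, hg₀, hndvd, hI₀⟩ := hNE
  obtain ⟨hℓ₀, hℓ₀Nq⟩ := hgood ℓ₀ hg₀
  -- Bezout
  have hcop : IsCoprime (p : ℤ) (a ℓ₀ - (ℓ₀ + 1)) :=
    (Nat.prime_iff_prime_int.mp hp).coprime_iff_not_dvd.mpr hndvd
  obtain ⟨m, u, hum⟩ := hcop
  obtain ⟨ℓ, rfl⟩ : ∃ ℓ : Nat.Primes, (ℓ : ℕ) = ℓ₀ := ⟨⟨ℓ₀, hℓ₀⟩, rfl⟩
  have hum' : m * p + u * (a ℓ - ((ℓ : ℕ) + 1)) = 1 := hum
  have hgℓ : good ℓ := hg₀
  have hℓNq : ¬ (ℓ : ℕ) ∣ N * q := hℓ₀Nq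
  obtain ⟨y, hy0, hynot⟩ := hAlg HeckeAlg (cohIdeal p a good) p hp (natCast_mem_cohIdeal p a good)
    (LOld N q) (LNew N q) ((resL hC8 hC1).coprod (resDL hC8 hC1))
    ((coresL hC8 hC1).prod (coresDL hC8 hC1)) (tqL hqN) ((q : ℤ) + 1)
    (coh_beta_alpha hC1 hC2 hC8 hqN)
    ⟨cohEps a u ℓ, cohEps_sub_one_mem p a good u ℓ hgℓ,
      fun z hz => cohAt_H1 hp hC1 hC8 a u m ℓ hI₀ hum' hℓNq z hz⟩
    ⟨cohEps a u ℓ, cohEps_sub_one_mem p a good u ℓ hgℓ,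
      fun z => cohAt_H2 hC1 hC8 hDI a u m ℓ hI₀ hum' hℓNq z⟩
    (coh_H3 a good hgood hqN hH3)
  refine ⟨newHom N q y, ⟨?_, newHom_mem y⟩, fun hmem => hynot ?_⟩
  · show alphaT N q ℤ (newHom N q y) = 0
    rw [LinearMap.prod_apply] at hy0
    have h1 : coresL hC8 hC1 y = 0 := congrArg Prod.fst hy0
    have h2 : coresDL hC8 hC1 y = 0 := congrArg Prod.snd hy0
    rw [alphaT_apply, ← oldHom_coresL hC8 hC1, ← oldHom_coresDL hC8 hC1, h1, h2, map_zero]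
    rfl
  · obtain ⟨y', hy', hmem'⟩ := exists_mem_smul_ker_of_mem_nSub hC1 hC8 a good _ hmem
    rwa [newHom_injective hy'] at hmem'

end Fermat.Agent.S41
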