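import Fermat.Agent.ES.HeckeP
import Fermat.Agent.S41.Defs

/-!
# S41: homomorphisms factoring through `d mod N` are Eisenstein

If `φ : Γ₀(N) → A` vanishes on `{γ : d ≡ 1 mod N}`, then `T_ℓ φ = (ℓ + 1) φ` for every prime
`ℓ ∤ N` (`heckeHom_eq_of_factors`): the Hecke cocycle satisfies
`u(x) · d(γ) = d(κ(γ, x)) · u(x·γ)` in `ZMod N`, where `u(∞) = 1`, `u(j) = ℓ`.
-/

set_option autoImplicit false

noncomputable section

namespace Fermat.Agent.S41

open Matrix Matrix.SpecialLinearGroup CongruenceSubgroup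
open P2MW.S_ModularForm_heckeT_slash_eq_self_of_mem_Gamma0.ModularForm
open P2MW.S_ModularForm_heckeT_slash_eq_self_of_mem_Gamma0.ModularForm.HeckeSlashInvariance
open Fermat.Agent.ES.HeckeP
open scoped MatrixGroups

variable {p : ℕ} [Fact p.Prime] {N : ℕ}

/-- The exponent `e(∞) = 0`, `e(j) = 1`: the lower-right entry of `heckeRep p x` is `p ^ e(x)`. -/
def eisExp (p : ℕ) (x : OnePoint (ZMod p)) : ℕ := x.elim 0 (fun _ => 1)

theorem heckeRep_10 (x : OnePoint (ZMod p)) :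
    ((heckeRep p x : GL (Fin 2) ℝ) : Matrix (Fin 2) (Fin 2) ℝ) 1 0 = 0 := by
  have hp : p ≠ 0 := (Fact.out : p.Prime).ne_zero
  induction x using OnePoint.rec with
  | infty => rw [heckeRep_infty, ModularForm.val_heckeDiagMatrix hp]; simp
  | coe j => rw [heckeRep_coe, ModularForm.val_heckeMatrix hp]; simp

theorem heckeRep_11 (x : OnePoint (ZMod p)) :
    ((heckeRep p x : GL (Fin 2) ℝ) : Matrix (Fin 2) (Fin 2) ℝ) 1 1 = (((p : ℤ) ^ eisExp p x : ℤ) : ℝ) := by
  have hp : p ≠ 0 := (Fact.out : p.Prime).ne_zero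
  induction x using OnePoint.rec with
  | infty => rw [heckeRep_infty, ModularForm.val_heckeDiagMatrix hp]; simp [eisExp]
  | coe j => rw [heckeRep_coe, ModularForm.val_heckeMatrix hp]; simp [eisExp]

theorem heckeRep_01 (x : OnePoint (ZMod p)) :
    ∃ β : ℤ, ((heckeRep p x : GL (Fin 2) ℝ) : Matrix (Fin 2) (Fin 2) ℝ) 0 1 = (β : ℝ) := by
  have hp : p ≠ 0 := (Fact.out : p.Prime).ne_zero
  induction x using OnePoint.rec with
  | infty => exact ⟨0, by rw [heckeRep_infty, ModularForm.val_heckeDiagMatrix hp]; simp⟩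
  | coe j => exact ⟨(j.val : ℤ), by rw [heckeRep_coe, ModularForm.val_heckeMatrix hp]; simp⟩

/-- The key congruence: `p^{e(x)} · d(g) ≡ d(κ(g, x)) · p^{e(x·g)} mod N`. -/
theorem kap_lowerRight (hpN : ¬ p ∣ N) (g : Gamma0 N) (x : OnePoint (ZMod p)) :
    ((p : ZMod N) ^ eisExp p x) * Gamma0Map N g =
      Gamma0Map N (kap hpN g x) * (p : ZMod N) ^ eisExp p (idx (g : SL(2, ℤ)) x) := by
  have h := kap_spec hpN g x
  have h11 := congrArg (fun M : GL (Fin 2) ℝ => (M : Matrix (Fin 2) (Fin 2) ℝ) 1 1) h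
  simp only [Matrix.GeneralLinearGroup.coe_mul, Matrix.mul_apply, Fin.sum_univ_two] at h11
  rw [heckeRep_10, heckeRep_11, heckeRep_11] at h11
  obtain ⟨β, hβ⟩ := heckeRep_01 (p := p) (idx (g : SL(2, ℤ)) x)
  rw [hβ] at h11
  simp only [mapGL_apply] at h11
  have h2 : ((p : ℤ) ^ eisExp p x) * ((g : SL(2, ℤ)) 1 1) =
      ((kap hpN g x : SL(2, ℤ)) 1 0) * β +
        ((kap hpN g x : SL(2, ℤ)) 1 1) * (p : ℤ) ^ eisExp p (idx (g : SL(2, ℤ)) x) := by
    have : (((p : ℤ) ^ eisExp p x * ((g : SL(2, ℤ)) 1 1) : ℤ) : ℝ) =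
        ((((kap hpN g x : SL(2, ℤ)) 1 0) * β +
        ((kap hpN g x : SL(2, ℤ)) 1 1) * (p : ℤ) ^ eisExp p (idx (g : SL(2, ℤ)) x) : ℤ) : ℝ) := by
      push_cast
      push_cast at h11
      linarith
    exact_mod_cast this
  have h3 := congrArg (Int.cast : ℤ → ZMod N) h2
  have hk : (((kap hpN g x : SL(2, ℤ)) 1 0 : ℤ) : ZMod N) = 0 := Gamma0_mem.mp (kap hpN g x).2
  push_cast at h3
  rw [hk, zero_mul, zero_add] at h3
  exact h3

theorem gamma0Map_apply (γ : Gamma0 N) :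
    Gamma0Map N γ = (((γ : SL(2, ℤ)) 1 1 : ℤ) : ZMod N) := rfl

/-- There is an element of `Γ₀(N)` with lower-right entry `≡ p mod N`. -/
theorem exists_gamma0_lowerRight (hpN : ¬ p ∣ N) : ∃ h : Gamma0 N, Gamma0Map N h = (p : ZMod N) := by
  have hcop : IsCoprime (p : ℤ) (N : ℤ) := by
    rw [Int.isCoprime_iff_gcd_eq_one]
    have : Nat.Coprime p N := (Nat.Prime.coprime_iff_not_dvd (Fact.out : p.Prime)).mpr hpN
    simpa [Int.gcd] using this
  obtain ⟨a, b, hab⟩ := hcop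
  let M : SL(2, ℤ) := ⟨!![a, -b; N, p], by rw [Matrix.det_fin_two_of]; linear_combination hab⟩
  have hM : M ∈ Gamma0 N := by
    rw [Gamma0_mem]
    change (((N : ℤ) : ℤ) : ZMod N) = 0
    simp
  refine ⟨⟨M, hM⟩, ?_⟩
  rw [gamma0Map_apply]
  change (((p : ℤ) : ℤ) : ZMod N) = (p : ZMod N)
  simp

variable {A : Type*} [AddCommGroup A]

/-- A homomorphism vanishing on `{d ≡ 1 mod N}` only depends on `d mod N`. -/
theorem hom_eq_of_gamma0Map_eq (φ : HomG N A)
    (hφ : ∀ γ : Gamma0 N, Gamma0Map N γ = 1 → φ (Additive.ofMul γ) = 0) {γ γ' : Gamma0 N}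
    (h : Gamma0Map N γ = Gamma0Map N γ') : φ (Additive.ofMul γ) = φ (Additive.ofMul γ') := by
  have h1 : Gamma0Map N (γ⁻¹ * γ') = 1 := by
    rw [map_mul, ← h, ← map_mul, inv_mul_cancel, map_one]
  have h2 := hφ _ h1
  rw [ofMul_mul, map_add, ofMul_inv, map_neg] at h2
  have h3 := eq_of_sub_eq_zero (by rw [sub_eq_neg_add, add_comm]; rw [add_comm] at h2; exact h2 :
    φ (Additive.ofMul γ') - φ (Additive.ofMul γ) = 0)
  exact h3.symm

/-- **Eisenstein.** If `φ : Γ₀(N) → A` vanishes on `{γ : d ≡ 1 mod N}` then `T_p φ = (p + 1) φ`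
for every prime `p ∤ N`. -/
theorem heckeHom_eq_of_factors (hpN : ¬ p ∣ N) (φ : HomG N A)
    (hφ : ∀ γ : Gamma0 N, Gamma0Map N γ = 1 → φ (Additive.ofMul γ) = 0) :
    heckeHom hpN φ = (p + 1) • φ := by
  obtain ⟨h, hh⟩ := exists_gamma0_lowerRight (p := p) (N := N) hpN
  refine AddMonoidHom.ext fun g => ?_
  obtain ⟨g, rfl⟩ : ∃ g' : Gamma0 N, Additive.ofMul g' = g := ⟨Additive.toMul g, rfl⟩
  rw [heckeHom_apply]
  have key : ∀ x : OnePoint (ZMod p), φ (Additive.ofMul (kap hpN g x)) =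
      φ (Additive.ofMul g) + (eisExp p x • φ (Additive.ofMul h) -
        eisExp p (idx (g : SL(2, ℤ)) x) • φ (Additive.ofMul h)) := by
    intro x
    have h1 := kap_lowerRight hpN g x
    rw [← hh, ← map_pow, ← map_pow, ← map_mul, ← map_mul] at h1
    have h2 := hom_eq_of_gamma0Map_eq φ hφ h1
    rw [ofMul_mul, ofMul_mul, map_add, map_add, ofMul_pow, ofMul_pow, map_nsmul, map_nsmul] at h2
    rw [add_sub_assoc', eq_sub_iff_add_eq, ← h2, add_comm]
  rw [Finset.sum_congr rfl (fun x _ => key x), Finset.sum_add_distrib, Finset.sum_sub_distrib]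
  have hperm : ∑ x : OnePoint (ZMod p), eisExp p (idx (g : SL(2, ℤ)) x) • φ (Additive.ofMul h) =
      ∑ x : OnePoint (ZMod p), eisExp p x • φ (Additive.ofMul h) :=
    Equiv.sum_comp (idxPerm (p := p) (g : SL(2, ℤ)))
      (fun x => eisExp p x • φ (Additive.ofMul h))
  rw [hperm, sub_self, add_zero, Finset.sum_const, Finset.card_univ]
  have hcard : Fintype.card (OnePoint (ZMod p)) = p + 1 := by
    have : Fintype.card (OnePoint (ZMod p)) = Fintype.card (Option (ZMod p)) :=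
      Fintype.card_congr (Equiv.refl _)
    rw [this, Fintype.card_option, ZMod.card]
  rw [hcard]
  rfl

end Fermat.Agent.S41
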