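import Fermat.Agent.S41.Amalgam

/-!
# S41, piece R1: the group `Γ₀(N)[1/q]` inside `SL(2, ℚ)`

`gamma0Inv N q` is the subgroup of `SL(2, ℚ)` of matrices with entries in `ℤ[1/q]` whose
lower-left entry lies in `N·ℤ[1/q]`: `g ∈ gamma0Inv N q` iff for some `n` the matrix `qⁿ·g` is
integral with lower-left entry divisible by `N` (`IsLevel N q n g`).
-/

set_option autoImplicit false

namespace Fermat.Agent.S41

open Matrix CongruenceSubgroup Function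

/-- `qⁿ·g` is an integral matrix with lower-left entry in `Nℤ`. -/
def IsLevel (N q n : ℕ) (g : SL2Q) : Prop :=
  ∃ A B C D : ℤ, g.1 0 0 * (q : ℚ) ^ n = A ∧ g.1 0 1 * (q : ℚ) ^ n = B ∧
    g.1 1 0 * (q : ℚ) ^ n = N * C ∧ g.1 1 1 * (q : ℚ) ^ n = D

theorem sl2q_inv00 (g : SL2Q) : (g⁻¹).1 0 0 = g.1 1 1 := by
  rw [Matrix.SpecialLinearGroup.coe_inv, Matrix.adjugate_fin_two]
  simp

theorem sl2q_inv01 (g : SL2Q) : (g⁻¹).1 0 1 = - g.1 0 1 := by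
  rw [Matrix.SpecialLinearGroup.coe_inv, Matrix.adjugate_fin_two]
  simp

theorem sl2q_inv10 (g : SL2Q) : (g⁻¹).1 1 0 = - g.1 1 0 := by
  rw [Matrix.SpecialLinearGroup.coe_inv, Matrix.adjugate_fin_two]
  simp

theorem sl2q_inv11 (g : SL2Q) : (g⁻¹).1 1 1 = g.1 0 0 := by
  rw [Matrix.SpecialLinearGroup.coe_inv, Matrix.adjugate_fin_two]
  simp

theorem IsLevel.mul {N q n m : ℕ} {g h : SL2Q} (hg : IsLevel N q n g) (hh : IsLevel N q m h) :
    IsLevel N q (n + m) (g * h) := by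
  obtain ⟨A, B, C, D, h00, h01, h10, h11⟩ := hg
  obtain ⟨A', B', C', D', k00, k01, k10, k11⟩ := hh
  refine ⟨A * A' + B * (N * C'), A * B' + B * D', C * A' + D * C', N * C * B' + D * D', ?_, ?_,
    ?_, ?_⟩
  · rw [sl2q_mul00, pow_add]
    push_cast
    rw [← h00, ← h01, ← k00, ← k10]
    ring
  · rw [sl2q_mul01, pow_add]
    push_cast
    rw [← h00, ← h01, ← k01, ← k11]
    ring
  · rw [sl2q_mul10, pow_add]
    push_cast
    have e : (N : ℚ) * ((C : ℚ) * A' + D * C') = (N * C) * A' + D * (N * C') := by ring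
    rw [e, ← h10, ← h11, ← k00, ← k10]
    ring
  · rw [sl2q_mul11, pow_add]
    push_cast
    rw [← h10, ← h11, ← k01, ← k11]
    ring

theorem IsLevel.inv {N q n : ℕ} {g : SL2Q} (hg : IsLevel N q n g) : IsLevel N q n g⁻¹ := by
  obtain ⟨A, B, C, D, h00, h01, h10, h11⟩ := hg
  refine ⟨D, -B, -C, A, ?_, ?_, ?_, ?_⟩
  · rw [sl2q_inv00, h11]
  · rw [sl2q_inv01, neg_mul, h01]
    push_cast
    ring
  · rw [sl2q_inv10, neg_mul, h10]
    push_cast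
    ring
  · rw [sl2q_inv11, h00]

theorem isLevel_one (N q : ℕ) : IsLevel N q 0 (1 : SL2Q) :=
  ⟨1, 0, 0, 1, by simp, by simp, by simp, by simp⟩

/-- `Γ₀(N)[1/q]` as a subgroup of `SL(2, ℚ)`. -/
def gamma0Inv (N q : ℕ) : Subgroup SL2Q where
  carrier := {g | ∃ n, IsLevel N q n g}
  one_mem' := ⟨0, isLevel_one N q⟩
  mul_mem' := by
    rintro g h ⟨n, hg⟩ ⟨m, hh⟩
    exact ⟨n + m, hg.mul hh⟩
  inv_mem' := by
    rintro g ⟨n, hg⟩
    exact ⟨n, hg.inv⟩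

theorem mem_gamma0Inv_iff (N q : ℕ) (g : SL2Q) : g ∈ gamma0Inv N q ↔ ∃ n, IsLevel N q n g :=
  Iff.rfl

theorem isLevel_gamma0Q (N q : ℕ) (g : ↥(Gamma0 N)) : IsLevel N q 0 (gamma0Q N g) := by
  obtain ⟨C, hC⟩ := gamma0_dvd N g
  refine ⟨g.1.1 0 0, g.1.1 0 1, C, g.1.1 1 1, ?_, ?_, ?_, ?_⟩
  · simp [gamma0Q_apply]
  · simp [gamma0Q_apply]
  · rw [gamma0Q_apply, hC]
    push_cast
    ring
  · simp [gamma0Q_apply]

theorem isLevel_conjDelta (N q : ℕ) [NeZero q] (g : ↥(Gamma0 N)) :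
    IsLevel N q 1 (conjDelta q (gamma0Q N g)) := by
  have hq : (q : ℚ) ≠ 0 := Nat.cast_ne_zero.mpr (NeZero.ne q)
  obtain ⟨C, hC⟩ := gamma0_dvd N g
  refine ⟨g.1.1 0 0 * q, g.1.1 0 1, q * q * C, g.1.1 1 1 * q, ?_, ?_, ?_, ?_⟩
  · simp [gamma0Q_apply]
  · simp only [conjDelta_01, gamma0Q_apply, pow_one]
    field_simp
  · rw [conjDelta_10, gamma0Q_apply, hC]
    push_cast
    ring
  · simp [gamma0Q_apply]

theorem jAm_range_le_gamma0Inv (N q : ℕ) [NeZero q] (i : Bool) :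
    (jAm N q i).range ≤ gamma0Inv N q := by
  rintro _ ⟨g, rfl⟩
  cases i
  · exact ⟨1, isLevel_conjDelta N q g⟩
  · exact ⟨0, isLevel_gamma0Q N q g⟩

theorem jAm_sup_le_gamma0Inv (N q : ℕ) [NeZero q] :
    (jAm N q true).range ⊔ (jAm N q false).range ≤ gamma0Inv N q :=
  sup_le (jAm_range_le_gamma0Inv N q true) (jAm_range_le_gamma0Inv N q false)

end Fermat.Agent.S41
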