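import Fermat.Agent.S41.Gamma0Inv

/-!
# S41, piece R1: `Γ₀(N)[1/q]` is generated by `Γ₀(N)` and `δ⁻¹ Γ₀(N) δ`

`gamma0Inv_eq`: for a prime `q ∤ N`, the subgroup of `SL(2, ℚ)` generated by `Γ₀(N)` and its
conjugate by `δ = diag(q, 1)` is `Γ₀(N)[1/q]`.  The proof is a descent on the level `n` (the least
`n` such that `qⁿ g` is integral): left multiplication by a suitable element of `Γ₀(N)` makes the
second row of `qⁿ g` divisible by `q`, and then left multiplication by a suitable element of the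
conjugate lowers the level.
-/

set_option autoImplicit false

namespace Fermat.Agent.S41

open Matrix CongruenceSubgroup Function

/-- A singular `2 × 2` matrix mod `q`: either the second row vanishes mod `q`, or the first row is
a multiple of the second. -/
theorem exists_kill {q : ℤ} (hq : Prime q) (A B C D : ℤ) (hdet : q ∣ A * D - B * C) :
    (q ∣ C ∧ q ∣ D) ∨ ∃ t : ℤ, q ∣ A + t * C ∧ q ∣ B + t * D := by
  by_cases hD : q ∣ D
  · by_cases hC : q ∣ C
    · exact Or.inl ⟨hC, hD⟩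
    · right
      have hcop : IsCoprime q C := (Prime.coprime_iff_not_dvd hq).mpr hC
      obtain ⟨a, b, hab⟩ := hcop
      have hBC : q ∣ B * C := by
        have h1 : q ∣ A * D := Dvd.dvd.mul_left hD A
        have := dvd_sub h1 hdet
        have e : A * D - (A * D - B * C) = B * C := by ring
        rwa [e] at this
      have hB : q ∣ B := by
        rcases hq.dvd_or_dvd hBC with h | h
        · exact h
        · exact absurd h hC
      refine ⟨-(A * b), ?_, ?_⟩
      · refine ⟨A * a, ?_⟩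
        linear_combination (-A) * hab
      · exact dvd_add hB (Dvd.dvd.mul_left hD _)
  · right
    have hcop : IsCoprime q D := (Prime.coprime_iff_not_dvd hq).mpr hD
    obtain ⟨a, b, hab⟩ := hcop
    refine ⟨-(B * b), ?_, ?_⟩
    · have h1 : q ∣ D * (A + -(B * b) * C) := by
        obtain ⟨e, he⟩ := hdet
        refine ⟨e + B * C * a, ?_⟩
        linear_combination he - B * C * hab
      rcases hq.dvd_or_dvd h1 with h | h
      · exact absurd h hD
      · exact h
    · refine ⟨B * a, ?_⟩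
      linear_combination (-B) * hab

section Descent

/-- Integral form of the determinant condition for an element of level `n`. -/
theorem isLevel_det (q : ℕ) {n : ℕ} {g : SL2Q} {A B C D : ℤ} (h00 : g.1 0 0 * (q : ℚ) ^ n = A)
    (h01 : g.1 0 1 * (q : ℚ) ^ n = B) (h10 : g.1 1 0 * (q : ℚ) ^ n = C)
    (h11 : g.1 1 1 * (q : ℚ) ^ n = D) : A * D - B * C = (q : ℤ) ^ (2 * n) := by
  have hdet := sl2q_det g
  have : ((A * D - B * C : ℤ) : ℚ) = (((q : ℤ) ^ (2 * n) : ℤ) : ℚ) := by
    push_cast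
    rw [← h00, ← h01, ← h10, ← h11]
    have e : (q : ℚ) ^ (2 * n) = (q : ℚ) ^ n * (q : ℚ) ^ n := by rw [two_mul, pow_add]
    rw [e]
    linear_combination ((q : ℚ) ^ n * (q : ℚ) ^ n) * hdet
  exact_mod_cast this

variable (N q : ℕ) [Fact q.Prime] [NeZero q]

omit [NeZero q] in
theorem prime_int_q : Prime (q : ℤ) := Nat.prime_iff_prime_int.mp (Fact.out : q.Prime)

omit [NeZero q] in
theorem not_dvd_N (hqN : Nat.Coprime q N) : ¬ (q : ℤ) ∣ (N : ℤ) := by
  intro h
  have h1 : q ∣ N := by exact_mod_cast h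
  have h2 : q ∣ Nat.gcd q N := Nat.dvd_gcd dvd_rfl h1
  rw [hqN] at h2
  exact (Fact.out : q.Prime).one_lt.ne' (Nat.dvd_one.mp h2)

omit [NeZero q] [Fact q.Prime] in
theorem exists_bezout_qN (hqN : Nat.Coprime q N) : ∃ m k : ℤ, (q : ℤ) * m - N * k = 1 := by
  have hcop : IsCoprime (q : ℤ) (N : ℤ) := by
    rw [Int.isCoprime_iff_gcd_eq_one]
    simpa [Int.gcd] using hqN
  obtain ⟨a, b, hab⟩ := hcop
  exact ⟨a, -b, by linear_combination hab⟩

/-- Step 1 of the descent: after left multiplication by an element of `Γ₀(N)`, the second row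
of `qⁿ⁺¹ g` is divisible by `q`. -/
theorem descent_step1 (hqN : Nat.Coprime q N) {n : ℕ} {g : SL2Q} (hg : IsLevel N q (n + 1) g) :
    ∃ γ : ↥(Gamma0 N), ∃ A B C D : ℤ,
      (gamma0Q N γ * g).1 0 0 * (q : ℚ) ^ (n + 1) = A ∧
      (gamma0Q N γ * g).1 0 1 * (q : ℚ) ^ (n + 1) = B ∧
      (gamma0Q N γ * g).1 1 0 * (q : ℚ) ^ (n + 1) = N * (q * C) ∧
      (gamma0Q N γ * g).1 1 1 * (q : ℚ) ^ (n + 1) = q * D := by
  have hqp := prime_int_q q
  have hq0 : (q : ℚ) ≠ 0 := Nat.cast_ne_zero.mpr (NeZero.ne q)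
  have hqn : (q : ℚ) ^ (n + 1) ≠ 0 := pow_ne_zero _ hq0
  obtain ⟨A, B, C, D, h00, h01, h10, h11⟩ := hg
  have hdet : A * D - B * (N * C) = (q : ℤ) ^ (2 * (n + 1)) :=
    isLevel_det q h00 h01 (by rw [h10]; push_cast; ring) h11
  have hdvd : (q : ℤ) ∣ A * D - B * (N * C) := by
    rw [hdet]
    exact dvd_pow_self _ (by omega)
  obtain ⟨m, k, hmk⟩ := exists_bezout_qN N q hqN
  have e00 : g.1 0 0 = A / (q : ℚ) ^ (n + 1) := by rw [eq_div_iff hqn]; exact h00
  have e01 : g.1 0 1 = B / (q : ℚ) ^ (n + 1) := by rw [eq_div_iff hqn]; exact h01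
  have e10 : g.1 1 0 = N * C / (q : ℚ) ^ (n + 1) := by rw [eq_div_iff hqn]; exact h10
  have e11 : g.1 1 1 = D / (q : ℚ) ^ (n + 1) := by rw [eq_div_iff hqn]; exact h11
  rcases exists_kill hqp A B (N * C) D hdvd with ⟨hC, hD⟩ | ⟨t, ht1, ht2⟩
  · have hC' : (q : ℤ) ∣ C := by
      rcases hqp.dvd_or_dvd hC with h | h
      · exact absurd h (not_dvd_N N q hqN)
      · exact h
    obtain ⟨C₁, rfl⟩ := hC'
    obtain ⟨D₁, rfl⟩ := hD
    refine ⟨1, A, B, C₁, D₁, ?_, ?_, ?_, ?_⟩
    · rw [map_one, one_mul]; exact h00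
    · rw [map_one, one_mul]; exact h01
    · rw [map_one, one_mul, h10]; push_cast; ring
    · rw [map_one, one_mul, h11]; push_cast; ring
  · obtain ⟨X, hX⟩ := ht1
    obtain ⟨Y, hY⟩ := ht2
    have hA : A = q * X - t * (N * C) := by linear_combination hX
    have hB : B = q * Y - t * D := by linear_combination hY
    subst hA hB
    refine ⟨gamma0Mk N 1 (t + k) N (N * t + q * m) (by linear_combination hmk) dvd_rfl,
      q * X + k * (N * C), q * Y + k * D, X + m * C, N * Y + m * D, ?_, ?_, ?_, ?_⟩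
    · rw [sl2q_mul00, e00, e10]
      simp only [gamma0Q_apply, gamma0Mk_00, gamma0Mk_01]
      push_cast
      field_simp
      ring
    · rw [sl2q_mul01, e01, e11]
      simp only [gamma0Q_apply, gamma0Mk_00, gamma0Mk_01]
      push_cast
      field_simp
      ring
    · rw [sl2q_mul10, e00, e10]
      simp only [gamma0Q_apply, gamma0Mk_10, gamma0Mk_11]
      push_cast
      field_simp
      ring
    · rw [sl2q_mul11, e01, e11]
      simp only [gamma0Q_apply, gamma0Mk_10, gamma0Mk_11]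
      push_cast
      field_simp
      ring

/-- Step 2 of the descent: if the second row of `qⁿ⁺¹ g` is divisible by `q`, left multiplication
by a suitable element of `δ⁻¹ Γ₀(N) δ` lowers the level. -/
theorem descent_step2 (hqN : Nat.Coprime q N) {n : ℕ} {g : SL2Q} {A B C D : ℤ}
    (h00 : g.1 0 0 * (q : ℚ) ^ (n + 1) = A) (h01 : g.1 0 1 * (q : ℚ) ^ (n + 1) = B)
    (h10 : g.1 1 0 * (q : ℚ) ^ (n + 1) = N * (q * C))
    (h11 : g.1 1 1 * (q : ℚ) ^ (n + 1) = q * D) :
    ∃ γ : ↥(Gamma0 N), IsLevel N q n (conjDelta q (gamma0Q N γ) * g) := by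
  have hqp := prime_int_q q
  have hq0 : (q : ℚ) ≠ 0 := Nat.cast_ne_zero.mpr (NeZero.ne q)
  have hq0' : (q : ℤ) ≠ 0 := Nat.cast_ne_zero.mpr (NeZero.ne q)
  have hqn : (q : ℚ) ^ (n + 1) ≠ 0 := pow_ne_zero _ hq0
  have hqn' : (q : ℚ) ^ n ≠ 0 := pow_ne_zero _ hq0
  have hdet : A * (q * D) - B * (N * (q * C)) = (q : ℤ) ^ (2 * (n + 1)) :=
    isLevel_det q h00 h01 (by rw [h10]; push_cast; ring) (by rw [h11]; push_cast; ring)
  have hdvd : (q : ℤ) ∣ A * D - B * (N * C) := by
    have h1 : (q : ℤ) * (A * D - B * (N * C)) = q * (q : ℤ) ^ (2 * n + 1) := by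
      have e : (q : ℤ) ^ (2 * (n + 1)) = q * (q : ℤ) ^ (2 * n + 1) := by
        rw [show 2 * (n + 1) = (2 * n + 1) + 1 by ring, pow_succ]
        ring
      rw [← e, ← hdet]
      ring
    have h2 := mul_left_cancel₀ hq0' h1
    rw [h2]
    exact dvd_pow_self _ (by omega)
  obtain ⟨m, k, hmk⟩ := exists_bezout_qN N q hqN
  have e00 : g.1 0 0 = A / (q : ℚ) ^ (n + 1) := by rw [eq_div_iff hqn]; exact h00
  have e01 : g.1 0 1 = B / (q : ℚ) ^ (n + 1) := by rw [eq_div_iff hqn]; exact h01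
  have e10 : g.1 1 0 = N * (q * C) / (q : ℚ) ^ (n + 1) := by rw [eq_div_iff hqn]; exact h10
  have e11 : g.1 1 1 = q * D / (q : ℚ) ^ (n + 1) := by rw [eq_div_iff hqn]; exact h11
  rcases exists_kill hqp A B (N * C) D hdvd with ⟨hC, hD⟩ | ⟨t, ht1, ht2⟩
  · have hC' : (q : ℤ) ∣ C := by
      rcases hqp.dvd_or_dvd hC with h | h
      · exact absurd h (not_dvd_N N q hqN)
      · exact h
    obtain ⟨C₁, rfl⟩ := hC'
    obtain ⟨D₁, rfl⟩ := hD
    refine ⟨gamma0Mk N (q * m) 1 (N * k) 1 (by linear_combination hmk) (dvd_mul_right _ _),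
      m * A + N * C₁, m * B + D₁, k * A + q * C₁, N * k * B + q * D₁, ?_, ?_, ?_, ?_⟩
    · rw [sl2q_mul00, e00, e10]
      simp only [conjDelta_00, conjDelta_01, gamma0Q_apply, gamma0Mk_00, gamma0Mk_01]
      push_cast
      field_simp
      ring
    · rw [sl2q_mul01, e01, e11]
      simp only [conjDelta_00, conjDelta_01, gamma0Q_apply, gamma0Mk_00, gamma0Mk_01]
      push_cast
      field_simp
      ring
    · rw [sl2q_mul10, e00, e10]
      simp only [conjDelta_10, conjDelta_11, gamma0Q_apply, gamma0Mk_10, gamma0Mk_11]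
      push_cast
      field_simp
      ring
    · rw [sl2q_mul11, e01, e11]
      simp only [conjDelta_10, conjDelta_11, gamma0Q_apply, gamma0Mk_10, gamma0Mk_11]
      push_cast
      field_simp
      ring
  · obtain ⟨X, hX⟩ := ht1
    obtain ⟨Y, hY⟩ := ht2
    have hA : A = q * X - t * (N * C) := by linear_combination hX
    have hB : B = q * Y - t * D := by linear_combination hY
    subst hA hB
    refine ⟨gamma0Mk N 1 t 0 1 (by ring) (dvd_zero _), X, Y, C, D, ?_, ?_, ?_, ?_⟩
    · rw [sl2q_mul00, e00, e10]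
      simp only [conjDelta_00, conjDelta_01, gamma0Q_apply, gamma0Mk_00, gamma0Mk_01]
      push_cast
      field_simp
      ring
    · rw [sl2q_mul01, e01, e11]
      simp only [conjDelta_00, conjDelta_01, gamma0Q_apply, gamma0Mk_00, gamma0Mk_01]
      push_cast
      field_simp
      ring
    · rw [sl2q_mul10, e00, e10]
      simp only [conjDelta_10, conjDelta_11, gamma0Q_apply, gamma0Mk_10, gamma0Mk_11]
      push_cast
      field_simp
      ring
    · rw [sl2q_mul11, e01, e11]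
      simp only [conjDelta_10, conjDelta_11, gamma0Q_apply, gamma0Mk_10, gamma0Mk_11]
      push_cast
      field_simp
      ring

omit [Fact q.Prime] in
/-- Elements of level `0` lie in `Γ₀(N)`. -/
theorem isLevel_zero_mem {g : SL2Q} (hg : IsLevel N q 0 g) :
    g ∈ (jAm N q true).range := by
  obtain ⟨A, B, C, D, h00, h01, h10, h11⟩ := hg
  have hdet : A * D - B * (N * C) = (q : ℤ) ^ (2 * 0) :=
    isLevel_det q h00 h01 (by rw [h10]; push_cast; ring) h11
  simp only [pow_zero, mul_one, mul_zero] at h00 h01 h10 h11 hdet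
  refine ⟨gamma0Mk N A B (N * C) D hdet (dvd_mul_right _ _), ?_⟩
  apply sl2q_ext
  · simp only [jAm, gamma0Q_apply, gamma0Mk_00]; exact h00.symm
  · simp only [jAm, gamma0Q_apply, gamma0Mk_01]; exact h01.symm
  · simp only [jAm, gamma0Q_apply, gamma0Mk_10]; rw [h10]; push_cast; ring
  · simp only [jAm, gamma0Q_apply, gamma0Mk_11]; exact h11.symm

/-- The descent: every element of some level lies in the subgroup generated by the two copies. -/
theorem isLevel_mem_sup (hqN : Nat.Coprime q N) :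
    ∀ (n : ℕ) (g : SL2Q), IsLevel N q n g → g ∈ (jAm N q true).range ⊔ (jAm N q false).range := by
  intro n
  induction n with
  | zero =>
    intro g hg
    exact (le_sup_left : (jAm N q true).range ≤ _) (isLevel_zero_mem N q hg)
  | succ n ih =>
    intro g hg
    obtain ⟨γ₁, A, B, C, D, h00, h01, h10, h11⟩ := descent_step1 N q hqN hg
    obtain ⟨γ₂, h2⟩ := descent_step2 N q hqN h00 h01 h10 h11
    have h3 := ih _ h2
    have m1 : gamma0Q N γ₁ ∈ (jAm N q true).range ⊔ (jAm N q false).range :=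
      (le_sup_left : (jAm N q true).range ≤ _) ⟨γ₁, rfl⟩
    have m2 : conjDelta q (gamma0Q N γ₂) ∈ (jAm N q true).range ⊔ (jAm N q false).range :=
      (le_sup_right : (jAm N q false).range ≤ _) ⟨γ₂, rfl⟩
    have e : g = (gamma0Q N γ₁)⁻¹ * ((conjDelta q (gamma0Q N γ₂))⁻¹ *
        (conjDelta q (gamma0Q N γ₂) * (gamma0Q N γ₁ * g))) := by
      group
    rw [e]
    exact mul_mem (inv_mem m1) (mul_mem (inv_mem m2) h3)

/-- **Generation.** For a prime `q ∤ N`, the subgroup of `SL(2, ℚ)` generated by `Γ₀(N)` and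
`δ⁻¹ Γ₀(N) δ` is `Γ₀(N)[1/q]`. -/
theorem gamma0Inv_eq (hqN : Nat.Coprime q N) :
    (jAm N q true).range ⊔ (jAm N q false).range = gamma0Inv N q := by
  apply le_antisymm (jAm_sup_le_gamma0Inv N q)
  rintro g ⟨n, hg⟩
  exact isLevel_mem_sup N q hqN n g hg

/-- **Gluing on `Γ₀(N)[1/q]`**, explicit form: two homomorphisms on `Γ₀(N)` which agree on
`Γ₀(N) ∩ δ⁻¹ Γ₀(N) δ` glue to a (unique) homomorphism on `Γ₀(N)[1/q]`. -/
theorem exists_glue_gamma0Inv (hqN : Nat.Coprime q N) {H : Type*} [Group H]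
    (f : Bool → (↥(Gamma0 N) →* H))
    (hagree : ∀ g g' : ↥(Gamma0 N), jAm N q true g = jAm N q false g' → f true g = f false g') :
    ∃ F : ↥(gamma0Inv N q) →* H,
      ∀ (i : Bool) (g : ↥(Gamma0 N)) (hg : jAm N q i g ∈ gamma0Inv N q),
        F ⟨jAm N q i g, hg⟩ = f i g := by
  obtain ⟨F, hF⟩ := exists_glue_gamma0 N q hqN f hagree
  have he := gamma0Inv_eq N q hqN
  refine ⟨F.comp (Subgroup.inclusion he.ge), ?_⟩
  intro i g hg
  exact hF i g (he.ge hg)

end Descent

end Fermat.Agent.S41
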