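import Fermat.Agent.S41.Generation
import Fermat.Agent.S41.Defs

/-!
# S41, piece R1: bridge to the degeneracy maps of `Defs.lean`

A pair `(φ₁, φ₂)` of homomorphisms `Γ₀(N) → A` in the kernel of `α = res + res^δ` glues to a
homomorphism `F : Γ₀(N)[1/q] → A` with `F|Γ₀(N) = φ₁` and `F(δ⁻¹ g δ) = - φ₂(g)`
(`exists_glue_of_res_add_resD`).
-/

set_option autoImplicit false

namespace Fermat.Agent.S41

open Matrix CongruenceSubgroup Function

/-- The element of `Γ₀(N q)` attached to a coincidence `g = δ⁻¹ g' δ` of the two copies. -/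
theorem exists_gamma0Nq_of_jAm_eq (N q : ℕ) [NeZero q] (g g' : ↥(Gamma0 N))
    (h : jAm N q true g = jAm N q false g') :
    ∃ γ : ↥(Gamma0 (N * q)), incl N q γ = g ∧ conjD N q γ = g' := by
  have hq' : (q : ℤ) ≠ 0 := by exact_mod_cast NeZero.ne q
  obtain ⟨h00, h01, h10, h11⟩ := (jAm_eq_iff N q g g').mp h
  have hmem : g.1 ∈ Gamma0 (N * q) := by
    apply mem_Gamma0_of_dvd
    obtain ⟨c, hc⟩ := gamma0_dvd N g'
    refine ⟨c, ?_⟩
    rw [h10, hc]
    push_cast
    ring
  refine ⟨⟨g.1, hmem⟩, Subtype.ext rfl, ?_⟩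
  apply Subtype.ext
  apply Subtype.ext
  change conjDMat q g.1.1 = g'.1.1
  ext i j
  fin_cases i <;> fin_cases j
  · exact h00
  · exact h01
  · change g.1.1 1 0 / (q : ℤ) = g'.1.1 1 0
    rw [h10, Int.mul_ediv_cancel_left _ hq']
  · exact h11

/-- **R1, in the language of `Defs.lean`.** A pair `(φ₁, φ₂)` in the kernel of
`α = res + res^δ : Hom(Γ₀(N), A)² → Hom(Γ₀(N q), A)` glues to a homomorphism on `Γ₀(N)[1/q]`
(`q` prime, `q ∤ N`) restricting to `φ₁` on `Γ₀(N)` and to `-φ₂` on `δ⁻¹ Γ₀(N) δ`. -/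
theorem exists_glue_of_res_add_resD (N q : ℕ) [Fact q.Prime] [NeZero q] (hqN : ¬ q ∣ N)
    {A : Type*} [AddCommGroup A] (φ₁ φ₂ : HomG N A)
    (h : res N q A φ₁ + resD N q A φ₂ = 0) :
    ∃ F : Additive ↥(gamma0Inv N q) →+ A,
      (∀ (g : ↥(Gamma0 N)) (hg : gamma0Q N g ∈ gamma0Inv N q),
        F (Additive.ofMul ⟨gamma0Q N g, hg⟩) = φ₁ (Additive.ofMul g)) ∧
      (∀ (g : ↥(Gamma0 N)) (hg : conjDelta q (gamma0Q N g) ∈ gamma0Inv N q),
        F (Additive.ofMul ⟨conjDelta q (gamma0Q N g), hg⟩) = - φ₂ (Additive.ofMul g)) := by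
  have hcop : Nat.Coprime q N := (Nat.Prime.coprime_iff_not_dvd (Fact.out : q.Prime)).mpr hqN
  let f : Bool → (↥(Gamma0 N) →* Multiplicative A) := fun i =>
    match i with
    | true => AddMonoidHom.toMultiplicativeRight φ₁
    | false => AddMonoidHom.toMultiplicativeRight (-φ₂)
  have hagree : ∀ g g' : ↥(Gamma0 N), jAm N q true g = jAm N q false g' →
      f true g = f false g' := by
    intro g g' hgg'
    obtain ⟨γ, rfl, rfl⟩ := exists_gamma0Nq_of_jAm_eq N q g g' hgg'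
    have h1 := DFunLike.congr_fun h (Additive.ofMul γ)
    simp only [AddMonoidHom.add_apply, res_apply, resD_apply, AddMonoidHom.zero_apply] at h1
    change Multiplicative.ofAdd (φ₁ (Additive.ofMul (incl N q γ))) =
      Multiplicative.ofAdd ((-φ₂) (Additive.ofMul (conjD N q γ)))
    congr 1
    rw [AddMonoidHom.neg_apply]
    exact eq_neg_of_add_eq_zero_left h1
  obtain ⟨F, hF⟩ := exists_glue_gamma0Inv N q hcop f hagree
  refine ⟨MonoidHom.toAdditiveLeft F, ?_, ?_⟩
  · intro g hg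
    exact congrArg Multiplicative.toAdd (hF true g hg)
  · intro g hg
    have := congrArg Multiplicative.toAdd (hF false g hg)
    rw [← AddMonoidHom.neg_apply]
    exact this

end Fermat.Agent.S41
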