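import Fermat.Agent.S41.GlueKer
import Fermat.Agent.S41.EisHecke
import Fermat.Agent.S41.Plan

/-!
# S41: Ihara's lemma from Theorem M

`StmtM N q A` is Theorem M (Mennicke / Serre's congruence subgroup property for `SL₂(ℤ[1/q])`) in
the integral form needed here: a homomorphism `F : Γ₀(N)[1/q] → A` killing `T = [[1,1],[0,1]]` and
`L_N = [[1,0],[N,1]]` kills every `γ ∈ Γ₀(N)` with `d ≡ 1 mod N`.

`stmtIhara_of_M : StmtM N q (ZMod p) → StmtIhara N q p` (for `q` prime, `q ∤ N`):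
a parabolic pair `(φ₁, φ₂)` in the kernel of `α = res + res^δ` glues to `F` on `Γ₀(N)[1/q]`
(`GlueKer.lean`); Theorem M applied to `F` and to `F ∘ (conjugation by δ)` shows that `φ₁, φ₂`
factor through `d mod N`; such homomorphisms are Eisenstein (`EisHecke.lean`).
-/

set_option autoImplicit false

noncomputable section

namespace Fermat.Agent.S41

open Matrix CongruenceSubgroup ModularCurve.Period
open scoped MatrixGroups

/-- The inclusion `Γ₀(N) → Γ₀(N)[1/q]`. -/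
def iotaInv (N q : ℕ) : ↥(Gamma0 N) →* ↥(gamma0Inv N q) :=
  (gamma0Q N).codRestrict (gamma0Inv N q) (fun g => ⟨0, isLevel_gamma0Q N q g⟩)

@[simp] theorem iotaInv_coe (N q : ℕ) (g : ↥(Gamma0 N)) :
    ((iotaInv N q g : ↥(gamma0Inv N q)) : SL2Q) = gamma0Q N g := rfl

theorem IsLevel.conjDelta {N q n : ℕ} [NeZero q] {g : SL2Q} (hg : IsLevel N q n g) :
    IsLevel N q (n + 1) (conjDelta q g) := by
  have hq : (q : ℚ) ≠ 0 := Nat.cast_ne_zero.mpr (NeZero.ne q)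
  obtain ⟨A, B, C, D, h00, h01, h10, h11⟩ := hg
  refine ⟨A * q, B, C * q * q, D * q, ?_, ?_, ?_, ?_⟩
  · rw [conjDelta_00, pow_succ, ← mul_assoc, h00]
    push_cast
    ring
  · rw [conjDelta_01, pow_succ, ← h01]
    field_simp
  · rw [conjDelta_10, pow_succ]
    push_cast
    have e : (q : ℚ) * g.1 1 0 * ((q : ℚ) ^ n * q) = (g.1 1 0 * (q : ℚ) ^ n) * q * q := by ring
    rw [e, h10]
    ring
  · rw [conjDelta_11, pow_succ, ← mul_assoc, h11]
    push_cast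
    ring

/-- Conjugation by `δ = diag(q, 1)` on `Γ₀(N)[1/q]`. -/
def conjInv (N q : ℕ) [NeZero q] : ↥(gamma0Inv N q) →* ↥(gamma0Inv N q) :=
  ((conjDelta q).comp (gamma0Inv N q).subtype).codRestrict (gamma0Inv N q) (fun g => by
    obtain ⟨n, hn⟩ := g.2
    exact ⟨n + 1, hn.conjDelta⟩)

@[simp] theorem conjInv_coe (N q : ℕ) [NeZero q] (g : ↥(gamma0Inv N q)) :
    ((conjInv N q g : ↥(gamma0Inv N q)) : SL2Q) = conjDelta q (g : SL2Q) := rfl

/-- `T = [[1, 1], [0, 1]] ∈ Γ₀(N)`. -/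
def Tel (N : ℕ) : ↥(Gamma0 N) := gamma0Mk N 1 1 0 1 (by ring) (dvd_zero _)

/-- `L_N = [[1, 0], [N, 1]] ∈ Γ₀(N)`. -/
def Lel (N : ℕ) : ↥(Gamma0 N) := gamma0Mk N 1 0 N 1 (by ring) dvd_rfl

/-- **Theorem M** (Mennicke; Serre's congruence subgroup property for `SL₂(ℤ[1/q])`), integral
form: a homomorphism from `Γ₀(N)[1/q]` to an abelian group which kills `T` and `L_N` kills every
element of `Γ₀(N)` with `d ≡ 1 mod N`. -/
def StmtM (N q : ℕ) (A : Type*) [AddCommGroup A] : Prop :=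
  ∀ F : Additive ↥(gamma0Inv N q) →+ A,
    F (Additive.ofMul (iotaInv N q (Tel N))) = 0 →
    F (Additive.ofMul (iotaInv N q (Lel N))) = 0 →
    ∀ γ : ↥(Gamma0 N), Gamma0Map N γ = 1 → F (Additive.ofMul (iotaInv N q γ)) = 0

theorem trace_Tel (N : ℕ) :
    (((Tel N : ↥(Gamma0 N)) : SL(2, ℤ)) : Matrix (Fin 2) (Fin 2) ℤ).trace ^ 2 = 4 := by
  rw [Matrix.trace_fin_two]
  change ((1 : ℤ) + 1) ^ 2 = 4
  norm_num

theorem trace_Lel (N : ℕ) :
    (((Lel N : ↥(Gamma0 N)) : SL(2, ℤ)) : Matrix (Fin 2) (Fin 2) ℤ).trace ^ 2 = 4 := by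
  rw [Matrix.trace_fin_two]
  change ((1 : ℤ) + 1) ^ 2 = 4
  norm_num

/-- A parabolic pair in the kernel of `α` factors through `d mod N` (given Theorem M). -/
theorem factors_of_M (N q : ℕ) [NeZero q] [Fact q.Prime] (hqN : ¬ q ∣ N)
    {A : Type*} [AddCommGroup A] (hM : StmtM N q A) (φ₁ φ₂ : HomG N A)
    (h1 : IsParabolicHom (Gamma0 N) φ₁) (h2 : IsParabolicHom (Gamma0 N) φ₂)
    (hker : res N q A φ₁ + resD N q A φ₂ = 0) :
    (∀ γ : ↥(Gamma0 N), Gamma0Map N γ = 1 → φ₁ (Additive.ofMul γ) = 0) ∧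
    (∀ γ : ↥(Gamma0 N), Gamma0Map N γ = 1 → φ₂ (Additive.ofMul γ) = 0) := by
  obtain ⟨F, hF1, hF2⟩ := exists_glue_of_res_add_resD N q hqN φ₁ φ₂ hker
  have hF1' : ∀ g : ↥(Gamma0 N), F (Additive.ofMul (iotaInv N q g)) = φ₁ (Additive.ofMul g) :=
    fun g => hF1 g _
  constructor
  · intro γ hγ
    rw [← hF1']
    refine hM F ?_ ?_ γ hγ
    · rw [hF1']; exact h1 _ (trace_Tel N)
    · rw [hF1']; exact h1 _ (trace_Lel N)
  · intro γ hγ
    let F' : Additive ↥(gamma0Inv N q) →+ A := F.comp (MonoidHom.toAdditive (conjInv N q))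
    have hF' : ∀ g : ↥(Gamma0 N),
        F' (Additive.ofMul (iotaInv N q g)) = - φ₂ (Additive.ofMul g) := by
      intro g
      exact hF2 g _
    have := hM F' (by rw [hF', h2 _ (trace_Tel N), neg_zero])
      (by rw [hF', h2 _ (trace_Lel N), neg_zero]) γ hγ
    rw [hF'] at this
    exact neg_eq_zero.mp this

/-- **Ihara's lemma from Theorem M**: for `q` prime, `q ∤ N`, the parabolic kernel of
`α = res + res^δ` with coefficients in `ZMod p` is Eisenstein. -/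
theorem stmtIhara_of_M (N q p : ℕ) [NeZero N] [NeZero q] [Fact q.Prime] (hqN : ¬ q ∣ N)
    (hM : StmtM N q (ZMod p)) : StmtIhara N q p := by
  intro φ₁ φ₂ h1 h2 hker ℓ _ hN _
  obtain ⟨hφ₁, hφ₂⟩ := factors_of_M N q hqN hM φ₁ φ₂ h1 h2 hker
  exact ⟨heckeHom_eq_of_factors hN φ₁ hφ₁, heckeHom_eq_of_factors hN φ₂ hφ₂⟩

end Fermat.Agent.S41
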