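import Mathlib
import Fermat.Prelude.Def_CuspForm_HeckeAlgebra
import Fermat.Prelude.Def_FreyPackage_LevelRaising
import Fermat.Agent.S41.Plan
import Fermat.Agent.S41.HeckeU

/-!
# S41 (level raising) — interface, part 2: the bridge from cohomology to cusp forms
(captain helper7, NOTES/S41-plan.md)

`good ℓ` is the predicate "ℓ is a prime at which the congruence is known"; in the final theorem
`good ℓ := ℓ.Prime ∧ W.IsGoodPrimeFor ℓ ∧ ℓ ≠ p ∧ ¬ ℓ ∣ N * q` and `a ℓ := W.apOfModel ℓ`.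

* `Tan M good` : the anemic Hecke algebra `ℤ[T_ℓ : ℓ good] ⊆ End_ℂ S₂(Γ₀(M))`
  (`= CuspForm.heckeAlgebra M 2 {ℓ | ¬ good ℓ}`, a commutative ring);
* `nIdeal M p a good` : the ideal `(p, T_ℓ − a_ℓ : ℓ good)` of `Tan M good`;
* `StmtSupp` : `1 ∉ nIdeal + Ann(V)`, `V = ker(U_q² − 1) ⊆ S₂(Γ₀(N q))`;
* `StmtTransport` : `StmtCOH → StmtSupp` (period map, S21, C0, C1, C4, C5, C8);
* `StmtEngine` : `StmtSupp →` the conclusion of S41 (S22, S49 engine, lying over).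
-/

set_option autoImplicit false

noncomputable section

namespace Fermat.Agent.S41

open CongruenceSubgroup Matrix ModularCurve.Period
open scoped MatrixGroups

/-- **(C4)** on `ker(α†)` the operator `U_q` is an involution. -/
def StmtC4 (N q : ℕ) [NeZero N] [NeZero q] : Prop :=
  ∀ [Fact q.Prime] (_ : ¬ q ∣ N) (A : Type) [AddCommGroup A] (ψ : HomG (N * q) A),
    cores N q A ψ = 0 → coresD N q A ψ = 0 →
      heckeU (dvd_mul_left q N) (heckeU (dvd_mul_left q N) ψ) = ψ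

/-- the primes excluded from the anemic Hecke algebra -/
def badSet (good : ℕ → Prop) : Set ℕ := {ℓ | ¬ good ℓ}

theorem not_mem_badSet {good : ℕ → Prop} {ℓ : ℕ} (h : good ℓ) : ℓ ∉ badSet good :=
  fun h' => h' h

/-- the anemic Hecke algebra `ℤ[T_ℓ : ℓ good]` acting on `S₂(Γ₀(M))` -/
abbrev Tan (M : ℕ) [NeZero M] (good : ℕ → Prop) :
    Subalgebra ℤ (Module.End ℂ (CuspForm (Gamma0 M) 2)) :=
  CuspForm.heckeAlgebra M 2 (badSet good)

/-- the generators of the ideal `𝔫 = (p, T_ℓ − a_ℓ : ℓ good)` of the anemic Hecke algebra -/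
def nGens (M p : ℕ) [NeZero M] (a : ℕ → ℤ) (good : ℕ → Prop) : Set (Tan M good) :=
  {t | t = (p : Tan M good)} ∪
    {t | ∃ (ℓ : ℕ) (hℓ : ℓ.Prime) (hℓM : ¬ ℓ ∣ M) (hg : good ℓ),
      t = CuspForm.heckeAlgebra.T hℓ hℓM (not_mem_badSet hg) - (a ℓ : Tan M good)}

/-- the ideal `𝔫 = (p, T_ℓ − a_ℓ : ℓ good)` of the anemic Hecke algebra -/
def nIdeal (M p : ℕ) [NeZero M] (a : ℕ → ℤ) (good : ℕ → Prop) : Ideal (Tan M good) :=
  Ideal.span (nGens M p a good)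

/-- the `q`-new space `V = ker(U_q² − 1) ⊆ S₂(Γ₀(N q))` -/
def newSpace (N q : ℕ) [NeZero N] [NeZero q] : Submodule ℂ (CuspForm (Gamma0 (N * q)) 2) :=
  LinearMap.ker (CuspForm.heckeULin 2 (dvd_mul_left q N) ∘ₗ CuspForm.heckeULin 2 (dvd_mul_left q N)
    - LinearMap.id)

theorem mem_newSpace {N q : ℕ} [NeZero N] [NeZero q] (f : CuspForm (Gamma0 (N * q)) 2) :
    f ∈ newSpace N q ↔
      CuspForm.heckeULin 2 (dvd_mul_left q N) (CuspForm.heckeULin 2 (dvd_mul_left q N) f) = f := by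
  rw [newSpace, LinearMap.mem_ker, LinearMap.sub_apply, sub_eq_zero]
  rfl

/-- **(SUPP)** `𝔫` is in the support of the `q`-new space: no `t ∈ 𝔫` acts as the identity on
`V = ker(U_q² − 1)`. -/
def StmtSupp (N q p : ℕ) [NeZero N] [NeZero q] (a : ℕ → ℤ) (good : ℕ → Prop) : Prop :=
  ∀ t ∈ nIdeal (N * q) p a good, ∃ f ∈ newSpace N q,
    (t : Module.End ℂ (CuspForm (Gamma0 (N * q)) 2)) f ≠ f

/-- **(TRANSPORT)** from cohomology to cusp forms: `K ≠ 𝔫 K ⟹ 𝔫 ∈ Supp V`. -/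
def StmtTransport (N q p : ℕ) [NeZero N] [NeZero q] (a : ℕ → ℤ) (good : ℕ → Prop) : Prop :=
  q.Prime → ¬ q ∣ N → (∀ ℓ, good ℓ → ℓ.Prime ∧ ¬ ℓ ∣ N * q) →
    StmtCOH N q p a good → StmtSupp N q p a good

/-- **(ENGINE)** an eigenform in `V` congruent to `a` modulo a prime over `p`. -/
def StmtEngine (N q p : ℕ) [NeZero N] [NeZero q] (a : ℕ → ℤ) (good : ℕ → Prop) : Prop :=
  p.Prime → q.Prime → (∀ ℓ, good ℓ → ℓ.Prime ∧ ¬ ℓ ∣ N * q) →
    StmtSupp N q p a good →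
    ∃ (g : CuspForm (Gamma0 (N * q)) 2) (𝔪' : Ideal (integralClosure ℤ ℂ)),
      g.IsNormalizedEigenform ∧ 𝔪'.IsMaximal ∧ (p : integralClosure ℤ ℂ) ∈ 𝔪' ∧
      (∀ ℓ : ℕ, good ℓ → ∃ a' : integralClosure ℤ ℂ,
        (a' : ℂ) = ModularFormClass.qCoeff g ℓ ∧
          a' - ((a ℓ : ℤ) : integralClosure ℤ ℂ) ∈ 𝔪') ∧
      g.IsNewAt q

end Fermat.Agent.S41
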